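/-
PROJECT C, layer D2 (abstract part, helper24): THE LINEAR ALGEBRA OF POITOU–TATE.

`PROJECT_C_ROUTE.md`, section 4, steps (S4) and (PT), in abstract form over a field `F`
(`F = ZMod p`).  Dictionary:

* `Bm = E¹(𝓡, C)`, `Hm = H¹(G, M)`, `β : Bm × Hm → F` the global pairing (read off against `γ_p`),
  which is left non-degenerate (CF-1i) and right surjective (CF-1s);
* `Am = E¹(𝓡, J) = ⊕_v E¹_{D_v}`, `Lm = ⊕_v H¹(D_v, M)`, `lam : Am × Lm → F` the sum of the local
  pairings, right surjective (CF-1s for the `D_v`); `loc : Hm → Lm` the localisation map;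
  `a : Am → Bm`; compatibility `β (a x) h = lam x (loc h)`  (`inv = Σ_v inv_v`);
* `Cm = E²(𝓡, E) = H²(G, M')`, `b : Bm → Cm` with `ker b = range a` (exactness at `E¹(𝓡, C)`);
  `Ш² = ker (E²(𝓡,E) → E²(𝓡,J)) = range b` (exactness at `E²(𝓡, E)`), `Ш¹ = ker loc`.

Conclusion: a pairing `Ш¹ × Ш² → F` which is non-degenerate on both sides.
-/
import Mathlib

set_option autoImplicit false

namespace Fermat.Agent.CFT.A7.AbstractPT

variable {F : Type*} [Field F]
variable {Am Bm Cm Hm Lm : Type*}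
  [AddCommGroup Am] [Module F Am] [AddCommGroup Bm] [Module F Bm] [AddCommGroup Cm] [Module F Cm]
  [AddCommGroup Hm] [Module F Hm] [AddCommGroup Lm] [Module F Lm]

/-- A functional on `Hm` killing `ker loc` factors through `loc`. -/
lemma exists_comp_eq_of_ker_le (loc : Hm →ₗ[F] Lm) (f : Hm →ₗ[F] F)
    (hf : LinearMap.ker loc ≤ LinearMap.ker f) : ∃ ψ : Lm →ₗ[F] F, ψ ∘ₗ loc = f := by
  obtain ⟨s, hs⟩ := loc.rangeRestrict.exists_rightInverse_of_surjective
    (LinearMap.range_eq_top.2 loc.surjective_rangeRestrict)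
  obtain ⟨ψ, hψ⟩ := LinearMap.exists_extend (f ∘ₗ s)
  refine ⟨ψ, LinearMap.ext fun h => ?_⟩
  have h1 : ψ (loc h) = (f ∘ₗ s) (loc.rangeRestrict h) := by
    have := LinearMap.congr_fun hψ (loc.rangeRestrict h)
    simpa using this
  rw [LinearMap.comp_apply, h1, LinearMap.comp_apply]
  have h2 : s (loc.rangeRestrict h) - h ∈ LinearMap.ker loc := by
    rw [LinearMap.mem_ker, map_sub, sub_eq_zero]
    have := LinearMap.congr_fun hs (loc.rangeRestrict h)
    have h3 := congrArg Subtype.val this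
    simpa using h3
  have h4 := hf h2
  rw [LinearMap.mem_ker, map_sub, sub_eq_zero] at h4
  exact h4

variable (β : Bm →ₗ[F] Hm →ₗ[F] F) (lam : Am →ₗ[F] Lm →ₗ[F] F)
  (a : Am →ₗ[F] Bm) (b : Bm →ₗ[F] Cm) (loc : Hm →ₗ[F] Lm)

/-- The map `Bm → Hom(Ш¹, F)`, `y ↦ β y |_{Ш¹}`. -/
def toDualSha : Bm →ₗ[F] (LinearMap.ker loc →ₗ[F] F) :=
  (LinearMap.lcomp F F (LinearMap.ker loc).subtype) ∘ₗ β

@[simp] lemma toDualSha_apply (y : Bm) (h : LinearMap.ker loc) :
    toDualSha β loc y h = β y h.1 := rfl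

variable {β lam a b loc}

/-- `Bm → Hom(Ш¹, F)` is onto as soon as every functional on `Hm` is of the form `β y`. -/
lemma toDualSha_surjective (hβs : ∀ f : Hm →ₗ[F] F, ∃ y, β y = f) :
    Function.Surjective (toDualSha β loc) := by
  intro g
  obtain ⟨f, hf⟩ := LinearMap.exists_extend g
  obtain ⟨y, hy⟩ := hβs f
  refine ⟨y, LinearMap.ext fun h => ?_⟩
  rw [toDualSha_apply, hy]
  exact LinearMap.congr_fun hf h

/-- The kernel of `Bm → Hom(Ш¹, F)` is the image of the local term. -/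
lemma ker_toDualSha (hβi : ∀ y, β y = 0 → y = 0)
    (hlams : ∀ f : Lm →ₗ[F] F, ∃ x, lam x = f)
    (hcompat : ∀ x h, β (a x) h = lam x (loc h)) :
    LinearMap.ker (toDualSha β loc) = LinearMap.range a := by
  apply le_antisymm
  · intro y hy
    have hker : LinearMap.ker loc ≤ LinearMap.ker (β y) := by
      intro h hh
      have := LinearMap.congr_fun (LinearMap.mem_ker.1 hy) ⟨h, hh⟩
      simpa using this
    obtain ⟨ψ, hψ⟩ := exists_comp_eq_of_ker_le loc (β y) hker
    obtain ⟨x, hx⟩ := hlams ψ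
    refine ⟨x, ?_⟩
    have : β (a x - y) = 0 := by
      ext h
      rw [map_sub, LinearMap.sub_apply, hcompat, hx, ← hψ, LinearMap.comp_apply, sub_self,
        LinearMap.zero_apply]
    exact sub_eq_zero.1 (hβi _ this)
  · rintro _ ⟨x, rfl⟩
    rw [LinearMap.mem_ker]
    ext h
    rw [toDualSha_apply, hcompat, LinearMap.mem_ker.1 h.2, map_zero, LinearMap.zero_apply]

/-- **Abstract Poitou–Tate.**  A pairing `Ш¹ × Ш² → F`, non-degenerate on both sides, where
`Ш¹ = ker loc` and `Ш² = range b`. -/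
theorem exists_pairing (hβi : ∀ y, β y = 0 → y = 0) (hβs : ∀ f : Hm →ₗ[F] F, ∃ y, β y = f)
    (hlams : ∀ f : Lm →ₗ[F] F, ∃ x, lam x = f)
    (hcompat : ∀ x h, β (a x) h = lam x (loc h))
    (hexact : LinearMap.ker b = LinearMap.range a) :
    ∃ P : LinearMap.ker loc →ₗ[F] LinearMap.range b →ₗ[F] F,
      (∀ h, (∀ s, P h s = 0) → h = 0) ∧ (∀ s, (∀ h, P h s = 0) → s = 0) ∧
      ∀ (h : LinearMap.ker loc) (y : Bm), P h ⟨b y, LinearMap.mem_range_self b y⟩ = β y h.1 := by
  have hk : LinearMap.ker b.rangeRestrict ≤ LinearMap.ker (toDualSha β loc) := by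
    rw [LinearMap.ker_rangeRestrict, hexact, ker_toDualSha hβi hlams hcompat]
  -- `Q : range b → Hom(Ш¹, F)`, `b y ↦ β y |_{Ш¹}`
  have hsurj : Function.Surjective b.rangeRestrict := b.surjective_rangeRestrict
  obtain ⟨Q, hQ⟩ : ∃ Q : LinearMap.range b →ₗ[F] (LinearMap.ker loc →ₗ[F] F),
      Q ∘ₗ b.rangeRestrict = toDualSha β loc := by
    obtain ⟨s, hs⟩ := b.rangeRestrict.exists_rightInverse_of_surjective
      (LinearMap.range_eq_top.2 hsurj)
    refine ⟨toDualSha β loc ∘ₗ s, LinearMap.ext fun y => ?_⟩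
    rw [LinearMap.comp_apply, LinearMap.comp_apply]
    have h2 : s (b.rangeRestrict y) - y ∈ LinearMap.ker b.rangeRestrict := by
      rw [LinearMap.mem_ker, map_sub, sub_eq_zero]
      exact LinearMap.congr_fun hs (b.rangeRestrict y)
    have h4 := hk h2
    rw [LinearMap.mem_ker, map_sub, sub_eq_zero] at h4
    exact h4
  have hQy : ∀ y, Q ⟨b y, LinearMap.mem_range_self b y⟩ = toDualSha β loc y := fun y =>
    LinearMap.congr_fun hQ y
  refine ⟨Q.flip, ?_, ?_, ?_⟩
  · -- left non-degeneracy: `Q` is onto `Hom(Ш¹, F)` and functionals separate points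
    intro h hh
    by_contra hne
    obtain ⟨g, hg⟩ : ∃ g : LinearMap.ker loc →ₗ[F] F, g h ≠ 0 := by
      by_contra hcon
      simp only [not_exists, not_not] at hcon
      exact hne ((Module.forall_dual_apply_eq_zero_iff F h).1 hcon)
    obtain ⟨y, hy⟩ := toDualSha_surjective (loc := loc) hβs g
    apply hg
    have := hh ⟨b y, LinearMap.mem_range_self b y⟩
    rw [LinearMap.flip_apply, hQy, hy] at this
    exact this
  · -- right non-degeneracy: `Q` is injective
    rintro ⟨_, y, rfl⟩ hs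
    have h1 : toDualSha β loc y = 0 := by
      ext h
      have := hs h
      rw [LinearMap.flip_apply, hQy] at this
      rw [this, LinearMap.zero_apply]
    have h2 : y ∈ LinearMap.ker b := by
      rw [hexact, ← ker_toDualSha hβi hlams hcompat]
      exact LinearMap.mem_ker.2 h1
    exact Subtype.ext (LinearMap.mem_ker.1 h2)
  · intro h y
    rw [LinearMap.flip_apply, hQy, toDualSha_apply]

end Fermat.Agent.CFT.A7.AbstractPT
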