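import Mathlib
import Fermat.Agent.CFT.Cup.Classes

/-!
# PROJECT C, slice A7.0: localisation of the coefficients of group cohomology

`G` a finite group, `R → k` a ring homomorphism (typically `ℤ → ℤ_(p)`), `M ⊆ R` a multiplicative
set, `X : Rep R G`, `Y : Rep k G` and `f : X → Y` an additive, `R → k`-semilinear, `G`-equivariant
map which exhibits `Y` as the localisation of `X` at `M` (`IsLocRep M X Y f`: every `y` has a
multiple `s • y`, `s ∈ M`, in the image of `f`, and `f x = 0` iff `x` is killed by some `s ∈ M`).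

Then `Hⁿ(G, Y)` is the localisation of `Hⁿ(G, X)` at `M`, elementwise and in every degree:

* `exists_smul_cls_eq` : every class of `Hⁿ(G, Y)` has an `M`-multiple of the form `[f ∘ z]`;
* `cls_locZ_eq_zero_iff` : `[f ∘ z] = 0` iff `[z]` is killed by some `s ∈ M`.

No tensor products and no `ℤ`-module instances appear: the model of `X ⊗ k` is free.
-/

set_option autoImplicit false

noncomputable section

universe u

namespace Fermat.Agent.CFT.A7.BaseChange

open Fermat.Agent.CFT.Cup groupCohomology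

variable {R k : Type u} [CommRing R] [CommRing k] [Algebra R k] (M : Submonoid R)
variable {G : Type u} [Group G]

/-- `f : X → Y` exhibits `Y : Rep k G` as the `G`-equivariant localisation at `M` of
`X : Rep R G`. -/
structure IsLocRep (X : Rep.{u} R G) (Y : Rep.{u} k G) (f : X.V →+ Y.V) : Prop where
  map_smul : ∀ (r : R) (x : X.V), f (r • x) = algebraMap R k r • f x
  map_ρ : ∀ (g : G) (x : X.V), f (X.ρ g x) = Y.ρ g (f x)
  surj : ∀ y : Y.V, ∃ s ∈ M, ∃ x : X.V, algebraMap R k s • y = f x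
  eq_zero : ∀ x : X.V, f x = 0 → ∃ s ∈ M, s • x = 0

section Denominators

variable {M} {X : Rep.{u} R G} {Y : Rep.{u} k G} {f : X.V →+ Y.V}

/-- Common denominators for finite families. -/
theorem IsLocRep.exists_common_denominator (hf : IsLocRep M X Y f) {ι : Type*} [Finite ι]
    (y : ι → Y.V) :
    ∃ s ∈ M, ∃ x : ι → X.V, ∀ i, algebraMap R k s • y i = f (x i) := by
  classical
  cases nonempty_fintype ι
  choose s hs x hx using fun i => hf.surj (y i)
  refine ⟨∏ j, s j, Submonoid.prod_mem M (fun j _ => hs j),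
    fun i => (∏ j ∈ Finset.univ.erase i, s j) • x i, fun i => ?_⟩
  rw [hf.map_smul, ← hx i, smul_smul, ← map_mul, mul_comm,
    Finset.mul_prod_erase _ _ (Finset.mem_univ i)]

/-- Common annihilators for finite families. -/
theorem exists_common_annihilator {ι : Type*} [Finite ι] (x : ι → X.V)
    (h : ∀ i, ∃ s ∈ M, s • x i = 0) : ∃ s ∈ M, ∀ i, s • x i = 0 := by
  classical
  cases nonempty_fintype ι
  choose s hs hx using h
  refine ⟨∏ j, s j, Submonoid.prod_mem M (fun j _ => hs j), fun i => ?_⟩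
  rw [← Finset.mul_prod_erase _ _ (Finset.mem_univ i), mul_comm, mul_smul, hx i, smul_zero]

end Denominators

section Cochains

variable {M} {X : Rep.{u} R G} {Y : Rep.{u} k G} {f : X.V →+ Y.V}

theorem dF_smul {S : Type u} [CommRing S] (A : Rep.{u} S G) (n : ℕ) (r : S)
    (a : (Fin n → G) → A.V) : dF A n (r • a) = r • dF A n a :=
  (inhomogeneousCochains.d A n).hom.map_smul r a

theorem dF_sub {S : Type u} [CommRing S] (A : Rep.{u} S G) (n : ℕ)
    (a b : (Fin n → G) → A.V) : dF A n (a - b) = dF A n a - dF A n b :=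
  (inhomogeneousCochains.d A n).hom.map_sub a b

/-- `f` commutes with the differentials of the inhomogeneous cochain complexes. -/
theorem IsLocRep.dF_comp (hf : IsLocRep M X Y f) (n : ℕ) (a : (Fin n → G) → X.V) :
    dF Y n (fun g => f (a g)) = fun g => f (dF X n a g) := by
  funext g
  rw [dF_apply, dF_apply, map_add, hf.map_ρ, map_sum]
  congr 1
  refine Finset.sum_congr rfl (fun j _ => ?_)
  rw [hf.map_smul, map_pow, map_neg, map_one]

/-- The map induced by `f` on cocycles. -/
def IsLocRep.locZ (hf : IsLocRep M X Y f) (n : ℕ) : Z X n →+ Z Y n where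
  toFun z := ⟨fun g => f (z.1 g), mem_Z.2 (by
    rw [hf.dF_comp, mem_Z.1 z.2]
    funext g
    exact map_zero f)⟩
  map_zero' := Subtype.ext (funext fun g => map_zero f)
  map_add' a b := Subtype.ext (funext fun g => map_add f _ _)

@[simp]
theorem IsLocRep.locZ_coe (hf : IsLocRep M X Y f) (n : ℕ) (z : Z X n) (g : Fin n → G) :
    (hf.locZ n z).1 g = f (z.1 g) := rfl

theorem IsLocRep.locZ_smul (hf : IsLocRep M X Y f) (n : ℕ) (r : R) (z : Z X n) :
    hf.locZ n (r • z) = algebraMap R k r • hf.locZ n z :=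
  Subtype.ext (funext fun g => hf.map_smul r _)

/-- Coboundaries go to coboundaries. -/
theorem IsLocRep.cls_locZ_eq_zero (hf : IsLocRep M X Y f) (n : ℕ) (z : Z X n)
    (hz : cls X n z = 0) : cls Y n (hf.locZ n z) = 0 := by
  cases n with
  | zero =>
    rw [cls_eq_zero_iff_zero] at hz
    rw [hz, map_zero, map_zero]
  | succ n =>
    rw [cls_eq_zero_iff_succ] at hz ⊢
    obtain ⟨y, hy⟩ := hz
    refine ⟨fun g => f (y g), ?_⟩
    rw [hf.dF_comp, hy]
    rfl

end Cochains

section Main

variable {M} {X : Rep.{u} R G} {Y : Rep.{u} k G} {f : X.V →+ Y.V} [Finite G]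

/-- **Surjectivity up to denominators**: every class in `Hⁿ(G, Y)` has an `M`-multiple coming
from a cocycle of `X`. -/
theorem IsLocRep.exists_smul_cls_eq (hf : IsLocRep M X Y f) (n : ℕ) (c : groupCohomology Y n) :
    ∃ s ∈ M, ∃ z : Z X n, algebraMap R k s • c = cls Y n (hf.locZ n z) := by
  induction c using cls_induction_on with
  | h y =>
    obtain ⟨s₁, hs₁, x₀, hx₀⟩ := hf.exists_common_denominator y.1
    -- `f ∘ d x₀ = d (s₁ y) = 0`
    have h1 : ∀ g, f (dF X n x₀ g) = 0 := by
      intro g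
      have h2 := congrFun (hf.dF_comp n x₀) g
      have h3 : (fun g => f (x₀ g)) = algebraMap R k s₁ • y.1 := by
        funext g
        exact (hx₀ g).symm
      rw [h3, dF_smul, Pi.smul_apply] at h2
      have h4 : dF Y n y.1 = 0 := mem_Z.1 y.2
      rw [← h2, h4, Pi.zero_apply, smul_zero]
    obtain ⟨t, ht, htx⟩ := exists_common_annihilator (M := M) (dF X n x₀)
      (fun g => hf.eq_zero _ (h1 g))
    have hz : t • x₀ ∈ Z X n := by
      rw [mem_Z, dF_smul]
      funext g
      exact htx g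
    refine ⟨t * s₁, M.mul_mem ht hs₁, ⟨t • x₀, hz⟩, ?_⟩
    rw [← LinearMap.map_smul]
    congr 1
    apply Subtype.ext
    funext g
    show (algebraMap R k (t * s₁) • y.1) g = f ((t • x₀) g)
    rw [Pi.smul_apply, Pi.smul_apply, hf.map_smul, ← hx₀ g, smul_smul, ← map_mul]

/-- **Injectivity up to denominators**, the hard direction: if `[f ∘ z] = 0` then `[z]` is
`M`-torsion. -/
theorem IsLocRep.exists_smul_cls_eq_zero (hf : IsLocRep M X Y f) (n : ℕ) (z : Z X n)
    (hz : cls Y n (hf.locZ n z) = 0) : ∃ s ∈ M, s • cls X n z = 0 := by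
  cases n with
  | zero =>
    rw [cls_eq_zero_iff_zero] at hz
    have h1 : ∀ g, f (z.1 g) = 0 := fun g => congrFun (congrArg Subtype.val hz) g
    obtain ⟨s, hs, hsz⟩ := exists_common_annihilator (M := M) z.1 (fun g => hf.eq_zero _ (h1 g))
    refine ⟨s, hs, ?_⟩
    rw [← LinearMap.map_smul]
    have : s • z = 0 := Subtype.ext (funext hsz)
    rw [this, map_zero]
  | succ n =>
    rw [cls_eq_zero_iff_succ] at hz
    obtain ⟨y, hy⟩ := hz
    obtain ⟨s₁, hs₁, x₀, hx₀⟩ := hf.exists_common_denominator y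
    have h3 : (fun g => f (x₀ g)) = algebraMap R k s₁ • y := by
      funext g
      exact (hx₀ g).symm
    have h1 : ∀ g, f ((s₁ • z.1 - dF X n x₀) g) = 0 := by
      intro g
      have h2 := congrFun (hf.dF_comp n x₀) g
      rw [h3, dF_smul, hy, Pi.smul_apply] at h2
      rw [Pi.sub_apply, Pi.smul_apply, map_sub, hf.map_smul, ← h2]
      exact sub_self _
    obtain ⟨t, ht, htx⟩ := exists_common_annihilator (M := M) (s₁ • z.1 - dF X n x₀)
      (fun g => hf.eq_zero _ (h1 g))
    refine ⟨t * s₁, M.mul_mem ht hs₁, ?_⟩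
    rw [← LinearMap.map_smul, cls_eq_zero_iff_succ]
    refine ⟨t • x₀, ?_⟩
    rw [dF_smul]
    funext g
    have := htx g
    rw [Pi.sub_apply, smul_sub, sub_eq_zero] at this
    show (t • dF X n x₀) g = ((t * s₁) • z.1) g
    rw [Pi.smul_apply, Pi.smul_apply, ← this, Pi.smul_apply, smul_smul]

/-- **Injectivity up to denominators**: `[f ∘ z] = 0` iff `[z]` is `M`-torsion. -/
theorem IsLocRep.cls_locZ_eq_zero_iff (hf : IsLocRep M X Y f)
    (hM : ∀ s ∈ M, IsUnit (algebraMap R k s)) (n : ℕ) (z : Z X n) :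
    cls Y n (hf.locZ n z) = 0 ↔ ∃ s ∈ M, s • cls X n z = 0 := by
  refine ⟨hf.exists_smul_cls_eq_zero n z, ?_⟩
  rintro ⟨s, hs, h⟩
  rw [← LinearMap.map_smul] at h
  have h1 := hf.cls_locZ_eq_zero n (s • z) h
  rw [hf.locZ_smul, LinearMap.map_smul] at h1
  obtain ⟨u, hu⟩ := hM s hs
  rw [← hu] at h1
  have h2 := congrArg (fun c => (↑u⁻¹ : k) • c) h1
  simpa [smul_smul] using h2

end Main

section LocH

variable {M} {X : Rep.{u} R G} {Y : Rep.{u} k G} {f : X.V →+ Y.V}

/-- The map induced by `f` on cohomology. -/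
def IsLocRep.locH (hf : IsLocRep M X Y f) (n : ℕ) : groupCohomology X n →+ groupCohomology Y n :=
  (QuotientAddGroup.lift (cls X n).toAddMonoidHom.ker
    ((cls Y n).toAddMonoidHom.comp (hf.locZ n))
    (fun z hz => hf.cls_locZ_eq_zero n z hz)).comp
  (QuotientAddGroup.quotientKerEquivOfSurjective (cls X n).toAddMonoidHom
    (cls_surjective X n)).symm.toAddMonoidHom

@[simp]
theorem IsLocRep.locH_cls (hf : IsLocRep M X Y f) (n : ℕ) (z : Z X n) :
    hf.locH n (cls X n z) = cls Y n (hf.locZ n z) := by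
  have h : (QuotientAddGroup.quotientKerEquivOfSurjective (cls X n).toAddMonoidHom
      (cls_surjective X n)).symm (cls X n z) = QuotientAddGroup.mk z := by
    rw [AddEquiv.symm_apply_eq]
    rfl
  unfold IsLocRep.locH
  rw [AddMonoidHom.comp_apply]
  erw [h]
  rfl

theorem IsLocRep.locH_smul (hf : IsLocRep M X Y f) (n : ℕ) (r : R) (c : groupCohomology X n) :
    hf.locH n (r • c) = algebraMap R k r • hf.locH n c := by
  induction c using cls_induction_on with
  | h z => rw [← LinearMap.map_smul, hf.locH_cls, hf.locH_cls, hf.locZ_smul, LinearMap.map_smul]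

variable [Finite G]

/-- `Hⁿ(G, Y)` is generated by the image of `Hⁿ(G, X)` up to denominators in `M`. -/
theorem IsLocRep.exists_smul_eq_locH (hf : IsLocRep M X Y f) (n : ℕ) (c : groupCohomology Y n) :
    ∃ s ∈ M, ∃ c₀ : groupCohomology X n, algebraMap R k s • c = hf.locH n c₀ := by
  obtain ⟨s, hs, z, hz⟩ := hf.exists_smul_cls_eq n c
  exact ⟨s, hs, cls X n z, by rw [hf.locH_cls, hz]⟩

/-- The kernel of `Hⁿ(G, X) → Hⁿ(G, Y)` is the `M`-torsion. -/
theorem IsLocRep.locH_eq_zero_iff (hf : IsLocRep M X Y f)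
    (hM : ∀ s ∈ M, IsUnit (algebraMap R k s)) (n : ℕ) (c : groupCohomology X n) :
    hf.locH n c = 0 ↔ ∃ s ∈ M, s • c = 0 := by
  induction c using cls_induction_on with
  | h z => rw [hf.locH_cls, hf.cls_locZ_eq_zero_iff hM]

/-- `Hⁿ(G, Y) = 0` iff `Hⁿ(G, X)` is `M`-torsion. -/
theorem IsLocRep.isZero_iff (hf : IsLocRep M X Y f)
    (hM : ∀ s ∈ M, IsUnit (algebraMap R k s)) (n : ℕ) :
    CategoryTheory.Limits.IsZero (groupCohomology Y n) ↔
      ∀ c : groupCohomology X n, ∃ s ∈ M, s • c = 0 := by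
  rw [ModuleCat.isZero_iff_subsingleton]
  constructor
  · intro h c
    rw [← hf.locH_eq_zero_iff hM]
    exact Subsingleton.elim _ _
  · intro h
    refine ⟨fun a b => ?_⟩
    suffices h0 : ∀ c : groupCohomology Y n, c = 0 by rw [h0 a, h0 b]
    intro c
    obtain ⟨s, hs, c₀, hc⟩ := hf.exists_smul_eq_locH n c
    have h1 : hf.locH n c₀ = 0 := (hf.locH_eq_zero_iff hM n c₀).2 (h c₀)
    rw [h1] at hc
    obtain ⟨v, hv⟩ := hM s hs
    rw [← hv] at hc
    have h2 := congrArg (fun c => (↑v⁻¹ : k) • c) hc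
    simpa [smul_smul] using h2

end LocH

section Res

variable {M} {X : Rep.{u} R G} {Y : Rep.{u} k G} {f : X.V →+ Y.V}

/-- Localisation data restrict along group homomorphisms. -/
theorem IsLocRep.res (hf : IsLocRep M X Y f) {H : Type u} [Group H] (φ : H →* G) :
    IsLocRep M (Rep.res φ X) (Rep.res φ Y) f where
  map_smul := hf.map_smul
  map_ρ h x := hf.map_ρ (φ h) x
  surj := hf.surj
  eq_zero := hf.eq_zero

end Res

end Fermat.Agent.CFT.A7.BaseChange
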