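import Mathlib
import Fermat.Agent.CFT.A7.BaseChange
import Fermat.Agent.CFT.A1.CoresAlt

/-!
# PROJECT C, slice A7.0 (part 4): cardinalities after localisation of the coefficients

`IsLocRep M X Y f` (`Y : Rep k G` is the localisation at `M` of `X : Rep R G`, `G` finite).

* `IsLocRep.locHEquiv` / `card_eq_card_of_subgroup` : if `T' ≤ Hⁿ(G, X)` is a subgroup such that
  every class has an `M`-multiple in `T'`, `T'` has no `M`-torsion and is `M`-divisible, then
  `locH : T' → Hⁿ(G, Y)` is bijective;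
* `pPrimary p T` : the `p`-primary part of an additive group; if `M` consists of elements coprime
  to the powers of `p` and contains the prime-to-`p` part of `|G|` (`hcop`, `hG`; for `R = ℤ`,
  `M = primeTo p` these are `isCoprime_pow_of_mem_primeTo`, `exists_card_eq_pow_mul`):
  `IsLocRep.card_eq_card_pPrimary` : `|Hⁿ⁺¹(G, Y)| = |Hⁿ⁺¹(G, X)(p)|`;
  `IsLocRep.card_dvd_of_card_pPrimary_dvd`, `IsLocRep.card_eq_of_card_eq_prime_pow`
  (if `Hⁿ⁺¹(G, X)` is finite of `p`-power order then `|Hⁿ⁺¹(G, Y)| = |Hⁿ⁺¹(G, X)|`).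

This converts `ℤ`-level statements (second inequality `|H²(G, C_L)| = p`, `p`-primary dévissage)
into the `k = ℤ_(p)`-level hypotheses of `C6/TateClassModule`, `C6/TateCores`.
-/

set_option autoImplicit false

noncomputable section

universe u

namespace Fermat.Agent.CFT.A7.BaseChange

open Fermat.Agent.CFT.Cup groupCohomology

section General

variable {R k : Type u} [CommRing R] [CommRing k] [Algebra R k] {M : Submonoid R}
variable {G : Type u} [Group G] [Finite G]
variable {X : Rep.{u} R G} {Y : Rep.{u} k G} {f : X.V →+ Y.V}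

/-- If `T' ≤ Hⁿ(G, X)` meets every class up to `M`, has no `M`-torsion and is `M`-divisible, then
`locH` restricts to a bijection `T' → Hⁿ(G, Y)`. -/
theorem IsLocRep.locH_bijective_of_subgroup (hf : IsLocRep M X Y f)
    (hM : ∀ s ∈ M, IsUnit (algebraMap R k s)) (n : ℕ) (T' : AddSubgroup (groupCohomology X n))
    (ha : ∀ t : groupCohomology X n, ∃ s ∈ M, s • t ∈ T')
    (hb : ∀ t ∈ T', ∀ s ∈ M, s • t = 0 → t = 0)
    (hc : ∀ t ∈ T', ∀ s ∈ M, ∃ t' ∈ T', s • t' = t) :
    Function.Bijective ((hf.locH n).comp T'.subtype) := by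
  constructor
  · rw [injective_iff_map_eq_zero]
    intro t ht
    obtain ⟨s, hs, hst⟩ := (hf.locH_eq_zero_iff hM n t.1).1 ht
    exact Subtype.ext (hb t.1 t.2 s hs hst)
  · intro c
    obtain ⟨s, hs, c₀, hc₀⟩ := hf.exists_smul_eq_locH n c
    obtain ⟨s', hs', hmem⟩ := ha c₀
    obtain ⟨t', ht', ht⟩ := hc _ hmem (s * s') (M.mul_mem hs hs')
    refine ⟨⟨t', ht'⟩, ?_⟩
    have h1 : algebraMap R k (s * s') • hf.locH n t' = algebraMap R k (s * s') • c := by
      rw [← hf.locH_smul, ht, hf.locH_smul, ← hc₀, smul_smul, ← map_mul, mul_comm]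
    obtain ⟨v, hv⟩ := hM _ (M.mul_mem hs hs')
    rw [← hv] at h1
    have h2 := congrArg (fun c => (↑v⁻¹ : k) • c) h1
    simpa [smul_smul] using h2

theorem IsLocRep.card_eq_card_of_subgroup (hf : IsLocRep M X Y f)
    (hM : ∀ s ∈ M, IsUnit (algebraMap R k s)) (n : ℕ) (T' : AddSubgroup (groupCohomology X n))
    (ha : ∀ t : groupCohomology X n, ∃ s ∈ M, s • t ∈ T')
    (hb : ∀ t ∈ T', ∀ s ∈ M, s • t = 0 → t = 0)
    (hc : ∀ t ∈ T', ∀ s ∈ M, ∃ t' ∈ T', s • t' = t) :
    Nat.card (groupCohomology Y n) = Nat.card T' :=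
  (Nat.card_congr (Equiv.ofBijective _
    (hf.locH_bijective_of_subgroup hM n T' ha hb hc))).symm

end General

section PPrimary

/-- The `p`-primary part of an additive commutative group. -/
def pPrimary (p : ℕ) (T : Type*) [AddCommGroup T] : AddSubgroup T where
  carrier := {t | ∃ j : ℕ, (p ^ j) • t = 0}
  zero_mem' := ⟨0, by simp⟩
  add_mem' := by
    rintro a b ⟨i, hi⟩ ⟨j, hj⟩
    refine ⟨i + j, ?_⟩
    have h1 : (p ^ (i + j)) • a = 0 := by rw [pow_add, mul_comm, mul_smul, hi, smul_zero]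
    have h2 : (p ^ (i + j)) • b = 0 := by rw [pow_add, mul_smul, hj, smul_zero]
    rw [smul_add, h1, h2, add_zero]
  neg_mem' := by
    rintro a ⟨i, hi⟩
    exact ⟨i, by rw [smul_neg, hi, neg_zero]⟩

theorem mem_pPrimary {p : ℕ} {T : Type*} [AddCommGroup T] {t : T} :
    t ∈ pPrimary p T ↔ ∃ j : ℕ, (p ^ j) • t = 0 := Iff.rfl

/-- The integers prime to `p`. -/
def primeTo (p : ℕ) [hp : Fact p.Prime] : Submonoid ℤ where
  carrier := {s | ¬ (p : ℤ) ∣ s}
  one_mem' := by
    intro h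
    exact hp.out.one_lt.ne' (Int.natCast_inj.1 (Int.eq_one_of_dvd_one (by positivity) h)) |>.elim
  mul_mem' := by
    intro a b ha hb h
    rcases (Nat.prime_iff_prime_int.1 hp.out).dvd_or_dvd h with h | h
    · exact ha h
    · exact hb h

theorem mem_primeTo {p : ℕ} [Fact p.Prime] {s : ℤ} : s ∈ primeTo p ↔ ¬ (p : ℤ) ∣ s := Iff.rfl

end PPrimary

section PLocal

variable {R k : Type u} [CommRing R] [CommRing k] [Algebra R k] {M : Submonoid R}
variable {G : Type u} [Group G] [Finite G]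
variable {X : Rep.{u} R G} {Y : Rep.{u} k G} {f : X.V →+ Y.V} (p : ℕ)

/-- If every element of `M` is coprime to the powers of `p` and the prime-to-`p` part of `|G|`
lies in `M` (e.g. `R = ℤ`, `M` = integers prime to `p`): `Hⁿ⁺¹(G, Y)` is the `p`-primary part of
`Hⁿ⁺¹(G, X)`. -/
theorem IsLocRep.card_eq_card_pPrimary (hf : IsLocRep M X Y f)
    (hM : ∀ s ∈ M, IsUnit (algebraMap R k s))
    (hcop : ∀ s ∈ M, ∀ j : ℕ, IsCoprime ((p : R) ^ j) s)
    (hG : ∃ a n' : ℕ, Nat.card G = p ^ a * n' ∧ (n' : R) ∈ M) (n : ℕ) :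
    Nat.card (groupCohomology Y (n + 1)) =
      Nat.card (pPrimary p (groupCohomology X (n + 1))) := by
  refine hf.card_eq_card_of_subgroup hM (n + 1) _ (fun t => ?_) (fun t ht s hs hst => ?_)
    (fun t ht s hs => ?_)
  · obtain ⟨a, n', hG, hn'⟩ := hG
    refine ⟨(n' : R), hn', a, ?_⟩
    have h0 := Fermat.Agent.CFT.A1.CoresAlt.card_smul_eq_zero X n t
    rw [hG] at h0
    rw [← Nat.cast_smul_eq_nsmul R, smul_smul, ← Nat.cast_mul]
    exact h0
  · obtain ⟨j, hj⟩ := ht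
    obtain ⟨u, v, huv⟩ := hcop s hs j
    have h1 : ((p : R) ^ j) • t = 0 := by
      rw [← Nat.cast_pow, Nat.cast_smul_eq_nsmul]; exact hj
    calc t = (1 : R) • t := (one_smul _ _).symm
      _ = (u * (p : R) ^ j + v * s) • t := by rw [huv]
      _ = 0 := by rw [add_smul, mul_smul, mul_smul, h1, hst, smul_zero, smul_zero, add_zero]
  · obtain ⟨j, hj⟩ := ht
    obtain ⟨u, v, huv⟩ := hcop s hs j
    have h1 : ((p : R) ^ j) • t = 0 := by
      rw [← Nat.cast_pow, Nat.cast_smul_eq_nsmul]; exact hj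
    refine ⟨v • t, ⟨j, ?_⟩, ?_⟩
    · rw [← Nat.cast_smul_eq_nsmul R, smul_comm, Nat.cast_smul_eq_nsmul, hj, smul_zero]
    · calc s • v • t = (u * (p : R) ^ j + v * s) • t := by
            rw [add_smul, mul_smul u, h1, smul_zero, zero_add, mul_comm, mul_smul]
        _ = t := by rw [huv, one_smul]

/-- `R`-level `p`-primary bound ⇒ `k`-level bound. -/
theorem IsLocRep.card_dvd_of_card_pPrimary_dvd (hf : IsLocRep M X Y f)
    (hM : ∀ s ∈ M, IsUnit (algebraMap R k s))
    (hcop : ∀ s ∈ M, ∀ j : ℕ, IsCoprime ((p : R) ^ j) s)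
    (hG : ∃ a n' : ℕ, Nat.card G = p ^ a * n' ∧ (n' : R) ∈ M) (n : ℕ) {m : ℕ}
    (h : Nat.card (pPrimary p (groupCohomology X (n + 1))) ∣ m) :
    Nat.card (groupCohomology Y (n + 1)) ∣ m := by
  rwa [hf.card_eq_card_pPrimary p hM hcop hG n]

/-- If `Hⁿ⁺¹(G, X)` is finite of `p`-power order, localisation does not change its order. -/
theorem IsLocRep.card_eq_of_card_eq_prime_pow (hf : IsLocRep M X Y f)
    (hM : ∀ s ∈ M, IsUnit (algebraMap R k s))
    (hcop : ∀ s ∈ M, ∀ j : ℕ, IsCoprime ((p : R) ^ j) s)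
    (hG : ∃ a n' : ℕ, Nat.card G = p ^ a * n' ∧ (n' : R) ∈ M) (n : ℕ) {a : ℕ}
    (h : Nat.card (groupCohomology X (n + 1)) = p ^ a) :
    Nat.card (groupCohomology Y (n + 1)) = p ^ a := by
  rw [hf.card_eq_card_pPrimary p hM hcop hG n, ← h]
  have htop : pPrimary p (groupCohomology X (n + 1)) = ⊤ := by
    rw [AddSubgroup.eq_top_iff']
    intro t
    refine ⟨a, ?_⟩
    rw [← h]
    exact card_nsmul_eq_zero'
  rw [htop, AddSubgroup.card_top]

end PLocal

section Int

variable {p : ℕ} [hp : Fact p.Prime]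

theorem isCoprime_pow_of_mem_primeTo {s : ℤ} (hs : s ∈ primeTo p) (j : ℕ) :
    IsCoprime ((p : ℤ) ^ j) s :=
  ((Nat.prime_iff_prime_int.1 hp.out).irreducible.coprime_iff_not_dvd.2 hs).pow_left

theorem exists_card_eq_pow_mul (G : Type*) [Group G] [Finite G] :
    ∃ a n' : ℕ, Nat.card G = p ^ a * n' ∧ (n' : ℤ) ∈ primeTo p := by
  obtain ⟨a, n', hn', hG⟩ := Nat.exists_eq_pow_mul_and_not_dvd (Nat.card_pos (α := G)).ne' p
    hp.out.one_lt.ne'
  exact ⟨a, n', hG, fun h => hn' (Int.natCast_dvd_natCast.1 h)⟩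

end Int

end Fermat.Agent.CFT.A7.BaseChange
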