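import Mathlib
import Fermat.Agent.CFT.A7.BaseChange
import Fermat.Agent.CFT.A3.LowDegree
import Fermat.Agent.CFT.A5.Tate

/-!
# PROJECT C, slice A7.0 (part 3): class modules after localisation of the coefficients

`IsLocRep M X Y f` (`Y` is the localisation of `X : Rep R G` at `M`, a `Rep k G`).

* `IsLocRep.locCocycles₁/₂` : push forward of Mathlib's low degree cocycles;
  `locH_H1π`, `locH_H2π` : compatibility with `H1π`, `H2π`; `resPhi_locCocycles₂`;
* `isClassModule_of_isLocRep` : if `X` satisfies the class module axioms "up to `M`"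
  (`H¹(H, X)` is `M`-torsion; `H²(H, X)` is generated by `res [φ]` up to `M`; `a • res [φ] = 0`
  implies `|H| ∣ a` in `k`), then `Y` is a class module over `k` in the sense of
  `A5.Tate.IsClassModule`.  For `R = ℤ`, `k = ℤ_(p)` this turns `p`-primary class formation data
  into an honest class module over `ℤ_(p)`, to which Tate's theorem
  (`A5.TateLocal.tate_theorem_of_domain`) applies.
-/

set_option autoImplicit false

noncomputable section

universe u

namespace Fermat.Agent.CFT.A7.BaseChange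

open Fermat.Agent.CFT.Cup Fermat.Agent.CFT.A3 groupCohomology CategoryTheory
  Fermat.Agent.CFT.A5.Tate Fermat.Agent.CFT.A5.SplitRes

variable {R k : Type u} [CommRing R] [CommRing k] [Algebra R k] {M : Submonoid R}
variable {G : Type u} [Group G] {X : Rep.{u} R G} {Y : Rep.{u} k G} {f : X.V →+ Y.V}

/-- Push forward of a `1`-cocycle. -/
def IsLocRep.locCocycles₁ (hf : IsLocRep M X Y f) (x : cocycles₁ X) : cocycles₁ Y :=
  ⟨fun g => f (x g), by
    rw [mem_cocycles₁_iff]
    intro g h
    rw [← hf.map_ρ, ← map_add f, (mem_cocycles₁_iff x).1 x.2 g h]⟩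

/-- Push forward of a `2`-cocycle. -/
def IsLocRep.locCocycles₂ (hf : IsLocRep M X Y f) (φ : cocycles₂ X) : cocycles₂ Y :=
  ⟨fun p => f (φ p), by
    rw [mem_cocycles₂_iff]
    intro g h j
    rw [← hf.map_ρ, ← map_add f, ← map_add f, (mem_cocycles₂_iff φ).1 φ.2 g h j]⟩

@[simp]
theorem IsLocRep.locCocycles₂_apply (hf : IsLocRep M X Y f) (φ : cocycles₂ X) (p : G × G) :
    hf.locCocycles₂ φ p = f (φ p) := rfl

theorem IsLocRep.locH_H1π (hf : IsLocRep M X Y f) (x : cocycles₁ X) :
    hf.locH 1 (H1π X x) = H1π Y (hf.locCocycles₁ x) := by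
  rw [H1π_eq_cls, H1π_eq_cls, hf.locH_cls]
  rfl

theorem IsLocRep.locH_H2π (hf : IsLocRep M X Y f) (φ : cocycles₂ X) :
    hf.locH 2 (H2π X φ) = H2π Y (hf.locCocycles₂ φ) := by
  rw [H2π_eq_cls, H2π_eq_cls, hf.locH_cls]
  rfl

theorem IsLocRep.resPhi_locCocycles₂ (hf : IsLocRep M X Y f) (φ : cocycles₂ X) {H : Type u}
    [Group H] (ψ : H →* G) :
    resPhi Y (hf.locCocycles₂ φ) ψ = (hf.res ψ).locCocycles₂ (resPhi X φ ψ) := rfl

section ClassModule

variable [Fintype G]

/-- **Class modules after localisation.**  If `X : Rep R G` satisfies the class module axioms up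
to the multiplicative set `M`, its localisation `Y : Rep k G` is a class module over `k`. -/
theorem isClassModule_of_isLocRep [IsLocalization M k] (hf : IsLocRep M X Y f)
    (φ : cocycles₂ X)
    (h1 : ∀ (H : Subgroup G) (c : groupCohomology (Rep.res H.subtype X) 1), ∃ s ∈ M, s • c = 0)
    (hgen : ∀ (H : Subgroup G) (c : groupCohomology (Rep.res H.subtype X) 2),
      ∃ s ∈ M, ∃ r : R, s • c = r • H2π (Rep.res H.subtype X) (resPhi X φ H.subtype))
    (hord : ∀ (H : Subgroup G) (a : R),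
      a • H2π (Rep.res H.subtype X) (resPhi X φ H.subtype) = 0 →
        ((Nat.card H : ℕ) : k) ∣ algebraMap R k a) :
    IsClassModule Y (hf.locCocycles₂ φ) := by
  have hM : ∀ s ∈ M, IsUnit (algebraMap R k s) := fun s hs =>
    IsLocalization.map_units k (⟨s, hs⟩ : M)
  refine ⟨fun H => ?_, fun H y => ?_, fun H r hr => ?_⟩
  · exact ((hf.res H.subtype).isZero_iff hM 1).2 (h1 H)
  · obtain ⟨s, hs, c₀, hc⟩ := (hf.res H.subtype).exists_smul_eq_locH 2 y
    obtain ⟨t, ht, r, hr⟩ := hgen H c₀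
    obtain ⟨u, hu⟩ := hM s hs
    obtain ⟨v, hv⟩ := hM t ht
    refine ⟨(↑u⁻¹ : k) * (↑v⁻¹ : k) * algebraMap R k r, ?_⟩
    have h2 : algebraMap R k t • (algebraMap R k s • y) =
        algebraMap R k r • H2π (Rep.res H.subtype Y)
          (resPhi Y (hf.locCocycles₂ φ) H.subtype) := by
      rw [hc, ← (hf.res H.subtype).locH_smul, hr, (hf.res H.subtype).locH_smul,
        (hf.res H.subtype).locH_H2π, hf.resPhi_locCocycles₂]
    rw [mul_smul, mul_smul, ← h2, ← hu, ← hv, smul_smul, smul_smul, smul_smul]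
    simp
  · obtain ⟨⟨a, s⟩, hs⟩ := IsLocalization.surj M r
    have h2 : (hf.res H.subtype).locH 2
        (a • H2π (Rep.res H.subtype X) (resPhi X φ H.subtype)) = 0 := by
      rw [(hf.res H.subtype).locH_smul, (hf.res H.subtype).locH_H2π, ← hf.resPhi_locCocycles₂,
        ← hs, mul_comm, mul_smul, hr, smul_zero]
    obtain ⟨t, ht, h3⟩ := ((hf.res H.subtype).locH_eq_zero_iff hM 2 _).1 h2
    rw [smul_smul] at h3
    have h4 := hord H (t * a) h3
    rw [map_mul, ← hs] at h4
    obtain ⟨u, hu⟩ := hM t ht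
    obtain ⟨v, hv⟩ := hM s.1 s.2
    have h5 : r = (↑u⁻¹ : k) * (↑v⁻¹ : k) * (algebraMap R k t * (r * algebraMap R k s.1)) := by
      rw [← hu, ← hv]
      have e1 : (↑u⁻¹ : k) * ↑u = 1 := Units.inv_mul _
      have e2 : (↑v⁻¹ : k) * ↑v = 1 := Units.inv_mul _
      calc r = ((↑u⁻¹ : k) * ↑u) * ((↑v⁻¹ : k) * ↑v) * r := by rw [e1, e2]; ring
        _ = (↑u⁻¹ : k) * (↑v⁻¹ : k) * ((u : k) * (r * (v : k))) := by ring
    rw [h5]
    exact Dvd.dvd.mul_left h4 _

/-- A class module over `R` stays a class module after localisation. -/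
theorem isClassModule_of_isClassModule [IsLocalization M k] (hf : IsLocRep M X Y f)
    {φ : cocycles₂ X} (hX : IsClassModule X φ) : IsClassModule Y (hf.locCocycles₂ φ) := by
  refine isClassModule_of_isLocRep hf φ (fun H c => ⟨1, M.one_mem, ?_⟩)
    (fun H c => ?_) (fun H a ha => ?_)
  · rw [one_smul]
    exact (ModuleCat.isZero_iff_subsingleton.mp (hX.h1 H)).elim _ _
  · obtain ⟨r, hr⟩ := hX.hgen H c
    exact ⟨1, M.one_mem, r, by rw [one_smul, hr]⟩
  · have := map_dvd (algebraMap R k) (hX.hord H a ha)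
    rwa [map_natCast] at this

end ClassModule

end Fermat.Agent.CFT.A7.BaseChange
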