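import Mathlib
import Fermat.Agent.CFT.A7.BaseChange

/-!
# PROJECT C, slice A7.0 (part 2): models of the localised representation

* `IsLocRep.of_isLocalizedModule` : Mathlib's `IsLocalizedModule M f` + equivariance gives
  `IsLocRep`;
* `tensorRep X : Rep k G` on `k ⊗[R] X` and `isLocRep_tensorRep` : the tensor product model, for
  `k` a localisation of `R` at `M`.
-/

set_option autoImplicit false

noncomputable section

universe u

namespace Fermat.Agent.CFT.A7.BaseChange

open TensorProduct

variable {R k : Type u} [CommRing R] [CommRing k] [Algebra R k] (M : Submonoid R)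
variable {G : Type u} [Group G]

/-- Mathlib's `IsLocalizedModule` together with equivariance gives `IsLocRep`. -/
theorem IsLocRep.of_isLocalizedModule (X : Rep.{u} R G) (Y : Rep.{u} k G) [Module R Y.V]
    [IsScalarTower R k Y.V] (f : X.V →ₗ[R] Y.V) [IsLocalizedModule M f]
    (hρ : ∀ (g : G) (x : X.V), f (X.ρ g x) = Y.ρ g (f x)) :
    IsLocRep M X Y f.toAddMonoidHom where
  map_smul r x := by
    show f (r • x) = algebraMap R k r • f x
    rw [LinearMap.map_smul, algebraMap_smul]
  map_ρ := hρ
  surj y := by
    obtain ⟨⟨x, s⟩, hx⟩ := IsLocalizedModule.surj M f y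
    refine ⟨s.1, s.2, x, ?_⟩
    show algebraMap R k s.1 • y = f x
    rw [algebraMap_smul]
    exact hx
  eq_zero x hx := by
    obtain ⟨s, hs⟩ := (IsLocalizedModule.eq_zero_iff M f).mp hx
    exact ⟨s.1, s.2, hs⟩

/-- The representation of `G` on `k ⊗[R] X`. -/
def tensorRepresentation (X : Rep.{u} R G) : Representation k G (k ⊗[R] X.V) where
  toFun g := (X.ρ g).baseChange k
  map_one' := by rw [map_one]; exact LinearMap.baseChange_one _ _
  map_mul' g h := by rw [map_mul]; exact LinearMap.baseChange_mul _ _

/-- The tensor product model `k ⊗[R] X : Rep k G`. -/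
abbrev tensorRep (X : Rep.{u} R G) : Rep.{u} k G := Rep.of (tensorRepresentation (k := k) X)

theorem tensorRep_ρ_tmul (X : Rep.{u} R G) (g : G) (a : k) (x : X.V) :
    (tensorRep (k := k) X).ρ g (a ⊗ₜ x) = a ⊗ₜ X.ρ g x :=
  LinearMap.baseChange_tmul _ a x

/-- The canonical map `X → k ⊗[R] X`. -/
def toTensorRep (X : Rep.{u} R G) : X.V →+ (tensorRep (k := k) X).V :=
  (TensorProduct.mk R k X.V 1).toAddMonoidHom

theorem toTensorRep_apply (X : Rep.{u} R G) (x : X.V) :
    toTensorRep (k := k) X x = (1 : k) ⊗ₜ x := rfl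

/-- The tensor product model is a localisation, when `k` is the localisation of `R` at `M`. -/
theorem isLocRep_tensorRep [IsLocalization M k] (X : Rep.{u} R G) :
    IsLocRep M X (tensorRep (k := k) X) (toTensorRep X) := by
  have : IsLocalizedModule M (TensorProduct.mk R k X.V 1) :=
    (isLocalizedModule_iff_isBaseChange M k _).mpr (TensorProduct.isBaseChange R X.V k)
  exact IsLocRep.of_isLocalizedModule M X (tensorRep (k := k) X) (TensorProduct.mk R k X.V 1)
    (fun g x => (tensorRep_ρ_tmul X g 1 x).symm)

end Fermat.Agent.CFT.A7.BaseChange
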