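import Mathlib
import Fermat.Agent.CFT.A7.BaseChangeTensor
import Fermat.Agent.CFT.A5.SES
import Fermat.Agent.CFT.LC.LES

/-!
# PROJECT C, slice A7.0 (part 4): localisation of coefficients is exact and preserves smoothness

Model-free statements on `IsLocRep` (equivariant localisation `X → Y` of the coefficient module):

* `IsLocRep.isSmooth` : `Y` is smooth when `X` is;
* `IsLocRep.injective_of_injective`, `IsLocRep.surjective_of_surjective`, `IsLocRep.exact_of_exact`,
  `IsLocRep.comp_eq_zero` : exactness properties transported along localisation;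
* `IsLocRep.shortExact` : a short exact sequence in `Rep R G` whose three terms are localised
  compatibly gives a short exact sequence in `Rep k G`;

and the tensor product model as a functor:

* `tensorMap`, `tensorFunctor : Rep R G ⥤ Rep k G`, `tensorMap_toTensorRep` (naturality of
  `X → k ⊗ X`), `shortExact_map_tensorFunctor`, `isSmooth_tensorRep`.
-/

set_option autoImplicit false

noncomputable section

universe u

namespace Fermat.Agent.CFT.A7.BaseChange

open CategoryTheory TensorProduct Fermat.Agent.CFT.LC Fermat.Agent.CFT.A5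

variable {R k : Type u} [CommRing R] [CommRing k] [Algebra R k] {M : Submonoid R}
variable {G : Type u} [Group G]

section Smooth

variable {X : Rep.{u} R G} {Y : Rep.{u} k G} {f : X.V →+ Y.V}

/-- Scalars from `M` act injectively on `Y`. -/
theorem IsLocRep.smul_injective (_hf : IsLocRep M X Y f)
    (hM : ∀ s ∈ M, IsUnit (algebraMap R k s)) {s : R} (hs : s ∈ M) {y y' : Y.V}
    (h : algebraMap R k s • y = algebraMap R k s • y') : y = y' := by
  obtain ⟨u, hu⟩ := hM s hs
  have := congrArg (fun z => (↑u⁻¹ : k) • z) h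
  simpa [← hu, smul_smul] using this

/-- The localisation of a smooth module is smooth. -/
theorem IsLocRep.isSmooth (hf : IsLocRep M X Y f) (hM : ∀ s ∈ M, IsUnit (algebraMap R k s))
    (𝒰 : Levels G) (hX : IsSmooth 𝒰 X) : IsSmooth 𝒰 Y := by
  intro y
  obtain ⟨s, hs, x, hx⟩ := hf.surj y
  obtain ⟨U, hU, hfix⟩ := hX x
  refine ⟨U, hU, fun g hg => ?_⟩
  apply hf.smul_injective hM hs
  rw [← LinearMap.map_smul, hx, ← hf.map_ρ, hfix g hg]

end Smooth

section Exact

variable {X X' X'' : Rep.{u} R G} {Y Y' Y'' : Rep.{u} k G} {f : X.V →+ Y.V} {f' : X'.V →+ Y'.V}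
  {f'' : X''.V →+ Y''.V}

/-- Injectivity is preserved by localisation. -/
theorem IsLocRep.injective_of_injective (hf : IsLocRep M X Y f) (hf' : IsLocRep M X' Y' f')
    (hM : ∀ s ∈ M, IsUnit (algebraMap R k s)) (a : X ⟶ X') (a' : Y ⟶ Y')
    (ha : ∀ x, f' (a.hom x) = a'.hom (f x)) (hinj : Function.Injective a.hom) :
    Function.Injective a'.hom := by
  rw [injective_iff_map_eq_zero]
  intro y hy
  obtain ⟨s, hs, x, hx⟩ := hf.surj y
  have h1 : f' (a.hom x) = 0 := by
    rw [ha, ← hx, _root_.map_smul a'.hom, hy, smul_zero]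
  obtain ⟨t, ht, h2⟩ := hf'.eq_zero _ h1
  have h3 : t • x = 0 := by
    apply hinj
    rw [_root_.map_smul a.hom, h2, map_zero]
  have h4 : algebraMap R k t • algebraMap R k s • y = algebraMap R k t • (0 : Y.V) := by
    rw [hx, ← hf.map_smul, h3, map_zero, smul_zero]
  have h5 := hf.smul_injective hM ht h4
  rw [← smul_zero (algebraMap R k s)] at h5
  exact hf.smul_injective hM hs h5

/-- Surjectivity is preserved by localisation. -/
theorem IsLocRep.surjective_of_surjective (_hf : IsLocRep M X Y f) (hf' : IsLocRep M X' Y' f')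
    (hM : ∀ s ∈ M, IsUnit (algebraMap R k s)) (a : X ⟶ X') (a' : Y ⟶ Y')
    (ha : ∀ x, f' (a.hom x) = a'.hom (f x)) (hsurj : Function.Surjective a.hom) :
    Function.Surjective a'.hom := by
  intro y'
  obtain ⟨s, hs, x', hx'⟩ := hf'.surj y'
  obtain ⟨x, rfl⟩ := hsurj x'
  obtain ⟨u, hu⟩ := hM s hs
  refine ⟨(↑u⁻¹ : k) • f x, ?_⟩
  rw [_root_.map_smul a'.hom, ← ha, ← hx', ← hu, smul_smul, Units.inv_mul, one_smul]

/-- The composite of the localised maps vanishes if the original composite does. -/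
theorem IsLocRep.comp_eq_zero (hf : IsLocRep M X Y f) (_hf' : IsLocRep M X' Y' f')
    (hf'' : IsLocRep M X'' Y'' f'') (hM : ∀ s ∈ M, IsUnit (algebraMap R k s))
    (a : X ⟶ X') (b : X' ⟶ X'') (a' : Y ⟶ Y') (b' : Y' ⟶ Y'')
    (ha : ∀ x, f' (a.hom x) = a'.hom (f x)) (hb : ∀ x, f'' (b.hom x) = b'.hom (f' x))
    (w : ∀ x, b.hom (a.hom x) = 0) (y : Y.V) : b'.hom (a'.hom y) = 0 := by
  obtain ⟨s, hs, x, hx⟩ := hf.surj y
  have h1 : algebraMap R k s • b'.hom (a'.hom y) = algebraMap R k s • (0 : Y''.V) := by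
    rw [← _root_.map_smul b'.hom, ← _root_.map_smul a'.hom, hx, ← ha, ← hb, w, map_zero, smul_zero]
  exact hf''.smul_injective hM hs h1

/-- Exactness in the middle is preserved by localisation. -/
theorem IsLocRep.exact_of_exact (hf : IsLocRep M X Y f) (hf' : IsLocRep M X' Y' f')
    (hf'' : IsLocRep M X'' Y'' f'') (hM : ∀ s ∈ M, IsUnit (algebraMap R k s))
    (a : X ⟶ X') (b : X' ⟶ X'') (a' : Y ⟶ Y') (b' : Y' ⟶ Y'')
    (ha : ∀ x, f' (a.hom x) = a'.hom (f x)) (hb : ∀ x, f'' (b.hom x) = b'.hom (f' x))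
    (hex : ∀ x', b.hom x' = 0 → ∃ x, a.hom x = x') (y' : Y'.V) (hy' : b'.hom y' = 0) :
    ∃ y, a'.hom y = y' := by
  obtain ⟨s, hs, x', hx'⟩ := hf'.surj y'
  have h1 : f'' (b.hom x') = 0 := by
    rw [hb, ← hx', _root_.map_smul b'.hom, hy', smul_zero]
  obtain ⟨t, ht, h2⟩ := hf''.eq_zero _ h1
  have h3 : b.hom (t • x') = 0 := by rw [_root_.map_smul b.hom, h2]
  obtain ⟨x, hx⟩ := hex _ h3
  obtain ⟨u, hu⟩ := hM s hs
  obtain ⟨v, hv⟩ := hM t ht
  refine ⟨((↑u⁻¹ : k) * (↑v⁻¹ : k)) • f x, ?_⟩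
  rw [_root_.map_smul a'.hom, ← ha, hx, hf'.map_smul, ← hx', ← hu, ← hv, smul_smul, smul_smul]
  have : (↑u⁻¹ : k) * ↑v⁻¹ * ↑v * ↑u = 1 := by
    rw [mul_assoc (↑u⁻¹ : k), Units.inv_mul, mul_one, Units.inv_mul]
  rw [this, one_smul]

/-- **Localisation of coefficients is exact**: a short exact sequence of representations whose
terms are localised compatibly gives a short exact sequence. -/
theorem IsLocRep.shortExact (hf : IsLocRep M X Y f) (hf' : IsLocRep M X' Y' f')
    (hf'' : IsLocRep M X'' Y'' f'') (hM : ∀ s ∈ M, IsUnit (algebraMap R k s))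
    (a : X ⟶ X') (b : X' ⟶ X'') (w : a ≫ b = 0) (a' : Y ⟶ Y') (b' : Y' ⟶ Y'')
    (ha : ∀ x, f' (a.hom x) = a'.hom (f x)) (hb : ∀ x, f'' (b.hom x) = b'.hom (f' x))
    (hS : (ShortComplex.mk a b w).ShortExact) :
    ∃ w' : a' ≫ b' = 0, (ShortComplex.mk a' b' w').ShortExact := by
  have hw : ∀ x, b.hom (a.hom x) = 0 := fun x => by
    have := congrArg (fun φ => φ.hom x) w
    simpa using this
  have hinj : Function.Injective a.hom := by
    haveI := hS.mono_f
    exact (Rep.mono_iff_injective a).mp inferInstance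
  have hsurj : Function.Surjective b.hom := by
    haveI := hS.epi_g
    exact (Rep.epi_iff_surjective b).mp inferInstance
  have hex : ∀ x', b.hom x' = 0 → ∃ x, a.hom x = x' := by
    intro x' hx'
    have h := hS.exact
    rw [← ShortComplex.exact_map_iff_of_faithful _ (forget₂ (Rep.{u} R G) (ModuleCat.{u} R)),
      ShortComplex.moduleCat_exact_iff] at h
    exact h x' hx'
  have w' : a' ≫ b' = 0 := by
    ext y
    exact hf.comp_eq_zero hf' hf'' hM a b a' b' ha hb hw y
  exact ⟨w', shortExact_of_functions a' b' w'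
    (hf.injective_of_injective hf' hM a a' ha hinj)
    (hf'.surjective_of_surjective hf'' hM b b' hb hsurj)
    (hf.exact_of_exact hf' hf'' hM a b a' b' ha hb hex)⟩

end Exact

/-! ### The tensor product model as a functor -/

section Functor

variable (k)

/-- The morphism `k ⊗ X ⟶ k ⊗ X'` induced by `φ : X ⟶ X'`. -/
def tensorMap {X X' : Rep.{u} R G} (φ : X ⟶ X') :
    tensorRep (k := k) X ⟶ tensorRep (k := k) X' :=
  Rep.ofHom ⟨LinearMap.baseChange k φ.hom.toLinearMap, fun g => by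
    apply TensorProduct.AlgebraTensorModule.curry_injective
    ext x
    show LinearMap.baseChange k φ.hom.toLinearMap ((tensorRep (k := k) X).ρ g (1 ⊗ₜ x)) =
      (tensorRep (k := k) X').ρ g (LinearMap.baseChange k φ.hom.toLinearMap (1 ⊗ₜ x))
    rw [tensorRep_ρ_tmul, LinearMap.baseChange_tmul, LinearMap.baseChange_tmul, tensorRep_ρ_tmul]
    congr 1
    exact Rep.hom_comm_apply φ g x⟩

theorem tensorMap_tmul {X X' : Rep.{u} R G} (φ : X ⟶ X') (c : k) (x : X.V) :
    (tensorMap k φ).hom (c ⊗ₜ x) = c ⊗ₜ φ.hom x :=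
  LinearMap.baseChange_tmul _ c x

/-- Naturality of `X → k ⊗ X`. -/
theorem tensorMap_toTensorRep {X X' : Rep.{u} R G} (φ : X ⟶ X') (x : X.V) :
    toTensorRep (k := k) X' (φ.hom x) = (tensorMap k φ).hom (toTensorRep (k := k) X x) :=
  (tensorMap_tmul k φ 1 x).symm

theorem tensorMap_id (X : Rep.{u} R G) : tensorMap k (𝟙 X) = 𝟙 (tensorRep (k := k) X) := by
  ext : 2
  apply TensorProduct.AlgebraTensorModule.curry_injective
  ext x
  exact tensorMap_tmul k (𝟙 X) 1 x

theorem tensorMap_comp {X X' X'' : Rep.{u} R G} (φ : X ⟶ X') (ψ : X' ⟶ X'') :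
    tensorMap k (φ ≫ ψ) = tensorMap k φ ≫ tensorMap k ψ := by
  ext : 2
  apply TensorProduct.AlgebraTensorModule.curry_injective
  ext x
  show (tensorMap k (φ ≫ ψ)).hom (1 ⊗ₜ x) = (tensorMap k ψ).hom ((tensorMap k φ).hom (1 ⊗ₜ x))
  rw [tensorMap_tmul, tensorMap_tmul, tensorMap_tmul]
  rfl

/-- Extension of scalars `Rep R G ⥤ Rep k G`. -/
def tensorFunctor : Rep.{u} R G ⥤ Rep.{u} k G where
  obj X := tensorRep (k := k) X
  map φ := tensorMap k φ
  map_id X := tensorMap_id k X
  map_comp φ ψ := tensorMap_comp k φ ψ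

theorem tensorMap_add {X X' : Rep.{u} R G} (φ ψ : X ⟶ X') :
    tensorMap k (φ + ψ) = tensorMap k φ + tensorMap k ψ := by
  ext : 2
  apply TensorProduct.AlgebraTensorModule.curry_injective
  ext x
  show (tensorMap k (φ + ψ)).hom (1 ⊗ₜ x) =
    (tensorMap k φ).hom (1 ⊗ₜ x) + (tensorMap k ψ).hom (1 ⊗ₜ x)
  rw [tensorMap_tmul, tensorMap_tmul, tensorMap_tmul, ← TensorProduct.tmul_add]
  rfl

instance tensorFunctor_additive : (tensorFunctor (R := R) (G := G) k).Additive where
  map_add {_ _ φ ψ} := tensorMap_add k φ ψ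

variable {k} (M)

/-- The localised module `k ⊗ X` is smooth when `X` is. -/
theorem isSmooth_tensorRep [IsLocalization M k] (𝒰 : Levels G) {X : Rep.{u} R G}
    (hX : IsSmooth 𝒰 X) : IsSmooth 𝒰 (tensorRep (k := k) X) :=
  (isLocRep_tensorRep M X).isSmooth (fun s hs => IsLocalization.map_units k ⟨s, hs⟩) 𝒰 hX

/-- **Localisation is exact**: `k ⊗ -` preserves short exact sequences of representations, for
`k` a localisation of `R`. -/
theorem shortExact_map_tensorFunctor [IsLocalization M k] (S : ShortComplex (Rep.{u} R G))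
    (hS : S.ShortExact) : (S.map (tensorFunctor (G := G) k)).ShortExact := by
  obtain ⟨_, h⟩ := (isLocRep_tensorRep (k := k) M S.X₁).shortExact (isLocRep_tensorRep M S.X₂)
    (isLocRep_tensorRep M S.X₃) (fun s hs => IsLocalization.map_units k ⟨s, hs⟩)
    S.f S.g S.zero (tensorMap k S.f) (tensorMap k S.g)
    (tensorMap_toTensorRep k S.f) (tensorMap_toTensorRep k S.g) hS
  exact h

end Functor

end Fermat.Agent.CFT.A7.BaseChange
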