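import Mathlib
import Fermat.Agent.CFT.A7.BaseChange
import Fermat.Agent.CFT.Cup.Functorial

/-!
# PROJECT C, slice A7.0 (supplement): localisation commutes with invariants, naturality of `locH`

In the setting of `A7/BaseChange.lean` (`hf : IsLocRep M X Y f`: `Y : Rep k G` is the
`G`-equivariant localisation at `M ⊆ R` of `X : Rep R G`):

* `IsLocRep.invMap`, `IsLocRep.quotientToInvariants` : for a finite normal subgroup `N`, the
  restriction of `f` exhibits `Y^N` as the `G ⧸ N`-equivariant localisation of `X^N`
  (localisation commutes with invariants of a finite group);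
* `IsLocRep.locH_map` : the maps `locH` commute with `groupCohomology.map` along an arbitrary
  group homomorphism and compatible coefficient morphisms; special cases for restriction and
  inflation: `IsLocRep.locH_res`, `IsLocRep.locH_inf`.
-/

set_option autoImplicit false

noncomputable section

universe u

namespace Fermat.Agent.CFT.A7.BaseChange

open Fermat.Agent.CFT.Cup groupCohomology CategoryTheory

variable {R k : Type u} [CommRing R] [CommRing k] [Algebra R k] {M : Submonoid R}
variable {G : Type u} [Group G]

section Invariants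

variable {X : Rep.{u} R G} {Y : Rep.{u} k G} {f : X.V →+ Y.V}

/-- The restriction of `f` to the invariants of a normal subgroup. -/
def IsLocRep.invMap (hf : IsLocRep M X Y f) (N : Subgroup G) [N.Normal] :
    (X.quotientToInvariants N).V →+ (Y.quotientToInvariants N).V where
  toFun x := ⟨f x.1, fun n => by
    have h := x.2 n
    change Y.ρ (n : G) (f x.1) = f x.1
    rw [← hf.map_ρ]
    exact congrArg f h⟩
  map_zero' := Subtype.ext (map_zero f)
  map_add' a b := Subtype.ext (map_add f _ _)

@[simp]
theorem IsLocRep.invMap_coe (hf : IsLocRep M X Y f) (N : Subgroup G) [N.Normal]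
    (x : (X.quotientToInvariants N).V) : ((hf.invMap N x).1 : Y.V) = f x.1 := rfl

/-- **Localisation commutes with invariants of a finite group.** -/
theorem IsLocRep.quotientToInvariants (hf : IsLocRep M X Y f) (N : Subgroup G) [N.Normal]
    [Finite N] :
    IsLocRep M (X.quotientToInvariants N) (Y.quotientToInvariants N) (hf.invMap N) where
  map_smul r x := Subtype.ext (hf.map_smul r x.1)
  map_ρ g x := by
    induction g using QuotientGroup.induction_on with
    | H g => exact Subtype.ext (hf.map_ρ g x.1)
  surj y := by
    obtain ⟨s, hs, x, hx⟩ := hf.surj y.1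
    -- `f (n x - x) = 0` for `n ∈ N`
    have h1 : ∀ n : N, f (X.ρ (n : G) x - x) = 0 := by
      intro n
      have hy : Y.ρ (n : G) y.1 = y.1 := y.2 n
      rw [map_sub, hf.map_ρ, ← hx, LinearMap.map_smul, hy, sub_self]
    obtain ⟨t, ht, htx⟩ := exists_common_annihilator (M := M) (X := X)
      (fun n : N => X.ρ (n : G) x - x) (fun n => hf.eq_zero _ (h1 n))
    have hinv : ∀ n : N, X.ρ (n : G) (t • x) = t • x := by
      intro n
      have := htx n
      rw [smul_sub, sub_eq_zero] at this
      rw [LinearMap.map_smul, this]
    refine ⟨t * s, M.mul_mem ht hs, ⟨t • x, fun n => hinv n⟩, ?_⟩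
    apply Subtype.ext
    change algebraMap R k (t * s) • y.1 = f (t • x)
    rw [hf.map_smul, ← hx, smul_smul, ← map_mul]
  eq_zero x hx := by
    have h0 : f x.1 = 0 := congrArg Subtype.val hx
    obtain ⟨s, hs, hsx⟩ := hf.eq_zero x.1 h0
    exact ⟨s, hs, Subtype.ext hsx⟩

end Invariants

section Naturality

variable {H : Type u} [Group H]
variable {X : Rep.{u} R G} {Y : Rep.{u} k G} {f : X.V →+ Y.V}
variable {X' : Rep.{u} R H} {Y' : Rep.{u} k H} {f' : X'.V →+ Y'.V}

/-- Naturality of `locZ` with respect to `Cup.mapZ`. -/
theorem IsLocRep.locZ_mapZ (hf : IsLocRep M X Y f) (hf' : IsLocRep M X' Y' f') (φ : H →* G)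
    (a : Rep.res φ X ⟶ X') (b : Rep.res φ Y ⟶ Y') (hab : ∀ x : X.V, f' (a.hom x) = b.hom (f x))
    (n : ℕ) (z : Z X n) :
    hf'.locZ n (mapZ φ a n z) = mapZ φ b n (hf.locZ n z) := by
  apply Subtype.ext
  funext g
  change f' (a.hom (z.1 (φ ∘ g))) = b.hom (f (z.1 (φ ∘ g)))
  exact hab _

/-- **Naturality of `locH`**: localisation of the coefficients commutes with
`groupCohomology.map` along any group homomorphism `φ : H →* G` and compatible coefficient
morphisms. -/
theorem IsLocRep.locH_map (hf : IsLocRep M X Y f) (hf' : IsLocRep M X' Y' f') (φ : H →* G)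
    (a : Rep.res φ X ⟶ X') (b : Rep.res φ Y ⟶ Y') (hab : ∀ x : X.V, f' (a.hom x) = b.hom (f x))
    (n : ℕ) (c : groupCohomology X n) :
    hf'.locH n (groupCohomology.map φ a n c) = groupCohomology.map φ b n (hf.locH n c) := by
  induction c using cls_induction_on with
  | h z =>
    rw [map_cls, hf'.locH_cls, hf.locH_cls, map_cls, hf.locZ_mapZ hf' φ a b hab]

/-- `locH` commutes with restriction to a subgroup (or along any group homomorphism). -/
theorem IsLocRep.locH_res (hf : IsLocRep M X Y f) (φ : H →* G) (n : ℕ)
    (c : groupCohomology X n) :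
    (hf.res φ).locH n (groupCohomology.map φ (𝟙 (Rep.res φ X)) n c) =
      groupCohomology.map φ (𝟙 (Rep.res φ Y)) n (hf.locH n c) :=
  hf.locH_map (hf.res φ) φ (𝟙 _) (𝟙 _) (fun _ => rfl) n c

/-- `locH` commutes with inflation from the quotient by a finite normal subgroup. -/
theorem IsLocRep.locH_inf (hf : IsLocRep M X Y f) (N : Subgroup G) [N.Normal] [Finite N] (n : ℕ)
    (c : groupCohomology (X.quotientToInvariants N) n) :
    hf.locH n (groupCohomology.map (QuotientGroup.mk' N)
        (Rep.ofHom <| X.ρ.quotientToInvariants_lift N) n c) =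
      groupCohomology.map (QuotientGroup.mk' N)
        (Rep.ofHom <| Y.ρ.quotientToInvariants_lift N) n
        ((hf.quotientToInvariants N).locH n c) :=
  (hf.quotientToInvariants N).locH_map hf (QuotientGroup.mk' N) _ _ (fun _ => rfl) n c

end Naturality

end Fermat.Agent.CFT.A7.BaseChange
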