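import Mathlib
import Fermat.Agent.CFT.A7.BaseChange

/-!
# PROJECT C, slice A7.0 (supplement): the universal property of `IsLocRep`

`hf : IsLocRep M X Y f` exhibits `Y : Rep k G` as the localisation of `X : Rep R G` at `M`, for
`k` a localisation of `R` at `M`.  Every additive, `R → k`-semilinear, `G`-equivariant map
`g : X → Y'` into a representation `Y' : Rep k G` factors uniquely through `f`:

* `IsLocRep.desc hf g hg₁ hg₂ : Y ⟶ Y'` with `IsLocRep.desc_apply : (desc ..).hom (f x) = g x`;
* `IsLocRep.desc_unique`, `IsLocRep.hom_ext`;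
* `IsLocRep.descHom hf hf' a : Y ⟶ Y'` for `a : X ⟶ X'` and a second localisation `hf'`
  (the localisation of a morphism), with `descHom_apply : f' (a x) = (descHom ..) (f x)`.

This constructs the comparison morphisms between arbitrary models of `X ⊗ k` (no tensor products).
-/

set_option autoImplicit false

noncomputable section

universe u

namespace Fermat.Agent.CFT.A7.BaseChange

open CategoryTheory

variable {R k : Type u} [CommRing R] [CommRing k] [Algebra R k] {M : Submonoid R}
  [IsLocalization M k]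
variable {G : Type u} [Group G]
variable {X : Rep.{u} R G} {Y Y' : Rep.{u} k G} {f : X.V →+ Y.V}

omit [IsLocalization M k] in
/-- cancellation of a scalar which is a unit -/
theorem smul_cancel_of_isUnit {V : Type*} [AddCommGroup V] [Module k V] {c : k} (hc : IsUnit c)
    {a b : V} (h : c • a = c • b) : a = b := by
  obtain ⟨u, rfl⟩ := hc
  have := congrArg (fun z => (↑u⁻¹ : k) • z) h
  simpa [smul_smul] using this

variable (M) in
theorem isUnit_algebraMap_of_mem {s : R} (hs : s ∈ M) : IsUnit (algebraMap R k s) :=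
  IsLocalization.map_units k ⟨s, hs⟩

section Lift

variable (hf : IsLocRep M X Y f) (g : X.V →+ Y'.V)
  (hg₁ : ∀ (r : R) (x : X.V), g (r • x) = algebraMap R k r • g x)

include hf hg₁

/-- Two presentations of the same element give the same value. -/
theorem IsLocRep.desc_wd {y : Y.V} {s s' : R} {x x' : X.V}
    (h : algebraMap R k s • y = f x) (h' : algebraMap R k s' • y = f x') :
    algebraMap R k s' • g x = algebraMap R k s • g x' := by
  have h0 : f (s' • x - s • x') = 0 := by
    rw [map_sub, hf.map_smul, hf.map_smul, ← h, ← h', smul_smul, smul_smul, mul_comm, sub_self]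
  obtain ⟨t, ht, htx⟩ := hf.eq_zero _ h0
  have h1 : algebraMap R k t • (algebraMap R k s' • g x) =
      algebraMap R k t • (algebraMap R k s • g x') := by
    rw [← hg₁, ← hg₁, ← hg₁, ← hg₁, ← sub_eq_zero, ← map_sub, ← smul_sub, htx, map_zero]
  exact smul_cancel_of_isUnit (isUnit_algebraMap_of_mem M ht) h1

/-- The underlying function of `desc`. -/
def IsLocRep.descFun (y : Y.V) : Y'.V :=
  (↑((isUnit_algebraMap_of_mem (k := k) M (hf.surj y).choose_spec.1).unit)⁻¹ : k) •
    g (hf.surj y).choose_spec.2.choose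

/-- Characterisation of `descFun`: if `s • y = f x` then `s • descFun y = g x`. -/
theorem IsLocRep.smul_descFun {y : Y.V} {s : R} (_hs : s ∈ M) {x : X.V}
    (h : algebraMap R k s • y = f x) :
    algebraMap R k s • hf.descFun g y = g x := by
  have hx₀ := (hf.surj y).choose_spec.2.choose_spec
  have hwd := hf.desc_wd g hg₁ hx₀ h
  unfold IsLocRep.descFun
  rw [smul_comm, hwd, smul_smul, IsUnit.val_inv_mul, one_smul]

theorem IsLocRep.descFun_apply (x : X.V) : hf.descFun g (f x) = g x := by
  have := hf.smul_descFun g hg₁ (y := f x) (s := 1) (Submonoid.one_mem M) (x := x)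
    (by rw [map_one, one_smul])
  rwa [map_one, one_smul] at this

theorem IsLocRep.descFun_add (y₁ y₂ : Y.V) :
    hf.descFun g (y₁ + y₂) = hf.descFun g y₁ + hf.descFun g y₂ := by
  obtain ⟨s₁, hs₁, x₁, hx₁⟩ := hf.surj y₁
  obtain ⟨s₂, hs₂, x₂, hx₂⟩ := hf.surj y₂
  have h12 : algebraMap R k (s₁ * s₂) • (y₁ + y₂) = f (s₂ • x₁ + s₁ • x₂) := by
    rw [map_add, hf.map_smul, hf.map_smul, ← hx₁, ← hx₂, smul_add, smul_smul, smul_smul, map_mul,
      mul_comm]
  have h := hf.smul_descFun g hg₁ (Submonoid.mul_mem M hs₁ hs₂) h12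
  apply smul_cancel_of_isUnit (isUnit_algebraMap_of_mem (k := k) M (Submonoid.mul_mem M hs₁ hs₂))
  rw [h, map_add, hg₁, hg₁, ← hf.smul_descFun g hg₁ hs₁ hx₁, ← hf.smul_descFun g hg₁ hs₂ hx₂,
    smul_add, smul_smul, smul_smul, map_mul, mul_comm]

theorem IsLocRep.descFun_algebraMap_smul (r : R) (y : Y.V) :
    hf.descFun g (algebraMap R k r • y) = algebraMap R k r • hf.descFun g y := by
  obtain ⟨s, hs, x, hx⟩ := hf.surj y
  have h1 : algebraMap R k s • (algebraMap R k r • y) = f (r • x) := by
    rw [hf.map_smul, ← hx, smul_comm]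
  have h := hf.smul_descFun g hg₁ hs h1
  apply smul_cancel_of_isUnit (isUnit_algebraMap_of_mem (k := k) M hs)
  rw [h, hg₁, ← hf.smul_descFun g hg₁ hs hx, smul_comm]

theorem IsLocRep.descFun_smul (c : k) (y : Y.V) :
    hf.descFun g (c • y) = c • hf.descFun g y := by
  obtain ⟨⟨r, s⟩, hrs⟩ := IsLocalization.surj M c
  have hs : (s : R) ∈ M := s.2
  apply smul_cancel_of_isUnit (isUnit_algebraMap_of_mem (k := k) M hs)
  rw [← hf.descFun_algebraMap_smul g hg₁, smul_smul, smul_smul, mul_comm, hrs,
    hf.descFun_algebraMap_smul g hg₁]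

variable (hg₂ : ∀ (σ : G) (x : X.V), g (X.ρ σ x) = Y'.ρ σ (g x))

include hg₂ in
theorem IsLocRep.descFun_ρ (σ : G) (y : Y.V) :
    hf.descFun g (Y.ρ σ y) = Y'.ρ σ (hf.descFun g y) := by
  obtain ⟨s, hs, x, hx⟩ := hf.surj y
  have h1 : algebraMap R k s • Y.ρ σ y = f (X.ρ σ x) := by
    rw [hf.map_ρ, ← hx, LinearMap.map_smul]
  have h := hf.smul_descFun g hg₁ hs h1
  apply smul_cancel_of_isUnit (isUnit_algebraMap_of_mem (k := k) M hs)
  rw [h, hg₂, ← hf.smul_descFun g hg₁ hs hx, LinearMap.map_smul]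

/-- **The universal property of `IsLocRep`**: the morphism `Y ⟶ Y'` induced by a semilinear
equivariant map `g : X → Y'`. -/
def IsLocRep.desc : Y ⟶ Y' :=
  Rep.ofHom
    ⟨{  toFun := hf.descFun g
        map_add' := hf.descFun_add g hg₁
        map_smul' := hf.descFun_smul g hg₁ },
      fun σ => by
        ext y
        exact hf.descFun_ρ g hg₁ hg₂ σ y⟩

@[simp]
theorem IsLocRep.desc_apply (x : X.V) : (hf.desc g hg₁ hg₂).hom (f x) = g x :=
  hf.descFun_apply g hg₁ x

omit hg₁ in
/-- Morphisms out of a localisation are determined on the image of `f`. -/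
theorem IsLocRep.hom_ext {b b' : Y ⟶ Y'} (h : ∀ x : X.V, b.hom (f x) = b'.hom (f x)) :
    b = b' := by
  apply Rep.hom_ext
  ext y
  obtain ⟨s, hs, x, hx⟩ := hf.surj y
  change b.hom y = b'.hom y
  apply smul_cancel_of_isUnit (isUnit_algebraMap_of_mem (k := k) M hs)
  have e1 : algebraMap R k s • b.hom y = b.hom (algebraMap R k s • y) := (_root_.map_smul _ _ _).symm
  have e2 : algebraMap R k s • b'.hom y = b'.hom (algebraMap R k s • y) := (_root_.map_smul _ _ _).symm
  rw [e1, e2, hx, h]

theorem IsLocRep.desc_unique (b : Y ⟶ Y') (hb : ∀ x : X.V, b.hom (f x) = g x) :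
    b = hf.desc g hg₁ hg₂ :=
  hf.hom_ext (fun x => by rw [hb, hf.desc_apply])

end Lift

section LiftHom

variable {X' : Rep.{u} R G} {f' : X'.V →+ Y'.V}
  (hf : IsLocRep M X Y f) (hf' : IsLocRep M X' Y' f') (a : X ⟶ X')

/-- **Localisation of a morphism**: the morphism `Y ⟶ Y'` between arbitrary localisations induced
by `a : X ⟶ X'`. -/
def IsLocRep.descHom : Y ⟶ Y' :=
  hf.desc (f'.comp a.hom.toLinearMap.toAddMonoidHom)
    (fun r x => by
      change f' (a.hom (r • x)) = algebraMap R k r • f' (a.hom x)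
      rw [_root_.map_smul, hf'.map_smul])
    (fun σ x => by
      change f' (a.hom (X.ρ σ x)) = Y'.ρ σ (f' (a.hom x))
      rw [Rep.hom_comm_apply, hf'.map_ρ])

/-- The compatibility `hab` consumed by `IsLocRep.locH_map`, `CSTransfer.cohIso_of_isLocRep`, ... -/
theorem IsLocRep.descHom_apply (x : X.V) :
    f' (a.hom x) = (hf.descHom hf' a).hom (f x) :=
  (hf.desc_apply (f'.comp a.hom.toLinearMap.toAddMonoidHom) _ _ x).symm

end LiftHom

end Fermat.Agent.CFT.A7.BaseChange
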