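import Mathlib
import Fermat.Agent.CFT.A7.BaseChangeInv
import Fermat.Agent.CFT.C6.TateArgument

/-!
# PROJECT C, slice A7.0 (supplement): localisation of coefficients vs. the maps of Tate's argument

`hf : IsLocRep M X Y f` (`Y : Rep k Γ` the equivariant localisation of `X : Rep R Γ`, e.g.
`R = ℤ`, `k = ℤ_(p)`).  The localisation maps `locH` commute with the maps used in helper17's
`C6/TateArgument.lean`:

* `locH_inf₂`, `locH_res₂` (inflation / restriction in degree `2`);
* `locH_infQuot` (inflation between two finite quotients), `locH_baseChange` (base change of a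
  layer to a subgroup);
* `h1Vanishes_of_isLocRep` : `H1Vanishes Y S` as soon as `H¹(S, X)` is `M`-torsion.
-/

set_option autoImplicit false

noncomputable section

universe u

namespace Fermat.Agent.CFT.A7.BaseChange

open Fermat.Agent.CFT.Cup Fermat.Agent.CFT.InfRes2 Fermat.Agent.CFT.C6.TateArgument
  groupCohomology CategoryTheory

variable {R k : Type u} [CommRing R] [CommRing k] [Algebra R k] {M : Submonoid R}
variable {Γ : Type u} [Group Γ]
variable {X : Rep.{u} R Γ} {Y : Rep.{u} k Γ} {f : X.V →+ Y.V}

/-- `locH` commutes with `inf₂`. -/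
theorem IsLocRep.locH_inf₂ (hf : IsLocRep M X Y f) (N : Subgroup Γ) [N.Normal] [Finite N]
    (c : groupCohomology (X.quotientToInvariants N) 2) :
    hf.locH 2 (inf₂ X N c) = inf₂ Y N ((hf.quotientToInvariants N).locH 2 c) :=
  hf.locH_inf N 2 c

/-- `locH` commutes with `res₂`. -/
theorem IsLocRep.locH_res₂ (hf : IsLocRep M X Y f) (S : Subgroup Γ)
    (c : groupCohomology X 2) :
    (hf.res S.subtype).locH 2 (res₂ X S c) = res₂ Y S (hf.locH 2 c) :=
  hf.locH_res S.subtype 2 c

/-- `locH` commutes with inflation between two finite quotients. -/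
theorem IsLocRep.locH_infQuot (hf : IsLocRep M X Y f) (H H' : Subgroup Γ) [H.Normal] [H'.Normal]
    [Finite H] [Finite H'] (h : H' ≤ H) (c : groupCohomology (X.quotientToInvariants H) 2) :
    (hf.quotientToInvariants H').locH 2 (infQuot X H H' h c) =
      infQuot Y H H' h ((hf.quotientToInvariants H).locH 2 c) :=
  (hf.quotientToInvariants H).locH_map (hf.quotientToInvariants H') (quotToQuot H H' h)
    (invToInv X H H' h) (invToInv Y H H' h) (fun _ => rfl) 2 c

/-- `N ∩ S` is finite when `N` is (automatic when `Γ` is finite). -/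
theorem finite_subgroupOf (N S : Subgroup Γ) [Finite N] : Finite (N.subgroupOf S) :=
  Finite.of_injective (fun x : N.subgroupOf S => (⟨(x.1 : Γ), x.2⟩ : N))
    (fun _ _ h => Subtype.ext (Subtype.ext (congrArg (fun y : N => (y : Γ)) h)))

/-- `locH` commutes with the base change of a layer to a subgroup. -/
theorem IsLocRep.locH_baseChange (hf : IsLocRep M X Y f) (N : Subgroup Γ) [N.Normal] [Finite N]
    (S : Subgroup Γ) [Finite (N.subgroupOf S)] (c : groupCohomology (X.quotientToInvariants N) 2) :
    ((hf.res S.subtype).quotientToInvariants (N.subgroupOf S)).locH 2 (baseChange X N S c) =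
      baseChange Y N S ((hf.quotientToInvariants N).locH 2 c) :=
  (hf.quotientToInvariants N).locH_map
    ((hf.res S.subtype).quotientToInvariants (N.subgroupOf S)) (subQuotToQuot N S)
    (invToSubInv X N S) (invToSubInv Y N S) (fun _ => rfl) 2 c

/-- `locH` commutes with `infSub`. -/
theorem IsLocRep.locH_infSub (hf : IsLocRep M X Y f) (H : Subgroup Γ) [H.Normal] [Finite H]
    (S : Subgroup Γ) (S' : Subgroup (Γ ⧸ H)) (hS : S ≤ S'.comap (QuotientGroup.mk' H))
    (c : groupCohomology (Rep.res S'.subtype (X.quotientToInvariants H)) 2) :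
    (hf.res S.subtype).locH 2 (infSub X H S S' hS c) =
      infSub Y H S S' hS (((hf.quotientToInvariants H).res S'.subtype).locH 2 c) :=
  ((hf.quotientToInvariants H).res S'.subtype).locH_map (hf.res S.subtype) (projSub H S S' hS)
    (inclSub X H S S' hS) (inclSub Y H S S' hS) (fun _ => rfl) 2 c

/-- `H1Vanishes Y S` (elementwise `H¹(S, Y) = 0`) as soon as `H¹(S, X)` is `M`-torsion. -/
theorem h1Vanishes_of_isLocRep (hf : IsLocRep M X Y f)
    (hM : ∀ s ∈ M, IsUnit (algebraMap R k s)) (S : Subgroup Γ) [S.Normal] [Finite S]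
    (h : ∀ c : groupCohomology (Rep.res S.subtype X) 1, ∃ s ∈ M, s • c = 0) :
    H1Vanishes Y S :=
  h1Vanishes_of_isZero (((hf.res S.subtype).isZero_iff hM 1).2 h)

end Fermat.Agent.CFT.A7.BaseChange
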