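import Mathlib
import Fermat.Agent.CFT.A7.BaseChange

/-!
# PROJECT C, slice A7.0 (part 5): functoriality and uniqueness of the localised representation

`IsLocRep M X Y f` determines `Y` up to unique isomorphism: for two localisations
`f : X → Y` (`G`-modules), `f' : X' → Y'` (`G'`-modules), a group isomorphism `e : G ≃* G'` and an
additive, `R`-linear, `e`-equivariant map `a : X → X'` there is a unique `k`-linear, `e`-equivariant
`IsLocRep.lift : Y →ₗ[k] Y'` with `lift ∘ f = f' ∘ a` (`k` the localisation of `R` at `M`), and it is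
an isomorphism when `a` is (`IsLocRep.liftEquiv`).
-/

set_option autoImplicit false

noncomputable section

universe u

namespace Fermat.Agent.CFT.A7.BaseChange

variable {R k : Type u} [CommRing R] [CommRing k] [Algebra R k] {M : Submonoid R}
variable {G G' : Type u} [Group G] [Group G']
variable {X : Rep.{u} R G} {Y : Rep.{u} k G} {f : X.V →+ Y.V}
variable {X' : Rep.{u} R G'} {Y' : Rep.{u} k G'} {f' : X'.V →+ Y'.V}

/-- The graph of the lifted map: `z` corresponds to `y` if for a common denominator `s ∈ M`,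
`s • y = f x` and `s • z = f' (a x)`. -/
def LiftRel (M : Submonoid R) (f : X.V →+ Y.V) (f' : X'.V →+ Y'.V) (a : X.V →+ X'.V)
    (y : Y.V) (z : Y'.V) : Prop :=
  ∃ s ∈ M, ∃ x : X.V, algebraMap R k s • y = f x ∧ algebraMap R k s • z = f' (a x)

section Lift

variable (hf : IsLocRep M X Y f) (hf' : IsLocRep M X' Y' f')
  (hM : ∀ s ∈ M, IsUnit (algebraMap R k s)) (a : X.V →+ X'.V)
  (ha : ∀ (r : R) (x : X.V), a (r • x) = r • a x)

include hf hM in
theorem liftRel_exists (y : Y.V) : ∃ z : Y'.V, LiftRel M f f' a y z := by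
  obtain ⟨s, hs, x, hx⟩ := hf.surj y
  obtain ⟨u, hu⟩ := hM s hs
  refine ⟨(↑u⁻¹ : k) • f' (a x), s, hs, x, hx, ?_⟩
  rw [← hu, smul_smul, Units.mul_inv, one_smul]

theorem smul_inj_of_units (hM : ∀ s ∈ M, IsUnit (algebraMap R k s)) {s : R} (hs : s ∈ M)
    {z z' : Y'.V} (h : algebraMap R k s • z = algebraMap R k s • z') : z = z' := by
  obtain ⟨u, hu⟩ := hM s hs
  have := congrArg (fun w => (↑u⁻¹ : k) • w) h
  simpa [← hu, smul_smul] using this

include hf hf' hM ha in
theorem liftRel_unique {y : Y.V} {z z' : Y'.V} (h : LiftRel M f f' a y z)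
    (h' : LiftRel M f f' a y z') : z = z' := by
  obtain ⟨s, hs, x, hx, hz⟩ := h
  obtain ⟨s', hs', x', hx', hz'⟩ := h'
  -- `f (s' x - s x') = 0`
  have h1 : f (s' • x - s • x') = 0 := by
    rw [map_sub, hf.map_smul, hf.map_smul, ← hx, ← hx', smul_smul, smul_smul, mul_comm, sub_self]
  obtain ⟨t, ht, h2⟩ := hf.eq_zero _ h1
  have h3 : t • (s' • a x) = t • (s • a x') := by
    rw [← ha, ← ha, ← ha, ← ha, ← sub_eq_zero, ← map_sub, ← smul_sub, h2, map_zero]
  have h4 : algebraMap R k t • (algebraMap R k s' • f' (a x)) =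
      algebraMap R k t • (algebraMap R k s • f' (a x')) := by
    rw [← hf'.map_smul, ← hf'.map_smul, ← hf'.map_smul, ← hf'.map_smul, h3]
  have h5 := smul_inj_of_units (Y' := Y') hM ht h4
  rw [← hz, ← hz', smul_smul, smul_smul, mul_comm] at h5
  have h6 : algebraMap R k s • (algebraMap R k s' • z) =
      algebraMap R k s • (algebraMap R k s' • z') := by
    rw [smul_smul, smul_smul]; exact h5
  exact smul_inj_of_units (Y' := Y') hM hs' (smul_inj_of_units (Y' := Y') hM hs h6)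

/-- The underlying function of `IsLocRep.lift`. -/
def IsLocRep.liftFun (hf : IsLocRep M X Y f) (hM : ∀ s ∈ M, IsUnit (algebraMap R k s))
    (f' : X'.V →+ Y'.V) (a : X.V →+ X'.V) (y : Y.V) : Y'.V :=
  Classical.choose (liftRel_exists (f' := f') hf hM a y)

theorem IsLocRep.liftFun_spec (y : Y.V) : LiftRel M f f' a y (hf.liftFun hM f' a y) :=
  Classical.choose_spec (liftRel_exists (f' := f') hf hM a y)

include hf' ha in
theorem IsLocRep.liftFun_eq {y : Y.V} {z : Y'.V} (h : LiftRel M f f' a y z) :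
    hf.liftFun hM f' a y = z :=
  liftRel_unique hf hf' hM a ha (hf.liftFun_spec hM a y) h

include hf hf' ha in
theorem liftRel_add {y y₁ : Y.V} {z z₁ : Y'.V} (h : LiftRel M f f' a y z)
    (h₁ : LiftRel M f f' a y₁ z₁) : LiftRel M f f' a (y + y₁) (z + z₁) := by
  obtain ⟨s, hs, x, hx, hz⟩ := h
  obtain ⟨s₁, hs₁, x₁, hx₁, hz₁⟩ := h₁
  refine ⟨s * s₁, M.mul_mem hs hs₁, s₁ • x + s • x₁, ?_, ?_⟩
  · rw [map_add, hf.map_smul, hf.map_smul, ← hx, ← hx₁, smul_add, smul_smul, smul_smul, map_mul,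
      mul_comm]
  · rw [map_add, ha, ha, map_add, hf'.map_smul, hf'.map_smul, ← hz, ← hz₁, smul_add, smul_smul,
      smul_smul, map_mul, mul_comm]

include hf hf' ha in
theorem liftRel_smul [IsLocalization M k] (c : k) {y : Y.V} {z : Y'.V}
    (h : LiftRel M f f' a y z) : LiftRel M f f' a (c • y) (c • z) := by
  obtain ⟨s, hs, x, hx, hz⟩ := h
  obtain ⟨⟨r, t⟩, hrt⟩ := IsLocalization.surj M c
  refine ⟨t.1 * s, M.mul_mem t.2 hs, r • x, ?_, ?_⟩
  · rw [hf.map_smul, ← hx, smul_smul, smul_smul, map_mul, ← hrt]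
    congr 1
    ring
  · rw [ha, hf'.map_smul, ← hz, smul_smul, smul_smul, map_mul, ← hrt]
    congr 1
    ring

/-- **Functoriality of localisation**: the `k`-linear map `Y → Y'` induced by an `R`-linear map
`a : X → X'`. -/
def IsLocRep.lift [IsLocalization M k] (hf : IsLocRep M X Y f) (hf' : IsLocRep M X' Y' f')
    (hM : ∀ s ∈ M, IsUnit (algebraMap R k s)) (a : X.V →+ X'.V)
    (ha : ∀ (r : R) (x : X.V), a (r • x) = r • a x) : Y.V →ₗ[k] Y'.V where
  toFun := hf.liftFun hM f' a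
  map_add' y y₁ := hf.liftFun_eq hf' hM a ha
    (liftRel_add hf hf' a ha (hf.liftFun_spec hM a y) (hf.liftFun_spec hM a y₁))
  map_smul' c y := hf.liftFun_eq hf' hM a ha
    (liftRel_smul hf hf' a ha c (hf.liftFun_spec hM a y))

variable [IsLocalization M k]

theorem IsLocRep.lift_eq {y : Y.V} {z : Y'.V} (h : LiftRel M f f' a y z) :
    hf.lift hf' hM a ha y = z :=
  hf.liftFun_eq hf' hM a ha h

theorem IsLocRep.lift_rel (y : Y.V) : LiftRel M f f' a y (hf.lift hf' hM a ha y) :=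
  hf.liftFun_spec hM a y

/-- `lift ∘ f = f' ∘ a`. -/
theorem IsLocRep.lift_apply (x : X.V) : hf.lift hf' hM a ha (f x) = f' (a x) :=
  hf.lift_eq hf' hM a ha ⟨1, M.one_mem, x, by rw [map_one, one_smul], by rw [map_one, one_smul]⟩

/-- Equivariance of the lift along a group homomorphism. -/
theorem IsLocRep.lift_ρ (e : G →* G') (hae : ∀ (g : G) (x : X.V), a (X.ρ g x) = X'.ρ (e g) (a x))
    (g : G) (y : Y.V) :
    hf.lift hf' hM a ha (Y.ρ g y) = Y'.ρ (e g) (hf.lift hf' hM a ha y) := by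
  obtain ⟨s, hs, x, hx, hz⟩ := hf.lift_rel hf' hM a ha y
  refine hf.lift_eq hf' hM a ha ⟨s, hs, X.ρ g x, ?_, ?_⟩
  · rw [← LinearMap.map_smul, hx, hf.map_ρ]
  · rw [← LinearMap.map_smul, hz, hae, hf'.map_ρ]

end Lift

section Equiv

variable [IsLocalization M k] (hf : IsLocRep M X Y f) (hf' : IsLocRep M X' Y' f')
  (hM : ∀ s ∈ M, IsUnit (algebraMap R k s)) (a : X.V ≃+ X'.V)
  (ha : ∀ (r : R) (x : X.V), a (r • x) = r • a x)

include ha in
theorem symm_smul_aux (r : R) (x' : X'.V) : a.symm (r • x') = r • a.symm x' := by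
  apply a.injective
  rw [ha, a.apply_symm_apply, a.apply_symm_apply]

/-- **Uniqueness of localisation**: two localisations of isomorphic modules are isomorphic. -/
def IsLocRep.liftEquiv : Y.V ≃ₗ[k] Y'.V :=
  LinearEquiv.ofLinear (hf.lift hf' hM a.toAddMonoidHom ha)
    (hf'.lift hf hM a.symm.toAddMonoidHom (symm_smul_aux a ha))
    (by
      ext z
      obtain ⟨s, hs, x', hx', hz⟩ :=
        hf'.lift_rel hf hM a.symm.toAddMonoidHom (symm_smul_aux a ha) z
      exact hf.lift_eq hf' hM a.toAddMonoidHom ha ⟨s, hs, a.symm x', hz,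
        hx'.trans (congrArg f' (a.apply_symm_apply x').symm)⟩)
    (by
      ext y
      obtain ⟨s, hs, x, hx, hz⟩ := hf.lift_rel hf' hM a.toAddMonoidHom ha y
      exact hf'.lift_eq hf hM a.symm.toAddMonoidHom (symm_smul_aux a ha) ⟨s, hs, a x, hz,
        hx.trans (congrArg f (a.symm_apply_apply x).symm)⟩)

theorem IsLocRep.liftEquiv_apply (x : X.V) : hf.liftEquiv hf' hM a ha (f x) = f' (a x) :=
  hf.lift_apply hf' hM a.toAddMonoidHom ha x

theorem IsLocRep.liftEquiv_ρ (e : G →* G')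
    (hae : ∀ (g : G) (x : X.V), a (X.ρ g x) = X'.ρ (e g) (a x)) (g : G) (y : Y.V) :
    hf.liftEquiv hf' hM a ha (Y.ρ g y) = Y'.ρ (e g) (hf.liftEquiv hf' hM a ha y) :=
  hf.lift_ρ hf' hM a.toAddMonoidHom ha e hae g y

end Equiv

end Fermat.Agent.CFT.A7.BaseChange
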