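/-
PROJECT C, slice A7.3 (helper24): CLASS FORMATIONS in the level-constant (LC) model.

`G` a group with a directed family `𝒰` of normal subgroups of finite index ("levels"),
`C : Rep k G` with `k` a coefficient DOMAIN of characteristic zero: `k = ℤ` for genuine class
formations (local fields), `k = ℤ_(p)` for `p`-primary class formations (`C = C_S ⊗ ℤ_(p)`,
global fields with finite ideles, where only the `p`-primary cohomology is classical).  A class formation structure on `(G, 𝒰, C)` consists of a fundamental 2-cocycle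
`φ U` of the finite layer `C^U := C.quotientToInvariants U : Rep ℤ (G ⧸ U)` for every level `U`,
such that every layer is a class module in the sense of slice A5 (`A5.Tate.IsClassModule`:
`H¹(H, C^U) = 0` and `H²(H, C^U)` is cyclic of order `|H|`, generated by the restriction of the
class of `φ U`, for every subgroup `H ≤ G ⧸ U`), and such that inflation multiplies the
fundamental classes by the relative index: `inf [φ U] = [U : W] • [φ W]` for levels `W ≤ U`.

This is the only interface between the arithmetic layers (B3c local, C6 global) and the duality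
layers (A7, D).  See `PROJECT_C_ROUTE.md`, sections 3 and 5.
-/
import Mathlib
import Fermat.Agent.CFT.LC.Inflation
import Fermat.Agent.CFT.A5.Tate
import Fermat.Agent.CFT.A1.Torsion

set_option autoImplicit false

noncomputable section

namespace Fermat.Agent.CFT.A7

open CategoryTheory groupCohomology Fermat.Agent.CFT.LC Fermat.Agent.CFT.A5.Tate

variable {k G : Type} [CommRing k] [Group G]

/-- The fundamental class of a layer. -/
abbrev layerClass (C : Rep.{0} k G) (U : Subgroup G) [U.Normal]
    (φ : cocycles₂ (C.quotientToInvariants U)) : groupCohomology (C.quotientToInvariants U) 2 :=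
  (H2π (C.quotientToInvariants U)).hom φ

/-- A class formation on `(G, 𝒰, C)`: fundamental cocycles on all finite layers, the class module
axioms for every layer (for all subgroups of the layer group, and, redundantly but conveniently,
for the layer group itself), and the inflation rule. -/
structure ClassFormation (𝒰 : Levels G) (C : Rep.{0} k G) where
  /-- all levels have finite index -/
  finiteIndex : ∀ U ∈ 𝒰.sets, U.FiniteIndex
  /-- the fundamental 2-cocycle of the layer `G ⧸ U` -/
  φ : ∀ (U : Subgroup G) [U.Normal], U ∈ 𝒰.sets → cocycles₂ (C.quotientToInvariants U)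
  /-- every layer is a class module (axioms for all subgroups of `G ⧸ U`) -/
  isClassModule : ∀ (U : Subgroup G) [U.Normal] (hU : U ∈ 𝒰.sets),
    IsClassModule (C.quotientToInvariants U) (φ U hU)
  /-- `H¹(G ⧸ U, C^U) = 0` -/
  h1 : ∀ (U : Subgroup G) [U.Normal] (_ : U ∈ 𝒰.sets),
    Limits.IsZero (groupCohomology (C.quotientToInvariants U) 1)
  /-- `H²(G ⧸ U, C^U)` is generated by the fundamental class -/
  hgen : ∀ (U : Subgroup G) [U.Normal] (hU : U ∈ 𝒰.sets)
    (y : groupCohomology (C.quotientToInvariants U) 2), ∃ r : k, y = r • layerClass C U (φ U hU)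
  /-- the fundamental class has order `[G : U]` -/
  hord : ∀ (U : Subgroup G) [U.Normal] (hU : U ∈ 𝒰.sets) (r : k),
    r • layerClass C U (φ U hU) = 0 → ((Nat.card (G ⧸ U) : ℕ) : k) ∣ r
  /-- inflation multiplies the fundamental class by the relative index -/
  infl_φ : ∀ (U W : Subgroup G) [U.Normal] [W.Normal] (hU : U ∈ 𝒰.sets) (hW : W ∈ 𝒰.sets)
    (h : W ≤ U), (inflFin C U W h 2).hom (layerClass C U (φ U hU)) =
      ((W.relIndex U : ℕ) : k) • layerClass C W (φ W hW)


/-! ### Producing `hgen` / `hord` (case `k = ℤ`) from an invariant isomorphism onto `ZMod n`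

For `k = ℤ` the scalar action in the fields of `ClassFormation` is the one of the `ℤ`-module
structure carried by the `ModuleCat ℤ` object (not syntactically `zsmul`); the `_module` variants
below are stated for an arbitrary `Module ℤ X` instance, so they apply verbatim. -/

section ofEquiv

variable {X : Type*} [AddCommGroup X] {n : ℕ}

/-- If `e : X ≃+ ZMod n` sends `u` to `1`, then `u` generates `X`. -/
lemma exists_zsmul_of_addEquiv_zmod (e : X ≃+ ZMod n) {u : X} (hu : e u = 1) (y : X) :
    ∃ r : ℤ, y = r • u := by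
  refine ⟨(e y).cast, e.injective ?_⟩
  rw [map_zsmul, hu, zsmul_one, ZMod.intCast_cast, ZMod.cast_id', id]

/-- If `e : X ≃+ ZMod n` sends `u` to `1`, then `u` has order `n`. -/
lemma dvd_of_zsmul_eq_zero_of_addEquiv_zmod (e : X ≃+ ZMod n) {u : X} (hu : e u = 1) (r : ℤ)
    (hr : r • u = 0) : (n : ℤ) ∣ r := by
  have := congrArg e hr
  rw [map_zsmul, hu, zsmul_one, map_zero] at this
  exact (ZMod.intCast_zmod_eq_zero_iff_dvd r n).1 this

/-- `exists_zsmul_of_addEquiv_zmod` for the scalar action of an arbitrary `Module ℤ X` instance. -/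
lemma exists_smul_of_addEquiv_zmod_module [inst : Module ℤ X] (e : X ≃+ ZMod n) {u : X}
    (hu : e u = 1) (y : X) :
    ∃ r : ℤ, y = @HSMul.hSMul ℤ X X (@instHSMul ℤ X inst.toSMul) r u := by
  obtain ⟨r, hr⟩ := exists_zsmul_of_addEquiv_zmod e hu y
  exact ⟨r, hr.trans (int_smul_eq_zsmul inst r u).symm⟩

/-- `dvd_of_zsmul_eq_zero_of_addEquiv_zmod` for an arbitrary `Module ℤ X` instance. -/
lemma dvd_of_smul_eq_zero_of_addEquiv_zmod_module [inst : Module ℤ X] (e : X ≃+ ZMod n) {u : X}
    (hu : e u = 1) (r : ℤ)
    (hr : @HSMul.hSMul ℤ X X (@instHSMul ℤ X inst.toSMul) r u = 0) : (n : ℤ) ∣ r :=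
  dvd_of_zsmul_eq_zero_of_addEquiv_zmod e hu r ((int_smul_eq_zsmul inst r u).symm.trans hr)

end ofEquiv

namespace ClassFormation

variable {𝒰 : Levels G} {C : Rep.{0} k G} (cf : ClassFormation 𝒰 C)

include cf in
lemma card_quot_pos (U : Subgroup G) [U.Normal] (hU : U ∈ 𝒰.sets) : 0 < Nat.card (G ⧸ U) := by
  have := cf.finiteIndex U hU
  have h : U.index ≠ 0 := Subgroup.FiniteIndex.index_ne_zero
  rw [Subgroup.index] at h
  omega

/-- `[G : W] = [U : W] * [G : U]`. -/
lemma card_quot_mul (U W : Subgroup G) [U.Normal] [W.Normal] (h : W ≤ U) :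
    Nat.card (G ⧸ W) = W.relIndex U * Nat.card (G ⧸ U) := by
  have := Subgroup.relIndex_mul_index h
  rw [Subgroup.index, Subgroup.index] at this
  exact this.symm

include cf in
/-- **Inflation between finite layers is injective on `H²(-, C)`.** -/
theorem inflFin_two_injective [IsDomain k] [CharZero k] (U W : Subgroup G) [U.Normal] [W.Normal]
    (hU : U ∈ 𝒰.sets) (hW : W ∈ 𝒰.sets) (h : W ≤ U) :
    Function.Injective (inflFin C U W h 2).hom := by
  rw [injective_iff_map_eq_zero]
  intro y hy
  obtain ⟨r, rfl⟩ := cf.hgen U hU y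
  rw [map_smul, cf.infl_φ U W hU hW h, smul_smul] at hy
  obtain ⟨s, hs⟩ := cf.hord W hW _ hy
  rw [card_quot_mul U W h] at hs
  have hne : ((W.relIndex U : ℕ) : k) ≠ 0 := by
    have h1 := cf.card_quot_pos W hW
    rw [card_quot_mul U W h] at h1
    have : 0 < W.relIndex U := Nat.pos_of_mul_pos_right h1
    exact_mod_cast this.ne'
  have hr : r = ((Nat.card (G ⧸ U) : ℕ) : k) * s := by
    have : ((W.relIndex U : ℕ) : k) * r = ((W.relIndex U : ℕ) : k) *
        (((Nat.card (G ⧸ U) : ℕ) : k) * s) := by
      rw [mul_comm _ r, hs]; push_cast; ring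
    exact mul_left_cancel₀ hne this
  have hzero : ((Nat.card (G ⧸ U) : ℕ) : k) • layerClass C U (cf.φ U hU) = 0 := by
    have : Finite (G ⧸ U) := by
      have := cf.finiteIndex U hU
      exact Subgroup.finite_quotient_of_finiteIndex
    exact Fermat.Agent.CFT.A1.card_smul_eq_zero (C.quotientToInvariants U) 1
      (layerClass C U (cf.φ U hU))
  rw [hr, mul_comm, mul_smul, hzero, smul_zero]

end ClassFormation

end Fermat.Agent.CFT.A7
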