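/-
PROJECT C, slice A7.0/A7.3 glue (helper21): BASE CHANGE OF CLASS FORMATIONS along a localisation
`R → k` (typically `ℤ → ℤ_(p)`).

`G` a group with levels `𝒰`, `X : Rep R G` SMOOTH, `Y : Rep k G` an equivariant localisation of `X`
at `M ⊆ R` in the model-free sense of helper9's `A7.BaseChange.IsLocRep M X Y f`
(`k` a localisation of `R` at `M`).  Then

* `isLocRep_invariants` : for every level `U`, `Y^U` is the localisation of `X^U` (localisation
  commutes with invariants of an open subgroup of a smooth module);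
* `ClassFormation.baseChange` : a class formation `(G, 𝒰, X)` over `R` induces a class formation
  `(G, 𝒰, Y)` over `k`, with fundamental cocycles `f ∘ φ_U`.

With `Local/ClassFormationLC.classFormationLoc` this gives the local class formations over
`k = ℤ_(p)` that Layer D consumes.
-/
import Mathlib
import Fermat.Agent.CFT.A7.BaseChangeClass
import Fermat.Agent.CFT.A7.ClassFormation
import Fermat.Agent.CFT.A5.ClassModuleTransport

set_option autoImplicit false

noncomputable section

namespace Fermat.Agent.CFT.A7.CFBaseChange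

open groupCohomology CategoryTheory Fermat.Agent.CFT.LC Fermat.Agent.CFT.A5.Tate
  Fermat.Agent.CFT.A5.Transport Fermat.Agent.CFT.A7 Fermat.Agent.CFT.A7.BaseChange

variable {R k : Type} [CommRing R] [CommRing k] [Algebra R k] {M : Submonoid R}
variable {G : Type} [Group G] {X : Rep.{0} R G} {Y : Rep.{0} k G} {f : X.V →+ Y.V}

/-- The restriction of `f` to the invariants of a normal subgroup. -/
def invMap (hf : IsLocRep M X Y f) (U : Subgroup G) [U.Normal] :
    (X.quotientToInvariants U).V →+ (Y.quotientToInvariants U).V where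
  toFun x := ⟨f x.1, fun u => by
    have h := x.2 u
    change Y.ρ (u : G) (f x.1) = f x.1
    rw [← hf.map_ρ]
    exact congrArg f h⟩
  map_zero' := Subtype.ext (map_zero f)
  map_add' x y := Subtype.ext (map_add f x.1 y.1)

@[simp]
theorem invMap_coe (hf : IsLocRep M X Y f) (U : Subgroup G) [U.Normal]
    (x : (X.quotientToInvariants U).V) : ((invMap hf U x).1 : Y.V) = f x.1 := rfl

/-- **Localisation commutes with the invariants of an open subgroup of a smooth module.** -/
theorem isLocRep_invariants (hf : IsLocRep M X Y f) (𝒰 : Levels G)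
    (hfin : ∀ U ∈ 𝒰.sets, U.FiniteIndex) (hsm : IsSmooth 𝒰 X)
    (U : Subgroup G) [U.Normal] :
    IsLocRep M (X.quotientToInvariants U) (Y.quotientToInvariants U) (invMap hf U) where
  map_smul r x := Subtype.ext (hf.map_smul r x.1)
  map_ρ c x := by
    induction c using QuotientGroup.induction_on with
    | H g => exact Subtype.ext (hf.map_ρ g x.1)
  eq_zero x hx := by
    obtain ⟨s, hs, h⟩ := hf.eq_zero x.1 (congrArg Subtype.val hx)
    exact ⟨s, hs, Subtype.ext h⟩
  surj y := by
    obtain ⟨s, hs, x, hx⟩ := hf.surj y.1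
    obtain ⟨W, hW, hWx⟩ := hsm x
    haveI := 𝒰.normal W hW
    haveI := hfin W hW
    haveI : Finite (G ⧸ W) := Subgroup.finite_quotient_of_finiteIndex
    -- the finitely many defects `u x - x`, `u ∈ U`
    let D : G ⧸ W → X.V := fun c => X.ρ c.out x - x
    have hD : ∀ g : G, X.ρ g x - x = D (QuotientGroup.mk g) := by
      intro g
      have h1 : g⁻¹ * (QuotientGroup.mk g : G ⧸ W).out ∈ W := by
        rw [← QuotientGroup.eq]
        simp
      have h2 : X.ρ (QuotientGroup.mk g : G ⧸ W).out x = X.ρ g x := by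
        have : (QuotientGroup.mk g : G ⧸ W).out = g * (g⁻¹ * (QuotientGroup.mk g : G ⧸ W).out) := by
          group
        rw [this, map_mul, Module.End.mul_apply, hWx _ h1]
      change X.ρ g x - x = X.ρ (QuotientGroup.mk g : G ⧸ W).out x - x
      rw [h2]
    -- each defect coming from `U` is `M`-torsion
    have htors : ∀ c : {c : G ⧸ W // ∃ u ∈ U, (QuotientGroup.mk u : G ⧸ W) = c},
        ∃ t ∈ M, t • D c.1 = 0 := by
      rintro ⟨c, u, hu, rfl⟩
      apply hf.eq_zero
      rw [← hD, map_sub, hf.map_ρ, ← hx, map_smul]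
      have hy : Y.ρ u y.1 = y.1 := y.2 ⟨u, hu⟩
      rw [hy, sub_self]
    obtain ⟨t, ht, htD⟩ := exists_common_annihilator (M := M)
      (fun c : {c : G ⧸ W // ∃ u ∈ U, (QuotientGroup.mk u : G ⧸ W) = c} => D c.1) htors
    have hinv : ∀ u : U, (X.ρ.comp U.subtype) u (t • x) = t • x := by
      intro u
      change X.ρ (u : G) (t • x) = t • x
      have h3 := htD ⟨QuotientGroup.mk (u : G), u, u.2, rfl⟩
      change t • D (QuotientGroup.mk (u : G)) = 0 at h3
      rw [← hD, smul_sub, sub_eq_zero] at h3
      rw [map_smul, h3]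
    refine ⟨t * s, M.mul_mem ht hs, ⟨t • x, hinv⟩, Subtype.ext ?_⟩
    change algebraMap R k (t * s) • y.1 = f (t • x)
    rw [map_mul, mul_smul, hx, hf.map_smul]

/-- Inflation between finite layers commutes with localisation, on the classes of cocycles. -/
theorem inflFin_H2π_locCocycles₂ (hf : IsLocRep M X Y f) (𝒰 : Levels G)
    (hfin : ∀ U ∈ 𝒰.sets, U.FiniteIndex) (hsm : IsSmooth 𝒰 X)
    (U W : Subgroup G) [U.Normal] [W.Normal] (h : W ≤ U)
    (φ : cocycles₂ (X.quotientToInvariants U)) :
    (inflFin Y U W h 2).hom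
        (H2π _ ((isLocRep_invariants hf 𝒰 hfin hsm U).locCocycles₂ φ)) =
      (isLocRep_invariants hf 𝒰 hfin hsm W).locH 2
        ((inflFin X U W h 2).hom (H2π _ φ)) := by
  unfold inflFin
  rw [H2π_comp_map_apply, H2π_comp_map_apply, IsLocRep.locH_H2π]
  congr 1

/-- **Base change of a class formation** along a localisation `R → k`. -/
def baseChange [IsLocalization M k] {𝒰 : Levels G} (cf : ClassFormation 𝒰 X)
    (hf : IsLocRep M X Y f) (hsm : IsSmooth 𝒰 X) : ClassFormation 𝒰 Y where
  finiteIndex := cf.finiteIndex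
  φ U _ hU := (isLocRep_invariants hf 𝒰 cf.finiteIndex hsm U).locCocycles₂ (cf.φ U hU)
  isClassModule U _ hU := by
    haveI := cf.finiteIndex U hU
    haveI : Finite (G ⧸ U) := Subgroup.finite_quotient_of_finiteIndex
    letI := Fintype.ofFinite (G ⧸ U)
    exact isClassModule_of_isClassModule _ (cf.isClassModule U hU)
  h1 U _ hU := by
    haveI := cf.finiteIndex U hU
    haveI : Finite (G ⧸ U) := Subgroup.finite_quotient_of_finiteIndex
    letI := Fintype.ofFinite (G ⧸ U)
    exact (isClassModule_top (isClassModule_of_isClassModule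
      (isLocRep_invariants hf 𝒰 cf.finiteIndex hsm U) (cf.isClassModule U hU))).1
  hgen U _ hU := by
    haveI := cf.finiteIndex U hU
    haveI : Finite (G ⧸ U) := Subgroup.finite_quotient_of_finiteIndex
    letI := Fintype.ofFinite (G ⧸ U)
    exact (isClassModule_top (isClassModule_of_isClassModule
      (isLocRep_invariants hf 𝒰 cf.finiteIndex hsm U) (cf.isClassModule U hU))).2.1
  hord U _ hU := by
    haveI := cf.finiteIndex U hU
    haveI : Finite (G ⧸ U) := Subgroup.finite_quotient_of_finiteIndex
    letI := Fintype.ofFinite (G ⧸ U)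
    exact (isClassModule_top (isClassModule_of_isClassModule
      (isLocRep_invariants hf 𝒰 cf.finiteIndex hsm U) (cf.isClassModule U hU))).2.2
  infl_φ U W _ _ hU hW h := by
    change (inflFin Y U W h 2).hom (H2π _ _) = _ • H2π _ _
    rw [inflFin_H2π_locCocycles₂ hf 𝒰 cf.finiteIndex hsm U W h]
    have h1 := cf.infl_φ U W hU hW h
    change (inflFin X U W h 2).hom (H2π _ (cf.φ U hU)) = _ • H2π _ (cf.φ W hW) at h1
    rw [h1, IsLocRep.locH_smul, map_natCast, IsLocRep.locH_H2π]

end Fermat.Agent.CFT.A7.CFBaseChange
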