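/-
PROJECT C, slice A7.3 (helper24): TRANSPORT OF CLASS MODULES along an isomorphism of pairs.

If `e : G' ≃* G` is a group isomorphism, `e' : C' ≃ₗ C` a `k`-linear isomorphism which is
`e`-equivariant, and the 2-cocycles `φ'`, `φ` correspond to each other, then
`IsClassModule C φ → IsClassModule C' φ'`.  This is the plumbing needed to package the
field-theoretic class modules (`Gal(M/K)` acting on `Mˣ`, resp. on idele classes) as layers
`(G ⧸ U, C^U)` of a `ClassFormation` in the LC model.
-/
import Mathlib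
import Fermat.Agent.CFT.A5.Tate

set_option autoImplicit false

universe u

noncomputable section

namespace Fermat.Agent.CFT.A7

open CategoryTheory groupCohomology Fermat.Agent.CFT.A5.Tate Fermat.Agent.CFT.A5.SplitRes

variable {k G G' : Type u} [CommRing k] [Group G] [Group G']

section Transport

variable (e : G' ≃* G) {C : Rep.{u} k G} {C' : Rep.{u} k G'} (e' : C'.V ≃ₗ[k] C.V)
  (he : ∀ g, e'.toLinearMap ∘ₗ C'.ρ g = C.ρ (e g) ∘ₗ e'.toLinearMap)

/-- The isomorphism of pairs restricted to a subgroup `H' ≤ G'` and its image `e(H') ≤ G`. -/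
def subIso (H' : Subgroup G') (n : ℕ) :
    groupCohomology (Rep.res H'.subtype C') n ≅
      groupCohomology (Rep.res (H'.map (e : G' →* G)).subtype C) n :=
  groupCohomology.mapIso (A := Rep.res (H'.map (e : G' →* G)).subtype C)
    (B := Rep.res H'.subtype C') (e.subgroupMap H') e' (fun g => he g.1) n

/-- The morphism of representations underlying the inverse of `subIso`. -/
def subInvHom (H' : Subgroup G') :
    Rep.res (e.subgroupMap H').toMonoidHom (Rep.res (H'.map (e : G' →* G)).subtype C) ⟶
      Rep.res H'.subtype C' :=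
  Rep.ofHom ⟨e'.symm.toLinearMap, fun g => by
    have h1 : e'.toLinearMap ∘ₗ C'.ρ g.1 = C.ρ (e g.1) ∘ₗ e'.toLinearMap := he g.1
    apply LinearMap.ext
    intro c
    apply e'.injective
    have h2 := LinearMap.congr_fun h1 (e'.symm c)
    simp only [LinearMap.comp_apply, LinearEquiv.coe_coe, LinearEquiv.apply_symm_apply] at h2
    change e' (e'.symm (C.ρ (e g.1) c)) = e' (C'.ρ g.1 (e'.symm c))
    rw [LinearEquiv.apply_symm_apply, h2]⟩

lemma subIso_inv (H' : Subgroup G') (n : ℕ) :
    (subIso e e' he H' n).inv =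
      groupCohomology.map (A := Rep.res (H'.map (e : G' →* G)).subtype C)
        (B := Rep.res H'.subtype C') (e.subgroupMap H').toMonoidHom (subInvHom e e' he H') n :=
  rfl

include he in
/-- The inverse of `subIso` sends the class of the restriction of `φ` to the class of the
restriction of `φ'`. -/
lemma subIso_inv_H2π (φ : cocycles₂ C) (φ' : cocycles₂ C')
    (hφ : ∀ g h, e' (φ' (g, h)) = φ (e g, e h)) (H' : Subgroup G') :
    (subIso e e' he H' 2).inv.hom
        ((H2π (Rep.res (H'.map (e : G' →* G)).subtype C)).hom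
          (resPhi C φ (H'.map (e : G' →* G)).subtype)) =
      (H2π (Rep.res H'.subtype C')).hom (resPhi C' φ' H'.subtype) := by
  rw [subIso_inv]
  have h := congr($(H2π_comp_map (A := Rep.res (H'.map (e : G' →* G)).subtype C)
    (B := Rep.res H'.subtype C') (e.subgroupMap H').toMonoidHom (subInvHom e e' he H'))
    (resPhi C φ (H'.map (e : G' →* G)).subtype))
  rw [ModuleCat.comp_apply, ModuleCat.comp_apply] at h
  refine h.trans ?_
  congr 1
  apply Subtype.ext
  funext p
  obtain ⟨g, h'⟩ := p
  change e'.symm (φ (e g.1, e h'.1)) = φ' (g.1, h'.1)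
  rw [← hφ, LinearEquiv.symm_apply_apply]

include he in
/-- **Transport of class modules along an isomorphism of pairs.** -/
theorem IsClassModule.of_equiv (φ : cocycles₂ C) (φ' : cocycles₂ C')
    (hφ : ∀ g h, e' (φ' (g, h)) = φ (e g, e h)) (hC : IsClassModule C φ) :
    IsClassModule C' φ' where
  h1 H' := Limits.IsZero.of_iso (hC.h1 (H'.map (e : G' →* G))) (subIso e e' he H' 1)
  hgen H' y' := by
    obtain ⟨r, hr⟩ := hC.hgen (H'.map (e : G' →* G)) ((subIso e e' he H' 2).hom.hom y')
    refine ⟨r, ?_⟩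
    have h1 : y' = (subIso e e' he H' 2).inv.hom ((subIso e e' he H' 2).hom.hom y') := by
      rw [← ModuleCat.comp_apply, Iso.hom_inv_id]; rfl
    rw [h1, hr, map_smul, subIso_inv_H2π e e' he φ φ' hφ H']
  hord H' r hr := by
    have h2 : r • (H2π (Rep.res (H'.map (e : G' →* G)).subtype C)).hom
        (resPhi C φ (H'.map (e : G' →* G)).subtype) = 0 := by
      have h3 := congrArg (subIso e e' he H' 2).hom.hom hr
      rw [map_smul, map_zero, ← subIso_inv_H2π e e' he φ φ' hφ H', ← ModuleCat.comp_apply,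
        Iso.inv_hom_id] at h3
      exact h3
    have h4 := hC.hord (H'.map (e : G' →* G)) r h2
    have hcard : Nat.card (H'.map (e : G' →* G)) = Nat.card H' :=
      Nat.card_congr (e.subgroupMap H').toEquiv.symm
    rwa [hcard] at h4

end Transport


/-! ### The class module axioms for the whole group -/

section Top

variable {C : Rep.{u} k G} {φ : cocycles₂ C}

/-- `Hⁿ(⊤, C) ≅ Hⁿ(G, C)`. -/
def topIso (C : Rep.{u} k G) (n : ℕ) :
    groupCohomology (Rep.res (⊤ : Subgroup G).subtype C) n ≅ groupCohomology C n :=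
  groupCohomology.mapIso (A := C) (B := Rep.res (⊤ : Subgroup G).subtype C)
    (Subgroup.topEquiv : (⊤ : Subgroup G) ≃* G) (LinearEquiv.refl k C.V)
    (fun g => LinearMap.ext fun c => (rfl : C.ρ g.1 c = C.ρ (Subgroup.topEquiv g) c)) n

/-- The morphism of representations underlying the inverse of `topIso`. -/
def topInvHom (C : Rep.{u} k G) :
    Rep.res (Subgroup.topEquiv : (⊤ : Subgroup G) ≃* G).toMonoidHom C ⟶
      Rep.res (⊤ : Subgroup G).subtype C :=
  Rep.ofHom ⟨LinearMap.id, fun _ => rfl⟩

lemma topIso_inv (C : Rep.{u} k G) (n : ℕ) :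
    (topIso C n).inv = groupCohomology.map (A := C) (B := Rep.res (⊤ : Subgroup G).subtype C)
      (Subgroup.topEquiv : (⊤ : Subgroup G) ≃* G).toMonoidHom (topInvHom C) n :=
  rfl

lemma topIso_inv_H2π (φ : cocycles₂ C) :
    (topIso C 2).inv.hom ((H2π C).hom φ) =
      (H2π (Rep.res (⊤ : Subgroup G).subtype C)).hom (resPhi C φ (⊤ : Subgroup G).subtype) := by
  rw [topIso_inv]
  have h := congr($(H2π_comp_map (A := C) (B := Rep.res (⊤ : Subgroup G).subtype C)
    (Subgroup.topEquiv : (⊤ : Subgroup G) ≃* G).toMonoidHom (topInvHom C)) φ)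
  rw [ModuleCat.comp_apply, ModuleCat.comp_apply] at h
  refine h.trans ?_
  congr 1

/-- `H¹(G, C) = 0` for a class module. -/
theorem IsClassModule.isZero_H1 (hC : IsClassModule C φ) :
    Limits.IsZero (groupCohomology C 1) :=
  Limits.IsZero.of_iso (hC.h1 ⊤) (topIso C 1).symm

/-- `H²(G, C)` is generated by the fundamental class. -/
theorem IsClassModule.exists_smul_eq (hC : IsClassModule C φ) (y : groupCohomology C 2) :
    ∃ r : k, y = r • (H2π C).hom φ := by
  obtain ⟨r, hr⟩ := hC.hgen ⊤ ((topIso C 2).inv.hom y)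
  refine ⟨r, ?_⟩
  have h1 : y = (topIso C 2).hom.hom ((topIso C 2).inv.hom y) := by
    rw [← ModuleCat.comp_apply, Iso.inv_hom_id]; rfl
  rw [h1, hr, map_smul, ← topIso_inv_H2π, ← ModuleCat.comp_apply, Iso.inv_hom_id]
  rfl

/-- The fundamental class has order `|G|`. -/
theorem IsClassModule.card_dvd_of_smul_eq_zero (hC : IsClassModule C φ) (r : k)
    (hr : r • (H2π C).hom φ = 0) : ((Nat.card G : ℕ) : k) ∣ r := by
  have h2 : r • (H2π (Rep.res (⊤ : Subgroup G).subtype C)).hom
      (resPhi C φ (⊤ : Subgroup G).subtype) = 0 := by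
    rw [← topIso_inv_H2π, ← map_smul, hr, map_zero]
  have h4 := hC.hord ⊤ r h2
  have hcard : Nat.card (⊤ : Subgroup G) = Nat.card G :=
    Nat.card_congr (Subgroup.topEquiv : (⊤ : Subgroup G) ≃* G).toEquiv
  rwa [hcard] at h4

end Top

end Fermat.Agent.CFT.A7
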