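/-
PROJECT C, slice A7.3 (helper24): packaging a class formation from its layers.

`ClassFormation.ofLayers`: the redundant fields `h1`, `hgen`, `hord` of `ClassFormation` (the class
module axioms for the layer group `G ⧸ U` itself) follow from `isClassModule`, so a class formation
is given by: finite index, fundamental cocycles, `IsClassModule` for every layer, inflation rule.
Together with `IsClassModule.of_equiv` (`A7/Transport.lean`) this is the recipe for the LC
packaging of the arithmetic class modules.
-/
import Mathlib
import Fermat.Agent.CFT.A7.ClassFormation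
import Fermat.Agent.CFT.A7.Transport

set_option autoImplicit false

noncomputable section

namespace Fermat.Agent.CFT.A7

open CategoryTheory groupCohomology Fermat.Agent.CFT.LC Fermat.Agent.CFT.A5.Tate

variable {k G : Type} [CommRing k] [Group G]

/-- A class formation from its layers. -/
def ClassFormation.ofLayers (𝒰 : Levels G) (C : Rep.{0} k G)
    (finiteIndex : ∀ U ∈ 𝒰.sets, U.FiniteIndex)
    (φ : ∀ (U : Subgroup G) [U.Normal], U ∈ 𝒰.sets → cocycles₂ (C.quotientToInvariants U))
    (isClassModule : ∀ (U : Subgroup G) [U.Normal] (hU : U ∈ 𝒰.sets),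
      IsClassModule (C.quotientToInvariants U) (φ U hU))
    (infl_φ : ∀ (U W : Subgroup G) [U.Normal] [W.Normal] (hU : U ∈ 𝒰.sets) (hW : W ∈ 𝒰.sets)
      (h : W ≤ U), (inflFin C U W h 2).hom (layerClass C U (φ U hU)) =
        ((W.relIndex U : ℕ) : k) • layerClass C W (φ W hW)) :
    ClassFormation 𝒰 C where
  finiteIndex := finiteIndex
  φ := φ
  isClassModule := isClassModule
  h1 U _ hU := A7.IsClassModule.isZero_H1 (isClassModule U hU)
  hgen U _ hU y := A7.IsClassModule.exists_smul_eq (isClassModule U hU) y
  hord U _ hU r hr := A7.IsClassModule.card_dvd_of_smul_eq_zero (isClassModule U hU) r hr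
  infl_φ := infl_φ

end Fermat.Agent.CFT.A7
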