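/-
PROJECT C, slice C7-CF part 1 (helper21): EXISTENCE OF A CLASS FORMATION from layerwise data,
without any compatible choice of fundamental classes.

`G` a group, `𝒰` levels of finite index, `C : Rep k G`, `k` a char-0 domain satisfying the cyclic
criterion (`ℤ`, `ℤ_(p)`).  Assume

* `(H-a)` for every level `U` and every subgroup `S' ≤ G ⧸ U`: `H¹(S', C^U) = 0` and
  `|H²(S', C^U)|` divides `|S'|`;
* `(H-b)` for every level `U` there is a level `W ≤ U` and a class `ξ ∈ H²(G ⧸ W, C^W)` all of
  whose restrictions to subgroups `S'` have annihilator contained in `(|S'|)`.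

Then there is a class formation `A7.ClassFormation 𝒰 C` (`nonempty_classFormation`).

Proof: Tate's descent (helper17's `exists_isClassModule_of_dvd`) through Noether's third
isomorphism (helper4's `D/H4/InflInj`) shows that every level carries a non-empty finite set of
fundamental classes, and that for `W ≤ U` every fundamental class `y_W` determines a unique
fundamental class `y_U` with `inflFin y_U = [U:W] • y_W`.  An inverse system of non-empty finite
sets over a directed set has a compatible family.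
-/
import Mathlib
import Fermat.Agent.CFT.A7.Package
import Fermat.Agent.CFT.A5.ClassModuleTransport
import Fermat.Agent.CFT.C6.TateClassModule
import Fermat.Agent.CFT.D.H4.InflInj

set_option autoImplicit false

noncomputable section

namespace Fermat.Agent.CFT.A7.CFExists

open groupCohomology CategoryTheory Fermat.Agent.CFT.LC Fermat.Agent.CFT.A5.Tate
  Fermat.Agent.CFT.A5.Transport Fermat.Agent.CFT.A5.SplitRes Fermat.Agent.CFT.A7
  Fermat.Agent.CFT.InfRes2
  Fermat.Agent.CFT.C6.TateArgument Fermat.Agent.CFT.C6.TateClassModule Fermat.Agent.CFT.D.H4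

variable {k G : Type} [CommRing k] [Group G] (C : Rep.{0} k G)

/-! ### Noether's third isomorphism as an isomorphism of pairs -/

section ThirdIso

variable (U W : Subgroup G) [U.Normal] [W.Normal] (h : W ≤ U)

/-- `(G ⧸ W) ⧸ (U / W) ≃* G ⧸ U`. -/
def thirdEquiv : (G ⧸ W) ⧸ layer U W ≃* G ⧸ U :=
  QuotientGroup.quotientQuotientEquivQuotient W U h

/-- `(C^W)^(U/W) ≃ C^U`. -/
def thirdLin :
    ((C.quotientToInvariants W).quotientToInvariants (layer U W)).V ≃ₗ[k]
      (C.quotientToInvariants U).V where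
  toFun := (layerInvInv C U W h).hom
  invFun := (layerInv C U W h).hom
  map_add' := map_add _
  map_smul' := map_smul _
  left_inv _ := rfl
  right_inv _ := rfl

theorem third_compat (g : (G ⧸ W) ⧸ layer U W) :
    (thirdLin C U W h).toLinearMap ∘ₗ
        ((C.quotientToInvariants W).quotientToInvariants (layer U W)).ρ g =
      (C.quotientToInvariants U).ρ (thirdEquiv U W h g) ∘ₗ (thirdLin C U W h).toLinearMap := by
  induction g using QuotientGroup.induction_on with
  | H g =>
    induction g using QuotientGroup.induction_on with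
    | H g =>
      ext x
      rfl

/-- `Hⁿ((G ⧸ W) ⧸ (U / W), (C^W)^(U/W)) ≅ Hⁿ(G ⧸ U, C^U)`. -/
def thirdIso (n : ℕ) :
    groupCohomology ((C.quotientToInvariants W).quotientToInvariants (layer U W)) n ≅
      groupCohomology (C.quotientToInvariants U) n :=
  mapIso (thirdEquiv U W h) (thirdLin C U W h) (third_compat C U W h) n

/-- Finite-level inflation is Mathlib's inflation for `(G ⧸ W, U / W, C^W)` after the third
isomorphism. -/
theorem inflFin_thirdIso_hom
    (u : groupCohomology ((C.quotientToInvariants W).quotientToInvariants (layer U W)) 2) :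
    (inflFin C U W h 2).hom ((thirdIso C U W h 2).hom u) =
      (inf₂ (C.quotientToInvariants W) (layer U W)).hom u := by
  rw [inflFin_eq C U W h 2, ModuleCat.comp_apply]
  congr 1
  have h1 : (thirdIso C U W h 2).hom ≫ layerMap C U W h 2 = 𝟙 _ := by
    unfold thirdIso layerMap
    simp only [groupCohomology.mapIso_hom]
    rw [← groupCohomology.map_comp, ← groupCohomology.map_id]
    refine groupCohomology.map_congr ?_ ?_ 2
    · ext g
      exact (thirdEquiv U W h).symm_apply_apply g
    · ext x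
      rfl
  have := congr($h1 u)
  rwa [ModuleCat.comp_apply, ModuleCat.id_apply] at this

theorem third_compat_symm (g : G ⧸ U) :
    (thirdLin C U W h).symm.toLinearMap ∘ₗ (C.quotientToInvariants U).ρ g =
      ((C.quotientToInvariants W).quotientToInvariants (layer U W)).ρ
          ((thirdEquiv U W h).symm g) ∘ₗ (thirdLin C U W h).symm.toLinearMap := by
  induction g using QuotientGroup.induction_on with
  | H g =>
    ext x
    rfl

end ThirdIso

/-! ### Transport of the two inequalities along an isomorphism of pairs -/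

section TransportHA

universe u

variable {k' G' H' : Type u} [CommRing k'] [Group G'] [Group H']
  {A : Rep.{u} k' H'} {B : Rep.{u} k' G'} (e : G' ≃* H') (e' : B.V ≃ₗ[k'] A.V)
  (he : ∀ g, e'.toLinearMap ∘ₗ B.ρ g = A.ρ (e g) ∘ₗ e'.toLinearMap)

include he in
theorem transport_HA (S : Subgroup H')
    (hB : Limits.IsZero (groupCohomology (Rep.res (S.comap (e : G' →* H')).subtype B) 1) ∧
      Nat.card (groupCohomology (Rep.res (S.comap (e : G' →* H')).subtype B) 2) ∣
        Nat.card (S.comap (e : G' →* H'))) :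
    Limits.IsZero (groupCohomology (Rep.res S.subtype A) 1) ∧
      Nat.card (groupCohomology (Rep.res S.subtype A) 2) ∣ Nat.card S := by
  refine ⟨Limits.IsZero.of_iso hB.1
    (mapIso (A := Rep.res S.subtype A) (B := Rep.res (S.comap (e : G' →* H')).subtype B)
      (comapEquiv e S) e' (comapEquiv_compat e e' he S) 1).symm, ?_⟩
  have h1 : Nat.card (groupCohomology (Rep.res S.subtype A) 2) =
      Nat.card (groupCohomology (Rep.res (S.comap (e : G' →* H')).subtype B) 2) :=
    Nat.card_congr (mapIso (A := Rep.res S.subtype A)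
      (B := Rep.res (S.comap (e : G' →* H')).subtype B)
      (comapEquiv e S) e' (comapEquiv_compat e e' he S) 2).symm.toLinearEquiv.toEquiv
  have h2 : Nat.card S = Nat.card (S.comap (e : G' →* H')) :=
    Nat.card_congr (comapEquiv e S).symm.toEquiv
  rw [h1, h2]
  exact hB.2

end TransportHA

/-! ### The hypotheses -/

/-- `(H-a)` at a normal subgroup `U`: the two inequalities for all subgroups of `G ⧸ U` acting on
`C^U`. -/
def HAat (U : Subgroup G) [U.Normal] : Prop :=
  ∀ S' : Subgroup (G ⧸ U),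
    Limits.IsZero (groupCohomology (Rep.res S'.subtype (C.quotientToInvariants U)) 1) ∧
      Nat.card (groupCohomology (Rep.res S'.subtype (C.quotientToInvariants U)) 2) ∣ Nat.card S'

/-- A class of the layer `G ⧸ U` all of whose restrictions have maximal order. -/
def IsFund (U : Subgroup G) [U.Normal] (ξ : groupCohomology (C.quotientToInvariants U) 2) : Prop :=
  ∀ (S' : Subgroup (G ⧸ U)) (r : k),
    r • (res₂ (C.quotientToInvariants U) S').hom ξ = 0 → ((Nat.card S' : ℕ) : k) ∣ r

variable {C}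

theorem isClassModule_of_isFund (hk : CyclicCriterion k) {U : Subgroup G} [U.Normal]
    [Finite (G ⧸ U)] (ha : HAat C U) (φ : cocycles₂ (C.quotientToInvariants U))
    (hφ : IsFund C U (H2π _ φ)) : IsClassModule (C.quotientToInvariants U) φ := by
  letI := Fintype.ofFinite (G ⧸ U)
  exact isClassModule_of_ord' _ φ (fun S => (ha S).1) hk (fun S => (ha S).2) hφ

theorem isFund_of_isClassModule {U : Subgroup G} [U.Normal]
    {φ : cocycles₂ (C.quotientToInvariants U)}
    (hφ : IsClassModule (C.quotientToInvariants U) φ) : IsFund C U (H2π _ φ) := by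
  intro S' r hr
  apply hφ.hord S' r
  rw [resPhi_eq]
  exact hr

/-! ### Tate's descent between levels -/

section Descent

variable [IsDomain k] [CharZero k]

theorem card_layer_eq (U W : Subgroup G) [U.Normal] [W.Normal] (h : W ≤ U) [W.FiniteIndex] :
    Nat.card (layer U W) = W.relIndex U := by
  have h1 : Nat.card (layer U W) * (layer U W).index = Nat.card (G ⧸ W) :=
    Subgroup.card_mul_index _
  have h2 : (layer U W).index = U.index := by
    rw [Subgroup.index, Subgroup.index]
    exact Nat.card_congr (thirdEquiv U W h).toEquiv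
  have h3 : W.relIndex U * U.index = W.index := Subgroup.relIndex_mul_index h
  have h4 : U.index ≠ 0 := by
    intro h0
    rw [h0, mul_zero] at h3
    exact Subgroup.FiniteIndex.index_ne_zero h3.symm
  rw [h2, ← Subgroup.index, ← h3] at h1
  exact Nat.eq_of_mul_eq_mul_right (Nat.pos_of_ne_zero h4) h1

/-- **Descent of fundamental classes** from a level `W` to a level `U ≥ W`. -/
theorem exists_descent (hk : CyclicCriterion k) (U W : Subgroup G) [U.Normal] [W.Normal]
    (h : W ≤ U) [W.FiniteIndex] (haW : HAat C W) (haU : HAat C U)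
    (ξ : groupCohomology (C.quotientToInvariants W) 2) (hξ : IsFund C W ξ) :
    ∃ φ : cocycles₂ (C.quotientToInvariants U), IsClassModule (C.quotientToInvariants U) φ ∧
      (inflFin C U W h 2).hom (H2π _ φ) = ((W.relIndex U : ℕ) : k) • ξ := by
  haveI : Finite (G ⧸ W) := Subgroup.finite_quotient_of_finiteIndex
  letI : Fintype ((G ⧸ W) ⧸ layer U W) := Fintype.ofFinite _
  have hH : H1Vanishes (C.quotientToInvariants W) (layer U W) :=
    h1Vanishes_of_isZero (haW (layer U W)).1
  have hidx : (layer U W).index = U.index := by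
    rw [Subgroup.index, Subgroup.index]
    exact Nat.card_congr (thirdEquiv U W h).toEquiv
  have hc : (((W.relIndex U : ℕ) : k)) * (((layer U W).index : ℕ) : k) =
      ((Nat.card (G ⧸ W) : ℕ) : k) := by
    rw [hidx, ← Nat.cast_mul, Subgroup.relIndex_mul_index h, Subgroup.index]
  have hD : ((Nat.card (G ⧸ W) : ℕ) : k) ≠ 0 := by
    rw [Nat.cast_ne_zero]
    exact Nat.card_pos.ne'
  have hξ' : ((W.relIndex U : ℕ) : k) •
      (res₂ (C.quotientToInvariants W) (layer U W)).hom ξ = 0 := by
    rw [← card_layer_eq U W h]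
    exact Fermat.Agent.CFT.A1.card_smul_eq_zero
      (Rep.res (layer U W).subtype (C.quotientToInvariants W)) 1 _
  have hord : ∀ S : Subgroup (G ⧸ W), layer U W ≤ S → ∀ r : k,
      r • (res₂ (C.quotientToInvariants W) S).hom ξ = 0 →
        ((Nat.card (G ⧸ W) : ℕ) : k) ∣ r * ((S.index : ℕ) : k) := by
    intro S _ r hr
    have h1 := hξ S r hr
    rw [← Subgroup.card_mul_index S, Nat.cast_mul]
    exact mul_dvd_mul_right h1 _
  have hquot : ∀ S' : Subgroup ((G ⧸ W) ⧸ layer U W),
      Limits.IsZero (groupCohomology (Rep.res S'.subtype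
        ((C.quotientToInvariants W).quotientToInvariants (layer U W))) 1) ∧
      Nat.card (groupCohomology (Rep.res S'.subtype
        ((C.quotientToInvariants W).quotientToInvariants (layer U W))) 2) ∣ Nat.card S' :=
    fun S' => transport_HA (thirdEquiv U W h).symm (thirdLin C U W h).symm
      (third_compat_symm C U W h) S' (haU _)
  obtain ⟨ψ, hinf, hcm⟩ := exists_isClassModule_of_dvd (C.quotientToInvariants W) (layer U W) hH ξ
    ((Nat.card (G ⧸ W) : ℕ) : k) ((W.relIndex U : ℕ) : k) hc hD hξ' hord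
    (fun S' => (hquot S').1) hk (fun S' => (hquot S').2)
  refine ⟨transCocycle (thirdEquiv U W h) (thirdLin C U W h) (third_compat C U W h) ψ,
    isClassModule_transport _ _ _ hcm, ?_⟩
  rw [← mapIso_hom_H2π]
  exact (inflFin_thirdIso_hom C U W h _).trans hinf

end Descent

/-! ### Transitivity of finite-level inflation -/

section InflFin

variable (C)

theorem inflFin_comp (U W V : Subgroup G) [U.Normal] [W.Normal] [V.Normal] (h1 : W ≤ U)
    (h2 : V ≤ W) (n : ℕ) :
    inflFin C U W h1 n ≫ inflFin C W V h2 n = inflFin C U V (h2.trans h1) n := by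
  unfold inflFin
  rw [← groupCohomology.map_comp]
  refine groupCohomology.map_congr ?_ ?_ n
  · apply QuotientGroup.monoidHom_ext
    ext g
    rfl
  · ext x
    rfl

theorem inflFin_comp_apply (U W V : Subgroup G) [U.Normal] [W.Normal] [V.Normal] (h1 : W ≤ U)
    (h2 : V ≤ W) (n : ℕ) (y : groupCohomology (C.quotientToInvariants U) n) :
    (inflFin C W V h2 n).hom ((inflFin C U W h1 n).hom y) =
      (inflFin C U V (h2.trans h1) n).hom y := by
  rw [← inflFin_comp C U W V h1 h2 n]
  rfl

theorem inflFin_self (U : Subgroup G) [U.Normal] (n : ℕ) :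
    inflFin C U U le_rfl n = 𝟙 _ := by
  unfold inflFin
  rw [← groupCohomology.map_id]
  refine groupCohomology.map_congr ?_ ?_ n
  · apply QuotientGroup.monoidHom_ext
    ext g
    rfl
  · ext x
    rfl

end InflFin

/-! ### The inverse system of fundamental classes -/

section System

variable (𝒰 : Levels G) (C)

/-- The hypotheses `(H-a)`, `(H-b)`. -/
structure Hyp : Prop where
  finiteIndex : ∀ U ∈ 𝒰.sets, U.FiniteIndex
  ha : ∀ (U : Subgroup G) [U.Normal], U ∈ 𝒰.sets → HAat C U
  hb : ∀ U ∈ 𝒰.sets, ∃ (W : Subgroup G) (_ : W.Normal), W ∈ 𝒰.sets ∧ W ≤ U ∧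
    ∃ ξ : groupCohomology (C.quotientToInvariants W) 2, IsFund C W ξ

/-- The levels, as an index type. -/
abbrev Lev : Type := {U : Subgroup G // U ∈ 𝒰.sets}

instance instNormalLev (U : Lev 𝒰) : U.1.Normal := 𝒰.normal U.1 U.2

/-- The fundamental classes of the layer `G ⧸ U`. -/
def Gen (U : Lev 𝒰) : Type :=
  {y : groupCohomology (C.quotientToInvariants U.1) 2 // IsFund C U.1 y}

variable {𝒰 C}
variable [IsDomain k] [CharZero k]

theorem finite_H2_of_hyp (H : Hyp C 𝒰) (U : Lev 𝒰) :
    Finite (groupCohomology (C.quotientToInvariants U.1) 2) := by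
  haveI := H.finiteIndex U.1 U.2
  haveI : Finite (G ⧸ U.1) := Subgroup.finite_quotient_of_finiteIndex
  have h := (H.ha U.1 U.2 ⊤).2
  have h0 : Nat.card (groupCohomology
      (Rep.res (⊤ : Subgroup (G ⧸ U.1)).subtype (C.quotientToInvariants U.1)) 2) ≠ 0 := by
    intro h0
    rw [h0] at h
    exact (Nat.card_pos (α := (⊤ : Subgroup (G ⧸ U.1)))).ne' (Nat.eq_zero_of_zero_dvd h)
  haveI := Nat.finite_of_card_ne_zero h0
  exact Finite.of_equiv _ (topIso (C.quotientToInvariants U.1) 2).toLinearEquiv.toEquiv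

theorem finite_Gen (H : Hyp C 𝒰) (U : Lev 𝒰) : Finite (Gen C 𝒰 U) := by
  haveI := finite_H2_of_hyp H U
  exact Subtype.finite

theorem inflFin_two_injective_of_hyp (H : Hyp C 𝒰) (U W : Lev 𝒰) (h : W.1 ≤ U.1) :
    Function.Injective (inflFin C U.1 W.1 h 2).hom :=
  inflFin_two_injective C U.1 W.1 h (h1Vanishes_of_isZero (H.ha W.1 W.2 _).1)

theorem exists_trans (hk : CyclicCriterion k) (H : Hyp C 𝒰) (U W : Lev 𝒰) (h : W.1 ≤ U.1)
    (y : Gen C 𝒰 W) :
    ∃ y' : Gen C 𝒰 U, (inflFin C U.1 W.1 h 2).hom y'.1 = ((W.1.relIndex U.1 : ℕ) : k) • y.1 := by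
  haveI := H.finiteIndex W.1 W.2
  obtain ⟨φ, hφ, hinf⟩ := exists_descent hk U.1 W.1 h (H.ha W.1 W.2) (H.ha U.1 U.2) y.1 y.2
  exact ⟨⟨H2π _ φ, isFund_of_isClassModule hφ⟩, hinf⟩

theorem nonempty_Gen (hk : CyclicCriterion k) (H : Hyp C 𝒰) (U : Lev 𝒰) :
    Nonempty (Gen C 𝒰 U) := by
  obtain ⟨W, hWn, hW, hWU, ξ, hξ⟩ := H.hb U.1 U.2
  obtain ⟨y', -⟩ := exists_trans hk H U ⟨W, hW⟩ hWU ⟨ξ, hξ⟩
  exact ⟨y'⟩

/-- The transition map between fundamental classes. -/
def trans (hk : CyclicCriterion k) (H : Hyp C 𝒰) (U W : Lev 𝒰) (h : W.1 ≤ U.1)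
    (y : Gen C 𝒰 W) : Gen C 𝒰 U :=
  (exists_trans hk H U W h y).choose

theorem trans_spec (hk : CyclicCriterion k) (H : Hyp C 𝒰) (U W : Lev 𝒰) (h : W.1 ≤ U.1)
    (y : Gen C 𝒰 W) :
    (inflFin C U.1 W.1 h 2).hom (trans hk H U W h y).1 = ((W.1.relIndex U.1 : ℕ) : k) • y.1 :=
  (exists_trans hk H U W h y).choose_spec

theorem trans_unique (hk : CyclicCriterion k) (H : Hyp C 𝒰) (U W : Lev 𝒰) (h : W.1 ≤ U.1)
    (y : Gen C 𝒰 W) (y' : Gen C 𝒰 U)
    (hy' : (inflFin C U.1 W.1 h 2).hom y'.1 = ((W.1.relIndex U.1 : ℕ) : k) • y.1) :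
    trans hk H U W h y = y' :=
  Subtype.ext (inflFin_two_injective_of_hyp H U W h ((trans_spec hk H U W h y).trans hy'.symm))

theorem trans_self (hk : CyclicCriterion k) (H : Hyp C 𝒰) (U : Lev 𝒰) (y : Gen C 𝒰 U) :
    trans hk H U U le_rfl y = y := by
  apply trans_unique
  rw [inflFin_self, Subgroup.relIndex_self, Nat.cast_one, one_smul]
  rfl

theorem trans_trans (hk : CyclicCriterion k) (H : Hyp C 𝒰) (U W V : Lev 𝒰) (h1 : W.1 ≤ U.1)
    (h2 : V.1 ≤ W.1) (y : Gen C 𝒰 V) :
    trans hk H U W h1 (trans hk H W V h2 y) = trans hk H U V (h2.trans h1) y := by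
  symm
  apply trans_unique
  rw [← inflFin_comp_apply C U.1 W.1 V.1 h1 h2, trans_spec, map_smul, trans_spec, smul_smul,
    ← Nat.cast_mul, mul_comm, Subgroup.relIndex_mul_relIndex _ _ _ h2 h1]

instance isCodirectedOrder_Lev : IsCodirectedOrder (Lev 𝒰) where
  directed a b := by
    obtain ⟨W, hW, hle⟩ := 𝒰.directed a.1 a.2 b.1 b.2
    exact ⟨⟨W, hW⟩, hle.trans inf_le_left, hle.trans inf_le_right⟩

/-- The inverse system of fundamental classes. -/
def genFunctor (hk : CyclicCriterion k) (H : Hyp C 𝒰) : Lev 𝒰 ⥤ Type where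
  obj U := Gen C 𝒰 U
  map {W U} f := TypeCat.ofHom (trans hk H U W (leOfHom f))
  map_id U := by
    ext y
    exact trans_self hk H U y
  map_comp {V W U} f g := by
    ext y
    exact (trans_trans hk H U W V (leOfHom g) (leOfHom f) y).symm

/-- **Existence of a class formation** from `(H-a)` and `(H-b)`. -/
theorem nonempty_classFormation (hk : CyclicCriterion k) (H : Hyp C 𝒰) :
    Nonempty (ClassFormation 𝒰 C) := by
  haveI : ∀ U : Lev 𝒰, Finite ((genFunctor hk H).obj U) := fun U => finite_Gen H U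
  haveI : ∀ U : Lev 𝒰, Nonempty ((genFunctor hk H).obj U) := fun U => nonempty_Gen hk H U
  obtain ⟨s, hs⟩ := nonempty_sections_of_finite_cofiltered_system (genFunctor hk H)
  have hsurj : ∀ U : Lev 𝒰, ∃ φ : cocycles₂ (C.quotientToInvariants U.1),
      H2π _ φ = (s U).1 := fun U =>
    (ModuleCat.epi_iff_surjective (H2π (C.quotientToInvariants U.1))).1 inferInstance (s U).1
  choose φ hφ using hsurj
  refine ⟨ClassFormation.ofLayers 𝒰 C H.finiteIndex (fun U _ hU => φ ⟨U, hU⟩)
    (fun U _ hU => ?_) (fun U W _ _ hU hW h => ?_)⟩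
  · haveI := H.finiteIndex U hU
    haveI : Finite (G ⧸ U) := Subgroup.finite_quotient_of_finiteIndex
    refine isClassModule_of_isFund hk (H.ha U hU) _ ?_
    rw [hφ ⟨U, hU⟩]
    exact (s ⟨U, hU⟩).2
  · change (inflFin C U W h 2).hom (H2π _ (φ ⟨U, hU⟩)) = _ • H2π _ (φ ⟨W, hW⟩)
    rw [hφ ⟨U, hU⟩, hφ ⟨W, hW⟩]
    have h1 := hs (homOfLE (show (⟨W, hW⟩ : Lev 𝒰) ≤ ⟨U, hU⟩ from h))
    change trans hk H ⟨U, hU⟩ ⟨W, hW⟩ _ (s ⟨W, hW⟩) = s ⟨U, hU⟩ at h1
    rw [← h1]
    exact trans_spec hk H ⟨U, hU⟩ ⟨W, hW⟩ h (s ⟨W, hW⟩)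

end System

end Fermat.Agent.CFT.A7.CFExists
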