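/-
PROJECT C, slice A7.3 part 2 (helper24): PASSAGE TO THE LIMIT for class formations in the LC model.

* `infl_mapId`            : inflation `Hⁿ(G ⧸ U, A^U) → Hⁿ_LC(G, A)` is natural in the coefficients;
* `ClassFormation.infl_two_injective` : inflation is injective on `H²(-, C)`;
* `ClassFormation.eq_zero_of_forall_mapId_eq_zero` (**LIM-b**): for a smooth `B`, a class
  `x ∈ H²_LC(G, B)` with `ψ_* x = 0` in `H²_LC(G, C)` for every `ψ : B ⟶ C` vanishes, provided the
  finite-level statement (NT-b) holds on the layers below a level acting trivially on `B`;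
* `ClassFormation.isZero_H1_restrict` (**RES**): `H¹_LC(V, C) = 0` for every open subgroup `V`.

See `PROJECT_C_ROUTE.md`, amendments (V3-2), (V3-3).
-/
import Mathlib
import Fermat.Agent.CFT.A7.ClassFormation
import Fermat.Agent.CFT.LC.LES
import Fermat.Agent.CFT.LC.LowDegree
import Fermat.Agent.CFT.LC.Restrict

set_option autoImplicit false

noncomputable section

namespace Fermat.Agent.CFT.A7

open CategoryTheory groupCohomology Fermat.Agent.CFT.LC Fermat.Agent.CFT.A5.Tate

variable {k G : Type} [CommRing k] [Group G]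

/-! ### Naturality of inflation in the coefficients -/

section Naturality

variable (𝒰 : Levels G) {A B : Rep.{0} k G} (ψ : A ⟶ B)

/-- The morphism induced on the layers `A^U → B^U`. -/
abbrev layerMap (U : Subgroup G) [U.Normal] :
    A.quotientToInvariants U ⟶ B.quotientToInvariants U :=
  (Rep.quotientToInvariantsFunctor k U).map ψ

@[simp] lemma layerMap_apply_coe (U : Subgroup G) [U.Normal] (a : A.quotientToInvariants U) :
    (((layerMap ψ U).hom a).1 : B) = ψ.hom a.1 := rfl

/-- The map induced on the cohomology of the layer. -/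
abbrev layerCohMap (U : Subgroup G) [U.Normal] (n : ℕ) :
    groupCohomology (A.quotientToInvariants U) n ⟶ groupCohomology (B.quotientToInvariants U) n :=
  groupCohomology.map (A := A.quotientToInvariants U) (B := B.quotientToInvariants U)
    (MonoidHom.id (G ⧸ U)) (layerMap ψ U) n

lemma inflComplex_comp_map (U : Subgroup G) [U.Normal] (hU : U ∈ 𝒰.sets) :
    inflComplex 𝒰 A U hU ≫ mapComplex (A := A) (B := B) (Levels.continuous_id 𝒰) ψ =
      cochainsMap (A := A.quotientToInvariants U) (B := B.quotientToInvariants U)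
        (MonoidHom.id (G ⧸ U)) (layerMap ψ U) ≫ inflComplex 𝒰 B U hU := by
  ext n f : 3
  apply Subtype.ext
  rfl

/-- **Inflation is natural in the coefficients.** -/
lemma infl_mapId (U : Subgroup G) [U.Normal] (hU : U ∈ 𝒰.sets) (n : ℕ)
    (y : groupCohomology (A.quotientToInvariants U) n) :
    (mapId (𝒰 := 𝒰) ψ n).hom ((infl 𝒰 A U hU n).hom y) =
      (infl 𝒰 B U hU n).hom ((layerCohMap ψ U n).hom y) := by
  have h : infl 𝒰 A U hU n ≫ mapId (𝒰 := 𝒰) ψ n = layerCohMap ψ U n ≫ infl 𝒰 B U hU n := by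
    change HomologicalComplex.homologyMap (inflComplex 𝒰 A U hU) n ≫
        HomologicalComplex.homologyMap
          (mapComplex (A := A) (B := B) (Levels.continuous_id 𝒰) ψ) n =
      HomologicalComplex.homologyMap (cochainsMap (A := A.quotientToInvariants U)
        (B := B.quotientToInvariants U) (MonoidHom.id (G ⧸ U)) (layerMap ψ U)) n ≫
        HomologicalComplex.homologyMap (inflComplex 𝒰 B U hU) n
    rw [← HomologicalComplex.homologyMap_comp, ← HomologicalComplex.homologyMap_comp,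
      inflComplex_comp_map]
  have := ConcreteCategory.congr_hom h y
  rwa [ConcreteCategory.comp_apply, ConcreteCategory.comp_apply] at this

end Naturality

/-! ### Morphisms out of a representation on which a level acts trivially -/

section Lift

variable {B C : Rep.{0} k G} (U : Subgroup G) [U.Normal]

/-- If `U` acts trivially on `B`, a morphism of layers `B^U ⟶ C^U` comes from a morphism
`B ⟶ C`. -/
def liftLayerHom (hB : ∀ u ∈ U, ∀ b : B, B.ρ u b = b)
    (χ : B.quotientToInvariants U ⟶ C.quotientToInvariants U) : B ⟶ C :=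
  Rep.ofHom
    ⟨{  toFun := fun b => ((χ.hom ⟨b, fun u => hB u.1 u.2 b⟩).1 : C)
        map_add' := fun b b' => by
          have : (⟨b + b', fun u => hB u.1 u.2 (b + b')⟩ : B.quotientToInvariants U) =
              ⟨b, fun u => hB u.1 u.2 b⟩ + ⟨b', fun u => hB u.1 u.2 b'⟩ := rfl
          rw [this, map_add]; rfl
        map_smul' := fun c b => by
          have : (⟨c • b, fun u => hB u.1 u.2 (c • b)⟩ : B.quotientToInvariants U) =
              c • ⟨b, fun u => hB u.1 u.2 b⟩ := rfl
          rw [this, map_smul]; rfl },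
      fun g => by
        ext b
        have h := Rep.hom_comm_apply χ (g : G ⧸ U) ⟨b, fun u => hB u.1 u.2 b⟩
        have h1 := congrArg Subtype.val h
        exact h1⟩

lemma liftLayerHom_apply (hB : ∀ u ∈ U, ∀ b : B, B.ρ u b = b)
    (χ : B.quotientToInvariants U ⟶ C.quotientToInvariants U) (b : B) :
    (liftLayerHom U hB χ).hom b = ((χ.hom ⟨b, fun u => hB u.1 u.2 b⟩).1 : C) := rfl

lemma layerMap_liftLayerHom (hB : ∀ u ∈ U, ∀ b : B, B.ρ u b = b)
    (χ : B.quotientToInvariants U ⟶ C.quotientToInvariants U) :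
    layerMap (liftLayerHom U hB χ) U = χ := by
  apply Rep.hom_ext
  ext b
  rfl

end Lift

namespace ClassFormation

variable {𝒰 : Levels G} {C : Rep.{0} k G} (cf : ClassFormation 𝒰 C)

include cf in
/-- **Inflation to the limit is injective on `H²(-, C)`.** -/
theorem infl_two_injective [IsDomain k] [CharZero k] (U : Subgroup G) [U.Normal]
    (hU : U ∈ 𝒰.sets) : Function.Injective (infl 𝒰 C U hU 2).hom := by
  rw [injective_iff_map_eq_zero]
  intro y hy
  obtain ⟨W, hWn, hW, hWU, h0⟩ := (infl_eq_zero_iff C 𝒰 U hU 2 y).1 hy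
  exact (injective_iff_map_eq_zero _).1 (cf.inflFin_two_injective U W hU hW hWU) y h0

include cf in
/-- **(LIM-b)**: right non-degeneracy of the push-forward pairing in the limit.  `hNT` is the
finite-level statement (NT-b) for the layers below a level `U₀` acting trivially on `B`. -/
theorem eq_zero_of_forall_mapId_eq_zero [IsDomain k] [CharZero k] {B : Rep.{0} k G}
    (U₀ : Subgroup G) (hU₀ : U₀ ∈ 𝒰.sets) (hB : ∀ u ∈ U₀, ∀ b : B, B.ρ u b = b)
    (hNT : ∀ (U : Subgroup G) [U.Normal] (_ : U ∈ 𝒰.sets), U ≤ U₀ →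
      ∀ y : groupCohomology (B.quotientToInvariants U) 2,
        (∀ χ : B.quotientToInvariants U ⟶ C.quotientToInvariants U,
          (groupCohomology.map (A := B.quotientToInvariants U) (B := C.quotientToInvariants U)
            (MonoidHom.id (G ⧸ U)) χ 2).hom y = 0) → y = 0)
    (x : H 𝒰 B 2) (hx : ∀ ψ : B ⟶ C, (mapId (𝒰 := 𝒰) ψ 2).hom x = 0) : x = 0 := by
  obtain ⟨U₁, hU₁n, hU₁, y₁, rfl⟩ := exists_infl_eq 𝒰 B x
  obtain ⟨U, hU, hUle⟩ := 𝒰.directed U₁ hU₁ U₀ hU₀
  have hUn := 𝒰.normal U hU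
  have hUU₁ : U ≤ U₁ := hUle.trans inf_le_left
  have hUU₀ : U ≤ U₀ := hUle.trans inf_le_right
  rw [← inflFin_infl_apply B 𝒰 U₁ U hUU₁ hU₁ hU 2 y₁] at hx ⊢
  set y := (inflFin B U₁ U hUU₁ 2).hom y₁ with hy
  have hy0 : y = 0 := by
    apply hNT U hU hUU₀
    intro χ
    have hBU : ∀ u ∈ U, ∀ b : B, B.ρ u b = b := fun u hu b => hB u (hUU₀ hu) b
    have h1 := hx (liftLayerHom U hBU χ)
    rw [infl_mapId] at h1
    dsimp only [layerCohMap] at h1
    rw [layerMap_liftLayerHom] at h1
    exact (injective_iff_map_eq_zero _).1 (cf.infl_two_injective U hU) _ h1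
  rw [hy0, map_zero]


include cf in
/-- **(RES)**: `H¹_LC(V, C) = 0` for every open subgroup `V` of a class formation.  (Elementwise:
a level-constant 1-cocycle of `V` descends to a 1-cocycle of the subgroup `V/U ≤ G ⧸ U` of a
finite layer, where it is a coboundary by the class module axiom `h1`.) -/
theorem isZero_H1_restrict (V : Subgroup G) (hV : 𝒰.IsOpen V) :
    Limits.IsZero (H (𝒰.restrict V) (Rep.res V.subtype C) 1) := by
  rw [ModuleCat.isZero_iff_subsingleton]
  refine ⟨fun x x' => ?_⟩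
  suffices h : ∀ x : H (𝒰.restrict V) (Rep.res V.subtype C) 1, x = 0 from (h x).trans (h x').symm
  intro x
  obtain ⟨f, rfl⟩ := H1π'_surjective (𝒰.restrict V) (Rep.res V.subtype C) x
  rw [H1π'_eq_zero_iff, mem_B₁_iff]
  obtain ⟨hfc, U', hU', hfU'⟩ := (mem_Z₁_iff f.1).1 f.2
  obtain ⟨U₁, hU₁, rfl⟩ := hU'
  obtain ⟨U, hU, hUU₁, hUV⟩ := hV.exists_le hU₁
  have hUn := 𝒰.normal U hU
  rw [mem_cocycles₁_iff] at hfc
  have hf1 : ∀ (v u : V), (u : G) ∈ U → f.1 (v * u) = f.1 v := fun v u hu =>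
    hfU'.1 v u (Subgroup.mem_comap.2 (hUU₁ hu))
  have hf2 : ∀ (v u : V), (u : G) ∈ U → C.ρ (u : G) (f.1 v) = f.1 v := fun v u hu =>
    hfU'.2 v u (Subgroup.mem_comap.2 (hUU₁ hu))
  have hinv : ∀ (v : V) (u : U), C.ρ (u : G) (f.1 v) = f.1 v := fun v u =>
    hf2 v ⟨u.1, hUV u.2⟩ u.2
  let Hs : Subgroup (G ⧸ U) := V.map (QuotientGroup.mk' U)
  have hlift : ∀ h : Hs, ∃ v : V, ((v : G) : G ⧸ U) = h.1 := fun h => by
    obtain ⟨g, hg, hgh⟩ := h.2
    exact ⟨⟨g, hg⟩, hgh⟩
  choose s hs using hlift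
  let fbar : Hs → C.quotientToInvariants U := fun h => ⟨f.1 (s h), fun u => hinv (s h) u⟩
  have hwd : ∀ (v : V) (h : Hs), ((v : G) : G ⧸ U) = h.1 → f.1 v = f.1 (s h) := by
    intro v h hvh
    have hmem : ((s h : G))⁻¹ * (v : G) ∈ U := by
      rw [← QuotientGroup.eq, hs h, hvh]
    have h1 := hf1 (s h) ((s h)⁻¹ * v) (by simpa using hmem)
    rw [mul_inv_cancel_left] at h1
    exact h1
  have hcoc : fbar ∈ cocycles₁ (Rep.res Hs.subtype (C.quotientToInvariants U)) := by
    rw [mem_cocycles₁_iff]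
    intro h h'
    apply Subtype.ext
    have e1 : f.1 (s (h * h')) = f.1 (s h * s h') := by
      refine (hwd (s h * s h') (h * h') ?_).symm
      have : (((s h * s h' : V) : G) : G ⧸ U) = ((s h : G) : G ⧸ U) * ((s h' : G) : G ⧸ U) := rfl
      rw [this, hs h, hs h']
      rfl
    have e2 : (((Rep.res Hs.subtype (C.quotientToInvariants U)).ρ h (fbar h')).1 : C) =
        C.ρ (s h : G) (f.1 (s h')) := by
      have : (h : G ⧸ U) = ((s h : G) : G ⧸ U) := (hs h).symm
      change (((C.quotientToInvariants U).ρ (h : G ⧸ U) (fbar h')).1 : C) = _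
      rw [this]
      rfl
    change f.1 (s (h * h')) = ((Rep.res Hs.subtype (C.quotientToInvariants U)).ρ h (fbar h')).1 +
      f.1 (s h)
    rw [e1, e2, hfc]
    rfl
  have hz := (cf.isClassModule U hU).h1 Hs
  have h0 : H1π (Rep.res Hs.subtype (C.quotientToInvariants U)) ⟨fbar, hcoc⟩ = 0 := by
    have := (ModuleCat.isZero_iff_subsingleton.1 hz)
    exact Subsingleton.elim _ _
  rw [H1π_eq_zero_iff] at h0
  obtain ⟨c, hc⟩ := h0
  refine ⟨(c.1 : C), ⟨U.subgroupOf V, Levels.subgroupOf_mem_restrict hU V, ?_⟩, ?_⟩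
  · intro u hu
    exact c.2 ⟨u.1, hu⟩
  · funext v
    have hvH : ((v : G) : G ⧸ U) ∈ Hs := ⟨v.1, v.2, rfl⟩
    have h1 := congrFun hc ⟨((v : G) : G ⧸ U), hvH⟩
    have h2 : f.1 v = f.1 (s ⟨((v : G) : G ⧸ U), hvH⟩) := hwd v ⟨_, hvH⟩ rfl
    have h3 := congrArg Subtype.val h1
    rw [d₀₁_hom_apply]
    rw [h2]
    refine Eq.trans ?_ h3
    rfl

end ClassFormation

end Fermat.Agent.CFT.A7
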