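import Mathlib
import Fermat.Agent.CFT.A2.Induced

/-!
# `Hom(coind₁ V, C)` is coinduced (slice A7.2c, auxiliary)

For a finite group `G`, a `k`-module `V` and `C : Rep k G`, the internal hom
`Hom(coind₁ V, C) = (Rep.ihom (coind₁ k G V)).obj C` is isomorphic to the coinduced module
`coind₁ k G (V →ₗ[k] C)` via `F ↦ (x ↦ C.ρ x ∘ F ∘ single x)`.  Hence it has no cohomology in
positive degrees.  (Serre, Local Fields IX Thm 9 with the relatively projective module in the
first slot.)
-/

noncomputable section

universe u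

namespace Fermat.Agent.CFT.A7.HomFromCoind

open CategoryTheory groupCohomology Fermat.Agent.CFT.A2

variable {k G : Type u} [CommRing k] [Group G] [Fintype G]
  (V : Type u) [AddCommGroup V] [Module k V] (C : Rep.{u} k G)

open Classical in
/-- The `k`-linear equivalence `Hom(G → V, C) ≃ (G → Hom(V, C))`,
`F ↦ (x ↦ C.ρ x ∘ F ∘ single x)`. -/
def homFunEquiv : ((G → V) →ₗ[k] C.V) ≃ₗ[k] (G → (V →ₗ[k] C.V)) where
  toFun F x := C.ρ x ∘ₗ F ∘ₗ LinearMap.single k (fun _ : G => V) x
  map_add' F F' := by
    funext x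
    simp only [Pi.add_apply, LinearMap.add_comp, LinearMap.comp_add]
  map_smul' c F := by
    funext x
    simp only [Pi.smul_apply, LinearMap.smul_comp, LinearMap.comp_smul, RingHom.id_apply]
  invFun Ψ := ∑ x : G, (C.ρ x⁻¹ ∘ₗ Ψ x) ∘ₗ LinearMap.proj x
  left_inv F := by
    refine LinearMap.ext fun f => ?_
    simp only [LinearMap.sum_apply, LinearMap.comp_apply, LinearMap.proj_apply]
    have : ∀ x : G, C.ρ x⁻¹ (C.ρ x (F (LinearMap.single k (fun _ : G => V) x (f x)))) =
        F (Pi.single x (f x)) := by
      intro x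
      rw [← Module.End.mul_apply, ← map_mul, inv_mul_cancel, map_one, Module.End.one_apply]
      rfl
    simp_rw [this]
    rw [← map_sum, Finset.univ_sum_single]
  right_inv Ψ := by
    funext x
    refine LinearMap.ext fun v => ?_
    simp only [LinearMap.comp_apply, LinearMap.sum_apply, LinearMap.proj_apply,
      LinearMap.single_apply]
    rw [Finset.sum_eq_single x]
    · rw [Pi.single_eq_same, ← Module.End.mul_apply, ← map_mul, mul_inv_cancel, map_one,
        Module.End.one_apply]
    · intro y _ hy
      rw [Pi.single_eq_of_ne hy, map_zero, map_zero]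
    · intro h
      exact absurd (Finset.mem_univ x) h

open Classical in
lemma homFunEquiv_apply (F : (G → V) →ₗ[k] C.V) (x : G) (v : V) :
    homFunEquiv V C F x v = C.ρ x (F (Pi.single x v)) := rfl

open Classical in
/-- `homFunEquiv` is an equivalence of representations
`Hom(coind₁ V, C) ≃ coind₁ (Hom(V, C))`. -/
def homCoindEquiv :
    (Representation.linHom (funRep k G V) C.ρ).Equiv (funRep k G (V →ₗ[k] C.V)) :=
  Representation.Equiv.mk (homFunEquiv V C) (fun g => by
    refine LinearMap.ext fun F => ?_
    funext x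
    refine LinearMap.ext fun v => ?_
    simp only [LinearMap.comp_apply, LinearEquiv.coe_coe, funRep_apply, homFunEquiv_apply,
      Representation.linHom_apply]
    rw [← Module.End.mul_apply, ← map_mul]
    congr 2
    funext y
    rw [funRep_apply]
    by_cases h : y = x * g
    · subst h
      rw [mul_inv_cancel_right, Pi.single_eq_same, Pi.single_eq_same]
    · rw [Pi.single_eq_of_ne h, Pi.single_eq_of_ne]
      intro h'
      exact h (by rw [← h', inv_mul_cancel_right]))

/-- `Hom(coind₁ V, C) ≅ coind₁ (Hom(V, C))`. -/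
def homCoindIso : (Rep.ihom (coind₁ k G V)).obj C ≅ coind₁ k G (V →ₗ[k] C.V) :=
  Rep.mkIso (homCoindEquiv V C)

/-- `Hⁿ⁺¹(G, Hom(coind₁ V, C)) = 0`. -/
theorem isZero_groupCohomology_ihom_coind₁ (n : ℕ) :
    Limits.IsZero (groupCohomology ((Rep.ihom (coind₁ k G V)).obj C) (n + 1)) :=
  Limits.IsZero.of_iso (isZero_groupCohomology_coind₁ k G (V →ₗ[k] C.V) n)
    ((groupCohomology.functor k G (n + 1)).mapIso (homCoindIso V C))

end Fermat.Agent.CFT.A7.HomFromCoind
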