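/-
PROJECT C (S55), slice A7.1b (helper23): the RELATIVE cup product on cochains.

Data: a morphism `f : A₀ ⟶ A₁` (think `Hom(P₀, X) → Hom(P₁, X)`), a morphism `i : P₁ ⟶ P₀`,
pairings `φ₀ : A₀ × P₀ → X`, `φ₁ : A₁ × P₁ → X` with `φ₁ (f a) w = φ₀ a (i w)`.

A relative cochain of degree `r + 1` is a pair `(a, b)`, `a ∈ C^{r+1}(A₀)`, `b ∈ C^r(A₁)`, with
differential `D (a, b) = (d a, f ∘ a - d b)` (the sign convention of `CFT/A7/Fiber.lean`);
a relative cochain of degree `0` is `a ∈ C⁰(A₀)` with `D a = (d a, f ∘ a)`.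
A cone cochain of degree `s` is a pair `(y, w)`, `y ∈ C^s(P₀)`, `w ∈ C^{s+1}(P₁)`, with
differential `D' (y, w) = (d y - i ∘ w, - d w)`.

`relCupFun (a, b) (y, w) = a ∪ y + (-1)^r • b ∪ w` and the Leibniz rule
`d (relCupFun (a,b) (y,w)) = relCupFun (D (a,b)) (y,w) + (-1)^(r+1) • relCupFun (a,b) (D' (y,w))`.
All the well-definedness statements for the relative cup pairing
`H^{r+1}_rel(f) × H^s(P₀/P₁) → H^{r+1+s}(X)` are corollaries (stated below on plain cochains, so that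
they apply both to Mathlib's inhomogeneous cochains and to level-constant cochains).
-/
import Fermat.Agent.CFT.Cup.Cohomology
import Fermat.Agent.CFT.Cup.Delta

noncomputable section

universe u

namespace Fermat.Agent.CFT.A7.RelCupCochain

open CategoryTheory Fermat.Agent.CFT.Cup

variable {k G : Type u} [CommRing k] [Group G]

/-- Post-composition of a cochain with a morphism of representations. -/
def comp {A A' : Rep.{u} k G} (α : A ⟶ A') {n : ℕ} (a : (Fin n → G) → A.V) :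
    (Fin n → G) → A'.V := fun g => α.hom (a g)

@[simp] lemma comp_apply {A A' : Rep.{u} k G} (α : A ⟶ A') {n : ℕ} (a : (Fin n → G) → A.V)
    (g : Fin n → G) : comp α a g = α.hom (a g) := rfl

lemma comp_add {A A' : Rep.{u} k G} (α : A ⟶ A') {n : ℕ} (a a' : (Fin n → G) → A.V) :
    comp α (a + a') = comp α a + comp α a' := by
  funext g; simp

lemma comp_sub {A A' : Rep.{u} k G} (α : A ⟶ A') {n : ℕ} (a a' : (Fin n → G) → A.V) :
    comp α (a - a') = comp α a - comp α a' := by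
  funext g; simp

lemma comp_neg {A A' : Rep.{u} k G} (α : A ⟶ A') {n : ℕ} (a : (Fin n → G) → A.V) :
    comp α (-a) = -comp α a := by
  funext g; simp

lemma comp_smul {A A' : Rep.{u} k G} (α : A ⟶ A') {n : ℕ} (c : k) (a : (Fin n → G) → A.V) :
    comp α (c • a) = c • comp α a := by
  funext g; simp

@[simp] lemma comp_zero {A A' : Rep.{u} k G} (α : A ⟶ A') {n : ℕ} :
    comp α (0 : (Fin n → G) → A.V) = 0 := by
  funext g; simp

lemma dF_comp {A A' : Rep.{u} k G} (α : A ⟶ A') (n : ℕ) (a : (Fin n → G) → A.V) :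
    dF A' n (comp α a) = comp α (dF A n a) :=
  dF_comp_hom α n a

lemma dF_add (A : Rep.{u} k G) (n : ℕ) (a b : (Fin n → G) → A.V) :
    dF A n (a + b) = dF A n a + dF A n b := map_add _ _ _

lemma dF_sub (A : Rep.{u} k G) (n : ℕ) (a b : (Fin n → G) → A.V) :
    dF A n (a - b) = dF A n a - dF A n b := map_sub _ _ _

lemma dF_neg (A : Rep.{u} k G) (n : ℕ) (a : (Fin n → G) → A.V) :
    dF A n (-a) = -dF A n a := map_neg _ _

lemma dF_smul (A : Rep.{u} k G) (n : ℕ) (c : k) (a : (Fin n → G) → A.V) :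
    dF A n (c • a) = c • dF A n a := map_smul _ _ _

@[simp] lemma dF_zero (A : Rep.{u} k G) (n : ℕ) : dF A n (0 : (Fin n → G) → A.V) = 0 :=
  map_zero _

/-! ### The compatible pairings -/

section

variable {A₀ A₁ P₀ P₁ X : Rep.{u} k G} (f : A₀ ⟶ A₁) (i : P₁ ⟶ P₀)
  (φ₀ : Pairing A₀ P₀ X) (φ₁ : Pairing A₁ P₁ X)

/-- The compatibility `φ₁ (f a) w = φ₀ a (i w)` of the two pairings. -/
def Compat : Prop := ∀ (a : A₀.V) (w : P₁.V), φ₁.toLin (f.hom a) w = φ₀.toLin a (i.hom w)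

variable {f i φ₀ φ₁}

/-- `a ∪ (i ∘ w) = (f ∘ a) ∪ w`. -/
lemma cupFun_comp_right (hφ : Compat f i φ₀ φ₁) {p q n : ℕ} (h : p + q = n)
    (a : (Fin p → G) → A₀.V) (w : (Fin q → G) → P₁.V) :
    cupFun φ₀ h a (comp i w) = cupFun φ₁ h (comp f a) w := by
  funext g
  rw [cupFun_apply, cupFun_apply, comp_apply, comp_apply, hφ, Rep.hom_comm_apply]

/-! ### The relative cup product of cochains -/

variable (φ₀ φ₁)

/-- `relCupFun (a, b) (y, w) = a ∪ y + (-1)^r • b ∪ w` for `a ∈ C^{r+1}(A₀)`, `b ∈ C^r(A₁)`,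
`y ∈ C^s(P₀)`, `w ∈ C^{s+1}(P₁)`. -/
def relCupFun {r s n : ℕ} (h : (r + 1) + s = n)
    (a : (Fin (r + 1) → G) → A₀.V) (b : (Fin r → G) → A₁.V)
    (y : (Fin s → G) → P₀.V) (w : (Fin (s + 1) → G) → P₁.V) : (Fin n → G) → X.V :=
  cupFun φ₀ h a y + (-1 : k) ^ r • cupFun φ₁ (show r + (s + 1) = n by omega) b w

lemma relCupFun_def {r s n : ℕ} (h : (r + 1) + s = n)
    (a : (Fin (r + 1) → G) → A₀.V) (b : (Fin r → G) → A₁.V)
    (y : (Fin s → G) → P₀.V) (w : (Fin (s + 1) → G) → P₁.V) :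
    relCupFun φ₀ φ₁ h a b y w =
      cupFun φ₀ h a y + (-1 : k) ^ r • cupFun φ₁ (show r + (s + 1) = n by omega) b w := rfl

lemma relCupFun_add_left {r s n : ℕ} (h : (r + 1) + s = n)
    (a a' : (Fin (r + 1) → G) → A₀.V) (b b' : (Fin r → G) → A₁.V)
    (y : (Fin s → G) → P₀.V) (w : (Fin (s + 1) → G) → P₁.V) :
    relCupFun φ₀ φ₁ h (a + a') (b + b') y w =
      relCupFun φ₀ φ₁ h a b y w + relCupFun φ₀ φ₁ h a' b' y w := by
  simp only [relCupFun_def, cupFun_add_left, smul_add]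
  abel

lemma relCupFun_add_right {r s n : ℕ} (h : (r + 1) + s = n)
    (a : (Fin (r + 1) → G) → A₀.V) (b : (Fin r → G) → A₁.V)
    (y y' : (Fin s → G) → P₀.V) (w w' : (Fin (s + 1) → G) → P₁.V) :
    relCupFun φ₀ φ₁ h a b (y + y') (w + w') =
      relCupFun φ₀ φ₁ h a b y w + relCupFun φ₀ φ₁ h a b y' w' := by
  simp only [relCupFun_def, cupFun_add_right, smul_add]
  abel

lemma relCupFun_smul_left {r s n : ℕ} (h : (r + 1) + s = n) (c : k)
    (a : (Fin (r + 1) → G) → A₀.V) (b : (Fin r → G) → A₁.V)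
    (y : (Fin s → G) → P₀.V) (w : (Fin (s + 1) → G) → P₁.V) :
    relCupFun φ₀ φ₁ h (c • a) (c • b) y w = c • relCupFun φ₀ φ₁ h a b y w := by
  simp only [relCupFun_def, cupFun_smul_left, smul_add, smul_comm c]

lemma relCupFun_smul_right {r s n : ℕ} (h : (r + 1) + s = n) (c : k)
    (a : (Fin (r + 1) → G) → A₀.V) (b : (Fin r → G) → A₁.V)
    (y : (Fin s → G) → P₀.V) (w : (Fin (s + 1) → G) → P₁.V) :
    relCupFun φ₀ φ₁ h a b (c • y) (c • w) = c • relCupFun φ₀ φ₁ h a b y w := by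
  simp only [relCupFun_def, cupFun_smul_right, smul_add, smul_comm c]

@[simp] lemma relCupFun_zero_left {r s n : ℕ} (h : (r + 1) + s = n)
    (y : (Fin s → G) → P₀.V) (w : (Fin (s + 1) → G) → P₁.V) :
    relCupFun φ₀ φ₁ h (0 : (Fin (r + 1) → G) → A₀.V) (0 : (Fin r → G) → A₁.V) y w = 0 := by
  simp [relCupFun_def]

@[simp] lemma relCupFun_zero_right {r s n : ℕ} (h : (r + 1) + s = n)
    (a : (Fin (r + 1) → G) → A₀.V) (b : (Fin r → G) → A₁.V) :
    relCupFun φ₀ φ₁ h a b (0 : (Fin s → G) → P₀.V) (0 : (Fin (s + 1) → G) → P₁.V) = 0 := by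
  simp [relCupFun_def]

variable {φ₀ φ₁}

/-- **Leibniz rule for the relative cup product**, positive relative degree:
`d ((a,b) ∪ (y,w)) = D(a,b) ∪ (y,w) + (-1)^(r+1) • (a,b) ∪ D'(y,w)` with
`D (a,b) = (d a, f∘a - d b)` and `D' (y,w) = (d y - i∘w, - d w)`. -/
theorem dF_relCupFun (hφ : Compat f i φ₀ φ₁) {r s n : ℕ} (h : (r + 1) + s = n)
    (a : (Fin (r + 1) → G) → A₀.V) (b : (Fin r → G) → A₁.V)
    (y : (Fin s → G) → P₀.V) (w : (Fin (s + 1) → G) → P₁.V) :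
    dF X n (relCupFun φ₀ φ₁ h a b y w) =
      relCupFun φ₀ φ₁ (show (r + 1 + 1) + s = n + 1 by omega)
          (dF A₀ (r + 1) a) (comp f a - dF A₁ r b) y w +
        (-1 : k) ^ (r + 1) • relCupFun φ₀ φ₁ (show (r + 1) + (s + 1) = n + 1 by omega) a b
          (dF P₀ s y - comp i w) (-dF P₁ (s + 1) w) := by
  have e1 : cupFun φ₀ (show (r + 1) + (s + 1) = n + 1 by omega) a (comp i w) =
      cupFun φ₁ (show (r + 1) + (s + 1) = n + 1 by omega) (comp f a) w :=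
    cupFun_comp_right hφ _ a w
  rw [relCupFun_def, dF_add, dF_smul, dF_cupFun, dF_cupFun, relCupFun_def, relCupFun_def]
  simp only [sub_eq_add_neg, cupFun_add_left, cupFun_add_right, smul_add,
    ← neg_one_smul k (dF A₁ r b), ← neg_one_smul k (comp i w),
    ← neg_one_smul k (dF P₁ (s + 1) w), cupFun_smul_left, cupFun_smul_right, e1, smul_smul,
    pow_succ]
  rcases Nat.even_or_odd r with hr | hr
  · simp only [hr.neg_one_pow]
    module
  · simp only [hr.neg_one_pow]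
    module

/-- **Leibniz rule for the relative cup product**, relative degree `0`:
`d (a ∪ y) = D a ∪ (y,w) + a ∪ (d y - i∘w)` with `D a = (d a, f∘a)`. -/
theorem dF_cupFun_rel_zero (hφ : Compat f i φ₀ φ₁) {s n : ℕ} (h : 0 + s = n)
    (a : (Fin 0 → G) → A₀.V) (y : (Fin s → G) → P₀.V) (w : (Fin (s + 1) → G) → P₁.V) :
    dF X n (cupFun φ₀ h a y) =
      relCupFun φ₀ φ₁ (show (0 + 1) + s = n + 1 by omega) (dF A₀ 0 a) (comp f a) y w +
        cupFun φ₀ (show 0 + (s + 1) = n + 1 by omega) a (dF P₀ s y - comp i w) := by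
  have e1 : cupFun φ₀ (show 0 + (s + 1) = n + 1 by omega) a (comp i w) =
      cupFun φ₁ (show 0 + (s + 1) = n + 1 by omega) (comp f a) w :=
    cupFun_comp_right hφ _ a w
  rw [dF_cupFun, relCupFun_def]
  simp only [sub_eq_add_neg, cupFun_add_right,
    ← neg_one_smul k (comp i w), cupFun_smul_right, e1, pow_zero, one_smul]
  module

/-! ### Corollaries: everything needed for the pairing on cohomology -/

/-- (W1) The relative cup product of a relative cocycle and a cone cocycle is a cocycle. -/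
theorem dF_relCupFun_eq_zero (hφ : Compat f i φ₀ φ₁) {r s n : ℕ} (h : (r + 1) + s = n)
    {a : (Fin (r + 1) → G) → A₀.V} {b : (Fin r → G) → A₁.V}
    {y : (Fin s → G) → P₀.V} {w : (Fin (s + 1) → G) → P₁.V}
    (ha : dF A₀ (r + 1) a = 0) (hab : comp f a = dF A₁ r b)
    (hy : dF P₀ s y = comp i w) (hw : dF P₁ (s + 1) w = 0) :
    dF X n (relCupFun φ₀ φ₁ h a b y w) = 0 := by
  rw [dF_relCupFun hφ, ha, hab, hy, hw]
  simp

/-- (W1₀) degree `0`: `a ∪ y` is a cocycle if `d a = 0`, `f ∘ a = 0`, `d y = i ∘ w`. -/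
theorem dF_cupFun_rel_zero_eq_zero (hφ : Compat f i φ₀ φ₁) {s n : ℕ} (h : 0 + s = n)
    {a : (Fin 0 → G) → A₀.V} {y : (Fin s → G) → P₀.V} {w : (Fin (s + 1) → G) → P₁.V}
    (ha : dF A₀ 0 a = 0) (hfa : comp f a = 0) (hy : dF P₀ s y = comp i w) :
    dF X n (cupFun φ₀ h a y) = 0 := by
  rw [dF_cupFun_rel_zero hφ h a y w, ha, hfa, hy]
  simp

/-- (W2) change of the lift: `(a,b) ∪ (i∘u, d u) = d (b ∪ u)` for a relative cocycle `(a,b)`. -/
theorem relCupFun_comp_dF (hφ : Compat f i φ₀ φ₁) {r s m : ℕ} (h : (r + 1) + s = m + 1)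
    {a : (Fin (r + 1) → G) → A₀.V} {b : (Fin r → G) → A₁.V}
    (hab : comp f a = dF A₁ r b) (u : (Fin s → G) → P₁.V) :
    relCupFun φ₀ φ₁ h a b (comp i u) (dF P₁ s u) =
      dF X m (cupFun φ₁ (show r + s = m by omega) b u) := by
  rw [relCupFun_def, cupFun_comp_right hφ, hab, dF_cupFun]

/-- (W2₀) degree `0`: `a ∪ (i∘u) = 0` if `f ∘ a = 0`. -/
theorem cupFun_comp_eq_zero (hφ : Compat f i φ₀ φ₁) {s n : ℕ} (h : 0 + s = n)
    {a : (Fin 0 → G) → A₀.V} (hfa : comp f a = 0) (u : (Fin s → G) → P₁.V) :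
    cupFun φ₀ h a (comp i u) = 0 := by
  rw [cupFun_comp_right hφ, hfa, cupFun_zero_left]

/-- (W3) change of the cocycle of `P₀/P₁` by a coboundary:
`(a,b) ∪ (d y', 0) = (-1)^(r+1) • d (a ∪ y')` for `d a = 0`. -/
theorem relCupFun_dF_zero {r s m : ℕ} (h : (r + 1) + (s + 1) = m + 1)
    {a : (Fin (r + 1) → G) → A₀.V} (b : (Fin r → G) → A₁.V)
    (ha : dF A₀ (r + 1) a = 0) (y' : (Fin s → G) → P₀.V) :
    relCupFun φ₀ φ₁ h a b (dF P₀ s y') 0 =
      (-1 : k) ^ (r + 1) • dF X m (cupFun φ₀ (show (r + 1) + s = m by omega) a y') := by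
  rw [relCupFun_def, cupFun_zero_right, smul_zero, add_zero, dF_cupFun, ha, cupFun_zero_left,
    zero_add, smul_smul, ← pow_add, Even.neg_one_pow ⟨r + 1, rfl⟩, one_smul]

/-- (W3₀) degree `0`: `a ∪ d y' = d (a ∪ y')` for `d a = 0`. -/
theorem cupFun_dF_rel_zero {s m : ℕ} (h : 0 + (s + 1) = m + 1)
    {a : (Fin 0 → G) → A₀.V} (ha : dF A₀ 0 a = 0) (y' : (Fin s → G) → P₀.V) :
    cupFun φ₀ h a (dF P₀ s y') = dF X m (cupFun φ₀ (show 0 + s = m by omega) a y') := by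
  rw [dF_cupFun, ha, cupFun_zero_left, zero_add, pow_zero, one_smul]

/-- (W4) change of the relative cocycle by a relative coboundary:
`D (a',b') ∪ (y,w) = d ((a',b') ∪ (y,w))` for a cone cocycle `(y,w)`. -/
theorem relCupFun_D (hφ : Compat f i φ₀ φ₁) {r s m : ℕ} (h : (r + 1 + 1) + s = m + 1)
    (a' : (Fin (r + 1) → G) → A₀.V) (b' : (Fin r → G) → A₁.V)
    {y : (Fin s → G) → P₀.V} {w : (Fin (s + 1) → G) → P₁.V}
    (hy : dF P₀ s y = comp i w) (hw : dF P₁ (s + 1) w = 0) :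
    relCupFun φ₀ φ₁ h (dF A₀ (r + 1) a') (comp f a' - dF A₁ r b') y w =
      dF X m (relCupFun φ₀ φ₁ (show (r + 1) + s = m by omega) a' b' y w) := by
  rw [dF_relCupFun hφ, hy, hw]
  simp

/-- (W4₀) the same for a relative coboundary from degree `0`:
`(d a', f∘a') ∪ (y,w) = d (a' ∪ y)`. -/
theorem relCupFun_D_zero (hφ : Compat f i φ₀ φ₁) {s m : ℕ} (h : (0 + 1) + s = m + 1)
    (a' : (Fin 0 → G) → A₀.V)
    {y : (Fin s → G) → P₀.V} {w : (Fin (s + 1) → G) → P₁.V}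
    (hy : dF P₀ s y = comp i w) :
    relCupFun φ₀ φ₁ h (dF A₀ 0 a') (comp f a') y w =
      dF X m (cupFun φ₀ (show 0 + s = m by omega) a' y) := by
  rw [dF_cupFun_rel_zero hφ _ a' y w, hy]
  simp

/-- (c1 on cochains) `(0, b) ∪ (y, w) = (-1)^r • b ∪ w`. -/
lemma relCupFun_zero_fst {r s n : ℕ} (h : (r + 1) + s = n) (b : (Fin r → G) → A₁.V)
    (y : (Fin s → G) → P₀.V) (w : (Fin (s + 1) → G) → P₁.V) :
    relCupFun φ₀ φ₁ h (0 : (Fin (r + 1) → G) → A₀.V) b y w =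
      (-1 : k) ^ r • cupFun φ₁ (show r + (s + 1) = n by omega) b w := by
  rw [relCupFun_def, cupFun_zero_left, zero_add]

/-- (c2 on cochains) `(a, b) ∪ (y, 0) = a ∪ y`. -/
lemma relCupFun_zero_snd {r s n : ℕ} (h : (r + 1) + s = n)
    (a : (Fin (r + 1) → G) → A₀.V) (b : (Fin r → G) → A₁.V) (y : (Fin s → G) → P₀.V) :
    relCupFun φ₀ φ₁ h a b y (0 : (Fin (s + 1) → G) → P₁.V) = cupFun φ₀ h a y := by
  rw [relCupFun_def, cupFun_zero_right, smul_zero, add_zero]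

end

end Fermat.Agent.CFT.A7.RelCupCochain
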