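/-
PROJECT C (S55), slice A7.1b (helper23): `Hom(P, X)` as a representation.

`homRep P X := (Rep.ihom P).obj X` (the `k`-linear maps `P → X` with the conjugation action
`(g • φ) v = g • φ (g⁻¹ • v)`), its covariant functoriality `homMap P g` (= `(Rep.ihom P).map g`),
its contravariant functoriality `homRes i X` (restriction along `i : P₁ ⟶ P₀`), the compatibility
of the evaluation pairings `Pairing.eval` with `homRes`/`homMap`, and exactness:

* `ihom_shortExact`: `Hom(P, -)` preserves short exact sequences when `P` is `k`-projective;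
* `homSC_shortExact`: `Hom(-, X)` turns a short exact sequence with `k`-projective cokernel into a
  short exact sequence; in general it is left exact (`homRes_injective`, `homSC_exact`).
-/
import Fermat.Agent.CFT.A3.Pairings
import Fermat.Agent.CFT.Cup.DeltaBoth
import Fermat.Agent.CFT.A7.RelCupCochain

noncomputable section

universe u

namespace Fermat.Agent.CFT.A7.HomRep

open CategoryTheory Fermat.Agent.CFT.Cup Fermat.Agent.CFT.A7.RelCupCochain

/-! ### Linear algebra -/

section lin

variable {k : Type*} [CommRing k] {A B C P X : Type*} [AddCommGroup A] [Module k A]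
  [AddCommGroup B] [Module k B] [AddCommGroup C] [Module k C] [AddCommGroup P] [Module k P]
  [AddCommGroup X] [Module k X]

/-- Factor a map into `B` killed by `g` through an injective `f` with `ker g ≤ range f`. -/
lemma exists_comp_eq_of_exact (f : A →ₗ[k] B) (g : B →ₗ[k] C) (hf : Function.Injective f)
    (hex : ∀ v, g v = 0 → ∃ w, f w = v) (ψ : P →ₗ[k] B) (hψ : g ∘ₗ ψ = 0) :
    ∃ φ : P →ₗ[k] A, f ∘ₗ φ = ψ := by
  have hmem : ∀ v, ψ v ∈ LinearMap.range f := fun v => by
    obtain ⟨w, hw⟩ := hex (ψ v) (by simpa using LinearMap.congr_fun hψ v)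
    exact ⟨w, hw⟩
  refine ⟨(LinearEquiv.ofInjective f hf).symm.toLinearMap ∘ₗ ψ.codRestrict _ hmem, ?_⟩
  ext v
  have := (LinearEquiv.ofInjective f hf).apply_symm_apply ⟨ψ v, hmem v⟩
  exact congrArg Subtype.val this

/-- Factor a map out of `B` killing `range f` through a surjective `g` with `ker g ≤ range f`. -/
lemma exists_comp_eq_of_exact' (f : A →ₗ[k] B) (g : B →ₗ[k] C) (hg : Function.Surjective g)
    (hex : ∀ v, g v = 0 → ∃ w, f w = v) (φ : B →ₗ[k] X) (hφ : φ ∘ₗ f = 0) :
    ∃ θ : C →ₗ[k] X, θ ∘ₗ g = φ := by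
  have hker : LinearMap.ker g ≤ LinearMap.ker φ := fun v hv => by
    obtain ⟨w, rfl⟩ := hex v hv
    simpa using LinearMap.congr_fun hφ w
  refine ⟨(LinearMap.ker g).liftQ φ hker ∘ₗ (g.quotKerEquivOfSurjective hg).symm.toLinearMap, ?_⟩
  ext v
  have : (g.quotKerEquivOfSurjective hg).symm (g v) = Submodule.Quotient.mk v := by
    rw [LinearEquiv.symm_apply_eq]; rfl
  simp [this]

/-- A short exact sequence of modules with projective cokernel has a retraction. -/
lemma exists_retraction_of_projective (f : A →ₗ[k] B) (g : B →ₗ[k] C)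
    (hf : Function.Injective f) (hg : Function.Surjective g) (hgf : ∀ w, g (f w) = 0)
    (hex : ∀ v, g v = 0 → ∃ w, f w = v) [Module.Projective k C] :
    ∃ r : B →ₗ[k] A, r ∘ₗ f = LinearMap.id := by
  obtain ⟨s, hs⟩ := Module.projective_lifting_property g LinearMap.id hg
  obtain ⟨r, hr⟩ := exists_comp_eq_of_exact f g hf hex (LinearMap.id - s ∘ₗ g) (by
    ext v
    have := LinearMap.congr_fun hs (g v)
    simp at this
    simp [this])
  refine ⟨r, ?_⟩
  ext w
  apply hf
  have h1 := LinearMap.congr_fun hr (f w)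
  simp only [LinearMap.comp_apply, LinearMap.sub_apply, LinearMap.id_apply] at h1 ⊢
  rw [h1, hgf, map_zero, sub_zero]

end lin

variable {k G : Type u} [CommRing k] [Group G]

/-- Elementwise criterion for short exactness in `Rep k G`. -/
lemma shortExact_of_elementwise (S : ShortComplex (Rep.{u} k G))
    (hf : Function.Injective S.f.hom)
    (hex : ∀ v : S.X₂.V, S.g.hom v = 0 → ∃ w : S.X₁.V, S.f.hom w = v)
    (hg : Function.Surjective S.g.hom) : S.ShortExact := by
  have hexact : S.Exact := by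
    rw [← ShortComplex.exact_map_iff_of_faithful S (forget₂ (Rep k G) (ModuleCat k)),
      ShortComplex.moduleCat_exact_iff]
    intro v hv
    exact hex v hv
  have : Mono S.f := (Rep.mono_iff_injective S.f).2 hf
  have : Epi S.g := (Rep.epi_iff_surjective S.g).2 hg
  exact ShortComplex.ShortExact.mk' hexact inferInstance inferInstance

lemma shortExact_zero_apply {S : ShortComplex (Rep.{u} k G)} (w : S.X₁.V) :
    S.g.hom (S.f.hom w) = 0 := by
  have := S.zero
  exact congr($(this).hom w)

/-! ### `Hom(P, X)` -/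

/-- `Hom(P, X)` with the conjugation action, i.e. Mathlib's internal hom `(Rep.ihom P).obj X`. -/
abbrev homRep (P X : Rep.{u} k G) : Rep.{u} k G := (Rep.ihom P).obj X

/-- The elements of `homRep P X` are the `k`-linear maps `P → X`. -/
def toLin {P X : Rep.{u} k G} : (homRep P X).V ≃ₗ[k] (P.V →ₗ[k] X.V) := LinearEquiv.refl _ _

@[ext] lemma homRep_ext {P X : Rep.{u} k G} {φ ψ : (homRep P X).V}
    (h : ∀ v, toLin φ v = toLin ψ v) : φ = ψ :=
  toLin.injective (LinearMap.ext h)

lemma toLin_ρ (P X : Rep.{u} k G) (g : G) (φ : (homRep P X).V) (v : P.V) :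
    toLin ((homRep P X).ρ g φ) v = X.ρ g (toLin φ (P.ρ g⁻¹ v)) := rfl

/-- `g • φ = φ` iff `φ (g • v) = g • φ v` for all `v`. -/
lemma ρ_eq_self_iff (P X : Rep.{u} k G) (g : G) (φ : (homRep P X).V) :
    (homRep P X).ρ g φ = φ ↔ ∀ v, toLin φ (P.ρ g v) = X.ρ g (toLin φ v) := by
  constructor
  · intro h v
    have := congrArg (fun ψ => toLin ψ (P.ρ g v)) h
    simp only [toLin_ρ] at this
    rw [← this, ← Module.End.mul_apply, ← map_mul, inv_mul_cancel, map_one, Module.End.one_apply]
  · intro h
    ext v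
    rw [toLin_ρ, ← h, ← Module.End.mul_apply, ← map_mul, mul_inv_cancel, map_one,
      Module.End.one_apply]

/-- covariant functoriality `Hom(P, X) → Hom(P, Y)` -/
abbrev homMap (P : Rep.{u} k G) {X Y : Rep.{u} k G} (g : X ⟶ Y) : homRep P X ⟶ homRep P Y :=
  (Rep.ihom P).map g

lemma toLin_homMap (P : Rep.{u} k G) {X Y : Rep.{u} k G} (g : X ⟶ Y) (φ : (homRep P X).V)
    (v : P.V) : toLin ((homMap P g).hom φ) v = g.hom (toLin φ v) := rfl

/-- contravariant functoriality: restriction `Hom(P₀, X) → Hom(P₁, X)` along `i : P₁ ⟶ P₀`. -/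
def homRes {P₁ P₀ : Rep.{u} k G} (i : P₁ ⟶ P₀) (X : Rep.{u} k G) : homRep P₀ X ⟶ homRep P₁ X :=
  Rep.ofHom ⟨LinearMap.lcomp k X.V i.hom.toLinearMap, fun g => by
    ext φ v
    change X.ρ g (φ (P₀.ρ g⁻¹ (i.hom v))) = X.ρ g (φ (i.hom (P₁.ρ g⁻¹ v)))
    rw [Rep.hom_comm_apply]⟩

lemma toLin_homRes {P₁ P₀ : Rep.{u} k G} (i : P₁ ⟶ P₀) (X : Rep.{u} k G) (φ : (homRep P₀ X).V)
    (v : P₁.V) : toLin ((homRes i X).hom φ) v = toLin φ (i.hom v) := rfl

@[simp] lemma homRes_id (P X : Rep.{u} k G) : homRes (𝟙 P) X = 𝟙 (homRep P X) := by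
  ext φ; rfl

lemma homRes_comp {P₂ P₁ P₀ : Rep.{u} k G} (j : P₂ ⟶ P₁) (i : P₁ ⟶ P₀) (X : Rep.{u} k G) :
    homRes (j ≫ i) X = homRes i X ≫ homRes j X := by
  ext φ; rfl

/-- restriction commutes with change of coefficients -/
lemma homRes_homMap {P₁ P₀ : Rep.{u} k G} (i : P₁ ⟶ P₀) {X Y : Rep.{u} k G} (g : X ⟶ Y) :
    homRes i X ≫ homMap P₁ g = homMap P₀ g ≫ homRes i Y := by
  ext φ; rfl

/-! ### Evaluation pairings -/

/-- The evaluation pairings are compatible with restriction: `(φ ∘ i) w = φ (i w)`. -/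
lemma compat_eval {P₁ P₀ : Rep.{u} k G} (i : P₁ ⟶ P₀) (X : Rep.{u} k G) :
    Compat (homRes i X) i (Pairing.eval P₀ X) (Pairing.eval P₁ X) :=
  fun _ _ => rfl

/-- The evaluation pairings are compatible with change of coefficients. -/
lemma eval_homMap (P : Rep.{u} k G) {X Y : Rep.{u} k G} (g : X ⟶ Y) (φ : (homRep P X).V)
    (v : P.V) :
    (Pairing.eval P Y).toLin ((homMap P g).hom φ) v = g.hom ((Pairing.eval P X).toLin φ v) := rfl

lemma eval_toLin (P X : Rep.{u} k G) (φ : (homRep P X).V) (v : P.V) :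
    (Pairing.eval P X).toLin φ v = toLin φ v := rfl

/-! ### Exactness of `Hom(P, -)` -/

section covariant

variable (P : Rep.{u} k G) {S : ShortComplex (Rep.{u} k G)}

lemma homMap_injective {X Y : Rep.{u} k G} (g : X ⟶ Y) (hg : Function.Injective g.hom) :
    Function.Injective (homMap P g).hom := by
  intro φ ψ h
  ext v
  apply hg
  exact congrArg (fun θ => toLin θ v) h

/-- `Hom(P, -)` is left exact. -/
lemma ihom_exact (hS : S.ShortExact) (ψ : (homRep P S.X₂).V) (hψ : (homMap P S.g).hom ψ = 0) :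
    ∃ φ : (homRep P S.X₁).V, (homMap P S.f).hom φ = ψ := by
  obtain ⟨φ, hφ⟩ := exists_comp_eq_of_exact S.f.hom.toLinearMap S.g.hom.toLinearMap
    (shortExact_f_injective hS) (shortExact_exact hS) (toLin ψ) (by
      ext v
      exact congrArg (fun θ => toLin θ v) hψ)
  refine ⟨toLin.symm φ, ?_⟩
  ext v
  exact LinearMap.congr_fun hφ v

lemma homMap_surjective [Module.Projective k P.V] {X Y : Rep.{u} k G} (g : X ⟶ Y)
    (hg : Function.Surjective g.hom) : Function.Surjective (homMap P g).hom := by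
  intro ψ
  obtain ⟨φ, hφ⟩ := Module.projective_lifting_property g.hom.toLinearMap (toLin ψ) hg
  refine ⟨toLin.symm φ, ?_⟩
  ext v
  exact LinearMap.congr_fun hφ v

instance ihom_additive : (Rep.ihom P).Additive where
  map_add := by
    intro X Y f g
    ext φ
    rfl

/-- **`Hom(P, -)` is exact** for a `k`-projective `P`. -/
theorem ihom_shortExact [Module.Projective k P.V] (hS : S.ShortExact) :
    (S.map (Rep.ihom P)).ShortExact :=
  shortExact_of_elementwise _ (homMap_injective P S.f (shortExact_f_injective hS))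
    (ihom_exact P hS) (homMap_surjective P S.g (shortExact_g_surjective hS))

end covariant

/-! ### Exactness of `Hom(-, X)` -/

section contravariant

variable {S : ShortComplex (Rep.{u} k G)} (X : Rep.{u} k G)

lemma homRes_injective {P₁ P₀ : Rep.{u} k G} (i : P₁ ⟶ P₀) (hi : Function.Surjective i.hom) :
    Function.Injective (homRes i X).hom := by
  intro φ ψ h
  ext v
  obtain ⟨w, rfl⟩ := hi v
  exact congrArg (fun θ => toLin θ w) h

variable (S) in
/-- The short complex `Hom(S.X₃, X) → Hom(S.X₂, X) → Hom(S.X₁, X)`. -/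
def homSC : ShortComplex (Rep.{u} k G) :=
  ShortComplex.mk (homRes S.g X) (homRes S.f X) (by
    rw [← homRes_comp, S.zero]
    ext φ v
    change toLin φ ((0 : S.X₁ ⟶ S.X₃).hom v) = 0
    simp)

@[simp] lemma homSC_f : (homSC S X).f = homRes S.g X := rfl
@[simp] lemma homSC_g : (homSC S X).g = homRes S.f X := rfl
@[simp] lemma homSC_X₁ : (homSC S X).X₁ = homRep S.X₃ X := rfl
@[simp] lemma homSC_X₂ : (homSC S X).X₂ = homRep S.X₂ X := rfl
@[simp] lemma homSC_X₃ : (homSC S X).X₃ = homRep S.X₁ X := rfl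

/-- `Hom(-, X)` is left exact. -/
lemma homSC_exact (hS : S.ShortExact) (φ : (homRep S.X₂ X).V) (hφ : (homRes S.f X).hom φ = 0) :
    ∃ θ : (homRep S.X₃ X).V, (homRes S.g X).hom θ = φ := by
  obtain ⟨θ, hθ⟩ := exists_comp_eq_of_exact' S.f.hom.toLinearMap S.g.hom.toLinearMap
    (shortExact_g_surjective hS) (shortExact_exact hS) (toLin φ) (by
      ext v
      exact congrArg (fun θ => toLin θ v) hφ)
  refine ⟨toLin.symm θ, ?_⟩
  ext v
  exact LinearMap.congr_fun hθ v

/-- restriction to a `k`-direct summand is onto -/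
lemma homRes_surjective_of_projective (hS : S.ShortExact) [Module.Projective k S.X₃.V] :
    Function.Surjective (homRes S.f X).hom := by
  intro θ
  obtain ⟨r, hr⟩ := exists_retraction_of_projective S.f.hom.toLinearMap S.g.hom.toLinearMap
    (shortExact_f_injective hS) (shortExact_g_surjective hS) (fun w => shortExact_zero_apply w)
    (shortExact_exact hS)
  refine ⟨toLin.symm (toLin θ ∘ₗ r), ?_⟩
  ext v
  change toLin θ (r (S.f.hom v)) = toLin θ v
  have := LinearMap.congr_fun hr v
  simp only [LinearMap.comp_apply, LinearMap.id_apply] at this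
  exact congrArg (toLin θ) this

/-- **`Hom(-, X)` is exact on short exact sequences with `k`-projective cokernel.** -/
theorem homSC_shortExact (hS : S.ShortExact) [Module.Projective k S.X₃.V] :
    (homSC S X).ShortExact :=
  shortExact_of_elementwise _ (homRes_injective X S.g (shortExact_g_surjective hS))
    (homSC_exact X hS) (homRes_surjective_of_projective X hS)

/-- If restriction `Hom(S.X₂, X) → Hom(S.X₁, X)` happens to be onto (e.g. `X` divisible), the
sequence of `Hom`s is short exact. -/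
theorem homSC_shortExact_of_surjective (hS : S.ShortExact)
    (h : Function.Surjective (homRes S.f X).hom) : (homSC S X).ShortExact :=
  shortExact_of_elementwise _ (homRes_injective X S.g (shortExact_g_surjective hS))
    (homSC_exact X hS) h

/-- **The adjoint `δ`-rule**: for a short exact sequence `S : 0 → P → I → P' → 0` such that
`0 → Hom(P', C) → Hom(I, C) → Hom(P, C) → 0` is short exact (`hH`; e.g. `homSC_shortExact`),
`δ x ∪ y' = (-1)^(p+1) • x ∪ δ y'` for `x ∈ Hᵖ(G, Hom(P, C))`, `y' ∈ H^q(G, P')`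
(evaluation pairings). -/
theorem δ_cup_δ_eval (hS : S.ShortExact) (hH : (homSC S X).ShortExact) {p q n : ℕ}
    (h : p + q = n) (x : groupCohomology (homRep S.X₁ X) p) (y : groupCohomology S.X₃ q) :
    cup (Pairing.eval S.X₃ X) (show (p + 1) + q = n + 1 by omega)
        (groupCohomology.δ hH p (p + 1) rfl x) y =
      (-1 : k) ^ (p + 1) •
        cup (Pairing.eval S.X₁ X) (show p + (q + 1) = n + 1 by omega) x
          (groupCohomology.δ hS q (q + 1) rfl y) :=
  δ_cup_δ hH hS (Pairing.eval S.X₂ X) (Pairing.eval S.X₃ X) (Pairing.eval S.X₁ X)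
    (fun _ _ => rfl) (fun _ _ => rfl) h x y

end contravariant

end Fermat.Agent.CFT.A7.HomRep
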