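import Mathlib
import Fermat.Agent.CFT.Cup.DeltaBoth

/-!
# Dimension shifting for cup-product dualities (slice A7.2c, abstract part)

`X : 0 → X₁ → X₂ → X₃ → 0` and `Y : 0 → Y₁ → Y₂ → Y₃ → 0` short exact in `Rep k G`, with
compatible pairings `φ : X₂ × Y₂ → C`, `φ' : X₁ × Y₃ → C`, `φ'' : X₃ × Y₁ → C`
(as in `Cup.δ_cup_δ`).  Then nondegeneracy / realisability statements for the pairing
`H^{p+1}(X₁) × H^q(Y₃) → H^{n+1}(C)` induced by `φ'` shift to the pairing
`H^p(X₃) × H^{q+1}(Y₁) → H^{n+1}(C)` induced by `φ''`.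

Typical use: `Y = (P → coind₁ P → up P)`, `X = Hom(Y, C)`, all pairings = evaluation.
-/

noncomputable section

universe u

namespace Fermat.Agent.CFT.A7.ShiftDual

open CategoryTheory groupCohomology Fermat.Agent.CFT.Cup

variable {k G : Type u} [CommRing k] [Group G]

variable {X Y : ShortComplex (Rep.{u} k G)} (hX : X.ShortExact) (hY : Y.ShortExact)
  {C : Rep.{u} k G}
  (φ : Pairing X.X₂ Y.X₂ C) (φ' : Pairing X.X₁ Y.X₃ C) (φ'' : Pairing X.X₃ Y.X₁ C)

/-- `δ` kills the image of `Hⁱ(X₂) → Hⁱ(X₃)`. -/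
lemma δ_map_g (i : ℕ) (y : groupCohomology X.X₂ i) :
    δ hX i (i + 1) rfl (map (MonoidHom.id G) X.g i y) = 0 := by
  have := (mapShortComplex₃ hX (i := i) rfl).zero
  exact congr($this y)

variable (h1 : ∀ a' b, φ.toLin (X.f.hom a') b = φ'.toLin a' (Y.g.hom b))
  (h2 : ∀ a b', φ.toLin a (Y.f.hom b') = φ''.toLin (X.g.hom a) b')

include hY h1 h2

/-- **Left kernels shift.** If `x ∈ H^p(X₃)` is orthogonal to `H^{q+1}(Y₁)` then `δ x` is
orthogonal to `H^q(Y₃)`. -/
theorem δ_cup_eq_zero_of_left {p q n : ℕ} (h : p + q = n) (x : groupCohomology X.X₃ p)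
    (hx : ∀ y : groupCohomology Y.X₁ (q + 1),
      cup φ'' (show p + (q + 1) = n + 1 by omega) x y = 0)
    (y' : groupCohomology Y.X₃ q) :
    cup φ' (show (p + 1) + q = n + 1 by omega) (δ hX p (p + 1) rfl x) y' = 0 := by
  rw [δ_cup_δ hX hY φ φ' φ'' h1 h2 h x y', hx, smul_zero]

/-- If the left kernel of `H^{p+1}(X₁) × H^q(Y₃) → H^{n+1}(C)` is trivial, every element of the
left kernel of `H^p(X₃) × H^{q+1}(Y₁) → H^{n+1}(C)` is killed by `δ`. -/
theorem δ_eq_zero_of_left {p q n : ℕ} (h : p + q = n)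
    (hL : ∀ x' : groupCohomology X.X₁ (p + 1),
      (∀ y' : groupCohomology Y.X₃ q,
        cup φ' (show (p + 1) + q = n + 1 by omega) x' y' = 0) → x' = 0)
    (x : groupCohomology X.X₃ p)
    (hx : ∀ y : groupCohomology Y.X₁ (q + 1),
      cup φ'' (show p + (q + 1) = n + 1 by omega) x y = 0) :
    δ hX p (p + 1) rfl x = 0 :=
  hL _ (δ_cup_eq_zero_of_left hX hY φ φ' φ'' h1 h2 h x hx)

/-- Trivial left kernels shift when `δ : H^p(X₃) → H^{p+1}(X₁)` is injective. -/
theorem left_kernel_shift {p q n : ℕ} (h : p + q = n)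
    (hδX : Function.Injective (δ hX p (p + 1) rfl))
    (hL : ∀ x' : groupCohomology X.X₁ (p + 1),
      (∀ y' : groupCohomology Y.X₃ q,
        cup φ' (show (p + 1) + q = n + 1 by omega) x' y' = 0) → x' = 0)
    (x : groupCohomology X.X₃ p)
    (hx : ∀ y : groupCohomology Y.X₁ (q + 1),
      cup φ'' (show p + (q + 1) = n + 1 by omega) x y = 0) : x = 0 := by
  apply hδX
  rw [δ_eq_zero_of_left hX hY φ φ' φ'' h1 h2 h hL x hx, map_zero]

/-- **Right kernels shift.** If `y' ∈ H^q(Y₃)` has `δ y'` orthogonal to `H^p(X₃)`, then `y'` is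
orthogonal to the image of `δ : H^p(X₃) → H^{p+1}(X₁)`. -/
theorem cup_δ_eq_zero_of_right {p q n : ℕ} (h : p + q = n) (y' : groupCohomology Y.X₃ q)
    (hy : ∀ x : groupCohomology X.X₃ p,
      cup φ'' (show p + (q + 1) = n + 1 by omega) x (δ hY q (q + 1) rfl y') = 0)
    (x : groupCohomology X.X₃ p) :
    cup φ' (show (p + 1) + q = n + 1 by omega) (δ hX p (p + 1) rfl x) y' = 0 := by
  rw [δ_cup_δ hX hY φ φ' φ'' h1 h2 h x y', hy, smul_zero]

/-- Right kernels shift: if every `y'` in the right kernel of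
`H^{p+1}(X₁) × H^q(Y₃) → H^{n+1}(C)` is killed by `δ`, and both connecting maps are surjective,
then the right kernel of `H^p(X₃) × H^{q+1}(Y₁) → H^{n+1}(C)` is trivial. -/
theorem right_kernel_shift {p q n : ℕ} (h : p + q = n)
    (hδX : Function.Surjective (δ hX p (p + 1) rfl))
    (hδY : Function.Surjective (δ hY q (q + 1) rfl))
    (hR : ∀ y' : groupCohomology Y.X₃ q,
      (∀ x' : groupCohomology X.X₁ (p + 1),
        cup φ' (show (p + 1) + q = n + 1 by omega) x' y' = 0) → δ hY q (q + 1) rfl y' = 0)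
    (y : groupCohomology Y.X₁ (q + 1))
    (hy : ∀ x : groupCohomology X.X₃ p,
      cup φ'' (show p + (q + 1) = n + 1 by omega) x y = 0) : y = 0 := by
  obtain ⟨y', rfl⟩ := hδY y
  apply hR
  intro x'
  obtain ⟨x, rfl⟩ := hδX x'
  exact cup_δ_eq_zero_of_right hX hY φ φ' φ'' h1 h2 h y' hy x

/-- **Realisability shifts.** If every additive map `H^q(Y₃) → H^{n+1}(C)` killing the image of
`H^q(Y₂)` is of the form `x' ∪ -`, and both connecting maps are surjective, then every additive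
map `H^{q+1}(Y₁) → H^{n+1}(C)` is of the form `x ∪ -`. -/
theorem exists_cup_eq_shift {p q n : ℕ} (h : p + q = n)
    (hδX : Function.Surjective (δ hX p (p + 1) rfl))
    (hδY : Function.Surjective (δ hY q (q + 1) rfl))
    (hS : ∀ f' : groupCohomology Y.X₃ q →+ groupCohomology C (n + 1),
      (∀ y₂ : groupCohomology Y.X₂ q, f' (map (MonoidHom.id G) Y.g q y₂) = 0) →
      ∃ x' : groupCohomology X.X₁ (p + 1), ∀ y' : groupCohomology Y.X₃ q,
        cup φ' (show (p + 1) + q = n + 1 by omega) x' y' = f' y')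
    (f : groupCohomology Y.X₁ (q + 1) →+ groupCohomology C (n + 1)) :
    ∃ x : groupCohomology X.X₃ p, ∀ y : groupCohomology Y.X₁ (q + 1),
      cup φ'' (show p + (q + 1) = n + 1 by omega) x y = f y := by
  let f' : groupCohomology Y.X₃ q →+ groupCohomology C (n + 1) :=
    f.comp (δ hY q (q + 1) rfl).hom.toAddMonoidHom
  have hf' : ∀ y', f' y' = f (δ hY q (q + 1) rfl y') := fun _ => rfl
  obtain ⟨x', hx'⟩ := hS f' (fun y₂ => by rw [hf', δ_map_g, map_zero])
  obtain ⟨x₀, rfl⟩ := hδX x'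
  refine ⟨(-1 : k) ^ (p + 1) • x₀, fun y => ?_⟩
  obtain ⟨y', rfl⟩ := hδY y
  rw [map_smul, LinearMap.smul_apply, ← hf', ← hx', δ_cup_δ hX hY φ φ' φ'' h1 h2 h x₀ y']

end Fermat.Agent.CFT.A7.ShiftDual
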