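import Mathlib
import Fermat.Agent.CFT.A5.Aug
import Fermat.Agent.CFT.A5.Split

/-!
# PROJECT C, slice A7.2b: `Hom(P, -)` of the augmentation and splitting module sequences

For `P : Rep k G` the internal Hom functor `Rep.ihom P` maps a short exact sequence which is split
as a sequence of `k`-modules to a short exact sequence.  Evaluation at an invariant element `r` of
`P` is a natural morphism `Hom(P, X) ⟶ X`.
-/

set_option autoImplicit false

universe u

noncomputable section

open CategoryTheory groupCohomology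

namespace Fermat.Agent.CFT.A7.HomSplit

open Fermat.Agent.CFT.A5.Aug Fermat.Agent.CFT.A5.Split

variable {k G : Type u} [CommRing k] [Group G] (P : Rep.{u} k G)

/-- Evaluation at an invariant element `r` of `P`, as a morphism `Hom(P, X) ⟶ X`. -/
def evHom (X : Rep.{u} k G) (r : P.V) (hr : ∀ g : G, P.ρ g r = r) : (Rep.ihom P).obj X ⟶ X :=
  Rep.ofHom (X := P.V →ₗ[k] X.V) (Y := X.V) (ρ := Representation.linHom P.ρ X.ρ) (σ := X.ρ)
    ⟨LinearMap.applyₗ r, fun g => by
      refine LinearMap.ext fun f => ?_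
      show (X.ρ g ∘ₗ f ∘ₗ P.ρ g⁻¹) r = X.ρ g (f r)
      simp [hr]⟩

@[simp]
theorem evHom_apply (X : Rep.{u} k G) (r : P.V) (hr : ∀ g : G, P.ρ g r = r)
    (f : P.V →ₗ[k] X.V) : (evHom P X r hr).hom f = f r := rfl

/-- An element of `Hom(P, X)` as a linear map. -/
def toLin {X : Rep.{u} k G} (f : (Rep.ihom P).obj X) : P.V →ₗ[k] X.V := f

/-- A linear map as an element of `Hom(P, X)`. -/
def ofLin {X : Rep.{u} k G} (f : P.V →ₗ[k] X.V) : (Rep.ihom P).obj X := f

@[simp]
theorem toLin_ofLin {X : Rep.{u} k G} (f : P.V →ₗ[k] X.V) : toLin P (ofLin P f) = f := rfl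

@[simp]
theorem ofLin_toLin {X : Rep.{u} k G} (f : (Rep.ihom P).obj X) : ofLin P (toLin P f) = f := rfl

theorem toLin_injective {X : Rep.{u} k G} : Function.Injective (toLin P (X := X)) := fun _ _ h => h

theorem toLin_ihom_map {X Y : Rep.{u} k G} (u : X ⟶ Y) (f : (Rep.ihom P).obj X) (p : P.V) :
    toLin P (((Rep.ihom P).map u).hom f) p = u.hom (toLin P f p) := rfl

theorem toLin_ρ {X : Rep.{u} k G} (g : G) (f : (Rep.ihom P).obj X) (p : P.V) :
    toLin P (((Rep.ihom P).obj X).ρ g f) p = X.ρ g (toLin P f (P.ρ g⁻¹ p)) := rfl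

/-- Evaluation is natural. -/
theorem ihom_map_evHom {X Y : Rep.{u} k G} (u : X ⟶ Y) (r : P.V) (hr : ∀ g : G, P.ρ g r = r) :
    (Rep.ihom P).map u ≫ evHom P Y r hr = evHom P X r hr ≫ u := by
  ext f
  rfl

/-- `Hom(P, -)` applied to a short complex. -/
abbrev ihomSC (S : ShortComplex (Rep.{u} k G)) : ShortComplex (Rep.{u} k G) :=
  ShortComplex.mk ((Rep.ihom P).map S.f) ((Rep.ihom P).map S.g) (by
    rw [← Functor.map_comp, S.zero]
    ext f
    rfl)

/-- `Hom(P, -)` of a short exact sequence with a `k`-linear section is short exact. -/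
theorem ihomSC_shortExact (S : ShortComplex (Rep.{u} k G)) (hS : S.ShortExact)
    (s : S.X₃.V →ₗ[k] S.X₂.V) (hs : ∀ x, S.g.hom (s x) = x) : (ihomSC P S).ShortExact := by
  have hf : Function.Injective S.f.hom := (Rep.mono_iff_injective S.f).1 hS.mono_f
  refine shortExact_of (ihomSC P S) ?_ ?_ ?_
  · intro f f' h
    apply toLin_injective P
    refine LinearMap.ext fun p => hf ?_
    exact congrArg (fun F : P.V →ₗ[k] S.X₂.V => F p) h
  · intro f
    refine ⟨ofLin P (s ∘ₗ toLin P f), ?_⟩
    apply toLin_injective P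
    refine LinearMap.ext fun p => ?_
    exact hs _
  · intro f hfz
    have hker : ∀ p : P.V, ∃ y : S.X₁.V, S.f.hom y = toLin P f p := by
      intro p
      have h1 : S.g.hom (toLin P f p) = 0 :=
        congrArg (fun F : P.V →ₗ[k] S.X₃.V => F p) hfz
      have hex := (ShortComplex.moduleCat_exact_iff _).1
        (hS.exact.map (forget₂ (Rep.{u} k G) (ModuleCat k)))
      exact hex _ h1
    choose y hy using hker
    refine ⟨ofLin P (⟨⟨y, ?_⟩, ?_⟩ : P.V →ₗ[k] S.X₁.V), ?_⟩
    · intro p q
      apply hf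
      rw [map_add, hy, hy, hy, map_add]
    · intro c p
      apply hf
      rw [map_smul, hy, hy, RingHom.id_apply, map_smul]
    · apply toLin_injective P
      refine LinearMap.ext fun p => ?_
      exact hy p

/-- Evaluation at an invariant element, as a morphism of short complexes `Hom(P, S) ⟶ S`. -/
def evSC (S : ShortComplex (Rep.{u} k G)) (r : P.V) (hr : ∀ g : G, P.ρ g r = r) :
    ihomSC P S ⟶ S where
  τ₁ := evHom P S.X₁ r hr
  τ₂ := evHom P S.X₂ r hr
  τ₃ := evHom P S.X₃ r hr
  comm₁₂ := ihom_map_evHom P S.f r hr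
  comm₂₃ := ihom_map_evHom P S.g r hr

/-! ### The two sequences of the splitting module -/

/-- `0 → Hom(P, I_G) → Hom(P, k[G]) → Hom(P, k) → 0`. -/
abbrev homAugSC : ShortComplex (Rep.{u} k G) := ihomSC P (augSC k G)

theorem homAugSC_shortExact : (homAugSC P).ShortExact :=
  ihomSC_shortExact P (augSC k G) (augSC_shortExact k G)
    (MonoidAlgebra.lsingle (1 : G)) (fun x => eps_single k G 1 x)

variable (C : Rep.{u} k G) (φ : cocycles₂ C)

/-- `0 → Hom(P, C) → Hom(P, C(φ)) → Hom(P, I_G) → 0`. -/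
abbrev homSplitSC : ShortComplex (Rep.{u} k G) := ihomSC P (splitSC C φ)

theorem homSplitSC_shortExact : (homSplitSC P C φ).ShortExact :=
  ihomSC_shortExact P (splitSC C φ) (splitSC_shortExact C φ)
    (LinearMap.inr k C (aug k G)) (fun _ => rfl)

end Fermat.Agent.CFT.A7.HomSplit
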