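import Mathlib
import Fermat.Agent.CFT.A5.LES
import Fermat.Agent.CFT.A5.SplitVanish
import Fermat.Agent.CFT.A7.HomSplit

/-!
# PROJECT C, slice A7.2b: (TN-20), Tate–Nakayama for `H²(G, Hom(P, C))`

`G` a finite group, `(C, φ)` a module with a `2`-cocycle, `P` any representation.  Applying
`Hom(P, -)` to the two sequences `0 → I_G → k[G] → k → 0` and `0 → C → C(φ) → I_G → 0` of the
splitting module gives a double connecting homomorphism
`dd : H⁰(G, Hom(P, k)) → H²(G, Hom(P, C))`.  For an invariant functional `l : P → k` we get the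
class `tnClass l ∈ H²(G, Hom(P, C))`, and for an invariant element `r ∈ P^G` evaluation at `r`
sends `tnClass l` to `l r • [φ]` (`map_evHom_tnClass`).

* `exists_eq_tnClass` : if `H¹(G, Hom(P, k[G])) = 0 = H²(G, Hom(P, C(φ)))`, every class of
  `H²(G, Hom(P, C))` is a `tnClass`;
* `tnClass_eq_zero_of_norm` : `tnClass (Σ_g μ ∘ g) = 0`;
* `tn20_injective`, `tn20_surjective` : **(TN-20)** the map
  `H²(G, Hom(P, C)) → Hom(P^G, H²(G, C))`, `x ↦ (r ↦ (ev_r)_* x)`, is injective with image
  `{f | f ∘ N = 0}`, given the elementary lattice duality statements (LD1), (LD2') as hypotheses.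
-/

set_option autoImplicit false

universe u

noncomputable section

open CategoryTheory CategoryTheory.Limits groupCohomology

namespace Fermat.Agent.CFT.A7.TN20

open Fermat.Agent.CFT.A5.Aug Fermat.Agent.CFT.A5.Split Fermat.Agent.CFT.A5.LES
  Fermat.Agent.CFT.A5.SplitVanish Fermat.Agent.CFT.A7.HomSplit

variable {k G : Type u} [CommRing k] [Group G] (P C : Rep.{u} k G) (φ : cocycles₂ C)

/-- The double connecting homomorphism `H⁰(G, k) → H²(G, C)` of the splitting module. -/
def ddC : groupCohomology (Rep.trivial k G k) 0 ⟶ groupCohomology C 2 :=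
  δ (augSC_shortExact k G) 0 1 rfl ≫ δ (splitSC_shortExact C φ) 1 2 rfl

/-- The double connecting homomorphism `H⁰(G, Hom(P, k)) → H²(G, Hom(P, C))`. -/
def dd : groupCohomology ((Rep.ihom P).obj (Rep.trivial k G k)) 0 ⟶
    groupCohomology ((Rep.ihom P).obj C) 2 :=
  δ (homAugSC_shortExact P) 0 1 rfl ≫ δ (homSplitSC_shortExact P C φ) 1 2 rfl

theorem dd_apply (w : groupCohomology ((Rep.ihom P).obj (Rep.trivial k G k)) 0) :
    (dd P C φ).hom w = (δ (homSplitSC_shortExact P C φ) 1 2 rfl).hom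
      ((δ (homAugSC_shortExact P) 0 1 rfl).hom w) := rfl

theorem ddC_apply' (w : groupCohomology (Rep.trivial k G k) 0) :
    (ddC C φ).hom w = (δ (splitSC_shortExact C φ) 1 2 rfl).hom
      ((δ (augSC_shortExact k G) 0 1 rfl).hom w) := rfl

/-- Evaluation at an invariant element commutes with the double connecting homomorphisms. -/
theorem dd_naturality (r : P.V) (hr : ∀ g : G, P.ρ g r = r) :
    dd P C φ ≫ groupCohomology.map (MonoidHom.id G) (evHom P C r hr) 2
      = groupCohomology.map (MonoidHom.id G) (evHom P (Rep.trivial k G k) r hr) 0 ≫ ddC C φ := by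
  have h1 := δ_naturality (homAugSC_shortExact P) (augSC_shortExact k G)
    (evSC P (augSC k G) r hr) 0 1 rfl
  have h2 := δ_naturality (homSplitSC_shortExact P C φ) (splitSC_shortExact C φ)
    (evSC P (splitSC C φ) r hr) 1 2 rfl
  refine ModuleCat.hom_ext (LinearMap.ext fun x => ?_)
  have e1 := congr($h1 x)
  have e2 := congr($h2 ((δ (homAugSC_shortExact P) 0 1 rfl).hom x))
  simp only [ModuleCat.hom_comp] at e1 e2
  show (groupCohomology.map (MonoidHom.id G) (evHom P C r hr) 2).hom ((dd P C φ).hom x)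
    = (ddC C φ).hom ((groupCohomology.map (MonoidHom.id G)
        (evHom P (Rep.trivial k G k) r hr) 0).hom x)
  rw [dd_apply, ddC_apply']
  refine Eq.trans e2 ?_
  exact congrArg (δ (splitSC_shortExact C φ) 1 2 rfl).hom e1

/-- The invariant `c` of the trivial representation. -/
def constInv (c : k) : (Rep.trivial k G k).ρ.invariants := ⟨c, fun _ => rfl⟩

theorem constInv_eq_smul (c : k) : constInv (G := G) c = c • oneInv k G := by
  apply Subtype.ext
  show c = c • (1 : k)
  rw [smul_eq_mul, mul_one]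

/-- `dd` for `(C, φ)` sends `c ∈ k = H⁰(G, k)` to `c • [φ]`. -/
theorem ddC_apply (c : k) :
    (ddC C φ).hom ((H0Iso (Rep.trivial k G k)).inv (constInv c)) = c • H2π C φ := by
  rw [constInv_eq_smul, map_smul, map_smul]
  congr 1
  rw [ddC_apply']
  erw [δ₀_one k G]
  exact δ₁_augCocycle C φ

/-! ### Invariant functionals -/

/-- An invariant functional `l : P → k` as an invariant element of `Hom(P, k)`. -/
def invOfFun (l : P.V →ₗ[k] k) (hl : ∀ (g : G) (x : P.V), l (P.ρ g x) = l x) :
    ((Rep.ihom P).obj (Rep.trivial k G k)).ρ.invariants :=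
  ⟨ofLin P l, fun g => by
    apply toLin_injective P
    refine LinearMap.ext fun p => ?_
    rw [toLin_ρ]
    exact hl g⁻¹ p⟩

/-- An invariant element of `Hom(P, k)` is an invariant functional. -/
theorem toLin_invariant (x : ((Rep.ihom P).obj (Rep.trivial k G k)).ρ.invariants) (g : G)
    (p : P.V) : toLin P x.1 (P.ρ g p) = toLin P x.1 p := by
  have h : toLin P (((Rep.ihom P).obj (Rep.trivial k G k)).ρ g x.1) (P.ρ g p)
      = toLin P x.1 (P.ρ g p) := by rw [x.2 g]
  rw [← h, toLin_ρ]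
  show toLin P x.1 (P.ρ g⁻¹ (P.ρ g p)) = _
  rw [← Module.End.mul_apply, ← map_mul, inv_mul_cancel, map_one, Module.End.one_apply]

theorem invOfFun_toLin (x : ((Rep.ihom P).obj (Rep.trivial k G k)).ρ.invariants) :
    invOfFun P (toLin P x.1) (toLin_invariant P x) = x := Subtype.ext rfl

/-- The class in `H²(G, Hom(P, C))` attached to an invariant functional on `P`. -/
def tnClass (l : P.V →ₗ[k] k) (hl : ∀ (g : G) (x : P.V), l (P.ρ g x) = l x) :
    groupCohomology ((Rep.ihom P).obj C) 2 :=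
  (dd P C φ).hom ((H0Iso ((Rep.ihom P).obj (Rep.trivial k G k))).inv (invOfFun P l hl))

/-- `H⁰` of a morphism, on elements. -/
theorem map_H0Iso_inv {A B : Rep.{u} k G} (f : A ⟶ B) (x : A.ρ.invariants)
    (hx : ∀ g : G, B.ρ g (f.hom x.1) = f.hom x.1) :
    (groupCohomology.map (MonoidHom.id G) f 0).hom ((H0Iso A).inv x)
      = (H0Iso B).inv ⟨f.hom x.1, hx⟩ := by
  have h := map_id_comp_H0Iso_hom f
  have h2 := congr($h ((H0Iso A).inv x))
  simp only [ModuleCat.hom_comp, LinearMap.comp_apply] at h2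
  have h3 : (H0Iso A).hom.hom ((H0Iso A).inv.hom x) = x := by
    rw [← LinearMap.comp_apply, ← ModuleCat.hom_comp, Iso.inv_hom_id]
    rfl
  erw [h3] at h2
  have h4 : (H0Iso B).inv.hom ((H0Iso B).hom.hom
      ((groupCohomology.map (MonoidHom.id G) f 0).hom ((H0Iso A).inv.hom x)))
      = (groupCohomology.map (MonoidHom.id G) f 0).hom ((H0Iso A).inv.hom x) := by
    rw [← LinearMap.comp_apply, ← ModuleCat.hom_comp, Iso.hom_inv_id]
    rfl
  rw [← h4]
  erw [h2]
  rfl

/-- **Key formula**: evaluation at an invariant element `r` sends `tnClass l` to `l r • [φ]`. -/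
theorem map_evHom_tnClass (l : P.V →ₗ[k] k) (hl : ∀ (g : G) (x : P.V), l (P.ρ g x) = l x)
    (r : P.V) (hr : ∀ g : G, P.ρ g r = r) :
    (groupCohomology.map (MonoidHom.id G) (evHom P C r hr) 2).hom (tnClass P C φ l hl)
      = l r • H2π C φ := by
  have h := dd_naturality P C φ r hr
  have h2 := congr($h ((H0Iso ((Rep.ihom P).obj (Rep.trivial k G k))).inv (invOfFun P l hl)))
  simp only [ModuleCat.hom_comp, LinearMap.comp_apply] at h2
  unfold tnClass
  erw [h2]
  rw [map_H0Iso_inv (evHom P (Rep.trivial k G k) r hr) (invOfFun P l hl) (fun _ => rfl)]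
  exact ddC_apply C φ (l r)

/-- `tnClass` is additive in the functional. -/
theorem tnClass_add (l l' : P.V →ₗ[k] k) (hl : ∀ (g : G) (x : P.V), l (P.ρ g x) = l x)
    (hl' : ∀ (g : G) (x : P.V), l' (P.ρ g x) = l' x) :
    tnClass P C φ (l + l') (fun g x => by
      rw [LinearMap.add_apply, LinearMap.add_apply, hl, hl'])
      = tnClass P C φ l hl + tnClass P C φ l' hl' := by
  unfold tnClass
  rw [← map_add, ← map_add]
  rfl

/-- `tnClass` is homogeneous in the functional. -/
theorem tnClass_smul (c : k) (l : P.V →ₗ[k] k) (hl : ∀ (g : G) (x : P.V), l (P.ρ g x) = l x) :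
    tnClass P C φ (c • l) (fun g x => by
      rw [LinearMap.smul_apply, LinearMap.smul_apply, hl])
      = c • tnClass P C φ l hl := by
  unfold tnClass
  rw [← map_smul, ← map_smul]
  rfl

/-- **Every class is a `tnClass`**, if `H¹(G, Hom(P, k[G])) = 0 = H²(G, Hom(P, C(φ)))`. -/
theorem exists_eq_tnClass
    (hR1 : IsZero (groupCohomology ((Rep.ihom P).obj (Rep.leftRegular k G)) 1))
    (hE2 : IsZero (groupCohomology ((Rep.ihom P).obj (split C φ)) 2))
    (x : groupCohomology ((Rep.ihom P).obj C) 2) :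
    ∃ (l : P.V →ₗ[k] k) (hl : ∀ (g : G) (x : P.V), l (P.ρ g x) = l x),
      x = tnClass P C φ l hl := by
  obtain ⟨z, hz⟩ := exists_δ_eq (homSplitSC_shortExact P C φ) 1 x (eq_zero_of_isZero hE2 _)
  obtain ⟨w, hw⟩ := exists_δ_eq (homAugSC_shortExact P) 0 z (eq_zero_of_isZero hR1 _)
  refine ⟨toLin P ((H0Iso _).hom w).1, toLin_invariant P _, ?_⟩
  unfold tnClass
  rw [invOfFun_toLin]
  have h3 : (H0Iso ((Rep.ihom P).obj (Rep.trivial k G k))).inv.hom
      ((H0Iso ((Rep.ihom P).obj (Rep.trivial k G k))).hom.hom w) = w := by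
    rw [← LinearMap.comp_apply, ← ModuleCat.hom_comp, Iso.hom_inv_id]
    rfl
  erw [h3]
  rw [dd_apply]
  erw [hw, hz]

variable [Fintype G]

/-- The norm of `Hom(P, X)`, elementwise. -/
theorem toLin_norm (X : Rep.{u} k G) (f : (Rep.ihom P).obj X) (p : P.V) :
    toLin P (((Rep.ihom P).obj X).ρ.norm f) p = ∑ g : G, X.ρ g (toLin P f (P.ρ g⁻¹ p)) := by
  unfold Representation.norm
  rw [LinearMap.sum_apply]
  show (∑ g : G, toLin P (((Rep.ihom P).obj X).ρ g f)) p = _
  rw [LinearMap.sum_apply]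
  rfl

/-- **Norms give the zero class**: `tnClass (Σ_g μ ∘ g) = 0`. -/
theorem tnClass_eq_zero_of_norm (l : P.V →ₗ[k] k)
    (hl : ∀ (g : G) (x : P.V), l (P.ρ g x) = l x) (μ : P.V →ₗ[k] k)
    (hμ : ∀ x : P.V, l x = ∑ g : G, μ (P.ρ g x)) : tnClass P C φ l hl = 0 := by
  -- the lift `μ̃ = (1 ·) ∘ μ : P → k[G]` and its norm
  let μ' : (Rep.ihom P).obj (Rep.leftRegular k G) :=
    ofLin P ((MonoidAlgebra.lsingle (1 : G) : k →ₗ[k] (Rep.leftRegular k G).V) ∘ₗ μ)
  let ν : ((Rep.ihom P).obj (Rep.leftRegular k G)).ρ.invariants :=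
    ⟨((Rep.ihom P).obj (Rep.leftRegular k G)).ρ.norm μ', fun g =>
      Representation.self_norm_apply _ g μ'⟩
  have hν : (homAugSC P).g.hom ν.1 = (invOfFun P l hl).1 := by
    apply toLin_injective P
    refine LinearMap.ext fun p => ?_
    show (eps k G).hom (toLin P (((Rep.ihom P).obj (Rep.leftRegular k G)).ρ.norm μ') p) = l p
    rw [toLin_norm, map_sum, hμ]
    refine (Fintype.sum_equiv (Equiv.inv G) _ _ fun g => ?_).symm
    show μ (P.ρ g p) = (eps k G).hom ((Rep.leftRegular k G).ρ g⁻¹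
      (MonoidAlgebra.single (1 : G) (μ (P.ρ g⁻¹⁻¹ p))))
    rw [Rep.hom_comm_apply, eps_single, inv_inv]
    rfl
  have h1 : (H0Iso ((Rep.ihom P).obj (Rep.trivial k G k))).inv (invOfFun P l hl)
      = (groupCohomology.map (MonoidHom.id G) (homAugSC P).g 0).hom
          ((H0Iso ((Rep.ihom P).obj (Rep.leftRegular k G))).inv ν) := by
    rw [map_H0Iso_inv (homAugSC P).g ν (by rw [hν]; exact (invOfFun P l hl).2)]
    congr 1
    exact Subtype.ext hν.symm
  unfold tnClass
  rw [h1, dd_apply]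
  erw [δ_map_g (homAugSC_shortExact P) 0]
  rw [map_zero]

/-- **(TN-20), injectivity**: a class of `H²(G, Hom(P, C))` all of whose evaluations at invariant
elements of `P` vanish is zero.  `hord`: `[φ]` has order `|G|`; `LD1`: the lattice duality
statement "an invariant functional with `|G| ∣ l (P^G)` is a norm". -/
theorem tn20_injective
    (hR1 : IsZero (groupCohomology ((Rep.ihom P).obj (Rep.leftRegular k G)) 1))
    (hE2 : IsZero (groupCohomology ((Rep.ihom P).obj (split C φ)) 2))
    (hord : ∀ c : k, c • H2π C φ = 0 → ((Fintype.card G : ℕ) : k) ∣ c)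
    (LD1 : ∀ l : P.V →ₗ[k] k, (∀ (g : G) (x : P.V), l (P.ρ g x) = l x) →
      (∀ y : P.V, (∀ g : G, P.ρ g y = y) → ((Fintype.card G : ℕ) : k) ∣ l y) →
      ∃ μ : P.V →ₗ[k] k, ∀ x : P.V, l x = ∑ g : G, μ (P.ρ g x))
    (x : groupCohomology ((Rep.ihom P).obj C) 2)
    (hx : ∀ (r : P.V) (hr : ∀ g : G, P.ρ g r = r),
      (groupCohomology.map (MonoidHom.id G) (evHom P C r hr) 2).hom x = 0) : x = 0 := by
  obtain ⟨l, hl, rfl⟩ := exists_eq_tnClass P C φ hR1 hE2 x
  obtain ⟨μ, hμ⟩ := LD1 l hl fun y hy => hord _ (by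
    rw [← map_evHom_tnClass P C φ l hl y hy]
    exact hx y hy)
  exact tnClass_eq_zero_of_norm P C φ l hl μ hμ

omit [Fintype G] in
/-- **(TN-20), surjectivity**: every function `f` on `P^G` of the form `y ↦ l y • [φ]` with `l` an
invariant functional (by lattice duality (LD2'): every additive `f : P^G → H²(G, C)` killing the
norms, when `H²(G, C)` is cyclic of order `|G|` generated by `[φ]`) is the evaluation map of a
class in `H²(G, Hom(P, C))`. -/
theorem tn20_surjective (f : P.ρ.invariants → groupCohomology C 2)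
    (LD2 : ∃ l : P.V →ₗ[k] k, (∀ (g : G) (x : P.V), l (P.ρ g x) = l x) ∧
      ∀ y : P.ρ.invariants, f y = l y.1 • H2π C φ) :
    ∃ x : groupCohomology ((Rep.ihom P).obj C) 2, ∀ (r : P.V) (hr : ∀ g : G, P.ρ g r = r),
      (groupCohomology.map (MonoidHom.id G) (evHom P C r hr) 2).hom x = f ⟨r, hr⟩ := by
  obtain ⟨l, hl, hf⟩ := LD2
  exact ⟨tnClass P C φ l hl, fun r hr => by rw [map_evHom_tnClass, hf]⟩

/-- The evaluations of any class kill the norms of `P`. -/
theorem map_evHom_norm
    (hR1 : IsZero (groupCohomology ((Rep.ihom P).obj (Rep.leftRegular k G)) 1))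
    (hE2 : IsZero (groupCohomology ((Rep.ihom P).obj (split C φ)) 2))
    (hcard : ((Fintype.card G : ℕ) : k) • H2π C φ = 0)
    (x : groupCohomology ((Rep.ihom P).obj C) 2) (p : P.V) :
    (groupCohomology.map (MonoidHom.id G)
      (evHom P C (P.ρ.norm p) (fun g => Representation.self_norm_apply _ g p)) 2).hom x = 0 := by
  obtain ⟨l, hl, rfl⟩ := exists_eq_tnClass P C φ hR1 hE2 x
  rw [map_evHom_tnClass]
  have h : l (P.ρ.norm p) = ((Fintype.card G : ℕ) : k) * l p := by
    unfold Representation.norm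
    rw [LinearMap.sum_apply, map_sum, Finset.sum_congr rfl fun g _ => hl g p,
      Finset.sum_const, Finset.card_univ, nsmul_eq_mul]
  rw [h, mul_comm, mul_smul, hcard, smul_zero]

end Fermat.Agent.CFT.A7.TN20
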