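import Mathlib
import Fermat.Agent.CFT.A2.ShiftExtra
import Fermat.Agent.CFT.A3.LowDegree
import Fermat.Agent.CFT.A7.HomRep
import Fermat.Agent.CFT.A7.TN20
import Fermat.Agent.CFT.A7.ShiftDual
import Fermat.Agent.CFT.A7.HomFromCoind

/-!
# PROJECT C, slice A7.2c: (TN-11) and (TN-02) by dimension shifting

`G` a finite group, `k` any commutative ring, `P C : Rep k G`.  All pairings are the evaluation
cup pairings `H^p(G, Hom(P, C)) × H^q(G, P) → H^{p+q}(G, C)` (`Cup.cup (Pairing.eval P C)`).

* `LeftNondeg`, `RightNondeg`, `Realizes` : trivial left kernel / trivial right kernel / every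
  additive map `H^q(P) → H^n(C)` is `x ∪ -`;  `Realizes₀`, `RightKernelNorm₀` : the degree `(n, 0)`
  variants modulo norm classes (`normClass`), i.e. the cup form of (TN-20);
* `leftNondeg_zero_of_evHom`, `realizes₀_of_evHom` : (TN-20) in the evaluation form of
  `TN20.tn20_injective / tn20_surjective` gives the cup form (`cup_eval_H0`);
* general shifting along any short exact `S` with `Hom(S, C)` short exact: `leftNondeg_shift`,
  `realizes_shift`, `realizes_shift'`, `rightNondeg_shift'`;
* shifting along `0 → P → coind₁ P → up P → 0` (needs only `Module.Projective k (up P)`):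
  `leftNondeg_up`, `realizes_up`, `rightNondeg_up` (degrees `(p+1, q+1) ⇒ (p, q+2)`),
  `realizes_up_zero`, `rightNondeg_up_zero` (degrees `(p+1, 0) ⇒ (p, 1)`),
  `leftKernel_zero_up` (the left kernel in degrees `(0, q+1)` consists of norm classes).

So (TN-20) for `up P` ⇒ (TN-11) for `P`, and (TN-11) for `up P` ⇒ (TN-02) for `P`.
-/

noncomputable section

universe u

namespace Fermat.Agent.CFT.A7.TN11

open CategoryTheory CategoryTheory.Limits groupCohomology Fermat.Agent.CFT.Cup
  Fermat.Agent.CFT.A3 Fermat.Agent.CFT.A7.HomRep Fermat.Agent.CFT.A7.ShiftDual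

variable {k G : Type u} [CommRing k] [Group G]

/-- The left kernel of the evaluation cup pairing
`H^p(G, Hom(Q, C)) × H^q(G, Q) → H^n(G, C)` is trivial. -/
def LeftNondeg (Q C : Rep.{u} k G) (p q n : ℕ) (h : p + q = n) : Prop :=
  ∀ x : groupCohomology (homRep Q C) p,
    (∀ y : groupCohomology Q q, cup (Pairing.eval Q C) h x y = 0) → x = 0

/-- The right kernel of the evaluation cup pairing is trivial. -/
def RightNondeg (Q C : Rep.{u} k G) (p q n : ℕ) (h : p + q = n) : Prop :=
  ∀ y : groupCohomology Q q,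
    (∀ x : groupCohomology (homRep Q C) p, cup (Pairing.eval Q C) h x y = 0) → y = 0

/-- Every additive map `H^q(G, Q) → H^n(G, C)` is a cup product `x ∪ -` with
`x ∈ H^p(G, Hom(Q, C))`. -/
def Realizes (Q C : Rep.{u} k G) (p q n : ℕ) (h : p + q = n) : Prop :=
  ∀ f : groupCohomology Q q →+ groupCohomology C n,
    ∃ x : groupCohomology (homRep Q C) p, ∀ y : groupCohomology Q q,
      cup (Pairing.eval Q C) h x y = f y

section general

variable {S : ShortComplex (Rep.{u} k G)} (hS : S.ShortExact) (C : Rep.{u} k G)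
  (hH : (homSC S C).ShortExact)

include hS hH

/-- Shifting left nondegeneracy along `S : 0 → P → I → P' → 0` when `H^p(Hom(I, C)) = 0`. -/
theorem leftNondeg_shift {p q n : ℕ} (h : p + q = n)
    (hI : IsZero (groupCohomology (homRep S.X₂ C) p))
    (hL : LeftNondeg S.X₃ C (p + 1) q (n + 1) (by omega)) :
    LeftNondeg S.X₁ C p (q + 1) (n + 1) (by omega) := by
  intro x hx
  have hmono : Mono (δ hH p (p + 1) rfl) := mono_δ_of_isZero hH p hI
  have hinj : Function.Injective (δ hH p (p + 1) rfl) :=
    (ModuleCat.mono_iff_injective _).1 hmono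
  exact left_kernel_shift hH hS (Pairing.eval S.X₂ C) (Pairing.eval S.X₃ C)
    (Pairing.eval S.X₁ C) (fun _ _ => rfl) (fun _ _ => rfl) h hinj hL x hx

/-- Shifting realisability along `S : 0 → P → I → P' → 0` when
`H^{p+1}(Hom(I, C)) = 0 = H^{q+1}(I)`; the hypothesis only concerns maps killing the image of
`H^q(I)`. -/
theorem realizes_shift' {p q n : ℕ} (h : p + q = n)
    (hI : IsZero (groupCohomology (homRep S.X₂ C) (p + 1)))
    (hI' : IsZero (groupCohomology S.X₂ (q + 1)))
    (hR : ∀ f' : groupCohomology S.X₃ q →+ groupCohomology C (n + 1),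
      (∀ y₂ : groupCohomology S.X₂ q, f' (map (MonoidHom.id G) S.g q y₂) = 0) →
      ∃ x' : groupCohomology (homRep S.X₃ C) (p + 1), ∀ y' : groupCohomology S.X₃ q,
        cup (Pairing.eval S.X₃ C) (show (p + 1) + q = n + 1 by omega) x' y' = f' y') :
    Realizes S.X₁ C p (q + 1) (n + 1) (by omega) := by
  intro f
  have hepiX : Epi (δ hH p (p + 1) rfl) := epi_δ_of_isZero hH p hI
  have hepiY : Epi (δ hS q (q + 1) rfl) := epi_δ_of_isZero hS q hI'
  exact exists_cup_eq_shift hH hS (Pairing.eval S.X₂ C) (Pairing.eval S.X₃ C)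
    (Pairing.eval S.X₁ C) (fun _ _ => rfl) (fun _ _ => rfl) h
    ((ModuleCat.epi_iff_surjective _).1 hepiX) ((ModuleCat.epi_iff_surjective _).1 hepiY) hR f

/-- Shifting realisability, unconditional form. -/
theorem realizes_shift {p q n : ℕ} (h : p + q = n)
    (hI : IsZero (groupCohomology (homRep S.X₂ C) (p + 1)))
    (hI' : IsZero (groupCohomology S.X₂ (q + 1)))
    (hR : Realizes S.X₃ C (p + 1) q (n + 1) (by omega)) :
    Realizes S.X₁ C p (q + 1) (n + 1) (by omega) :=
  realizes_shift' hS C hH h hI hI' (fun f' _ => hR f')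

/-- Shifting right nondegeneracy. -/
theorem rightNondeg_shift' {p q n : ℕ} (h : p + q = n)
    (hI : IsZero (groupCohomology (homRep S.X₂ C) (p + 1)))
    (hI' : IsZero (groupCohomology S.X₂ (q + 1)))
    (hR : ∀ y' : groupCohomology S.X₃ q,
      (∀ x' : groupCohomology (homRep S.X₃ C) (p + 1),
        cup (Pairing.eval S.X₃ C) (show (p + 1) + q = n + 1 by omega) x' y' = 0) →
        δ hS q (q + 1) rfl y' = 0) :
    RightNondeg S.X₁ C p (q + 1) (n + 1) (by omega) := by
  intro y hy
  have hepiX : Epi (δ hH p (p + 1) rfl) := epi_δ_of_isZero hH p hI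
  have hepiY : Epi (δ hS q (q + 1) rfl) := epi_δ_of_isZero hS q hI'
  exact right_kernel_shift hH hS (Pairing.eval S.X₂ C) (Pairing.eval S.X₃ C)
    (Pairing.eval S.X₁ C) (fun _ _ => rfl) (fun _ _ => rfl) h
    ((ModuleCat.epi_iff_surjective _).1 hepiX) ((ModuleCat.epi_iff_surjective _).1 hepiY) hR y hy

end general
/-! ### Norm classes -/

section norm

open Fermat.Agent.CFT.A7.TN20

variable [Fintype G]

/-- The class of the norm of `v` in `H⁰(G, Q)`. -/
def normClass (Q : Rep.{u} k G) (v : Q.V) : groupCohomology Q 0 :=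
  (H0Iso Q).inv ⟨Q.ρ.norm v, fun g => Representation.self_norm_apply _ g v⟩

lemma hom_norm {A B : Rep.{u} k G} (f : A ⟶ B) (a : A.V) :
    f.hom (A.ρ.norm a) = B.ρ.norm (f.hom a) := by
  unfold Representation.norm
  rw [LinearMap.sum_apply, LinearMap.sum_apply, map_sum]
  exact Finset.sum_congr rfl fun g _ => Rep.hom_comm_apply f g a

/-- Norm classes are natural. -/
theorem map_normClass {A B : Rep.{u} k G} (f : A ⟶ B) (a : A.V) :
    (map (MonoidHom.id G) f 0).hom (normClass A a) = normClass B (f.hom a) := by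
  unfold normClass
  rw [map_H0Iso_inv f ⟨A.ρ.norm a, fun g => Representation.self_norm_apply _ g a⟩
    (fun g => by rw [hom_norm]; exact Representation.self_norm_apply _ g _)]
  congr 1
  exact Subtype.ext (hom_norm f a)

end norm

/-! ### Degree `(n, 0)`: the evaluation form of `TN20.lean` versus the cup form -/

section bridge

open Fermat.Agent.CFT.A7.HomSplit

variable (Q C : Rep.{u} k G)

lemma applyRight_eval (r : Q.V) (hr : ∀ g : G, Q.ρ g r = r) :
    applyRight (Pairing.eval Q C) ⟨r, hr⟩ = evHom Q C r hr := rfl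

/-- cup product with a degree-`0` class is evaluation -/
theorem cup_eval_H0 {n : ℕ} (x : groupCohomology (homRep Q C) n) (r : Q.V)
    (hr : ∀ g : G, Q.ρ g r = r) :
    cup (Pairing.eval Q C) (show n + 0 = n by omega) x ((H0Iso Q).inv ⟨r, hr⟩) =
      (map (MonoidHom.id G) (evHom Q C r hr) n).hom x := by
  rw [cup_H0_right, applyRight_eval]

lemma H0Iso_inv_hom (y : groupCohomology Q 0) : (H0Iso Q).inv ((H0Iso Q).hom y) = y :=
  Iso.hom_inv_id_apply _ _

/-- Realisability in degrees `(n, 0)`: every additive map `H⁰(G, Q) → Hⁿ(G, C)` killing the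
classes of norms is `x ∪ -`. -/
def Realizes₀ [Fintype G] (n : ℕ) : Prop :=
  ∀ f : groupCohomology Q 0 →+ groupCohomology C n,
    (∀ v : Q.V, f (normClass Q v) = 0) →
    ∃ x : groupCohomology (homRep Q C) n, ∀ y : groupCohomology Q 0,
      cup (Pairing.eval Q C) (show n + 0 = n by omega) x y = f y

/-- The right kernel in degrees `(n, 0)` consists of classes of norms. -/
def RightKernelNorm₀ [Fintype G] (n : ℕ) : Prop :=
  ∀ y : groupCohomology Q 0,
    (∀ x : groupCohomology (homRep Q C) n,
      cup (Pairing.eval Q C) (show n + 0 = n by omega) x y = 0) →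
    ∃ v : Q.V, y = normClass Q v

/-- `tn20_injective`-shaped hypothesis gives left nondegeneracy in degrees `(n, 0)`. -/
theorem leftNondeg_zero_of_evHom {n : ℕ}
    (h : ∀ x : groupCohomology (homRep Q C) n,
      (∀ (r : Q.V) (hr : ∀ g : G, Q.ρ g r = r),
        (map (MonoidHom.id G) (evHom Q C r hr) n).hom x = 0) → x = 0) :
    LeftNondeg Q C n 0 n (by omega) := by
  intro x hx
  refine h x (fun r hr => ?_)
  rw [← cup_eval_H0]
  exact hx _

/-- `tn20_surjective`-shaped hypothesis gives realisability in degrees `(n, 0)`. -/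
theorem realizes₀_of_evHom [Fintype G] {n : ℕ}
    (h : ∀ f : Q.ρ.invariants →+ groupCohomology C n,
      (∀ v : Q.V, f ⟨Q.ρ.norm v, fun g => Representation.self_norm_apply _ g v⟩ = 0) →
      ∃ x : groupCohomology (homRep Q C) n, ∀ (r : Q.V) (hr : ∀ g : G, Q.ρ g r = r),
        (map (MonoidHom.id G) (evHom Q C r hr) n).hom x = f ⟨r, hr⟩) :
    Realizes₀ Q C n := by
  intro f hf
  obtain ⟨x, hx⟩ := h (f.comp (H0Iso Q).inv.hom.toAddMonoidHom) hf
  refine ⟨x, fun y => ?_⟩
  have h1 := hx ((H0Iso Q).hom y).1 ((H0Iso Q).hom y).2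
  have h2 := cup_eval_H0 Q C x ((H0Iso Q).hom y).1 ((H0Iso Q).hom y).2
  rw [Subtype.coe_eta, H0Iso_inv_hom] at h2
  rw [h2, h1]
  change f ((H0Iso Q).inv ((H0Iso Q).hom y)) = f y
  rw [H0Iso_inv_hom]

end bridge
/-! ### Shifting along `0 → P → coind₁ P → up P → 0` -/

section up

open Fermat.Agent.CFT.A2 Fermat.Agent.CFT.A7.HomFromCoind Fermat.Agent.CFT.A7.TN20

variable [Fintype G] (P C : Rep.{u} k G) [Module.Projective k (up P).V]

omit [Fintype G] in
/-- `0 → Hom(up P, C) → Hom(coind₁ P, C) → Hom(P, C) → 0` is short exact. -/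
theorem homSC_upSC_shortExact : (homSC (upSC P) C).ShortExact :=
  haveI : Module.Projective k (upSC P).X₃.V := ‹Module.Projective k (up P).V›
  homSC_shortExact C (upSC_shortExact P)

/-- Left nondegeneracy in degrees `(p+2, q)` for `up P` gives it in degrees `(p+1, q+1)` for
`P`. -/
theorem leftNondeg_up {p q n : ℕ} (h : (p + 1) + q = n)
    (hL : LeftNondeg (up P) C (p + 2) q (n + 1) (by omega)) :
    LeftNondeg P C (p + 1) (q + 1) (n + 1) (by omega) :=
  leftNondeg_shift (upSC_shortExact P) C (homSC_upSC_shortExact P C) h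
    (isZero_groupCohomology_ihom_coind₁ P.V C p) hL

/-- Realisability in degrees `(p+1, q+1)` for `up P` gives it in degrees `(p, q+2)` for `P`. -/
theorem realizes_up {p q n : ℕ} (h : p + (q + 1) = n)
    (hR : Realizes (up P) C (p + 1) (q + 1) (n + 1) (by omega)) :
    Realizes P C p (q + 2) (n + 1) (by omega) :=
  realizes_shift (upSC_shortExact P) C (homSC_upSC_shortExact P C) h
    (isZero_groupCohomology_ihom_coind₁ P.V C p)
    (isZero_groupCohomology_coind₁ k G P.V (q + 1)) hR

/-- Right nondegeneracy in degrees `(p+1, q+1)` for `up P` gives it in degrees `(p, q+2)` for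
`P`. -/
theorem rightNondeg_up {p q n : ℕ} (h : p + (q + 1) = n)
    (hR : RightNondeg (up P) C (p + 1) (q + 1) (n + 1) (by omega)) :
    RightNondeg P C p (q + 2) (n + 1) (by omega) :=
  rightNondeg_shift' (upSC_shortExact P) C (homSC_upSC_shortExact P C) h
    (isZero_groupCohomology_ihom_coind₁ P.V C p)
    (isZero_groupCohomology_coind₁ k G P.V (q + 1))
    (fun y' hy' => by
      have h0 : y' = 0 := hR y' hy'
      subst h0
      exact map_zero _)

omit [Module.Projective k (up P).V] in
/-- Every norm class of `up P` comes from `H⁰(G, coind₁ P)`. -/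
lemma normClass_up_mem_range (v' : (up P).V) :
    ∃ y₂ : groupCohomology (upSC P).X₂ 0,
      (map (MonoidHom.id G) (upSC P).g 0).hom y₂ = normClass (up P) v' := by
  obtain ⟨i, rfl⟩ := upπ_surjective P v'
  exact ⟨normClass (coind₁ k G P.V) i, map_normClass (upπ P) i⟩

/-- **(TN-20) ⇒ (TN-11), realisability**: realisability in degrees `(p+1, 0)` for `up P` (maps
killing norm classes) gives realisability in degrees `(p, 1)` for `P`. -/
theorem realizes_up_zero {p : ℕ} (hR : Realizes₀ (up P) C (p + 1)) :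
    Realizes P C p 1 (p + 1) (by omega) :=
  realizes_shift' (upSC_shortExact P) C (homSC_upSC_shortExact P C) (show p + 0 = p by omega)
    (isZero_groupCohomology_ihom_coind₁ P.V C p)
    (isZero_groupCohomology_coind₁ k G P.V 0)
    (fun f' hf' => hR f' (fun v' => by
      obtain ⟨y₂, hy₂⟩ := normClass_up_mem_range P v'
      rw [← hy₂]
      exact hf' y₂))

/-- **(TN-20) ⇒ (TN-11), right kernel**: if the right kernel in degrees `(p+1, 0)` for `up P`
consists of norm classes, the right kernel in degrees `(p, 1)` for `P` is trivial. -/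
theorem rightNondeg_up_zero {p : ℕ} (hR : RightKernelNorm₀ (up P) C (p + 1)) :
    RightNondeg P C p 1 (p + 1) (by omega) :=
  rightNondeg_shift' (upSC_shortExact P) C (homSC_upSC_shortExact P C) (show p + 0 = p by omega)
    (isZero_groupCohomology_ihom_coind₁ P.V C p)
    (isZero_groupCohomology_coind₁ k G P.V 0)
    (fun y' hy' => by
      obtain ⟨v', rfl⟩ := hR y' hy'
      obtain ⟨y₂, hy₂⟩ := normClass_up_mem_range P v'
      rw [← hy₂]
      exact δ_map_g (upSC_shortExact P) 0 y₂)

/-! ### The left kernel in degree `0` -/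

omit [Module.Projective k (up P).V] in
/-- The norm on `Hom(P, C)`, elementwise. -/
lemma toLin_norm_apply (ψ : (homRep P C).V) (v : P.V) :
    toLin ((homRep P C).ρ.norm ψ) v = ∑ g : G, C.ρ g (toLin ψ (P.ρ g⁻¹ v)) := by
  unfold Representation.norm
  rw [LinearMap.sum_apply, map_sum, LinearMap.sum_apply]
  rfl

omit [Module.Projective k (up P).V] in
open Classical in
/-- An invariant element of `Hom(coind₁ P, C)` restricts to a norm on `P`. -/
lemma homRes_upι_eq_norm (b : (homRep (coind₁ k G P.V) C).V)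
    (hb : ∀ g : G, (homRep (coind₁ k G P.V) C).ρ g b = b) :
    (homRes (upι P) C).hom b =
      (homRep P C).ρ.norm (toLin.symm (toLin b ∘ₗ LinearMap.single k (fun _ : G => P.V) 1)) := by
  have key : ∀ (x : G) (w : P.V),
      toLin b (Pi.single x w) = C.ρ x⁻¹ (toLin b (Pi.single 1 w)) := by
    intro x w
    have h1 := (ρ_eq_self_iff (coind₁ k G P.V) C x⁻¹ b).1 (hb x⁻¹) (Pi.single 1 w)
    rw [← h1]
    congr 1
    funext y
    change (Pi.single x w : G → P.V) y = (Pi.single (1 : G) w : G → P.V) (y * x⁻¹)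
    by_cases h : y = x
    · subst h
      rw [mul_inv_cancel, Pi.single_eq_same, Pi.single_eq_same]
    · rw [Pi.single_eq_of_ne h, Pi.single_eq_of_ne]
      intro h'
      exact h (mul_inv_eq_one.1 h')
  ext v
  rw [toLin_homRes, toLin_norm_apply]
  have h2 : (upι P).hom v = ∑ x : G, Pi.single x (P.ρ x v) := by
    rw [Finset.univ_sum_single]
    rfl
  rw [h2, map_sum, Finset.sum_congr rfl (fun x _ => key x (P.ρ x v))]
  refine Fintype.sum_equiv (Equiv.inv G) _ _ (fun x => ?_)
  change _ = C.ρ x⁻¹ (toLin (toLin.symm (toLin b ∘ₗ LinearMap.single k (fun _ : G => P.V) 1))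
    (P.ρ x⁻¹⁻¹ v))
  rw [inv_inv]
  rfl

/-- **The left kernel in degrees `(0, q+1)` consists of norm classes**, given left nondegeneracy
in degrees `(1, q)` for `up P`. -/
theorem leftKernel_zero_up {q : ℕ} (hL : LeftNondeg (up P) C 1 q (q + 1) (by omega))
    (x : groupCohomology (homRep P C) 0)
    (hx : ∀ y : groupCohomology P (q + 1),
      cup (Pairing.eval P C) (show 0 + (q + 1) = q + 1 by omega) x y = 0) :
    ∃ ψ : (homRep P C).V, x = normClass (homRep P C) ψ := by
  classical
  have hH := homSC_upSC_shortExact P C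
  have hδ : δ hH 0 1 rfl x = 0 :=
    δ_eq_zero_of_left hH (upSC_shortExact P) (Pairing.eval (upSC P).X₂ C)
      (Pairing.eval (upSC P).X₃ C) (Pairing.eval (upSC P).X₁ C) (fun _ _ => rfl)
      (fun _ _ => rfl) (show 0 + q = q by omega) hL x hx
  obtain ⟨z, hz⟩ := (ShortComplex.moduleCat_exact_iff _).1
    (mapShortComplex₃_exact hH (i := 0) rfl) x hδ
  let b := (H0Iso (homRep (coind₁ k G P.V) C)).hom z
  have hzb : z = (H0Iso (homRep (coind₁ k G P.V) C)).inv b := (H0Iso_inv_hom _ z).symm
  refine ⟨toLin.symm (toLin b.1 ∘ₗ LinearMap.single k (fun _ : G => P.V) 1), ?_⟩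
  rw [← hz, hzb]
  have h3 := map_H0Iso_inv (homRes (upι P) C) b (fun g => by
    rw [homRes_upι_eq_norm P C b.1 b.2]
    exact Representation.self_norm_apply _ g _)
  refine h3.trans ?_
  unfold normClass
  congr 1
  exact Subtype.ext (homRes_upι_eq_norm P C b.1 b.2)

end up

end Fermat.Agent.CFT.A7.TN11
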