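import Mathlib
import Fermat.Agent.CFT.A7.ShiftDual

/-!
# Dimension shifting for cup-product dualities: realisability in the left variable

Same setting as `ShiftDual.lean`.  If every additive map `H^{p+1}(X₁) → H^{n+1}(C)` is of the
form `- ∪ y'` with `y' ∈ H^q(Y₃)`, then every additive map `H^p(X₃) → H^{n+1}(C)` killing
`ker δ` is of the form `- ∪ y` with `y ∈ H^{q+1}(Y₁)`.
-/

noncomputable section

universe u

namespace Fermat.Agent.CFT.A7.ShiftDual

open CategoryTheory groupCohomology Fermat.Agent.CFT.Cup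

variable {k G : Type u} [CommRing k] [Group G]

variable {X Y : ShortComplex (Rep.{u} k G)} (hX : X.ShortExact) (hY : Y.ShortExact)
  {C : Rep.{u} k G}
  (φ : Pairing X.X₂ Y.X₂ C) (φ' : Pairing X.X₁ Y.X₃ C) (φ'' : Pairing X.X₃ Y.X₁ C)
  (h1 : ∀ a' b, φ.toLin (X.f.hom a') b = φ'.toLin a' (Y.g.hom b))
  (h2 : ∀ a b', φ.toLin a (Y.f.hom b') = φ''.toLin (X.g.hom a) b')

include hY h1 h2

/-- **Realisability in the left variable shifts.** -/
theorem exists_cup_eq_shift_left {p q n : ℕ} (h : p + q = n)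
    (hδX : Function.Surjective (δ hX p (p + 1) rfl))
    (hS : ∀ f' : groupCohomology X.X₁ (p + 1) →+ groupCohomology C (n + 1),
      ∃ y' : groupCohomology Y.X₃ q, ∀ x' : groupCohomology X.X₁ (p + 1),
        cup φ' (show (p + 1) + q = n + 1 by omega) x' y' = f' x')
    (f : groupCohomology X.X₃ p →+ groupCohomology C (n + 1))
    (hf : ∀ x : groupCohomology X.X₃ p, δ hX p (p + 1) rfl x = 0 → f x = 0) :
    ∃ y : groupCohomology Y.X₁ (q + 1), ∀ x : groupCohomology X.X₃ p,
      cup φ'' (show p + (q + 1) = n + 1 by omega) x y = f x := by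
  let d : groupCohomology X.X₃ p →+ groupCohomology X.X₁ (p + 1) :=
    (δ hX p (p + 1) rfl).hom.toAddMonoidHom
  have hd : ∀ x, d x = δ hX p (p + 1) rfl x := fun _ => rfl
  have hker : d.ker ≤ f.ker := fun x hx => hf x hx
  let f' : groupCohomology X.X₁ (p + 1) →+ groupCohomology C (n + 1) :=
    AddMonoidHom.liftOfRightInverse d (Function.surjInv hδX)
      (Function.rightInverse_surjInv hδX) ⟨f, hker⟩
  have hf' : ∀ x, f' (δ hX p (p + 1) rfl x) = f x := fun x =>
    AddMonoidHom.liftOfRightInverse_comp_apply d (Function.surjInv hδX)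
      (Function.rightInverse_surjInv hδX) ⟨f, hker⟩ x
  obtain ⟨y', hy'⟩ := hS f'
  refine ⟨(-1 : k) ^ (p + 1) • δ hY q (q + 1) rfl y', fun x => ?_⟩
  rw [map_smul, ← hf', ← hy', δ_cup_δ hX hY φ φ' φ'' h1 h2 h x y']

end Fermat.Agent.CFT.A7.ShiftDual
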