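import Mathlib
import Fermat.Agent.CFT.A7.TN11
import Fermat.Agent.CFT.A7.ShiftDualLeft

/-!
# PROJECT C, slice A7.2c: realisability in the left variable

Complement to `TN11.lean`: `LeftRealizes Q C p q n` says that every additive map
`H^p(G, Hom(Q, C)) → H^n(G, C)` is of the form `- ∪ y` with `y ∈ H^q(G, Q)`; `LeftRealizes₀` is
the degree `(0, n)` variant for maps killing norm classes.  Both shift along
`0 → P → coind₁ P → up P → 0`.
-/

noncomputable section

universe u

namespace Fermat.Agent.CFT.A7.TN11

open CategoryTheory CategoryTheory.Limits groupCohomology Fermat.Agent.CFT.Cup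
  Fermat.Agent.CFT.A3 Fermat.Agent.CFT.A7.HomRep Fermat.Agent.CFT.A7.ShiftDual

variable {k G : Type u} [CommRing k] [Group G]

/-- Every additive map `H^p(G, Hom(Q, C)) → H^n(G, C)` is a cup product `- ∪ y` with
`y ∈ H^q(G, Q)`. -/
def LeftRealizes (Q C : Rep.{u} k G) (p q n : ℕ) (h : p + q = n) : Prop :=
  ∀ f : groupCohomology (homRep Q C) p →+ groupCohomology C n,
    ∃ y : groupCohomology Q q, ∀ x : groupCohomology (homRep Q C) p,
      cup (Pairing.eval Q C) h x y = f x

/-- Every additive map `H⁰(G, Hom(Q, C)) → Hⁿ(G, C)` killing the norm classes is a cup product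
`- ∪ y` with `y ∈ Hⁿ(G, Q)`. -/
def LeftRealizes₀ [Fintype G] (Q C : Rep.{u} k G) (n : ℕ) : Prop :=
  ∀ f : groupCohomology (homRep Q C) 0 →+ groupCohomology C n,
    (∀ ψ : (homRep Q C).V, f (normClass (homRep Q C) ψ) = 0) →
    ∃ y : groupCohomology Q n, ∀ x : groupCohomology (homRep Q C) 0,
      cup (Pairing.eval Q C) (show 0 + n = n by omega) x y = f x

section general

variable {S : ShortComplex (Rep.{u} k G)} (hS : S.ShortExact) (C : Rep.{u} k G)
  (hH : (homSC S C).ShortExact)

include hS hH

/-- Shifting left realisability along `S : 0 → P → I → P' → 0` when `H^{p+1}(Hom(I, C)) = 0`,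
for maps killing `ker δ`. -/
theorem leftRealizes_shift' {p q n : ℕ} (h : p + q = n)
    (hI : IsZero (groupCohomology (homRep S.X₂ C) (p + 1)))
    (hL : LeftRealizes S.X₃ C (p + 1) q (n + 1) (by omega))
    (f : groupCohomology (homRep S.X₁ C) p →+ groupCohomology C (n + 1))
    (hf : ∀ x : groupCohomology (homRep S.X₁ C) p, δ hH p (p + 1) rfl x = 0 → f x = 0) :
    ∃ y : groupCohomology S.X₁ (q + 1), ∀ x : groupCohomology (homRep S.X₁ C) p,
      cup (Pairing.eval S.X₁ C) (show p + (q + 1) = n + 1 by omega) x y = f x := by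
  have hepiX : Epi (δ hH p (p + 1) rfl) := epi_δ_of_isZero hH p hI
  exact exists_cup_eq_shift_left hH hS (Pairing.eval S.X₂ C) (Pairing.eval S.X₃ C)
    (Pairing.eval S.X₁ C) (fun _ _ => rfl) (fun _ _ => rfl) h
    ((ModuleCat.epi_iff_surjective _).1 hepiX) hL f hf

end general

section up

open Fermat.Agent.CFT.A2 Fermat.Agent.CFT.A7.HomFromCoind Fermat.Agent.CFT.A7.TN20

variable [Fintype G] (P C : Rep.{u} k G) [Module.Projective k (up P).V]

/-- Left realisability in degrees `(p+2, q)` for `up P` gives it in degrees `(p+1, q+1)` for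
`P`. -/
theorem leftRealizes_up {p q n : ℕ} (h : (p + 1) + q = n)
    (hL : LeftRealizes (up P) C (p + 2) q (n + 1) (by omega)) :
    LeftRealizes P C (p + 1) (q + 1) (n + 1) (by omega) := by
  intro f
  have hH := homSC_upSC_shortExact P C
  have hmono : Mono (δ hH (p + 1) (p + 2) rfl) :=
    mono_δ_of_isZero hH (p + 1) (isZero_groupCohomology_ihom_coind₁ P.V C p)
  have hinj : Function.Injective (δ hH (p + 1) (p + 2) rfl) :=
    (ModuleCat.mono_iff_injective _).1 hmono
  exact leftRealizes_shift' (upSC_shortExact P) C hH h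
    (isZero_groupCohomology_ihom_coind₁ P.V C (p + 1)) hL f (fun x hx => by
      have h0 : x = 0 := hinj (hx.trans (map_zero _).symm)
      subst h0
      exact map_zero f)

/-- An element of `H⁰(G, Hom(P, C))` killed by the connecting map is a norm class. -/
theorem exists_normClass_of_δ_eq_zero (x : groupCohomology (homRep P C) 0)
    (hδ : δ (homSC_upSC_shortExact P C) 0 1 rfl x = 0) :
    ∃ ψ : (homRep P C).V, x = normClass (homRep P C) ψ := by
  classical
  have hH := homSC_upSC_shortExact P C
  obtain ⟨z, hz⟩ := (ShortComplex.moduleCat_exact_iff _).1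
    (mapShortComplex₃_exact hH (i := 0) rfl) x hδ
  let b := (H0Iso (homRep (coind₁ k G P.V) C)).hom z
  have hzb : z = (H0Iso (homRep (coind₁ k G P.V) C)).inv b := (H0Iso_inv_hom _ z).symm
  refine ⟨toLin.symm (toLin b.1 ∘ₗ LinearMap.single k (fun _ : G => P.V) 1), ?_⟩
  rw [← hz, hzb]
  have h3 := map_H0Iso_inv (homRes (upι P) C) b (fun g => by
    rw [homRes_upι_eq_norm P C b.1 b.2]
    exact Representation.self_norm_apply _ g _)
  refine h3.trans ?_
  unfold normClass
  congr 1
  exact Subtype.ext (homRes_upι_eq_norm P C b.1 b.2)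

/-- Left realisability in degrees `(1, q)` for `up P` gives left realisability modulo norm
classes in degrees `(0, q+1)` for `P`. -/
theorem leftRealizes₀_up {q : ℕ} (hL : LeftRealizes (up P) C 1 q (q + 1) (by omega)) :
    LeftRealizes₀ P C (q + 1) := by
  intro f hf
  have hH := homSC_upSC_shortExact P C
  exact leftRealizes_shift' (upSC_shortExact P) C hH (show 0 + q = q by omega)
    (isZero_groupCohomology_ihom_coind₁ P.V C 0) hL f (fun x hx => by
      obtain ⟨ψ, rfl⟩ := exists_normClass_of_δ_eq_zero P C x hx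
      exact hf ψ)

end up

end Fermat.Agent.CFT.A7.TN11
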