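import Mathlib
import Fermat.Agent.CFT.A7.TN11
import Fermat.Agent.CFT.A7.TN11Left

/-!
# PROJECT C, slice A7.2c: finite-level Nakayama–Tate duality (NT), push-forward form

`G` a finite group, `k` any commutative ring, `B C : Rep k G`, `φ` a `2`-cocycle of `C`.
For `ψ : B ⟶ C` and `x ∈ H²(G, B)` put `ψ_* x = groupCohomology.map (MonoidHom.id G) ψ 2 x`.
Under the hypotheses `NTHyp (up (up B)) C φ` (the inputs of (TN-20) for the twice shifted
lattice: two vanishing statements, the order of `[φ]`, and four elementary lattice-duality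
facts) and `k`-projectivity of `up B`, `up (up B)`:

* `nt_b` : `(∀ ψ, ψ_* x = 0) → x = 0`;
* `nt_a` : `(∀ x, ψ_* x = 0) → ψ = normHom θ` for some `k`-linear `θ : B → C`;
* `nt_c` : every additive `f : (B ⟶ C) → H²(G, C)` killing the norms is `ψ ↦ ψ_* x`;
* `nt_d` : every additive `f : H²(G, B) → H²(G, C)` is `ψ_*`.

So `Ĥ⁰(G, Hom(B, C)) × H²(G, B) → H²(G, C)` is a perfect pairing.  The proof is two dimension
shifts (`TN11.lean`, `TN11Left.lean`) from (TN-20) (`TN20.lean`) for `up (up B)`; the by-products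
in degrees `(1, 1)` for `up B` are `leftNondeg_one_one_up`, `realizes_one_one_up`,
`rightNondeg_one_one_up`, `leftRealizes_one_one_up`.
-/

noncomputable section

universe u

namespace Fermat.Agent.CFT.A7.NT

open CategoryTheory CategoryTheory.Limits groupCohomology Fermat.Agent.CFT.Cup
  Fermat.Agent.CFT.A3 Fermat.Agent.CFT.A7.HomRep Fermat.Agent.CFT.A7.TN11
  Fermat.Agent.CFT.A7.TN20 Fermat.Agent.CFT.A7.HomSplit Fermat.Agent.CFT.A5.Split

variable {k G : Type u} [CommRing k] [Group G] [Fintype G]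

/-- The inputs of (TN-20) and its dual forms for the pair `(Q, C)`: two vanishing statements
(consequences of "`Hom(Q, -)` preserves cohomological triviality"), the order of the fundamental
class, and the four elementary lattice-duality facts for `Q` over `k`. -/
structure NTHyp (Q C : Rep.{u} k G) (φ : cocycles₂ C) : Prop where
  hR1 : IsZero (groupCohomology ((Rep.ihom Q).obj (Rep.leftRegular k G)) 1)
  hE2 : IsZero (groupCohomology ((Rep.ihom Q).obj (split C φ)) 2)
  hord : ∀ c : k, c • H2π C φ = 0 → ((Fintype.card G : ℕ) : k) ∣ c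
  LD1 : ∀ l : Q.V →ₗ[k] k, (∀ (g : G) (x : Q.V), l (Q.ρ g x) = l x) →
    (∀ y : Q.V, (∀ g : G, Q.ρ g y = y) → ((Fintype.card G : ℕ) : k) ∣ l y) →
    ∃ μ : Q.V →ₗ[k] k, ∀ x : Q.V, l x = ∑ g : G, μ (Q.ρ g x)
  LD2 : ∀ f : Q.ρ.invariants →+ groupCohomology C 2,
    (∀ v : Q.V, f ⟨Q.ρ.norm v, fun g => Representation.self_norm_apply _ g v⟩ = 0) →
    ∃ l : Q.V →ₗ[k] k, (∀ (g : G) (x : Q.V), l (Q.ρ g x) = l x) ∧
      ∀ y : Q.ρ.invariants, f y = l y.1 • H2π C φ
  LDR : ∀ r : Q.V, (∀ g : G, Q.ρ g r = r) →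
    (∀ l : Q.V →ₗ[k] k, (∀ (g : G) (x : Q.V), l (Q.ρ g x) = l x) →
      ((Fintype.card G : ℕ) : k) ∣ l r) →
    ∃ y : Q.V, r = Q.ρ.norm y
  LDdual : ∀ Λ : Q.ρ.dual.invariants →+ groupCohomology C 2,
    (∀ μ : Module.Dual k Q.V,
      Λ ⟨Q.ρ.dual.norm μ, fun g => Representation.self_norm_apply _ g μ⟩ = 0) →
    ∃ r : Q.V, (∀ g : G, Q.ρ g r = r) ∧
      ∀ l : Q.ρ.dual.invariants, Λ l = (l.1 r) • H2π C φ

variable {Q C : Rep.{u} k G} {φ : cocycles₂ C}

omit [Fintype G] in
lemma tnClass_congr {l l' : Q.V →ₗ[k] k} (e : l = l')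
    (hl : ∀ (g : G) (x : Q.V), l (Q.ρ g x) = l x)
    (hl' : ∀ (g : G) (x : Q.V), l' (Q.ρ g x) = l' x) :
    tnClass Q C φ l hl = tnClass Q C φ l' hl' := by
  subst e
  rfl

omit [Fintype G] in
lemma tnClass_zero (h0 : ∀ (g : G) (x : Q.V), (0 : Q.V →ₗ[k] k) (Q.ρ g x) = (0 : Q.V →ₗ[k] k) x) :
    tnClass Q C φ 0 h0 = 0 := by
  have h1 := tnClass_smul Q C φ (0 : k) (0 : Q.V →ₗ[k] k) (fun _ _ => rfl)
  exact (tnClass_congr (zero_smul k (0 : Q.V →ₗ[k] k)).symm _ _).trans
    (h1.trans (zero_smul k _))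

omit [Fintype G] in
/-- an invariant element of the dual representation is an invariant functional -/
lemma dual_invariant_apply (l : Q.ρ.dual.invariants) (g : G) (x : Q.V) :
    l.1 (Q.ρ g x) = l.1 x := by
  have h := l.2 g⁻¹
  have h2 := LinearMap.congr_fun h x
  rw [Representation.dual_apply, inv_inv] at h2
  exact h2

/-- an invariant functional is an invariant element of the dual representation -/
def dualInv (l : Q.V →ₗ[k] k) (hl : ∀ (g : G) (x : Q.V), l (Q.ρ g x) = l x) :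
    Q.ρ.dual.invariants :=
  ⟨l, fun g => LinearMap.ext fun x => by
    rw [Representation.dual_apply]
    exact hl g⁻¹ x⟩

namespace NTHyp

variable (h : NTHyp Q C φ)
include h

/-- (TN-20), injectivity, cup form. -/
theorem leftNondeg : LeftNondeg Q C 2 0 2 (by omega) :=
  leftNondeg_zero_of_evHom Q C (fun x hx =>
    tn20_injective Q C φ h.hR1 h.hE2 h.hord h.LD1 x hx)

/-- (TN-20), surjectivity, cup form. -/
theorem realizes₀ : Realizes₀ Q C 2 :=
  realizes₀_of_evHom Q C (fun f hf => tn20_surjective Q C φ f (h.LD2 f hf))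

/-- (TN-20): the right kernel consists of norm classes. -/
theorem rightKernelNorm₀ : RightKernelNorm₀ Q C 2 := by
  intro y hy
  let r := (H0Iso Q).hom y
  have hr : ∀ g : G, Q.ρ g r.1 = r.1 := r.2
  have hyr : y = (H0Iso Q).inv ⟨r.1, hr⟩ := (H0Iso_inv_hom Q y).symm
  obtain ⟨v, hv⟩ := h.LDR r.1 hr (fun l hl => h.hord _ (by
    rw [← map_evHom_tnClass Q C φ l hl r.1 hr, ← cup_eval_H0, ← hyr]
    exact hy _))
  refine ⟨v, ?_⟩
  rw [hyr]
  unfold normClass
  congr 1
  exact Subtype.ext hv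

/-- (TN-20): every additive map `H²(G, Hom(Q, C)) → H²(G, C)` is evaluation at an invariant
element of `Q`. -/
theorem leftRealizes : LeftRealizes Q C 2 0 2 (by omega) := by
  intro f
  let Λ : Q.ρ.dual.invariants →+ groupCohomology C 2 :=
    { toFun := fun l => f (tnClass Q C φ l.1 (dual_invariant_apply l))
      map_zero' := by
        have : tnClass Q C φ ((0 : Q.ρ.dual.invariants) : Module.Dual k Q.V)
            (dual_invariant_apply 0) = 0 := tnClass_zero _
        rw [this, map_zero]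
      map_add' := fun l l' => by
        rw [← map_add, ← tnClass_add Q C φ l.1 l'.1 (dual_invariant_apply l)
          (dual_invariant_apply l')]
        rfl }
  have hΛ : ∀ l, Λ l = f (tnClass Q C φ l.1 (dual_invariant_apply l)) := fun _ => rfl
  obtain ⟨r, hr, hΛr⟩ := h.LDdual Λ (fun μ => by
    rw [hΛ]
    have : tnClass Q C φ (Q.ρ.dual.norm μ) (dual_invariant_apply
        ⟨Q.ρ.dual.norm μ, fun g => Representation.self_norm_apply _ g μ⟩) = 0 := by
      refine tnClass_eq_zero_of_norm Q C φ _ _ μ (fun x => ?_)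
      unfold Representation.norm
      rw [LinearMap.sum_apply, LinearMap.sum_apply]
      refine (Fintype.sum_equiv (Equiv.inv G) _ _ (fun g => ?_))
      rw [Representation.dual_apply]
      rfl
    rw [this, map_zero])
  refine ⟨(H0Iso Q).inv ⟨r, hr⟩, fun x => ?_⟩
  obtain ⟨l, hl, rfl⟩ := exists_eq_tnClass Q C φ h.hR1 h.hE2 x
  rw [cup_eval_H0, map_evHom_tnClass]
  exact (hΛr (dualInv l hl)).symm

end NTHyp
/-! ### Morphisms `B ⟶ C` versus invariant elements of `Hom(B, C)` -/

section hom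

variable (B C : Rep.{u} k G)

omit [Fintype G] in
lemma applyLeft_eval_hom_apply (a : (homRep B C).ρ.invariants) (v : B.V) :
    (applyLeft (Pairing.eval B C) a).hom v = toLin a.1 v := rfl

/-- An invariant element of `Hom(B, C)` as a morphism `B ⟶ C`. -/
def ofInv : (homRep B C).ρ.invariants →+ (B ⟶ C) where
  toFun a := applyLeft (Pairing.eval B C) a
  map_zero' := by
    ext v
    rfl
  map_add' a b := by
    ext v
    rfl

omit [Fintype G] in
lemma ofInv_hom_apply (a : (homRep B C).ρ.invariants) (v : B.V) :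
    (ofInv B C a).hom v = toLin a.1 v := rfl

/-- A morphism `B ⟶ C` as an invariant element of `Hom(B, C)`. -/
def toInv (ψ : B ⟶ C) : (homRep B C).ρ.invariants :=
  ⟨toLin.symm ψ.hom.toLinearMap, fun g =>
    (ρ_eq_self_iff B C g _).2 (fun v => Rep.hom_comm_apply ψ g v)⟩

omit [Fintype G] in
lemma ofInv_toInv (ψ : B ⟶ C) : ofInv B C (toInv B C ψ) = ψ := by
  ext v
  rfl

omit [Fintype G] in
lemma toInv_ofInv (a : (homRep B C).ρ.invariants) : toInv B C (ofInv B C a) = a :=
  Subtype.ext rfl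

omit [Fintype G] in
/-- The cup product with a class of degree `0` in `Hom(B, C)` is the push-forward. -/
lemma cup_H0Iso_inv_eq_push {n : ℕ} (a : (homRep B C).ρ.invariants)
    (x : groupCohomology B n) :
    cup (Pairing.eval B C) (show 0 + n = n by omega) ((H0Iso (homRep B C)).inv a) x =
      (map (MonoidHom.id G) (ofInv B C a) n).hom x :=
  cup_H0_left (Pairing.eval B C) _ a x

/-- The norm `Σ_g g ∘ θ ∘ g⁻¹` of a `k`-linear map `θ : B → C`, as a morphism `B ⟶ C`. -/
def normHom (θ : B.V →ₗ[k] C.V) : B ⟶ C :=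
  ofInv B C ⟨(homRep B C).ρ.norm (toLin.symm θ),
    fun g => Representation.self_norm_apply _ g _⟩

lemma normHom_hom_apply (θ : B.V →ₗ[k] C.V) (v : B.V) :
    (normHom B C θ).hom v = ∑ g : G, C.ρ g (θ (B.ρ g⁻¹ v)) := by
  unfold normHom
  rw [ofInv_hom_apply, toLin_norm_apply]
  rfl

lemma ofInv_H0Iso_hom_normClass (θ' : (homRep B C).V) :
    ofInv B C ((H0Iso (homRep B C)).hom (normClass (homRep B C) θ')) =
      normHom B C (toLin θ') := by
  unfold normClass normHom
  congr 1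
  exact Iso.inv_hom_id_apply _ _

end hom

/-! ### The main theorems -/

section main

open Fermat.Agent.CFT.A2

variable (B C : Rep.{u} k G) (φ : cocycles₂ C)
  [Module.Projective k (up B).V] [Module.Projective k (up (up B)).V]
  (h : NTHyp (up (up B)) C φ)

include h

omit [Module.Projective k (up B).V] in
/-- (TN-11): the left kernel of `H¹(Hom(up B, C)) × H¹(up B) → H²(C)` is trivial. -/
theorem leftNondeg_one_one_up : LeftNondeg (up B) C 1 1 2 (by omega) :=
  leftNondeg_up (up B) C (p := 0) (q := 0) (n := 1) (by omega) h.leftNondeg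

omit [Module.Projective k (up B).V] in
/-- (TN-11): every additive map `H¹(up B) → H²(C)` is `x ∪ -`. -/
theorem realizes_one_one_up : Realizes (up B) C 1 1 2 (by omega) :=
  realizes_up_zero (up B) C (p := 1) h.realizes₀

omit [Module.Projective k (up B).V] in
/-- (TN-11): the right kernel is trivial. -/
theorem rightNondeg_one_one_up : RightNondeg (up B) C 1 1 2 (by omega) :=
  rightNondeg_up_zero (up B) C (p := 1) h.rightKernelNorm₀

omit [Module.Projective k (up B).V] in
/-- (TN-11): every additive map `H¹(Hom(up B, C)) → H²(C)` is `- ∪ y`. -/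
theorem leftRealizes_one_one_up : LeftRealizes (up B) C 1 1 2 (by omega) :=
  leftRealizes_up (up B) C (p := 0) (q := 0) (n := 1) (by omega) h.leftRealizes

/-- **(NT-b)**: a class `x ∈ H²(G, B)` with `ψ_* x = 0` for all `ψ : B ⟶ C` is zero. -/
theorem nt_b (x : groupCohomology B 2)
    (hx : ∀ ψ : B ⟶ C, (map (MonoidHom.id G) ψ 2).hom x = 0) : x = 0 := by
  have hR : RightNondeg B C 0 2 2 (by omega) :=
    rightNondeg_up B C (p := 0) (q := 0) (n := 1) (by omega) (rightNondeg_one_one_up B C φ h)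
  refine hR x (fun x₀ => ?_)
  rw [← H0Iso_inv_hom (homRep B C) x₀, cup_H0Iso_inv_eq_push]
  exact hx _

/-- **(NT-a)**: a morphism `ψ : B ⟶ C` with `ψ_* = 0` on `H²(G, B)` is a norm. -/
theorem nt_a (ψ : B ⟶ C)
    (hψ : ∀ x : groupCohomology B 2, (map (MonoidHom.id G) ψ 2).hom x = 0) :
    ∃ θ : B.V →ₗ[k] C.V, ψ = normHom B C θ := by
  obtain ⟨θ', hθ'⟩ := leftKernel_zero_up B C (q := 1) (leftNondeg_one_one_up B C φ h)
    ((H0Iso (homRep B C)).inv (toInv B C ψ)) (fun y => by
      rw [cup_H0Iso_inv_eq_push, ofInv_toInv]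
      exact hψ y)
  refine ⟨toLin θ', ?_⟩
  rw [← ofInv_H0Iso_hom_normClass, ← hθ', Iso.inv_hom_id_apply, ofInv_toInv]

/-- **(NT-c)**: every additive map `(B ⟶ C) → H²(G, C)` killing the norms is `ψ ↦ ψ_* x` for
some `x ∈ H²(G, B)`. -/
theorem nt_c (f : (B ⟶ C) →+ groupCohomology C 2) (hf : ∀ θ, f (normHom B C θ) = 0) :
    ∃ x : groupCohomology B 2, ∀ ψ : B ⟶ C, (map (MonoidHom.id G) ψ 2).hom x = f ψ := by
  have hL : LeftRealizes₀ B C 2 :=
    leftRealizes₀_up B C (q := 1) (leftRealizes_one_one_up B C φ h)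
  let f₀ : groupCohomology (homRep B C) 0 →+ groupCohomology C 2 :=
    (f.comp (ofInv B C)).comp (H0Iso (homRep B C)).hom.hom.toAddMonoidHom
  have hf₀ : ∀ x₀, f₀ x₀ = f (ofInv B C ((H0Iso (homRep B C)).hom x₀)) := fun _ => rfl
  obtain ⟨y, hy⟩ := hL f₀ (fun θ' => by
    rw [hf₀, ofInv_H0Iso_hom_normClass]
    exact hf _)
  refine ⟨y, fun ψ => ?_⟩
  have h1 := hy ((H0Iso (homRep B C)).inv (toInv B C ψ))
  rw [cup_H0Iso_inv_eq_push, ofInv_toInv, hf₀, Iso.inv_hom_id_apply, ofInv_toInv] at h1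
  exact h1

/-- **(NT-d)**: every additive map `H²(G, B) → H²(G, C)` is `ψ_*` for some `ψ : B ⟶ C`. -/
theorem nt_d (f : groupCohomology B 2 →+ groupCohomology C 2) :
    ∃ ψ : B ⟶ C, ∀ x : groupCohomology B 2, (map (MonoidHom.id G) ψ 2).hom x = f x := by
  have hR : Realizes B C 0 2 2 (by omega) :=
    realizes_up B C (p := 0) (q := 0) (n := 1) (by omega) (realizes_one_one_up B C φ h)
  obtain ⟨x₀, hx₀⟩ := hR f
  refine ⟨ofInv B C ((H0Iso (homRep B C)).hom x₀), fun x => ?_⟩
  rw [← cup_H0Iso_inv_eq_push, H0Iso_inv_hom]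
  exact hx₀ x

end main

end Fermat.Agent.CFT.A7.NT
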