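/-
PROJECT C, (N3) abstract part (helper24): EXPONENT-`p` EXISTENCE FROM A CARDINALITY BOUND.

`Γ` a finite group, `(A, φ)` a class module over `k` (`k` a characteristic zero domain with
`AddHomsLinear k`), `H ≤ Γ` a subgroup.  Reciprocity for the restricted class module gives
`k ⊗ H^ab ≃ₗ[k] A^H / N_H A`.  Consequences (pure counting):

* `norm_le_smul_of_card_le` : if `|A^H / p A^H| ≤ |(k ⊗ H^ab) / p|` (both finite) then
  `N_H A ⊆ p • A^H`  — the existence theorem in exponent `p`, counting form;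
* `card_gabk_le_of_le_norms` : if every element of a submodule `Y ≤ A^H` is a norm then
  `|k ⊗ H^ab| ≤ |A^H / Y|`.

For a class formation `cf : ClassFormation 𝒰 C`, levels `U' ≤ U₀`, `H = U₀/U' ≤ G ⧸ U'`:

* `ClassFormation.n3_of_card_le` : the hypothesis `D.Realize.N3 C p U₀ U'` of the realizability
  step of the Poitou–Tate assembly.
-/
import Mathlib
import Fermat.Agent.CFT.A5.ClassRes
import Fermat.Agent.CFT.A7.ClassFormation
import Fermat.Agent.CFT.A5.ClassK
import Fermat.Agent.CFT.A5.TateLocal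
import Fermat.Agent.CFT.D.Realize

set_option autoImplicit false

noncomputable section

namespace Fermat.Agent.CFT.A7.ExistenceP

open CategoryTheory groupCohomology Fermat.Agent.CFT.A5 Fermat.Agent.CFT.A5.Tate
  Fermat.Agent.CFT.A5.SplitRes Fermat.Agent.CFT.A5.Reciprocity Fermat.Agent.CFT.A5.ReciprocityK
  Fermat.Agent.CFT.A5.ClassK Fermat.Agent.CFT.A5.TateLocal

universe u

/-! ### Pure counting -/

section Counting

variable {k : Type*} [CommRing k] {I T : Type*} [AddCommGroup I] [Module k I] [AddCommGroup T]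
  [Module k T]

/-- The submodule `p • I` of multiples of `p`. -/
def smulSub (p : k) (I : Type*) [AddCommGroup I] [Module k I] : Submodule k I :=
  LinearMap.range (LinearMap.lsmul k I p)

theorem mem_smulSub {p : k} {x : I} : x ∈ smulSub p I ↔ ∃ y : I, p • y = x := by
  rw [smulSub, LinearMap.mem_range]
  rfl

theorem smul_mem_smulSub (p : k) (y : I) : p • y ∈ smulSub p I := mem_smulSub.2 ⟨y, rfl⟩

theorem smulSub_map_equiv (p : k) (e : I ≃ₗ[k] T) :
    (smulSub p I).map e.toLinearMap = smulSub p T := by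
  ext t
  rw [Submodule.mem_map, mem_smulSub]
  constructor
  · rintro ⟨x, hx, rfl⟩
    obtain ⟨y, rfl⟩ := mem_smulSub.1 hx
    exact ⟨e y, (map_smul e p y).symm⟩
  · rintro ⟨y, rfl⟩
    exact ⟨p • e.symm y, smul_mem_smulSub _ _, by simp⟩

/-- A linear equivalence induces an equivalence of the quotients by the multiples of `p`. -/
def quotSmulSubEquiv (p : k) (e : I ≃ₗ[k] T) : (I ⧸ smulSub p I) ≃ₗ[k] (T ⧸ smulSub p T) :=
  Submodule.Quotient.equiv _ _ e (smulSub_map_equiv p e)

/-- Let `e : T ≃ I / N`.  If `|I / pI| ≤ |T / pT|` (finite) then `N ≤ p I`. -/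
theorem le_smul_top_of_card_le (N : Submodule k I) (e : T ≃ₗ[k] I ⧸ N) (p : k)
    [Finite (I ⧸ (smulSub p I))]
    (hcard : Nat.card (I ⧸ (smulSub p I)) ≤ Nat.card (T ⧸ (smulSub p T))) :
    N ≤ smulSub p I := by
  -- `ψ : I → I/N ≃ T → T/pT`
  let ψ : I →ₗ[k] T ⧸ (smulSub p T) :=
    (smulSub p T).mkQ ∘ₗ e.symm.toLinearMap ∘ₗ N.mkQ
  have hψs : Function.Surjective ψ := by
    intro t
    obtain ⟨t', rfl⟩ := Submodule.mkQ_surjective _ t
    obtain ⟨x, hx⟩ := Submodule.mkQ_surjective N (e t')
    refine ⟨x, ?_⟩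
    change (smulSub p T).mkQ (e.symm (N.mkQ x)) = _
    rw [hx, LinearEquiv.symm_apply_apply]
  have hPK : (smulSub p I) ≤ LinearMap.ker ψ := by
    intro x hx
    obtain ⟨y, rfl⟩ := mem_smulSub.1 hx
    rw [LinearMap.mem_ker, map_smul]
    change p • (smulSub p T).mkQ (e.symm (N.mkQ y)) = 0
    rw [← map_smul, Submodule.mkQ_apply, Submodule.Quotient.mk_eq_zero]
    exact smul_mem_smulSub _ _
  have hNK : N ≤ LinearMap.ker ψ := by
    intro x hx
    rw [LinearMap.mem_ker]
    change (smulSub p T).mkQ (e.symm (N.mkQ x)) = 0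
    have : N.mkQ x = 0 := by rw [Submodule.mkQ_apply, Submodule.Quotient.mk_eq_zero]; exact hx
    rw [this, map_zero, map_zero]
  -- cardinalities
  have hcardK : Nat.card (I ⧸ LinearMap.ker ψ) = Nat.card (T ⧸ (smulSub p T)) :=
    Nat.card_congr (LinearMap.quotKerEquivOfSurjective ψ hψs).toEquiv
  -- the surjection `I/pI → I/ker ψ`
  let π : (I ⧸ (smulSub p I)) →ₗ[k] I ⧸ LinearMap.ker ψ :=
    Submodule.mapQ _ _ LinearMap.id (by simpa using hPK)
  have hπs : Function.Surjective π := by
    intro y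
    obtain ⟨x, rfl⟩ := Submodule.mkQ_surjective _ y
    exact ⟨(smulSub p I).mkQ x, rfl⟩
  have hfinK : Finite (I ⧸ LinearMap.ker ψ) := Finite.of_surjective π hπs
  have hle : Nat.card (I ⧸ LinearMap.ker ψ) ≤ Nat.card (I ⧸ (smulSub p I)) :=
    Nat.card_le_card_of_surjective π hπs
  have heq : Nat.card (I ⧸ (smulSub p I)) = Nat.card (I ⧸ LinearMap.ker ψ) :=
    le_antisymm (hcard.trans hcardK.ge) hle
  have hπb : Function.Bijective π :=
    (Nat.bijective_iff_surjective_and_card π).2 ⟨hπs, heq⟩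
  -- hence `ker ψ ≤ p I`
  intro x hx
  have h0 : π ((smulSub p I).mkQ x) = 0 := by
    change (LinearMap.ker ψ).mkQ x = 0
    rw [Submodule.mkQ_apply, Submodule.Quotient.mk_eq_zero]
    exact hNK hx
  have h1 : (smulSub p I).mkQ x = 0 := hπb.1 (h0.trans (map_zero π).symm)
  rwa [Submodule.mkQ_apply, Submodule.Quotient.mk_eq_zero] at h1

/-- Additive variant: `ρ : I → V` a surjective additive map onto a finite group killing `N` and
`p I`; if `|I / pI| ≤ |V|` then `N ≤ p I`. -/
theorem le_smulSub_of_card_le_of_surjective (N : Submodule k I) (p : k) {V : Type*}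
    [AddCommGroup V] (ρ : I →+ V) (hρs : Function.Surjective ρ) (hρN : ∀ x ∈ N, ρ x = 0)
    (hρp : ∀ x : I, ρ (p • x) = 0) [Finite (I ⧸ smulSub p I)]
    (hcard : Nat.card (I ⧸ smulSub p I) ≤ Nat.card V) : N ≤ smulSub p I := by
  let ρ' : (I ⧸ smulSub p I) →+ V :=
    QuotientAddGroup.lift (smulSub p I).toAddSubgroup ρ (fun x hx => by
      obtain ⟨y, rfl⟩ := mem_smulSub.1 hx
      exact hρp y)
  have hρ'mk : ∀ x : I, ρ' ((smulSub p I).mkQ x) = ρ x := fun x => rfl
  have hρ's : Function.Surjective ρ' := by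
    intro v
    obtain ⟨x, rfl⟩ := hρs v
    exact ⟨(smulSub p I).mkQ x, hρ'mk x⟩
  have hfinV : Finite V := Finite.of_surjective ρ' hρ's
  have hle : Nat.card V ≤ Nat.card (I ⧸ smulSub p I) := Nat.card_le_card_of_surjective ρ' hρ's
  have hρ'b : Function.Bijective ρ' :=
    (Nat.bijective_iff_surjective_and_card ρ').2 ⟨hρ's, le_antisymm hcard hle⟩
  intro x hx
  have h0 : ρ' ((smulSub p I).mkQ x) = 0 := by rw [hρ'mk, hρN x hx]
  have h1 : (smulSub p I).mkQ x = 0 := hρ'b.1 (h0.trans (map_zero ρ').symm)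
  rwa [Submodule.mkQ_apply, Submodule.Quotient.mk_eq_zero] at h1

/-- Let `e : T ≃ I / N`.  If `Y ≤ N` then `|T| ≤ |I / Y|`. -/
theorem card_le_of_le (N Y : Submodule k I) (e : T ≃ₗ[k] I ⧸ N) (hY : Y ≤ N)
    [Finite (I ⧸ Y)] : Nat.card T ≤ Nat.card (I ⧸ Y) := by
  let π : (I ⧸ Y) →ₗ[k] I ⧸ N := Submodule.mapQ _ _ LinearMap.id (by simpa using hY)
  have hπs : Function.Surjective π := by
    intro y
    obtain ⟨x, rfl⟩ := Submodule.mkQ_surjective _ y
    exact ⟨Y.mkQ x, rfl⟩
  rw [Nat.card_congr e.toEquiv]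
  exact Nat.card_le_card_of_surjective π hπs

end Counting

/-! #### The elementary abelian case -/

section Elementary

open TensorProduct

variable {k : Type u} [CommRing k] (p : ℕ) [Fact p.Prime] (σ : k →+* ZMod p) (H : Type u)
  [Group H] (hexp : ∀ x : Abelianization H, x ^ p = 1)

omit [Fact p.Prime] in
include hexp in
theorem nsmul_additive_abelianization (v : Additive (Abelianization H)) : p • v = 0 := by
  induction v using Additive.rec with
  | ofMul x => rw [← ofMul_pow, hexp, ofMul_one]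

/-- `k ⊗ H^ab → H^ab`, `r ⊗ v ↦ σ r • v`, for `H^ab` of exponent `p` and `σ : k → 𝔽_p`. -/
def gabRetr : Gabk k H →+ Additive (Abelianization H) :=
  letI : Module (ZMod p) (Additive (Abelianization H)) :=
    AddCommGroup.zmodModule (nsmul_additive_abelianization p H hexp)
  TensorProduct.liftAddHom
    { toFun := fun r => DistribSMul.toAddMonoidHom (Additive (Abelianization H)) (σ r)
      map_zero' := by
        ext v
        simp
      map_add' := fun r r' => by
        ext v
        simp [add_smul] }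
    (fun n r v => by
      change σ (n • r) • v = σ r • (n • v)
      rw [map_zsmul, smul_assoc, smul_comm])

theorem gabRetr_tmul (r : k) (v : Additive (Abelianization H)) :
    gabRetr p σ H hexp (r ⊗ₜ[ℤ] v) =
      (letI : Module (ZMod p) (Additive (Abelianization H)) :=
        AddCommGroup.zmodModule (nsmul_additive_abelianization p H hexp)
      (σ r) • v) := rfl

theorem gabRetr_one_tmul (v : Additive (Abelianization H)) :
    gabRetr p σ H hexp ((1 : k) ⊗ₜ[ℤ] v) = v := by
  rw [gabRetr_tmul, map_one, one_smul]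

theorem gabRetr_surjective : Function.Surjective (gabRetr p σ H hexp) :=
  fun v => ⟨(1 : k) ⊗ₜ[ℤ] v, gabRetr_one_tmul p σ H hexp v⟩

omit [Fact p.Prime] in
include hexp in
/-- `k ⊗ H^ab` is killed by `p` if `H^ab` is. -/
theorem natCast_smul_gabk (x : Gabk k H) : (p : k) • x = 0 := by
  induction x using TensorProduct.induction_on with
  | zero => rw [smul_zero]
  | tmul r v =>
    rw [Nat.cast_smul_eq_nsmul, ← TensorProduct.tmul_smul,
      nsmul_additive_abelianization p H hexp, TensorProduct.tmul_zero]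
  | add x y hx hy => rw [smul_add, hx, hy, add_zero]

theorem gabRetr_smul (x : Gabk k H) : gabRetr p σ H hexp ((p : k) • x) = 0 := by
  rw [Nat.cast_smul_eq_nsmul, map_nsmul]
  exact nsmul_additive_abelianization p H hexp _

end Elementary

/-! ### Finite level: class modules -/

section Finite

variable {k Γ : Type u} [CommRing k] [IsDomain k] [CharZero k] [Group Γ] {A : Rep.{u} k Γ}
  {φ : cocycles₂ A}

/-- Reciprocity for the restriction of a class module to a subgroup:
`k ⊗ H^ab ≃ₗ[k] A^H / N_H A`. -/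
def recipRes (hR : AddHomsLinear k) (hA : IsClassModule A φ) (H : Subgroup Γ)
    [Fintype H] : Gabk k H ≃ₗ[k] H0hat (Rep.res H.subtype A) :=
  ClassRes.nakLinEquivRes hR (prime_mul_eq_zero_of_domain k) hA H

/-- **Existence in exponent `p`, counting form**: if `|A^H / p A^H| ≤ |(k ⊗ H^ab)/p|` then every
norm `N_H a` lies in `p • A^H`. -/
theorem norm_le_smul_of_card_le (hR : AddHomsLinear k) (hA : IsClassModule A φ) (H : Subgroup Γ)
    [Fintype H] (p : k)
    [Finite ((Rep.res H.subtype A).ρ.invariants ⧸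
      (smulSub p (Rep.res H.subtype A).ρ.invariants))]
    (hcard : Nat.card ((Rep.res H.subtype A).ρ.invariants ⧸
        (smulSub p (Rep.res H.subtype A).ρ.invariants)) ≤
      Nat.card (Gabk k H ⧸ (smulSub p (Gabk k H)))) :
    normSub (Rep.res H.subtype A) ≤ smulSub p _ :=
  le_smul_top_of_card_le _ (recipRes hR hA H) p hcard

/-- If every element of `Y ≤ A^H` is a norm from `A`, then `|k ⊗ H^ab| ≤ |A^H / Y|`. -/
theorem card_gabk_le_of_le_norms (hR : AddHomsLinear k) (hA : IsClassModule A φ) (H : Subgroup Γ)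
    [Fintype H] (Y : Submodule k (Rep.res H.subtype A).ρ.invariants)
    (hY : Y ≤ normSub (Rep.res H.subtype A))
    [Finite ((Rep.res H.subtype A).ρ.invariants ⧸ Y)] :
    Nat.card (Gabk k H) ≤ Nat.card ((Rep.res H.subtype A).ρ.invariants ⧸ Y) :=
  card_le_of_le _ Y (recipRes hR hA H) hY



/-- **Existence in exponent `p`, counting form, elementary abelian case**: `H ≤ Γ` with `H^ab` of
exponent `p`, `σ : k → 𝔽_p`; if `|A^H / p A^H| ≤ |H^ab|` then every norm `N_H a` lies in
`p • A^H`. -/
theorem norm_le_smul_of_card_le_abelianization (hR : AddHomsLinear k) (hA : IsClassModule A φ)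
    (H : Subgroup Γ) [Fintype H] (p : ℕ) [Fact p.Prime] (σ : k →+* ZMod p)
    (hexp : ∀ x : Abelianization H, x ^ p = 1)
    [Finite ((Rep.res H.subtype A).ρ.invariants ⧸
      (smulSub (p : k) (Rep.res H.subtype A).ρ.invariants))]
    (hcard : Nat.card ((Rep.res H.subtype A).ρ.invariants ⧸
        (smulSub (p : k) (Rep.res H.subtype A).ρ.invariants)) ≤
      Nat.card (Abelianization H)) :
    normSub (Rep.res H.subtype A) ≤ smulSub (p : k) _ := by
  let e := recipRes hR hA H
  let ρ : (Rep.res H.subtype A).ρ.invariants →+ Additive (Abelianization H) :=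
    (gabRetr p σ H hexp).comp
      ((e.symm.toLinearMap ∘ₗ (normSub (Rep.res H.subtype A)).mkQ).toAddMonoidHom)
  have hρ : ∀ x, ρ x = gabRetr p σ H hexp (e.symm ((normSub (Rep.res H.subtype A)).mkQ x)) :=
    fun x => rfl
  refine le_smulSub_of_card_le_of_surjective _ (p : k) ρ ?_ ?_ ?_ hcard
  · intro v
    obtain ⟨t, ht⟩ := gabRetr_surjective p σ H hexp v
    obtain ⟨x, hx⟩ := Submodule.mkQ_surjective _ (e t)
    refine ⟨x, ?_⟩
    rw [hρ, hx, LinearEquiv.symm_apply_apply, ht]
  · intro x hx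
    have : (normSub (Rep.res H.subtype A)).mkQ x = 0 := by
      rw [Submodule.mkQ_apply, Submodule.Quotient.mk_eq_zero]; exact hx
    rw [hρ, this, map_zero, map_zero]
  · intro x
    rw [hρ, map_smul, map_smul, gabRetr_smul]

/-- If `H^ab` has exponent `p`, the multiples of `p` in `A^H` are norms. -/
theorem smulSub_le_normSub (hR : AddHomsLinear k) (hA : IsClassModule A φ)
    (H : Subgroup Γ) [Fintype H] (p : ℕ) (hexp : ∀ x : Abelianization H, x ^ p = 1) :
    smulSub (p : k) (Rep.res H.subtype A).ρ.invariants ≤ normSub (Rep.res H.subtype A) := by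
  intro x hx
  obtain ⟨y, rfl⟩ := mem_smulSub.1 hx
  rw [← Submodule.Quotient.mk_eq_zero, Submodule.Quotient.mk_smul]
  obtain ⟨t, ht⟩ := (recipRes hR hA H).surjective (Submodule.Quotient.mk y)
  rw [← ht, ← map_smul, natCast_smul_gabk p H hexp, map_zero]

/-- **Index bound from norms, elementary abelian case**: if `H^ab` has exponent `p` and every
element of `Y ≤ A^H` is a norm, then `|H^ab| ≤ |A^H / (Y + p A^H)|`. -/
theorem card_abelianization_le_of_le_norms (hR : AddHomsLinear k) (hA : IsClassModule A φ)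
    (H : Subgroup Γ) [Fintype H] (p : ℕ) [Fact p.Prime] (σ : k →+* ZMod p)
    (hexp : ∀ x : Abelianization H, x ^ p = 1)
    (Y : Submodule k (Rep.res H.subtype A).ρ.invariants)
    (hY : Y ≤ normSub (Rep.res H.subtype A))
    [Finite ((Rep.res H.subtype A).ρ.invariants ⧸
      (Y ⊔ smulSub (p : k) (Rep.res H.subtype A).ρ.invariants))] :
    Nat.card (Abelianization H) ≤ Nat.card ((Rep.res H.subtype A).ρ.invariants ⧸
      (Y ⊔ smulSub (p : k) (Rep.res H.subtype A).ρ.invariants)) := by
  have hle : Y ⊔ smulSub (p : k) (Rep.res H.subtype A).ρ.invariants ≤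
      normSub (Rep.res H.subtype A) := sup_le hY (smulSub_le_normSub hR hA H p hexp)
  have h1 := card_gabk_le_of_le_norms hR hA H _ hle
  have hfin : Finite (Gabk k H) := by
    -- `Gabk ≃ A^H / N` is a quotient of the finite `A^H / (Y + p A^H)`
    have hfinQ : Finite (H0hat (Rep.res H.subtype A)) := by
      let π : ((Rep.res H.subtype A).ρ.invariants ⧸
          (Y ⊔ smulSub (p : k) (Rep.res H.subtype A).ρ.invariants)) →ₗ[k]
          H0hat (Rep.res H.subtype A) :=
        Submodule.mapQ _ _ LinearMap.id (by simpa using hle)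
      refine Finite.of_surjective π ?_
      intro y
      obtain ⟨x, rfl⟩ := Submodule.mkQ_surjective _ y
      exact ⟨Submodule.Quotient.mk x, rfl⟩
    exact Finite.of_equiv _ (recipRes hR hA H).symm.toEquiv
  have h2 : Nat.card (Abelianization H) ≤ Nat.card (Gabk k H) :=
    Nat.card_le_card_of_surjective (gabRetr p σ H hexp) (gabRetr_surjective p σ H hexp)
  exact h2.trans h1

omit [IsDomain k] [CharZero k] in
/-- Element form of `normSub ≤ smulSub p`. -/
theorem exists_norm_eq_smul_of_le (H : Subgroup Γ) [Fintype H] (p : k)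
    (hle : normSub (Rep.res H.subtype A) ≤ smulSub p _) (c : A.V) :
    ∃ c' : A.V, (∀ h ∈ H, A.ρ h c' = c') ∧ ∑ h : H, A.ρ (h : Γ) c = p • c' := by
  have hmem : (⟨(Rep.res H.subtype A).ρ.norm c,
      fun g => Representation.self_norm_apply _ g c⟩ : (Rep.res H.subtype A).ρ.invariants) ∈
      normSub (Rep.res H.subtype A) := ⟨c, rfl⟩
  have h1 := hle hmem
  obtain ⟨y, hy⟩ := mem_smulSub.1 h1
  refine ⟨y.1, fun h hh => y.2 ⟨h, hh⟩, ?_⟩
  have h2 := congrArg Subtype.val hy
  simp only [Submodule.coe_smul] at h2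
  rw [h2, Representation.norm, LinearMap.sum_apply]
  rfl

/-- Element form of `norm_le_smul_of_card_le`. -/
theorem exists_norm_eq_smul (hR : AddHomsLinear k) (hA : IsClassModule A φ) (H : Subgroup Γ)
    [Fintype H] (p : k)
    [Finite ((Rep.res H.subtype A).ρ.invariants ⧸
      (smulSub p (Rep.res H.subtype A).ρ.invariants))]
    (hcard : Nat.card ((Rep.res H.subtype A).ρ.invariants ⧸
        (smulSub p (Rep.res H.subtype A).ρ.invariants)) ≤
      Nat.card (Gabk k H ⧸ (smulSub p (Gabk k H)))) (c : A.V) :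
    ∃ c' : A.V, (∀ h ∈ H, A.ρ h c' = c') ∧ ∑ h : H, A.ρ (h : Γ) c = p • c' :=
  exists_norm_eq_smul_of_le H p (norm_le_smul_of_card_le hR hA H p hcard) c

end Finite

end Fermat.Agent.CFT.A7.ExistenceP

/-! ### Class formations: `(N3)` from the cardinality bound -/

namespace Fermat.Agent.CFT.A7.ClassFormation

open CategoryTheory groupCohomology Fermat.Agent.CFT.LC Fermat.Agent.CFT.A5
  Fermat.Agent.CFT.A5.Tate Fermat.Agent.CFT.A5.Reciprocity Fermat.Agent.CFT.A5.ReciprocityK
  Fermat.Agent.CFT.D.Realize Fermat.Agent.CFT.A7.ExistenceP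

variable {k G : Type} [CommRing k] [IsDomain k] [CharZero k] [Group G] {𝒰 : Levels G}
  {C : Rep.{0} k G}

/-- **(N3) from the counting form of the existence theorem**: for levels `U' ≤ U₀` of a class
formation, `H = U₀/U' ≤ G ⧸ U'`, if `|C^{U₀}/p| ≤ |(k ⊗ H^ab)/p|` then
`Nm_{U₀/U'} C^{U'} ⊆ p • C^{U₀}`. -/
theorem n3_of_card_le (cf : ClassFormation 𝒰 C) (hR : AddHomsLinear k) (U₀ U' : Subgroup G)
    [U'.Normal] (hU' : U' ∈ 𝒰.sets) [Fintype (layerSub U₀ U')] (p : k)
    [Finite ((Rep.res (layerSub U₀ U').subtype (C.quotientToInvariants U')).ρ.invariants ⧸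
      (smulSub p
        (Rep.res (layerSub U₀ U').subtype (C.quotientToInvariants U')).ρ.invariants))]
    (hcard : Nat.card
        ((Rep.res (layerSub U₀ U').subtype (C.quotientToInvariants U')).ρ.invariants ⧸
          (smulSub p
            (Rep.res (layerSub U₀ U').subtype (C.quotientToInvariants U')).ρ.invariants)) ≤
      Nat.card (Gabk k (layerSub U₀ U') ⧸ (smulSub p (Gabk k (layerSub U₀ U'))))) :
    N3 C p U₀ U' := by
  intro c
  exact exists_norm_eq_smul hR (cf.isClassModule U' hU') (layerSub U₀ U') p hcard c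

/-- The invariants of `U₀/U'` in the layer `C^{U'}` are the `U₀`-invariants of `C`. -/
def invLayerEquiv (C : Rep.{0} k G) (U₀ U' : Subgroup G) [U'.Normal] (hle : U' ≤ U₀) :
    (Rep.res (layerSub U₀ U').subtype (C.quotientToInvariants U')).ρ.invariants ≃ₗ[k]
      Representation.invariants (C.ρ.comp U₀.subtype) where
  toFun x := ⟨x.1.1, fun u => by
    have := x.2 ⟨QuotientGroup.mk' U' u.1, Subgroup.mem_map_of_mem _ u.2⟩
    exact congrArg Subtype.val this⟩
  map_add' _ _ := rfl
  map_smul' _ _ := rfl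
  invFun y := ⟨⟨y.1, fun u => y.2 ⟨u.1, hle u.2⟩⟩, fun h => by
    obtain ⟨γ, hγ⟩ := h
    obtain ⟨u, hu, rfl⟩ := hγ
    apply Subtype.ext
    exact y.2 ⟨u, hu⟩⟩
  left_inv _ := rfl
  right_inv _ := rfl

theorem card_abelianization_of_comm (H : Type*) [Group H] (hcomm : ∀ a b : H, a * b = b * a) :
    Nat.card (Abelianization H) = Nat.card H := by
  let _ : CommGroup H := { (inferInstance : Group H) with mul_comm := hcomm }
  exact Nat.card_congr (Abelianization.equivOfComm (H := H)).toEquiv.symm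

theorem pow_eq_one_abelianization (H : Type*) [Group H] (p : ℕ) (hexp : ∀ a : H, a ^ p = 1)
    (x : Abelianization H) : x ^ p = 1 := by
  obtain ⟨a, rfl⟩ := QuotientGroup.mk_surjective x
  change (Abelianization.of a) ^ p = 1
  rw [← map_pow, hexp, map_one]

/-- **(N3) from the counting form of the existence theorem, elementary abelian case.**
`cf` a class formation over `k`, `σ : k → 𝔽_p`, levels `U' ≤ U₀` with `U₀/U'` elementary abelian;
if `|C^{U₀} / p C^{U₀}| ≤ [U₀ : U']` then `Nm_{U₀/U'} C^{U'} ⊆ p • C^{U₀}`. -/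
theorem n3_of_card_invariants_le (cf : ClassFormation 𝒰 C) (hR : AddHomsLinear k)
    (U₀ U' : Subgroup G) [U'.Normal] (hU' : U' ∈ 𝒰.sets) (hle : U' ≤ U₀)
    [Fintype (layerSub U₀ U')] (p : ℕ) [Fact p.Prime] (σ : k →+* ZMod p)
    (hcomm : ∀ a b : layerSub U₀ U', a * b = b * a) (hexp : ∀ a : layerSub U₀ U', a ^ p = 1)
    [Finite (Representation.invariants (C.ρ.comp U₀.subtype) ⧸
      smulSub (p : k) (Representation.invariants (C.ρ.comp U₀.subtype)))]
    (hcard : Nat.card (Representation.invariants (C.ρ.comp U₀.subtype) ⧸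
        smulSub (p : k) (Representation.invariants (C.ρ.comp U₀.subtype))) ≤
      Nat.card (layerSub U₀ U')) :
    N3 C (p : k) U₀ U' := by
  have e := quotSmulSubEquiv (p : k) (invLayerEquiv C U₀ U' hle)
  have hfin : Finite ((Rep.res (layerSub U₀ U').subtype
      (C.quotientToInvariants U')).ρ.invariants ⧸ smulSub (p : k)
        (Rep.res (layerSub U₀ U').subtype (C.quotientToInvariants U')).ρ.invariants) :=
    Finite.of_equiv _ e.symm.toEquiv
  have hcard' : Nat.card ((Rep.res (layerSub U₀ U').subtype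
      (C.quotientToInvariants U')).ρ.invariants ⧸ smulSub (p : k)
        (Rep.res (layerSub U₀ U').subtype (C.quotientToInvariants U')).ρ.invariants) ≤
      Nat.card (Abelianization (layerSub U₀ U')) := by
    rw [Nat.card_congr e.toEquiv, card_abelianization_of_comm _ hcomm]
    exact hcard
  intro c
  have hle' := norm_le_smul_of_card_le_abelianization hR (cf.isClassModule U' hU')
    (layerSub U₀ U') p σ (pow_eq_one_abelianization _ p hexp) hcard'
  exact exists_norm_eq_smul_of_le (layerSub U₀ U') (p : k) hle' c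

/-- **Index bound from norms** (the companion of `n3_of_card_invariants_le`): levels `U' ≤ U₀`
with `U₀/U'` elementary abelian of exponent `p`; if every element of `Y ≤ C^{U₀}` is a norm from
`C^{U'}` then `[U₀ : U'] ≤ |C^{U₀} / (Y + p C^{U₀})|`. -/
theorem card_layerSub_le_of_le_norms (cf : ClassFormation 𝒰 C) (hR : AddHomsLinear k)
    (U₀ U' : Subgroup G) [U'.Normal] (hU' : U' ∈ 𝒰.sets) (hle : U' ≤ U₀)
    [Fintype (layerSub U₀ U')] (p : ℕ) [Fact p.Prime] (σ : k →+* ZMod p)
    (hcomm : ∀ a b : layerSub U₀ U', a * b = b * a) (hexp : ∀ a : layerSub U₀ U', a ^ p = 1)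
    (Y : Submodule k (Representation.invariants (C.ρ.comp U₀.subtype)))
    (hY : ∀ y ∈ Y, ∃ c : (C.quotientToInvariants U').V,
      ((∑ h : layerSub U₀ U', (C.quotientToInvariants U').ρ (h : G ⧸ U') c :
        (C.quotientToInvariants U').V) : C.V) = (y : C.V))
    [Finite (Representation.invariants (C.ρ.comp U₀.subtype) ⧸
      (Y ⊔ smulSub (p : k) (Representation.invariants (C.ρ.comp U₀.subtype))))] :
    Nat.card (layerSub U₀ U') ≤
      Nat.card (Representation.invariants (C.ρ.comp U₀.subtype) ⧸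
        (Y ⊔ smulSub (p : k) (Representation.invariants (C.ρ.comp U₀.subtype)))) := by
  set e := invLayerEquiv C U₀ U' hle with he
  set Y' : Submodule k
      (Rep.res (layerSub U₀ U').subtype (C.quotientToInvariants U')).ρ.invariants :=
    Y.comap e.toLinearMap with hY'
  have hY'N : Y' ≤ normSub (Rep.res (layerSub U₀ U').subtype (C.quotientToInvariants U')) := by
    intro x hx
    obtain ⟨c, hc⟩ := hY (e x) hx
    refine ⟨c, ?_⟩
    apply Subtype.ext
    rw [Representation.norm, LinearMap.sum_apply]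
    exact hc
  have hmap : (Y' ⊔ smulSub (p : k) _).map e.toLinearMap =
      Y ⊔ smulSub (p : k) (Representation.invariants (C.ρ.comp U₀.subtype)) := by
    rw [Submodule.map_sup, smulSub_map_equiv, hY',
      Submodule.map_comap_eq_of_surjective e.surjective]
  have eq := Submodule.Quotient.equiv _ _ e hmap
  have hfin : Finite ((Rep.res (layerSub U₀ U').subtype
      (C.quotientToInvariants U')).ρ.invariants ⧸ (Y' ⊔ smulSub (p : k) _)) :=
    Finite.of_equiv _ eq.symm.toEquiv
  have h1 := card_abelianization_le_of_le_norms hR (cf.isClassModule U' hU')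
    (layerSub U₀ U') p σ (pow_eq_one_abelianization _ p hexp) Y' hY'N
  rw [card_abelianization_of_comm _ hcomm, Nat.card_congr eq.toEquiv] at h1
  exact h1

end Fermat.Agent.CFT.A7.ClassFormation
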