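/-
PROJECT C, (N3) route of record (#920/#955), slice (hF2) (helper24).

Abstract half of the inequality `[B_S : K^p] ≤ |Cl_S(K)/p|`:

* `card_quot_span_sup_smulSub` : the **card adapter with a subgroup**: if `f : A → I` exhibits the
  `k`-module `I` as the localisation prime to `p` of the abelian group `A`, then for every subgroup
  `N ≤ A`:  `|I / (k·f(N) + p I)| = [A : N·A^p]`;
* `ClassFormation.card_layerSub_le_index` : for a class formation `(G, 𝒰, C)`, levels
  `U'' ≤ U₁` with `U₁/U''` elementary abelian of exponent `p`, `C^{U₁}` the localisation of `A`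
  and `N ≤ A` a subgroup all of whose elements become norms from `C^{U''}`:
  `[U₁ : U''] ≤ [A : N·A^p]`.
-/
import Mathlib
import Fermat.Agent.CFT.A7.ExistenceP
import Fermat.Agent.CFT.A7.BaseChangeCard

set_option autoImplicit false

noncomputable section

namespace Fermat.Agent.CFT.A7.ExistenceF2

open Fermat.Agent.CFT.A7.ExistenceP

section CardAdapter

variable {k : Type*} [CommRing k] {A : Type*} [CommGroup A] {I : Type*} [AddCommGroup I]
  [Module k I]

/-- The subgroup of `p`-th powers. -/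
abbrev PwSub (A : Type*) [CommGroup A] (p : ℕ) : Subgroup A := (powMonoidHom p : A →* A).range

/-- The `k`-span of the image of a subgroup. -/
def spanImage (k : Type*) [CommRing k] {A : Type*} [CommGroup A] {I : Type*} [AddCommGroup I]
    [Module k I] (f : Additive A →+ I) (N : Subgroup A) : Submodule k I :=
  Submodule.span k ((fun a : A => f (Additive.ofMul a)) '' (N : Set A))

theorem map_mem_spanImage (f : Additive A →+ I) (N : Subgroup A) {a : A} (ha : a ∈ N) :
    f (Additive.ofMul a) ∈ spanImage k f N :=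
  Submodule.subset_span ⟨a, ha, rfl⟩

/-- The localisation hypotheses, in elementary form (cf. `A7.BaseChange.IsLocRep` for
`M = primeTo p`). -/
structure IsLocAt (p : ℕ) (k : Type*) [CommRing k] {A : Type*} [CommGroup A] {I : Type*}
    [AddCommGroup I] [Module k I] (f : Additive A →+ I) : Prop where
  surj : ∀ y : I, ∃ s : ℕ, ¬ p ∣ s ∧ ∃ a : A, (s : k) • y = f (Additive.ofMul a)
  ker : ∀ a : A, f (Additive.ofMul a) = 0 → ∃ s : ℕ, ¬ p ∣ s ∧ a ^ s = 1
  denom : ∀ r : k, ∃ s : ℕ, ¬ p ∣ s ∧ ∃ m : ℤ, (s : k) * r = (m : k)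

variable {p : ℕ} {f : Additive A →+ I}

theorem map_pow_eq (f : Additive A →+ I) (a : A) (n : ℕ) :
    f (Additive.ofMul (a ^ n)) = (n : k) • f (Additive.ofMul a) := by
  rw [ofMul_pow, map_nsmul, Nat.cast_smul_eq_nsmul]

theorem map_zpow_eq (f : Additive A →+ I) (a : A) (n : ℤ) :
    f (Additive.ofMul (a ^ n)) = (n : k) • f (Additive.ofMul a) := by
  rw [ofMul_zpow, map_zsmul, Int.cast_smul_eq_zsmul]

/-- Bezout: for `s` prime to `p` there are `t : ℕ`, `m : ℕ` with `t * s = 1 + p * m`. -/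
theorem exists_mul_eq_one_add [hp : Fact p.Prime] {s : ℕ} (hs : ¬ p ∣ s) :
    ∃ t m : ℕ, t * s = 1 + p * m := by
  have hcop : Nat.Coprime s p := (Nat.Coprime.symm ((Nat.Prime.coprime_iff_not_dvd hp.out).2 hs))
  obtain ⟨t, -, ht⟩ := Nat.exists_mul_mod_eq_one_of_coprime hcop hp.out.one_lt
  refine ⟨t, s * t / p, ?_⟩
  have h := Nat.div_add_mod (s * t) p
  rw [ht] at h
  rw [mul_comm t s]
  omega

/-- The map `A → I / (k·f(N) + p I)`. -/
def quotHom (p : ℕ) (f : Additive A →+ I) (N : Subgroup A) :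
    A →* Multiplicative (I ⧸ (spanImage k f N ⊔ smulSub (p : k) I)) :=
  AddMonoidHom.toMultiplicativeRight
    ((spanImage k f N ⊔ smulSub (p : k) I).mkQ.toAddMonoidHom.comp f)

theorem quotHom_apply (N : Subgroup A) (a : A) :
    quotHom (k := k) p f N a =
      Multiplicative.ofAdd ((spanImage k f N ⊔ smulSub (p : k) I).mkQ (f (Additive.ofMul a))) :=
  rfl

theorem quotHom_eq_one_iff (N : Subgroup A) (a : A) :
    quotHom (k := k) p f N a = 1 ↔
      f (Additive.ofMul a) ∈ spanImage k f N ⊔ smulSub (p : k) I := by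
  rw [quotHom_apply]
  change (spanImage k f N ⊔ smulSub (p : k) I).mkQ (f (Additive.ofMul a)) = 0 ↔ _
  rw [Submodule.mkQ_apply, Submodule.Quotient.mk_eq_zero]

theorem quotHom_surjective [Fact p.Prime] (hf : IsLocAt p k f) (N : Subgroup A) :
    Function.Surjective (quotHom (k := k) p f N) := by
  intro y
  obtain ⟨y, rfl⟩ := Multiplicative.ofAdd.surjective y
  obtain ⟨y, rfl⟩ := Submodule.mkQ_surjective _ y
  obtain ⟨s, hs, a, ha⟩ := hf.surj y
  obtain ⟨t, m, htm⟩ := exists_mul_eq_one_add (p := p) hs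
  refine ⟨a ^ t, ?_⟩
  rw [quotHom_apply]
  congr 1
  rw [map_pow_eq (k := k), ← ha, smul_smul, ← Nat.cast_mul, htm]
  rw [Submodule.mkQ_apply, Submodule.mkQ_apply, Submodule.Quotient.eq]
  refine Submodule.mem_sup_right (mem_smulSub.2 ⟨(m : k) • y, ?_⟩)
  push_cast
  rw [add_smul, one_smul, add_sub_cancel_left, mul_smul]

/-- Elements of the span of `f(N)` are, up to a denominator prime to `p`, images of elements of
`N`. -/
theorem exists_smul_eq_of_mem_spanImage [hp : Fact p.Prime] (hf : IsLocAt p k f) (N : Subgroup A)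
    {y : I} (hy : y ∈ spanImage k f N) :
    ∃ s : ℕ, ¬ p ∣ s ∧ ∃ n ∈ N, (s : k) • y = f (Additive.ofMul n) := by
  unfold spanImage at hy
  induction hy using Submodule.span_induction with
  | mem y hy =>
    obtain ⟨n, hn, rfl⟩ := hy
    exact ⟨1, fun h => hp.out.one_lt.ne' (Nat.dvd_one.1 h), n, hn, by simp⟩
  | zero =>
    exact ⟨1, fun h => hp.out.one_lt.ne' (Nat.dvd_one.1 h), 1, N.one_mem, by simp⟩
  | add y₁ y₂ _ _ h₁ h₂ =>
    obtain ⟨s₁, hs₁, n₁, hn₁, e₁⟩ := h₁
    obtain ⟨s₂, hs₂, n₂, hn₂, e₂⟩ := h₂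
    refine ⟨s₁ * s₂, fun h => ?_, n₁ ^ s₂ * n₂ ^ s₁,
      N.mul_mem (N.pow_mem hn₁ _) (N.pow_mem hn₂ _), ?_⟩
    · rcases (Nat.Prime.dvd_mul hp.out).1 h with h | h
      · exact hs₁ h
      · exact hs₂ h
    · rw [ofMul_mul, map_add, map_pow_eq (k := k), map_pow_eq (k := k), ← e₁, ← e₂, smul_add,
        smul_smul, smul_smul]
      push_cast
      rw [mul_comm (s₁ : k) (s₂ : k)]
  | smul r y _ h =>
    obtain ⟨s, hs, n, hn, e⟩ := h
    obtain ⟨s', hs', m, hm⟩ := hf.denom r
    refine ⟨s' * s, fun h => ?_, n ^ m, N.zpow_mem hn m, ?_⟩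
    · rcases (Nat.Prime.dvd_mul hp.out).1 h with h | h
      · exact hs' h
      · exact hs h
    · rw [map_zpow_eq (k := k), ← e, ← hm, smul_smul, smul_smul]
      push_cast
      congr 1
      ring

theorem quotHom_ker [hp : Fact p.Prime] (hf : IsLocAt p k f) (N : Subgroup A) :
    (quotHom (k := k) p f N).ker = N ⊔ PwSub A p := by
  apply le_antisymm
  · intro a ha
    rw [MonoidHom.mem_ker, quotHom_eq_one_iff] at ha
    obtain ⟨y₁, hy₁, y₂', hy₂', hsum⟩ := Submodule.mem_sup.1 ha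
    obtain ⟨y₂, rfl⟩ := mem_smulSub.1 hy₂'
    obtain ⟨s₁, hs₁, n, hn, e₁⟩ := exists_smul_eq_of_mem_spanImage hf N hy₁
    obtain ⟨s₂, hs₂, a₂, e₂⟩ := hf.surj y₂
    -- `f (a^(s₁ s₂) / (n^s₂ * a₂^(p s₁))) = 0`
    have h0 : f (Additive.ofMul (a ^ (s₁ * s₂) / (n ^ s₂ * (a₂ ^ s₁) ^ p))) = 0 := by
      rw [ofMul_div, map_sub, ofMul_mul, map_add, map_pow_eq (k := k), map_pow_eq (k := k),
        map_pow_eq (k := k), map_pow_eq (k := k), ← e₁, ← e₂, ← hsum, smul_add, smul_smul,
        smul_smul, smul_smul, smul_smul]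
      push_cast
      rw [sub_eq_zero]
      congr 1
      · congr 1
        ring
      · congr 1
        ring
    obtain ⟨s₃, hs₃, e₃⟩ := hf.ker _ h0
    have hs : ¬ p ∣ s₁ * s₂ * s₃ := by
      intro h
      rcases (Nat.Prime.dvd_mul hp.out).1 h with h | h
      · rcases (Nat.Prime.dvd_mul hp.out).1 h with h | h
        · exact hs₁ h
        · exact hs₂ h
      · exact hs₃ h
    obtain ⟨t, m, htm⟩ := exists_mul_eq_one_add (p := p) hs
    have h1 : a ^ (s₁ * s₂ * s₃) = (n ^ s₂) ^ s₃ * ((a₂ ^ s₁) ^ s₃) ^ p := by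
      rw [div_pow, div_eq_one] at e₃
      rw [pow_mul, e₃, mul_pow, ← pow_mul ((a₂ ^ s₁)) p s₃, ← pow_mul (a₂ ^ s₁) s₃ p,
        mul_comm p s₃]
    have h2 : a = (a ^ (s₁ * s₂ * s₃)) ^ t / (a ^ m) ^ p := by
      rw [← pow_mul, ← pow_mul, mul_comm _ t, htm, mul_comm m p, pow_add, pow_one,
        mul_div_cancel_right]
    rw [h2, h1]
    refine Subgroup.div_mem _ (Subgroup.pow_mem _ ?_ _) (Subgroup.mem_sup_right ⟨a ^ m, rfl⟩)
    exact Subgroup.mul_mem_sup (N.pow_mem (N.pow_mem hn _) _) ⟨(a₂ ^ s₁) ^ s₃, rfl⟩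
  · refine sup_le ?_ ?_
    · intro a ha
      rw [MonoidHom.mem_ker, quotHom_eq_one_iff]
      exact Submodule.mem_sup_left (map_mem_spanImage f N ha)
    · rintro _ ⟨b, rfl⟩
      rw [MonoidHom.mem_ker, quotHom_eq_one_iff]
      refine Submodule.mem_sup_right (mem_smulSub.2 ⟨f (Additive.ofMul b), ?_⟩)
      change _ = f (Additive.ofMul (b ^ p))
      rw [map_pow_eq (k := k)]

/-- **Card adapter with a subgroup**: `|I / (k·f(N) + p I)| = [A : N·A^p]` when `I` is the
localisation prime to `p` of `A`. -/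
theorem card_quot_spanImage_sup_smulSub [Fact p.Prime] (hf : IsLocAt p k f) (N : Subgroup A) :
    Nat.card (I ⧸ (spanImage k f N ⊔ smulSub (p : k) I)) = (N ⊔ PwSub A p).index := by
  rw [← quotHom_ker hf N, Subgroup.index_ker,
    MonoidHom.range_eq_top.2 (quotHom_surjective hf N), Subgroup.card_top]
  rfl

theorem spanImage_bot (f : Additive A →+ I) : spanImage k f (⊥ : Subgroup A) = ⊥ := by
  unfold spanImage
  rw [Submodule.span_eq_bot]
  rintro _ ⟨a, ha, rfl⟩
  rw [SetLike.mem_coe, Subgroup.mem_bot] at ha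
  subst ha
  exact map_zero f

/-- **Card adapter**: `|I / p I| = [A : A^p]` when `I` is the localisation prime to `p` of `A`. -/
theorem card_quot_smulSub [Fact p.Prime] (hf : IsLocAt p k f) :
    Nat.card (I ⧸ smulSub (p : k) I) = (PwSub A p).index := by
  have h := card_quot_spanImage_sup_smulSub hf ⊥
  rw [spanImage_bot, bot_sup_eq, bot_sup_eq] at h
  exact h

/-- Indices in a quotient: `[J/H : π(N₀)·(J/H)^p] = [J : H·N₀·J^p]`. -/
theorem index_map_sup_PwSub {J : Type*} [CommGroup J] (H N₀ : Subgroup J) (p : ℕ) :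
    (N₀.map (QuotientGroup.mk' H) ⊔ PwSub (J ⧸ H) p).index = (H ⊔ (N₀ ⊔ PwSub J p)).index := by
  have hsurj : Function.Surjective (QuotientGroup.mk' H) := QuotientGroup.mk'_surjective H
  have hPw : PwSub (J ⧸ H) p = (PwSub J p).map (QuotientGroup.mk' H) := by
    ext x
    constructor
    · rintro ⟨y, rfl⟩
      obtain ⟨z, rfl⟩ := hsurj y
      exact ⟨z ^ p, ⟨z, rfl⟩, map_pow _ _ _⟩
    · rintro ⟨_, ⟨z, rfl⟩, rfl⟩
      exact ⟨QuotientGroup.mk' H z, (map_pow _ _ _).symm⟩
  rw [hPw, ← Subgroup.map_sup, ← Subgroup.index_comap_of_surjective _ hsurj,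
    Subgroup.comap_map_eq, QuotientGroup.ker_mk', sup_comm]

end CardAdapter

/-! ### `IsLocAt` from `IsLocRep` -/

section OfIsLocRep

open Fermat.Agent.CFT.A7.BaseChange

variable {k : Type} [CommRing k] {p : ℕ} [hp : Fact p.Prime]

theorem natAbs_not_dvd_of_mem_primeTo {s : ℤ} (hs : s ∈ primeTo p) : ¬ p ∣ s.natAbs :=
  fun h => hs (Int.natCast_dvd.2 h)

omit hp in
/-- Transport of `IsLocAt` along a linear equivalence of the target. -/
theorem IsLocAt.comp_equiv {A : Type*} [CommGroup A] {I I' : Type*} [AddCommGroup I] [Module k I]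
    [AddCommGroup I'] [Module k I'] {f : Additive A →+ I} (hf : IsLocAt p k f) (e : I ≃ₗ[k] I') :
    IsLocAt p k (e.toLinearMap.toAddMonoidHom.comp f) where
  surj y := by
    obtain ⟨s, hs, a, ha⟩ := hf.surj (e.symm y)
    refine ⟨s, hs, a, ?_⟩
    change _ = e (f (Additive.ofMul a))
    rw [← ha, map_smul, LinearEquiv.apply_symm_apply]
  ker a ha := hf.ker a (e.injective (by rw [map_zero]; exact ha))
  denom := hf.denom

/-- The map `Additive A → Y` underlying a map out of `Rep.ofMulDistribMulAction Γ A`. -/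
def addHomOfRep {Γ : Type} [Group Γ] {A : Type} [CommGroup A] [MulDistribMulAction Γ A]
    {Y : Type*} [AddCommGroup Y] (f : (Rep.ofMulDistribMulAction Γ A).V →+ Y) :
    Additive A →+ Y :=
  f.comp (Rep.toAdditive (M := Γ) (G := A)).symm.toAddMonoidHom

theorem addHomOfRep_apply {Γ : Type} [Group Γ] {A : Type} [CommGroup A] [MulDistribMulAction Γ A]
    {Y : Type*} [AddCommGroup Y] (f : (Rep.ofMulDistribMulAction Γ A).V →+ Y) (a : Additive A) :
    addHomOfRep f a = f ((Rep.toAdditive (M := Γ) (G := A)).symm a) := rfl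

/-- The elementary localisation hypotheses from `IsLocRep (primeTo p)` for the representation
attached to a multiplicative action. -/
theorem IsLocAt.of_isLocRep [IsLocalization (primeTo p) k] {Γ : Type} [Group Γ] {A : Type}
    [CommGroup A] [MulDistribMulAction Γ A] {Y : Rep.{0} k Γ}
    {f : (Rep.ofMulDistribMulAction Γ A).V →+ Y.V}
    (hf : IsLocRep (primeTo p) (Rep.ofMulDistribMulAction Γ A) Y f) :
    IsLocAt p k (addHomOfRep f) where
  surj y := by
    obtain ⟨s, hs, x, hx⟩ := hf.surj y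
    refine ⟨s.natAbs, natAbs_not_dvd_of_mem_primeTo hs, ?_⟩
    have hx' : (s : k) • y = f x := by rw [← hx, eq_intCast]
    rcases Int.natAbs_eq s with h | h
    · refine ⟨Additive.toMul (Rep.toAdditive x), ?_⟩
      rw [addHomOfRep_apply, ofMul_toMul, AddEquiv.symm_apply_apply, ← hx']
      conv_rhs => rw [h]
      simp
    · refine ⟨(Additive.toMul (Rep.toAdditive x))⁻¹, ?_⟩
      rw [addHomOfRep_apply, ofMul_inv, ofMul_toMul, map_neg, AddEquiv.symm_apply_apply, map_neg,
        ← hx']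
      conv_rhs => rw [h]
      simp
  ker a ha := by
    obtain ⟨s, hs, hx⟩ := hf.eq_zero ((Rep.toAdditive (M := Γ) (G := A)).symm (Additive.ofMul a)) ha
    refine ⟨s.natAbs, natAbs_not_dvd_of_mem_primeTo hs, ?_⟩
    have h1 : a ^ s = 1 := by
      have h2 : Additive.ofMul (a ^ s) = 0 := by
        rw [ofMul_zpow]
        have h3 := congrArg (Rep.toAdditive (M := Γ) (G := A)) hx
        rw [map_zero] at h3
        rw [← h3]
        rfl
      exact h2
    rcases Int.natAbs_eq s with h | h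
    · rw [h] at h1
      simpa using h1
    · rw [h] at h1
      simpa using h1
  denom r := by
    obtain ⟨⟨m, s⟩, hms⟩ := IsLocalization.surj (primeTo p) r
    refine ⟨(s : ℤ).natAbs, natAbs_not_dvd_of_mem_primeTo s.2, ?_⟩
    simp only [eq_intCast] at hms
    rcases Int.natAbs_eq (s : ℤ) with h | h
    · refine ⟨m, ?_⟩
      rw [← hms, mul_comm]
      congr 1
      conv_rhs => rw [h]
      simp
    · refine ⟨-m, ?_⟩
      rw [Int.cast_neg, ← hms, mul_comm, ← mul_neg]
      congr 1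
      conv_rhs => rw [h]
      simp

end OfIsLocRep

end Fermat.Agent.CFT.A7.ExistenceF2

/-! ### The index bound for class formations -/

namespace Fermat.Agent.CFT.A7.ClassFormation

open CategoryTheory Fermat.Agent.CFT.LC Fermat.Agent.CFT.A5 Fermat.Agent.CFT.D.Realize
  Fermat.Agent.CFT.A7.ExistenceP Fermat.Agent.CFT.A7.ExistenceF2

variable {k G : Type} [CommRing k] [IsDomain k] [CharZero k] [Group G] {𝒰 : Levels G}
  {C : Rep.{0} k G}

/-- **(hF2), abstract form.**  `cf` a class formation over `k`, levels `U'' ≤ U₁` with `U₁/U''`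
elementary abelian of exponent `p`; `f : A → C^{U₁}` exhibits `C^{U₁}` as the localisation prime
to `p` of the abelian group `A` (`A = C_S(K)`), and `N ≤ A` is a subgroup all of whose elements
become norms from `C^{U''}` (`N` = image of `J_S(K)`, `U'' ↔ K(B_S^{1/p})`).  Then
`[U₁ : U''] ≤ [A : N·A^p]`. -/
theorem card_layerSub_le_index (cf : ClassFormation 𝒰 C) (hR : AddHomsLinear k)
    (U₁ U'' : Subgroup G) [U''.Normal] (hU'' : U'' ∈ 𝒰.sets) (hle : U'' ≤ U₁)
    [Fintype (layerSub U₁ U'')] (p : ℕ) [Fact p.Prime] (σ : k →+* ZMod p)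
    (hcomm : ∀ a b : layerSub U₁ U'', a * b = b * a) (hexp : ∀ a : layerSub U₁ U'', a ^ p = 1)
    {A : Type*} [CommGroup A]
    (f : Additive A →+ Representation.invariants (C.ρ.comp U₁.subtype)) (hf : IsLocAt p k f)
    (N : Subgroup A)
    (hN : ∀ a ∈ N, ∃ c : (C.quotientToInvariants U'').V,
      ((∑ h : layerSub U₁ U'', (C.quotientToInvariants U'').ρ (h : G ⧸ U'') c :
        (C.quotientToInvariants U'').V) : C.V) = (f (Additive.ofMul a) : C.V))
    (hfin : (N ⊔ PwSub A p).index ≠ 0) :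
    Nat.card (layerSub U₁ U'') ≤ (N ⊔ PwSub A p).index := by
  have hY : ∀ y ∈ spanImage k f N, ∃ c : (C.quotientToInvariants U'').V,
      ((∑ h : layerSub U₁ U'', (C.quotientToInvariants U'').ρ (h : G ⧸ U'') c :
        (C.quotientToInvariants U'').V) : C.V) = (y : C.V) := by
    intro y hy
    unfold spanImage at hy
    induction hy using Submodule.span_induction with
    | mem y hy =>
      obtain ⟨a, ha, rfl⟩ := hy
      exact hN a ha
    | zero =>
      refine ⟨0, ?_⟩
      simp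
    | add y₁ y₂ _ _ h₁ h₂ =>
      obtain ⟨c₁, e₁⟩ := h₁
      obtain ⟨c₂, e₂⟩ := h₂
      refine ⟨c₁ + c₂, ?_⟩
      simp only [map_add, Finset.sum_add_distrib]
      rw [Submodule.coe_add, Submodule.coe_add, e₁, e₂]
    | smul r y _ h =>
      obtain ⟨c, e⟩ := h
      refine ⟨r • c, ?_⟩
      simp only [map_smul, ← Finset.smul_sum]
      rw [Submodule.coe_smul, Submodule.coe_smul, e]
  have hcard := card_quot_spanImage_sup_smulSub hf N
  have hfin' : Finite (Representation.invariants (C.ρ.comp U₁.subtype) ⧸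
      (spanImage k f N ⊔ smulSub (p : k) (Representation.invariants (C.ρ.comp U₁.subtype)))) :=
    Nat.finite_of_card_ne_zero (hcard ▸ hfin)
  rw [← hcard]
  exact card_layerSub_le_of_le_norms cf hR U₁ U'' hU'' hle p σ hcomm hexp (spanImage k f N) hY

/-- **(N3) from the index form of the count.**  `f : A → C^{U₁}` the localisation prime to `p`
(`A = C_S(K)`), `U₁/U'` elementary abelian of exponent `p` with `[A : A^p] ≤ [U₁ : U']`. -/
theorem n3_of_index_le (cf : ClassFormation 𝒰 C) (hR : AddHomsLinear k)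
    (U₁ U' : Subgroup G) [U'.Normal] (hU' : U' ∈ 𝒰.sets) (hle : U' ≤ U₁)
    [Fintype (layerSub U₁ U')] (p : ℕ) [Fact p.Prime] (σ : k →+* ZMod p)
    (hcomm : ∀ a b : layerSub U₁ U', a * b = b * a) (hexp : ∀ a : layerSub U₁ U', a ^ p = 1)
    {A : Type*} [CommGroup A]
    (f : Additive A →+ Representation.invariants (C.ρ.comp U₁.subtype)) (hf : IsLocAt p k f)
    (hfin : (PwSub A p).index ≠ 0)
    (hidx : (PwSub A p).index ≤ Nat.card (layerSub U₁ U')) :
    N3 C (p : k) U₁ U' := by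
  have hcard := card_quot_smulSub hf
  have hfin' : Finite (Representation.invariants (C.ρ.comp U₁.subtype) ⧸
      smulSub (p : k) (Representation.invariants (C.ρ.comp U₁.subtype))) :=
    Nat.finite_of_card_ne_zero (hcard ▸ hfin)
  exact n3_of_card_invariants_le cf hR U₁ U' hU' hle p σ hcomm hexp (hcard ▸ hidx)

/-- **(hF2), idelic form.**  `J₁ = J_K`, `H₁ = K^× U_S` (so `J₁ ⧸ H₁ = C_S(K)`), `J₂ = J_{M'}`,
`nm = N_{M'/K}`, `g₂ : J_{M'} → C^{U''}` the dictionary map at the level of `M'`, compatible with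
norms (`hnorm`), and `JS₁ = J_S(K) ⊆ N_{M'/K} J_{M'}` (`hF2`, from the splitting of `S` in
`M' = K(B_S^{1/p})`).  Then `[U₁ : U''] ≤ [J_K : K^× U_S J_S J_K^p] = |Cl_S(K)/p|`. -/
theorem card_layerSub_le_index_of_norm (cf : ClassFormation 𝒰 C) (hR : AddHomsLinear k)
    (U₁ U'' : Subgroup G) [U''.Normal] (hU'' : U'' ∈ 𝒰.sets) (hle : U'' ≤ U₁)
    [Fintype (layerSub U₁ U'')] (p : ℕ) [Fact p.Prime] (σ : k →+* ZMod p)
    (hcomm : ∀ a b : layerSub U₁ U'', a * b = b * a) (hexp : ∀ a : layerSub U₁ U'', a ^ p = 1)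
    {J₁ J₂ : Type*} [CommGroup J₁] [CommGroup J₂] (nm : J₂ →* J₁) (H₁ : Subgroup J₁)
    (f₁ : Additive (J₁ ⧸ H₁) →+ Representation.invariants (C.ρ.comp U₁.subtype))
    (hf₁ : IsLocAt p k f₁)
    (g₂ : J₂ → (C.quotientToInvariants U'').V)
    (hnorm : ∀ x' : J₂, ((∑ h : layerSub U₁ U'', (C.quotientToInvariants U'').ρ (h : G ⧸ U'')
        (g₂ x') : (C.quotientToInvariants U'').V) : C.V) =
      (f₁ (Additive.ofMul (QuotientGroup.mk' H₁ (nm x'))) : C.V))
    (JS₁ : Subgroup J₁) (hF2 : JS₁ ≤ nm.range)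
    (hfin : (H₁ ⊔ (JS₁ ⊔ PwSub J₁ p)).index ≠ 0) :
    Nat.card (layerSub U₁ U'') ≤ (H₁ ⊔ (JS₁ ⊔ PwSub J₁ p)).index := by
  rw [← index_map_sup_PwSub] at hfin ⊢
  refine card_layerSub_le_index cf hR U₁ U'' hU'' hle p σ hcomm hexp f₁ hf₁ _ ?_ hfin
  rintro _ ⟨x, hx, rfl⟩
  obtain ⟨x', rfl⟩ := hF2 hx
  exact ⟨g₂ x', hnorm x'⟩

end Fermat.Agent.CFT.A7.ClassFormation
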