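/-
A7f (helper10): the homotopy fiber (= `Cone[-1]`) of a morphism of `ℕ`-indexed cochain
complexes of modules, built by hand with an elementwise API.

For `f : K ⟶ L` the fiber has `K⁰` in degree `0` and `Kⁿ⁺¹ × Lⁿ` in degree `n + 1`, with
differential `d (x, y) = (d x, f x - d y)`.  Its cohomology `T f n` sits in the long exact
sequence (no signs)

  `Hⁿ(K) ⟶ Hⁿ(L) ⟶ Tⁿ⁺¹(f) ⟶ Hⁿ⁺¹(K) ⟶ Hⁿ⁺¹(L)`.

This is the engine for "Ext via cone": `Ext^r_G(A, X)` is `T^r` of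
`C(G, Hom(F, X)) ⟶ C(G, Hom(R, X))` for a two-term resolution `0 → R → F → A → 0` by lattices.
-/
import Fermat.Agent.CFT.LC.Inflation

set_option autoImplicit false

universe u

namespace Fermat.Agent.CFT.A7.Fiber

open CategoryTheory Fermat.Agent.CFT.LC

variable {R : Type u} [Ring R]

/-! ### Elementwise classes in a cochain complex of modules -/

section Classes

variable (K : CochainComplex (ModuleCat.{u} R) ℕ)

/-- Elementwise cocycles of a cochain complex of modules. -/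
def Z (n : ℕ) : Submodule R (K.X n) := LinearMap.ker (K.d n (n + 1)).hom

lemma mem_Z_iff {n : ℕ} (x : K.X n) : x ∈ Z K n ↔ (K.d n (n + 1)).hom x = 0 := Iff.rfl

/-- The cycle attached to an elementwise cocycle. -/
noncomputable def cyc (n : ℕ) (z : Z K n) : K.cycles n :=
  Aux.cycleMk K n (n + 1) (by simp) z.1 z.2

@[simp] lemma iCycles_cyc (n : ℕ) (z : Z K n) : K.iCycles n (cyc K n z) = z.1 :=
  Aux.iCycles_cycleMk ..

/-- The class of an elementwise cocycle. -/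
noncomputable def cls (n : ℕ) : Z K n →ₗ[R] K.homology n where
  toFun z := K.homologyπ n (cyc K n z)
  map_add' z z' := by
    rw [← map_add]
    congr 1
    apply Aux.iCycles_injective
    rw [map_add, iCycles_cyc, iCycles_cyc, iCycles_cyc]; rfl
  map_smul' c z := by
    rw [RingHom.id_apply, ← map_smul]
    congr 1
    apply Aux.iCycles_injective
    rw [map_smul, iCycles_cyc, iCycles_cyc]; rfl

lemma cls_apply (n : ℕ) (z : Z K n) : cls K n z = K.homologyπ n (cyc K n z) := rfl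

lemma cls_surjective (n : ℕ) : Function.Surjective (cls K n) := by
  intro x
  obtain ⟨c, rfl⟩ := Aux.homologyπ_surjective K n x
  refine ⟨⟨K.iCycles n c, Aux.d_iCycles K n (n + 1) c⟩, ?_⟩
  rw [cls_apply]
  congr 1
  apply Aux.iCycles_injective
  rw [iCycles_cyc]

lemma cls_eq_zero_iff_succ (n : ℕ) (z : Z K (n + 1)) :
    cls K (n + 1) z = 0 ↔ ∃ y : K.X n, (K.d n (n + 1)).hom y = z.1 := by
  rw [cls_apply, Aux.homologyπ_eq_zero_iff K n (n + 1) rfl, iCycles_cyc]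

lemma cls_eq_zero_iff_zero (z : Z K 0) : cls K 0 z = 0 ↔ z = 0 := by
  rw [cls_apply, Aux.homologyπ_eq_zero_iff_of_not_rel K 0 (by simp)]
  constructor
  · intro h
    apply Subtype.ext
    rw [← iCycles_cyc, h, map_zero]; rfl
  · rintro rfl
    apply Aux.iCycles_injective
    rw [iCycles_cyc, map_zero]; rfl

lemma cls_eq_iff_succ (n : ℕ) (z z' : Z K (n + 1)) :
    cls K (n + 1) z = cls K (n + 1) z' ↔
      ∃ y : K.X n, (K.d n (n + 1)).hom y = z.1 - z'.1 := by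
  rw [← sub_eq_zero, ← map_sub, cls_eq_zero_iff_succ]; rfl

variable {K}

lemma map_mem_Z {L : CochainComplex (ModuleCat.{u} R) ℕ} (φ : K ⟶ L) {n : ℕ} (z : Z K n) :
    (φ.f n).hom z.1 ∈ Z L n := by
  have h := φ.comm n (n + 1)
  have h2 := congrArg (fun F => F.hom z.1) h
  simp only [ModuleCat.hom_comp, LinearMap.comp_apply] at h2
  rw [mem_Z_iff, h2, (mem_Z_iff K z.1).1 z.2, map_zero]

/-- Elementwise description of the map induced on homology. -/
lemma homologyMap_cls {L : CochainComplex (ModuleCat.{u} R) ℕ} (φ : K ⟶ L) (n : ℕ)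
    (z : Z K n) :
    (HomologicalComplex.homologyMap φ n).hom (cls K n z) =
      cls L n ⟨(φ.f n).hom z.1, map_mem_Z φ z⟩ := by
  rw [cls_apply, cls_apply]
  refine (Aux.homologyMap_homologyπ φ n _).trans ?_
  congr 1
  apply Aux.iCycles_injective
  rw [Aux.iCycles_cyclesMap, iCycles_cyc, iCycles_cyc]

/-- A linear map out of the elementwise cocycles that kills the kernel of `cls` descends to
homology. -/
noncomputable def descH {M : Type u} [AddCommGroup M] [Module R M] (n : ℕ)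
    (g : Z K n →ₗ[R] M) (hg : LinearMap.ker (cls K n) ≤ LinearMap.ker g) :
    K.homology n →ₗ[R] M :=
  (Submodule.liftQ _ g hg) ∘ₗ
    ((cls K n).quotKerEquivOfSurjective (cls_surjective K n)).symm.toLinearMap

lemma descH_cls {M : Type u} [AddCommGroup M] [Module R M] (n : ℕ)
    (g : Z K n →ₗ[R] M) (hg : LinearMap.ker (cls K n) ≤ LinearMap.ker g) (z : Z K n) :
    descH n g hg (cls K n z) = g z := by
  have h : ((cls K n).quotKerEquivOfSurjective (cls_surjective K n)).symm (cls K n z) =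
      Submodule.Quotient.mk z := by
    rw [LinearEquiv.symm_apply_eq]
    rfl
  simp only [descH, LinearMap.comp_apply, LinearEquiv.coe_coe, h, Submodule.liftQ_apply]

end Classes

/-! ### The fiber complex -/

section FiberDef

variable {K L : CochainComplex (ModuleCat.{u} R) ℕ}

/-- The `L`-part of the fiber: zero in degree `0` and `Lⁿ` in degree `n + 1`. -/
def shX (L : CochainComplex (ModuleCat.{u} R) ℕ) : ℕ → ModuleCat.{u} R
  | 0 => ModuleCat.of R PUnit.{u + 1}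
  | n + 1 => L.X n

/-- The differential out of the `L`-part: `0` in degree `0` and `d` in degree `n + 1`. -/
def shD (L : CochainComplex (ModuleCat.{u} R) ℕ) : (n : ℕ) → (shX L n →ₗ[R] L.X n)
  | 0 => 0
  | n + 1 => (L.d n (n + 1)).hom

lemma shD_zero (L : CochainComplex (ModuleCat.{u} R) ℕ) (y : shX L 0) : shD L 0 y = 0 := rfl

lemma shD_succ (L : CochainComplex (ModuleCat.{u} R) ℕ) (n : ℕ) (y : L.X n) :
    shD L (n + 1) y = (L.d n (n + 1)).hom y := rfl

lemma d_shD (L : CochainComplex (ModuleCat.{u} R) ℕ) (n : ℕ) (y : shX L n) :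
    (L.d n (n + 1)).hom (shD L n y) = 0 := by
  cases n with
  | zero => rw [shD_zero, map_zero]
  | succ n =>
    have h := L.d_comp_d n (n + 1) (n + 1 + 1)
    exact LinearMap.congr_fun (congrArg ModuleCat.Hom.hom h) y

variable (f : K ⟶ L)

/-- The differential of the fiber, `d (x, y) = (d x, f x - d y)`. -/
def fibD (n : ℕ) : (K.X n × shX L n) →ₗ[R] (K.X (n + 1) × shX L (n + 1)) :=
  LinearMap.prod ((K.d n (n + 1)).hom ∘ₗ LinearMap.fst R _ _)
    ((f.f n).hom ∘ₗ LinearMap.fst R _ _ - shD L n ∘ₗ LinearMap.snd R _ _)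

lemma fibD_apply (n : ℕ) (p : K.X n × shX L n) :
    fibD f n p = ((K.d n (n + 1)).hom p.1, ((f.f n).hom p.1 - shD L n p.2 : L.X n)) := rfl

lemma comm_apply (n : ℕ) (x : K.X n) :
    (L.d n (n + 1)).hom ((f.f n).hom x) = (f.f (n + 1)).hom ((K.d n (n + 1)).hom x) := by
  have h := f.comm n (n + 1)
  have h2 := congrArg (fun F => F.hom x) h
  simp only [ModuleCat.hom_comp, LinearMap.comp_apply] at h2
  exact h2

lemma d_d_apply (K : CochainComplex (ModuleCat.{u} R) ℕ) (n : ℕ) (x : K.X n) :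
    (K.d (n + 1) (n + 1 + 1)).hom ((K.d n (n + 1)).hom x) = 0 := by
  have h := K.d_comp_d n (n + 1) (n + 1 + 1)
  have h2 := congrArg (fun F => F.hom x) h
  simp only [ModuleCat.hom_comp, LinearMap.comp_apply, ModuleCat.hom_zero,
    LinearMap.zero_apply] at h2
  exact h2

lemma fibD_comp_fibD (n : ℕ) : fibD f (n + 1) ∘ₗ fibD f n = 0 := by
  refine LinearMap.ext fun p => ?_
  rw [LinearMap.comp_apply, fibD_apply, fibD_apply]
  apply Prod.ext
  · exact d_d_apply K n p.1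
  · change ((f.f (n + 1)).hom ((K.d n (n + 1)).hom p.1) -
      (L.d n (n + 1)).hom ((f.f n).hom p.1 - shD L n p.2) : L.X (n + 1)) = 0
    rw [map_sub, d_shD, sub_zero, comm_apply, sub_self]

/-- The homotopy fiber of `f`, as a cochain complex. -/
noncomputable def fiber : CochainComplex (ModuleCat.{u} R) ℕ :=
  CochainComplex.of (fun n => ModuleCat.of R (K.X n × shX L n))
    (fun n => ModuleCat.ofHom (fibD f n)) fun n => by
      rw [← ModuleCat.ofHom_comp, fibD_comp_fibD]; rfl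

lemma fiber_d (n : ℕ) : (fiber f).d n (n + 1) = ModuleCat.ofHom (fibD f n) := by
  simp [fiber, CochainComplex.of_d]

lemma fiber_d_apply (n : ℕ) (p : K.X n × shX L n) :
    ((fiber f).d n (n + 1)).hom p = fibD f n p := by
  rw [fiber_d]; rfl

/-- The projection of the fiber to `K`. -/
noncomputable def fiberFst : fiber f ⟶ K where
  f n := ModuleCat.ofHom (LinearMap.fst R (K.X n) (shX L n))
  comm' i j (hij : _ = _) := by
    subst hij
    rw [fiber_d]
    rfl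

/-- The cohomology of the fiber. -/
noncomputable abbrev T (n : ℕ) : ModuleCat.{u} R := (fiber f).homology n

end FiberDef

/-! ### Elementwise description of the cohomology of the fiber -/

section FiberClasses

variable {K L : CochainComplex (ModuleCat.{u} R) ℕ} (f : K ⟶ L)

/-- An element of the fiber in degree `n + 1`. -/
def fmk (n : ℕ) (x : K.X (n + 1)) (y : L.X n) : (fiber f).X (n + 1) :=
  show K.X (n + 1) × shX L (n + 1) from (x, y)

/-- An element of the fiber in degree `0`. -/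
def fmk₀ (x : K.X 0) : (fiber f).X 0 :=
  show K.X 0 × shX L 0 from (x, PUnit.unit)

lemma fiber_d_fmk (n : ℕ) (x : K.X (n + 1)) (y : L.X n) :
    ((fiber f).d (n + 1) (n + 1 + 1)).hom (fmk f n x y) =
      fmk f (n + 1) ((K.d (n + 1) (n + 1 + 1)).hom x)
        ((f.f (n + 1)).hom x - (L.d n (n + 1)).hom y) := by
  rw [fiber_d]; rfl

lemma fiber_d_fmk₀ (x : K.X 0) :
    ((fiber f).d 0 1).hom (fmk₀ f x) = fmk f 0 ((K.d 0 1).hom x) ((f.f 0).hom x) := by
  rw [fiber_d]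
  change fibD f 0 (x, PUnit.unit) = _
  rw [fibD_apply]
  change ((K.d 0 1).hom x, ((f.f 0).hom x - 0 : L.X 0)) = _
  rw [sub_zero]; rfl

lemma fmk_injective (n : ℕ) {x x' : K.X (n + 1)} {y y' : L.X n}
    (h : fmk f n x y = fmk f n x' y') : x = x' ∧ y = y' := by
  have h' : ((x, y) : K.X (n + 1) × L.X n) = (x', y') := h
  exact Prod.mk.inj h'

lemma fmk_eq_zero_iff (n : ℕ) (x : K.X (n + 1)) (y : L.X n) :
    fmk f n x y = 0 ↔ x = 0 ∧ y = 0 := by
  constructor
  · intro h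
    have h' : ((x, y) : K.X (n + 1) × L.X n) = (0, 0) := h
    exact Prod.mk.inj h'
  · rintro ⟨rfl, rfl⟩; rfl

lemma exists_fmk (n : ℕ) (p : (fiber f).X (n + 1)) : ∃ x y, fmk f n x y = p := by
  obtain ⟨x, y⟩ : K.X (n + 1) × shX L (n + 1) := p
  exact ⟨x, y, rfl⟩

lemma exists_fmk₀ (p : (fiber f).X 0) : ∃ x, fmk₀ f x = p := by
  obtain ⟨x, y⟩ : K.X 0 × shX L 0 := p
  exact ⟨x, rfl⟩

/-- A pair `(x, y)` is a cocycle of the fiber iff `d x = 0` and `f x = d y`. -/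
lemma mem_Z_fiber_iff (n : ℕ) (x : K.X (n + 1)) (y : L.X n) :
    fmk f n x y ∈ Z (fiber f) (n + 1) ↔
      (K.d (n + 1) (n + 1 + 1)).hom x = 0 ∧ (f.f (n + 1)).hom x = (L.d n (n + 1)).hom y := by
  rw [mem_Z_iff, fiber_d_fmk, fmk_eq_zero_iff, sub_eq_zero]

/-- In degree `0`, `x` is a cocycle of the fiber iff `d x = 0` and `f x = 0`. -/
lemma mem_Z_fiber_zero_iff (x : K.X 0) :
    fmk₀ f x ∈ Z (fiber f) 0 ↔ (K.d 0 1).hom x = 0 ∧ (f.f 0).hom x = 0 := by
  rw [mem_Z_iff, fiber_d_fmk₀, fmk_eq_zero_iff]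

/-- The class in `Tⁿ⁺¹(f)` of a pair `(x, y)` with `d x = 0`, `f x = d y`. -/
noncomputable def Tmk (n : ℕ) (x : K.X (n + 1)) (y : L.X n)
    (hx : (K.d (n + 1) (n + 1 + 1)).hom x = 0)
    (hxy : (f.f (n + 1)).hom x = (L.d n (n + 1)).hom y) : T f (n + 1) :=
  cls (fiber f) (n + 1) ⟨fmk f n x y, (mem_Z_fiber_iff f n x y).2 ⟨hx, hxy⟩⟩

lemma Tmk_surjective (n : ℕ) (t : T f (n + 1)) :
    ∃ (x : K.X (n + 1)) (y : L.X n) (hx : (K.d (n + 1) (n + 1 + 1)).hom x = 0)
      (hxy : (f.f (n + 1)).hom x = (L.d n (n + 1)).hom y), Tmk f n x y hx hxy = t := by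
  obtain ⟨⟨p, hz⟩, rfl⟩ := cls_surjective (fiber f) (n + 1) t
  obtain ⟨x, y, rfl⟩ := exists_fmk f n p
  obtain ⟨hx, hxy⟩ := (mem_Z_fiber_iff f n x y).1 hz
  exact ⟨x, y, hx, hxy, rfl⟩

lemma Tmk_add (n : ℕ) (x x' : K.X (n + 1)) (y y' : L.X n) hx hxy hx' hxy' :
    Tmk f n x y hx hxy + Tmk f n x' y' hx' hxy' =
      Tmk f n (x + x') (y + y') (by rw [map_add, hx, hx', add_zero])
        (by rw [map_add, map_add, hxy, hxy']) := by
  rw [Tmk, Tmk, ← map_add]; rfl

lemma Tmk_smul (n : ℕ) (c : R) (x : K.X (n + 1)) (y : L.X n) hx hxy :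
    c • Tmk f n x y hx hxy =
      Tmk f n (c • x) (c • y) (by rw [map_smul, hx, smul_zero])
        (by rw [map_smul, map_smul, hxy]) := by
  rw [Tmk, ← map_smul]; rfl

lemma Tmk_congr (n : ℕ) {x x' : K.X (n + 1)} {y y' : L.X n} (hxx : x = x') (hyy : y = y')
    hx hxy hx' hxy' : Tmk f n x y hx hxy = Tmk f n x' y' hx' hxy' := by
  subst hxx hyy; rfl

/-- Vanishing criterion in `T¹(f)`: `(x, y) = (d x', f x')`. -/
lemma Tmk_eq_zero_iff_zero (x : K.X 1) (y : L.X 0) hx hxy :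
    Tmk f 0 x y hx hxy = 0 ↔
      ∃ x' : K.X 0, (K.d 0 1).hom x' = x ∧ (f.f 0).hom x' = y := by
  rw [Tmk, cls_eq_zero_iff_succ]
  constructor
  · rintro ⟨p, h⟩
    obtain ⟨x', rfl⟩ := exists_fmk₀ f p
    rw [fiber_d_fmk₀] at h
    obtain ⟨h1, h2⟩ := fmk_injective f 0 h
    exact ⟨x', h1, h2⟩
  · rintro ⟨x', h1, h2⟩
    refine ⟨fmk₀ f x', ?_⟩
    rw [fiber_d_fmk₀, h1, h2]

/-- Vanishing criterion in `Tⁿ⁺²(f)`: `(x, y) = (d x', f x' - d y')`. -/
lemma Tmk_eq_zero_iff_succ (n : ℕ) (x : K.X (n + 1 + 1)) (y : L.X (n + 1)) hx hxy :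
    Tmk f (n + 1) x y hx hxy = 0 ↔
      ∃ (x' : K.X (n + 1)) (y' : L.X n), (K.d (n + 1) (n + 1 + 1)).hom x' = x ∧
        (f.f (n + 1)).hom x' - (L.d n (n + 1)).hom y' = y := by
  rw [Tmk, cls_eq_zero_iff_succ]
  constructor
  · rintro ⟨p, h⟩
    obtain ⟨x', y', rfl⟩ := exists_fmk f n p
    rw [fiber_d_fmk] at h
    obtain ⟨h1, h2⟩ := fmk_injective f (n + 1) h
    exact ⟨x', y', h1, h2⟩
  · rintro ⟨x', y', h1, h2⟩
    refine ⟨fmk f n x' y', ?_⟩
    rw [fiber_d_fmk, h1, h2]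

/-- The class in `T⁰(f)` of `x` with `d x = 0`, `f x = 0`. -/
noncomputable def Tmk₀ (x : K.X 0) (hx : (K.d 0 1).hom x = 0) (hfx : (f.f 0).hom x = 0) :
    T f 0 :=
  cls (fiber f) 0 ⟨fmk₀ f x, (mem_Z_fiber_zero_iff f x).2 ⟨hx, hfx⟩⟩

lemma Tmk₀_surjective (t : T f 0) :
    ∃ (x : K.X 0) (hx : (K.d 0 1).hom x = 0) (hfx : (f.f 0).hom x = 0), Tmk₀ f x hx hfx = t := by
  obtain ⟨⟨p, hz⟩, rfl⟩ := cls_surjective (fiber f) 0 t
  obtain ⟨x, rfl⟩ := exists_fmk₀ f p
  obtain ⟨hx, hfx⟩ := (mem_Z_fiber_zero_iff f x).1 hz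
  exact ⟨x, hx, hfx, rfl⟩

lemma Tmk₀_eq_zero_iff (x : K.X 0) hx hfx : Tmk₀ f x hx hfx = 0 ↔ x = 0 := by
  rw [Tmk₀, cls_eq_zero_iff_zero]
  constructor
  · intro h
    have h' : ((x, PUnit.unit) : K.X 0 × shX L 0) = (0, 0) := congrArg Subtype.val h
    exact (Prod.mk.inj h').1
  · rintro rfl
    rfl

end FiberClasses

/-! ### The long exact sequence of the fiber -/

section LES

variable {K L : CochainComplex (ModuleCat.{u} R) ℕ} (f : K ⟶ L)

/-- The projection `Tⁿ(f) ⟶ Hⁿ(K)`. -/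
noncomputable def Tπ (n : ℕ) : T f n ⟶ K.homology n :=
  HomologicalComplex.homologyMap (fiberFst f) n

lemma Tπ_Tmk (n : ℕ) (x : K.X (n + 1)) (y : L.X n) hx hxy :
    (Tπ f (n + 1)).hom (Tmk f n x y hx hxy) = cls K (n + 1) ⟨x, hx⟩ := by
  rw [Tπ, Tmk, homologyMap_cls]
  rfl

lemma Tπ_Tmk₀ (x : K.X 0) hx hfx :
    (Tπ f 0).hom (Tmk₀ f x hx hfx) = cls K 0 ⟨x, hx⟩ := by
  rw [Tπ, Tmk₀, homologyMap_cls]
  rfl

/-- The cocycle-level map `y ↦ [(0, y)]`. -/
noncomputable def TιZ (n : ℕ) : Z L n →ₗ[R] T f (n + 1) where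
  toFun y := Tmk f n 0 y.1 (map_zero _) (by rw [map_zero]; exact ((mem_Z_iff L y.1).1 y.2).symm)
  map_add' y y' := by
    rw [Tmk_add]
    exact Tmk_congr f n (add_zero 0).symm rfl _ _ _ _
  map_smul' c y := by
    rw [RingHom.id_apply, Tmk_smul]
    exact Tmk_congr f n (smul_zero c).symm rfl _ _ _ _

lemma TιZ_apply (n : ℕ) (y : Z L n) :
    TιZ f n y = Tmk f n 0 y.1 (map_zero _)
      (by rw [map_zero]; exact ((mem_Z_iff L y.1).1 y.2).symm) := rfl

lemma ker_cls_le_ker_TιZ (n : ℕ) : LinearMap.ker (cls L n) ≤ LinearMap.ker (TιZ f n) := by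
  intro y hy
  rw [LinearMap.mem_ker] at hy ⊢
  cases n with
  | zero =>
    rw [cls_eq_zero_iff_zero] at hy
    rw [hy, map_zero]
  | succ n =>
    rw [cls_eq_zero_iff_succ] at hy
    obtain ⟨y', hy'⟩ := hy
    rw [TιZ_apply, Tmk_eq_zero_iff_succ]
    exact ⟨0, -y', map_zero _, by rw [map_zero, map_neg, hy', zero_sub, neg_neg]⟩

/-- The map `Hⁿ(L) ⟶ Tⁿ⁺¹(f)`, `[y] ↦ [(0, y)]`. -/
noncomputable def Tι (n : ℕ) : L.homology n ⟶ T f (n + 1) :=
  ModuleCat.ofHom (descH n (TιZ f n) (ker_cls_le_ker_TιZ f n))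

lemma Tι_cls (n : ℕ) (y : Z L n) :
    (Tι f n).hom (cls L n y) = Tmk f n 0 y.1 (map_zero _)
      (by rw [map_zero]; exact ((mem_Z_iff L y.1).1 y.2).symm) := by
  exact (descH_cls n (TιZ f n) (ker_cls_le_ker_TιZ f n) y).trans (TιZ_apply f n y)

/-- `Hⁿ(K) ⟶ Hⁿ(L) ⟶ Tⁿ⁺¹(f)` is zero. -/
lemma Tι_map (n : ℕ) (a : K.homology n) :
    (Tι f n).hom ((HomologicalComplex.homologyMap f n).hom a) = 0 := by
  obtain ⟨x, rfl⟩ := cls_surjective K n a
  rw [homologyMap_cls, Tι_cls]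
  cases n with
  | zero =>
    rw [Tmk_eq_zero_iff_zero]
    exact ⟨x.1, (mem_Z_iff K x.1).1 x.2, rfl⟩
  | succ n =>
    rw [Tmk_eq_zero_iff_succ]
    exact ⟨x.1, 0, (mem_Z_iff K x.1).1 x.2, by rw [map_zero, sub_zero]⟩

/-- Exactness at `Hⁿ(L)`. -/
lemma exists_of_Tι_eq_zero (n : ℕ) (b : L.homology n) (h : (Tι f n).hom b = 0) :
    ∃ a : K.homology n, (HomologicalComplex.homologyMap f n).hom a = b := by
  obtain ⟨y, rfl⟩ := cls_surjective L n b
  rw [Tι_cls] at h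
  cases n with
  | zero =>
    rw [Tmk_eq_zero_iff_zero] at h
    obtain ⟨x', h1, h2⟩ := h
    refine ⟨cls K 0 ⟨x', h1⟩, ?_⟩
    rw [homologyMap_cls]
    congr 1
    exact Subtype.ext h2
  | succ n =>
    rw [Tmk_eq_zero_iff_succ] at h
    obtain ⟨x', y', h1, h2⟩ := h
    refine ⟨cls K (n + 1) ⟨x', h1⟩, ?_⟩
    rw [homologyMap_cls, cls_eq_iff_succ]
    exact ⟨y', by rw [← h2]; abel⟩

/-- `Hⁿ(L) ⟶ Tⁿ⁺¹(f) ⟶ Hⁿ⁺¹(K)` is zero. -/
lemma Tπ_Tι (n : ℕ) (b : L.homology n) : (Tπ f (n + 1)).hom ((Tι f n).hom b) = 0 := by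
  obtain ⟨y, rfl⟩ := cls_surjective L n b
  rw [Tι_cls, Tπ_Tmk]
  exact map_zero (cls K (n + 1))

/-- Exactness at `Tⁿ⁺¹(f)`. -/
lemma exists_of_Tπ_eq_zero (n : ℕ) (t : T f (n + 1)) (h : (Tπ f (n + 1)).hom t = 0) :
    ∃ b : L.homology n, (Tι f n).hom b = t := by
  obtain ⟨x, y, hx, hxy, rfl⟩ := Tmk_surjective f n t
  rw [Tπ_Tmk, cls_eq_zero_iff_succ] at h
  obtain ⟨x', hx'⟩ := h
  change (K.d n (n + 1)).hom x' = x at hx'
  have hy₀ : y - (f.f n).hom x' ∈ Z L n := by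
    rw [mem_Z_iff, map_sub, comm_apply, hx', hxy, sub_self]
  refine ⟨cls L n ⟨y - (f.f n).hom x', hy₀⟩, ?_⟩
  rw [Tι_cls]
  have h0 : Tmk f n x ((f.f n).hom x') hx (by rw [comm_apply, hx']) = 0 := by
    cases n with
    | zero =>
      rw [Tmk_eq_zero_iff_zero]
      exact ⟨x', hx', rfl⟩
    | succ n =>
      rw [Tmk_eq_zero_iff_succ]
      exact ⟨x', 0, hx', by rw [map_zero, sub_zero]⟩
  rw [← add_zero (Tmk f n 0 _ _ _), ← h0, Tmk_add]
  exact Tmk_congr f n (zero_add x) (sub_add_cancel y _) _ _ _ _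

/-- `Tⁿ(f) ⟶ Hⁿ(K) ⟶ Hⁿ(L)` is zero. -/
lemma map_Tπ (n : ℕ) (t : T f n) :
    (HomologicalComplex.homologyMap f n).hom ((Tπ f n).hom t) = 0 := by
  cases n with
  | zero =>
    obtain ⟨x, hx, hfx, rfl⟩ := Tmk₀_surjective f t
    rw [Tπ_Tmk₀, homologyMap_cls, cls_eq_zero_iff_zero]
    exact Subtype.ext hfx
  | succ n =>
    obtain ⟨x, y, hx, hxy, rfl⟩ := Tmk_surjective f n t
    rw [Tπ_Tmk, homologyMap_cls, cls_eq_zero_iff_succ]
    exact ⟨y, hxy.symm⟩

/-- Exactness at `Hⁿ(K)`. -/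
lemma exists_of_map_eq_zero (n : ℕ) (a : K.homology n)
    (h : (HomologicalComplex.homologyMap f n).hom a = 0) : ∃ t : T f n, (Tπ f n).hom t = a := by
  obtain ⟨x, rfl⟩ := cls_surjective K n a
  rw [homologyMap_cls] at h
  cases n with
  | zero =>
    rw [cls_eq_zero_iff_zero] at h
    have hfx : (f.f 0).hom x.1 = 0 := congrArg Subtype.val h
    exact ⟨Tmk₀ f x.1 x.2 hfx, Tπ_Tmk₀ f x.1 x.2 hfx⟩
  | succ n =>
    rw [cls_eq_zero_iff_succ] at h
    obtain ⟨y, hy⟩ := h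
    exact ⟨Tmk f n x.1 y x.2 hy.symm, Tπ_Tmk f n x.1 y x.2 hy.symm⟩

/-- `T⁰(f) ⟶ H⁰(K)` is injective. -/
lemma Tπ_zero_injective : Function.Injective (Tπ f 0).hom := by
  rw [injective_iff_map_eq_zero]
  intro t ht
  obtain ⟨x, hx, hfx, rfl⟩ := Tmk₀_surjective f t
  rw [Tπ_Tmk₀, cls_eq_zero_iff_zero] at ht
  rw [Tmk₀_eq_zero_iff]
  exact congrArg Subtype.val ht

lemma map_comp_Tι (n : ℕ) : HomologicalComplex.homologyMap f n ≫ Tι f n = 0 := by
  ext a : 2
  exact Tι_map f n a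

lemma Tι_comp_Tπ (n : ℕ) : Tι f n ≫ Tπ f (n + 1) = 0 := by
  ext b : 2
  exact Tπ_Tι f n b

lemma Tπ_comp_map (n : ℕ) : Tπ f n ≫ HomologicalComplex.homologyMap f n = 0 := by
  ext t : 2
  exact map_Tπ f n t

/-- Exactness of `Hⁿ(K) ⟶ Hⁿ(L) ⟶ Tⁿ⁺¹(f)`. -/
lemma exact_map_Tι (n : ℕ) :
    (ShortComplex.mk (HomologicalComplex.homologyMap f n) (Tι f n) (map_comp_Tι f n)).Exact := by
  rw [ShortComplex.moduleCat_exact_iff]
  exact fun b hb => exists_of_Tι_eq_zero f n b hb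

/-- Exactness of `Hⁿ(L) ⟶ Tⁿ⁺¹(f) ⟶ Hⁿ⁺¹(K)`. -/
lemma exact_Tι_Tπ (n : ℕ) :
    (ShortComplex.mk (Tι f n) (Tπ f (n + 1)) (Tι_comp_Tπ f n)).Exact := by
  rw [ShortComplex.moduleCat_exact_iff]
  exact fun t ht => exists_of_Tπ_eq_zero f n t ht

/-- Exactness of `Tⁿ(f) ⟶ Hⁿ(K) ⟶ Hⁿ(L)`. -/
lemma exact_Tπ_map (n : ℕ) :
    (ShortComplex.mk (Tπ f n) (HomologicalComplex.homologyMap f n) (Tπ_comp_map f n)).Exact := by
  rw [ShortComplex.moduleCat_exact_iff]
  exact fun a ha => exists_of_map_eq_zero f n a ha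

end LES

/-! ### Functoriality in commutative squares -/

section Functoriality

variable {K L K' L' K'' L'' : CochainComplex (ModuleCat.{u} R) ℕ}
  {f : K ⟶ L} {f' : K' ⟶ L'} {f'' : K'' ⟶ L''}

/-- The map on the `L`-parts induced by a chain map. -/
def shMap (b : L ⟶ L') : (n : ℕ) → (shX L n →ₗ[R] shX L' n)
  | 0 => LinearMap.id
  | n + 1 => (b.f n).hom

lemma shD_shMap (b : L ⟶ L') (n : ℕ) (y : shX L n) :
    shD L' n (shMap b n y) = (b.f n).hom (shD L n y) := by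
  cases n with
  | zero => rw [shD_zero, shD_zero, map_zero]
  | succ n => exact comm_apply b n y

variable (a : K ⟶ K') (b : L ⟶ L') (comm : f ≫ b = a ≫ f')

include comm in
lemma comm_sq_apply (n : ℕ) (x : K.X n) :
    (b.f n).hom ((f.f n).hom x) = (f'.f n).hom ((a.f n).hom x) := by
  have h := congrArg (fun F => (F.f n).hom x) comm
  simp only [HomologicalComplex.comp_f, ModuleCat.hom_comp, LinearMap.comp_apply] at h
  exact h

/-- The chain map between fibers induced by a commutative square. -/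
noncomputable def fiberMap : fiber f ⟶ fiber f' where
  f n := ModuleCat.ofHom (LinearMap.prodMap (a.f n).hom (shMap b n))
  comm' i j (hij : _ = _) := by
    subst hij
    rw [fiber_d, fiber_d]
    ext p : 2
    obtain ⟨x, y⟩ : K.X i × shX L i := p
    change fibD f' i ((a.f i).hom x, shMap b i y) =
      ((a.f (i + 1)).hom ((K.d i (i + 1)).hom x),
        (b.f i).hom ((f.f i).hom x - shD L i y))
    rw [fibD_apply]
    apply Prod.ext
    · exact (comm_apply a i x)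
    · change ((f'.f i).hom ((a.f i).hom x) - shD L' i (shMap b i y) : L'.X i) = _
      rw [map_sub, shD_shMap, comm_sq_apply a b comm]

lemma fiberMap_fmk (n : ℕ) (x : K.X (n + 1)) (y : L.X n) :
    ((fiberMap a b comm).f (n + 1)).hom (fmk f n x y) =
      fmk f' n ((a.f (n + 1)).hom x) ((b.f n).hom y) := rfl

lemma fiberMap_fmk₀ (x : K.X 0) :
    ((fiberMap a b comm).f 0).hom (fmk₀ f x) = fmk₀ f' ((a.f 0).hom x) := rfl

lemma fiberMap_fiberFst : fiberMap a b comm ≫ fiberFst f' = fiberFst f ≫ a := by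
  ext n p : 3
  rfl

/-- The map on the cohomology of the fibers induced by a commutative square. -/
noncomputable def Tmap (n : ℕ) : T f n ⟶ T f' n :=
  HomologicalComplex.homologyMap (fiberMap a b comm) n

include comm in
lemma Tmap_aux (n : ℕ) (x : K.X (n + 1)) (y : L.X n)
    (hx : (K.d (n + 1) (n + 1 + 1)).hom x = 0)
    (hxy : (f.f (n + 1)).hom x = (L.d n (n + 1)).hom y) :
    (K'.d (n + 1) (n + 1 + 1)).hom ((a.f (n + 1)).hom x) = 0 ∧
      (f'.f (n + 1)).hom ((a.f (n + 1)).hom x) = (L'.d n (n + 1)).hom ((b.f n).hom y) := by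
  refine ⟨by rw [comm_apply, hx, map_zero], ?_⟩
  rw [← comm_sq_apply a b comm, hxy, comm_apply]

lemma Tmap_Tmk (n : ℕ) (x : K.X (n + 1)) (y : L.X n) hx hxy :
    (Tmap a b comm (n + 1)).hom (Tmk f n x y hx hxy) =
      Tmk f' n ((a.f (n + 1)).hom x) ((b.f n).hom y) (Tmap_aux a b comm n x y hx hxy).1
        (Tmap_aux a b comm n x y hx hxy).2 := by
  rw [Tmap, Tmk, homologyMap_cls]
  rfl

lemma Tπ_Tmap (n : ℕ) :
    Tmap a b comm n ≫ Tπ f' n = Tπ f n ≫ HomologicalComplex.homologyMap a n := by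
  rw [Tmap, Tπ, Tπ, ← HomologicalComplex.homologyMap_comp, ← HomologicalComplex.homologyMap_comp,
    fiberMap_fiberFst]

lemma Tπ_Tmap_apply (n : ℕ) (t : T f n) :
    (Tπ f' n).hom ((Tmap a b comm n).hom t) =
      (HomologicalComplex.homologyMap a n).hom ((Tπ f n).hom t) := by
  have h := congrArg (fun F => F.hom t) (Tπ_Tmap a b comm n)
  simp only [ModuleCat.hom_comp, LinearMap.comp_apply] at h
  exact h

lemma Tmap_Tι_apply (n : ℕ) (y : L.homology n) :
    (Tmap a b comm (n + 1)).hom ((Tι f n).hom y) =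
      (Tι f' n).hom ((HomologicalComplex.homologyMap b n).hom y) := by
  obtain ⟨y, rfl⟩ := cls_surjective L n y
  rw [Tι_cls, Tmap_Tmk, homologyMap_cls, Tι_cls]
  exact Tmk_congr f' n (map_zero _) rfl _ _ _ _

lemma Tmap_Tι (n : ℕ) :
    Tι f n ≫ Tmap a b comm (n + 1) = HomologicalComplex.homologyMap b n ≫ Tι f' n := by
  ext y : 2
  simp only [ModuleCat.hom_comp, LinearMap.comp_apply]
  exact Tmap_Tι_apply a b comm n y

lemma fiberMap_id : fiberMap (𝟙 K) (𝟙 L) (by rw [Category.comp_id, Category.id_comp]) =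
    𝟙 (fiber f) := by
  ext n p : 3
  obtain ⟨x, y⟩ : K.X n × shX L n := p
  cases n with
  | zero => rfl
  | succ n => rfl

lemma fiberMap_comp (a' : K' ⟶ K'') (b' : L' ⟶ L'') (comm' : f' ≫ b' = a' ≫ f'') :
    fiberMap a b comm ≫ fiberMap a' b' comm' =
      fiberMap (f := f) (f' := f'') (a ≫ a') (b ≫ b')
        (by rw [← Category.assoc, comm, Category.assoc, comm', Category.assoc]) := by
  ext n p : 3
  obtain ⟨x, y⟩ : K.X n × shX L n := p
  cases n with
  | zero => rfl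
  | succ n => rfl

end Functoriality

/-! ### Short exact sequences of squares -/

section SES

open HomologicalComplex

/-- Degreewise injectivity in a short exact sequence of complexes. -/
lemma se_injective {S : ShortComplex (CochainComplex (ModuleCat.{u} R) ℕ)} (hS : S.ShortExact)
    (n : ℕ) : Function.Injective (S.f.f n).hom := by
  have h := (shortExact_iff_degreewise_shortExact S).1 hS n
  have := h.mono_f
  exact (ModuleCat.mono_iff_injective ((S.map (eval _ _ n)).f)).1 inferInstance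

/-- Degreewise surjectivity in a short exact sequence of complexes. -/
lemma se_surjective {S : ShortComplex (CochainComplex (ModuleCat.{u} R) ℕ)} (hS : S.ShortExact)
    (n : ℕ) : Function.Surjective (S.g.f n).hom := by
  have h := (shortExact_iff_degreewise_shortExact S).1 hS n
  have := h.epi_g
  exact (ModuleCat.epi_iff_surjective ((S.map (eval _ _ n)).g)).1 inferInstance

/-- Degreewise exactness in a short exact sequence of complexes. -/
lemma se_exact {S : ShortComplex (CochainComplex (ModuleCat.{u} R) ℕ)} (hS : S.ShortExact)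
    (n : ℕ) (x : S.X₂.X n) (hx : (S.g.f n).hom x = 0) : ∃ y : S.X₁.X n, (S.f.f n).hom y = x := by
  have h := ((shortExact_iff_degreewise_shortExact S).1 hS n).exact
  rw [ShortComplex.moduleCat_exact_iff] at h
  exact h x hx

lemma se_zero (S : ShortComplex (CochainComplex (ModuleCat.{u} R) ℕ)) (n : ℕ) (x : S.X₁.X n) :
    (S.g.f n).hom ((S.f.f n).hom x) = 0 := by
  have h := congrArg (fun F => (F.f n).hom x) S.zero
  simp only [HomologicalComplex.comp_f, ModuleCat.hom_comp, LinearMap.comp_apply] at h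
  exact h

variable {SK SL : ShortComplex (CochainComplex (ModuleCat.{u} R) ℕ)} (φ : SK ⟶ SL)

/-- The short complex of fibers attached to a morphism of short complexes of complexes. -/
noncomputable def fiberSC : ShortComplex (CochainComplex (ModuleCat.{u} R) ℕ) :=
  ShortComplex.mk (fiberMap (f := φ.τ₁) (f' := φ.τ₂) SK.f SL.f φ.comm₁₂)
    (fiberMap (f := φ.τ₂) (f' := φ.τ₃) SK.g SL.g φ.comm₂₃) (by
      rw [fiberMap_comp]
      ext n p : 3
      obtain ⟨x, y⟩ : SK.X₁.X n × shX SL.X₁ n := p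
      cases n with
      | zero =>
        apply Prod.ext
        · exact se_zero SK 0 x
        · rfl
      | succ n =>
        apply Prod.ext
        · exact se_zero SK (n + 1) x
        · exact se_zero SL n y)

/-- A morphism of short exact sequences of complexes induces a short exact sequence of fibers. -/
lemma fiberSC_shortExact (hK : SK.ShortExact) (hL : SL.ShortExact) :
    (fiberSC φ).ShortExact := by
  refine shortExact_of_degreewise_shortExact _ fun n => ?_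
  refine { exact := ?_, mono_f := ?_, epi_g := ?_ }
  · rw [ShortComplex.moduleCat_exact_iff]
    intro (p : SK.X₂.X n × shX SL.X₂ n) hp
    obtain ⟨x, y⟩ := p
    have hp' : ((SK.g.f n).hom x, shMap SL.g n y) = (0, 0) := hp
    obtain ⟨hx, hy⟩ := Prod.mk.inj hp'
    obtain ⟨x₁, hx₁⟩ := se_exact hK n x hx
    cases n with
    | zero =>
      refine ⟨((x₁, PUnit.unit) : SK.X₁.X 0 × shX SL.X₁ 0), ?_⟩
      exact Prod.ext hx₁ rfl
    | succ n =>
      obtain ⟨y₁, hy₁⟩ := se_exact hL n y hy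
      refine ⟨((x₁, y₁) : SK.X₁.X (n + 1) × shX SL.X₁ (n + 1)), ?_⟩
      exact Prod.ext hx₁ hy₁
  · rw [ModuleCat.mono_iff_injective]
    intro (p : SK.X₁.X n × shX SL.X₁ n) (q : SK.X₁.X n × shX SL.X₁ n) hpq
    obtain ⟨x, y⟩ := p
    obtain ⟨x', y'⟩ := q
    have h' : ((SK.f.f n).hom x, shMap SL.f n y) = ((SK.f.f n).hom x', shMap SL.f n y') := hpq
    obtain ⟨hx, hy⟩ := Prod.mk.inj h'
    cases n with
    | zero => exact Prod.ext (se_injective hK 0 hx) rfl
    | succ n => exact Prod.ext (se_injective hK (n + 1) hx) (se_injective hL n hy)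
  · rw [ModuleCat.epi_iff_surjective]
    intro (p : SK.X₃.X n × shX SL.X₃ n)
    obtain ⟨x, y⟩ := p
    obtain ⟨x₂, hx₂⟩ := se_surjective hK n x
    cases n with
    | zero =>
      refine ⟨((x₂, PUnit.unit) : SK.X₂.X 0 × shX SL.X₂ 0), ?_⟩
      exact Prod.ext hx₂ rfl
    | succ n =>
      obtain ⟨y₂, hy₂⟩ := se_surjective hL n y
      refine ⟨((x₂, y₂) : SK.X₂.X (n + 1) × shX SL.X₂ (n + 1)), ?_⟩
      exact Prod.ext hx₂ hy₂

variable (hK : SK.ShortExact) (hL : SL.ShortExact)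

/-- The connecting homomorphism `Tⁱ(f₃) ⟶ Tʲ(f₁)`. -/
noncomputable def Tδ (i j : ℕ) (hij : i + 1 = j) : T φ.τ₃ i ⟶ T φ.τ₁ j :=
  (fiberSC_shortExact φ hK hL).δ i j hij

/-- Exactness of `Tⁱ(f₃) ⟶ Tʲ(f₁) ⟶ Tʲ(f₂)`. -/
lemma T_exact₁ (i j : ℕ) (hij : i + 1 = j) :
    (ShortComplex.mk (Tδ φ hK hL i j hij) (Tmap (f := φ.τ₁) (f' := φ.τ₂) SK.f SL.f φ.comm₁₂ j)
      ((fiberSC_shortExact φ hK hL).δ_comp i j hij)).Exact :=
  (fiberSC_shortExact φ hK hL).homology_exact₁ i j hij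

include hK hL in
/-- Exactness of `Tⁱ(f₁) ⟶ Tⁱ(f₂) ⟶ Tⁱ(f₃)`. -/
lemma T_exact₂ (i : ℕ) :
    (ShortComplex.mk (Tmap (f := φ.τ₁) (f' := φ.τ₂) SK.f SL.f φ.comm₁₂ i)
      (Tmap (f := φ.τ₂) (f' := φ.τ₃) SK.g SL.g φ.comm₂₃ i) (by
        rw [Tmap, Tmap, ← homologyMap_comp]
        have h := (fiberSC φ).zero
        change fiberMap (f := φ.τ₁) (f' := φ.τ₂) SK.f SL.f φ.comm₁₂ ≫
          fiberMap (f := φ.τ₂) (f' := φ.τ₃) SK.g SL.g φ.comm₂₃ = 0 at h
        rw [h, homologyMap_zero])).Exact :=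
  (fiberSC_shortExact φ hK hL).homology_exact₂ i

/-- Exactness of `Tⁱ(f₂) ⟶ Tⁱ(f₃) ⟶ Tʲ(f₁)`. -/
lemma T_exact₃ (i j : ℕ) (hij : i + 1 = j) :
    (ShortComplex.mk (Tmap (f := φ.τ₂) (f' := φ.τ₃) SK.g SL.g φ.comm₂₃ i) (Tδ φ hK hL i j hij)
      ((fiberSC_shortExact φ hK hL).comp_δ i j hij)).Exact :=
  (fiberSC_shortExact φ hK hL).homology_exact₃ i j hij

end SES

/-! ### The case of a degreewise surjective map: `T(f) = H(ker f)` -/

section Surjective

variable (S : ShortComplex (CochainComplex (ModuleCat.{u} R) ℕ))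

/-- For `0 → M → K → L → 0`, the chain map `M ⟶ fiber (K ⟶ L)`, `m ↦ (m, 0)`. -/
noncomputable def toFiber : S.X₁ ⟶ fiber S.g where
  f n := ModuleCat.ofHom (LinearMap.prod (S.f.f n).hom 0)
  comm' i j (hij : _ = _) := by
    subst hij
    rw [fiber_d]
    ext m : 2
    change fibD S.g i ((S.f.f i).hom m, 0) =
      ((S.f.f (i + 1)).hom ((S.X₁.d i (i + 1)).hom m), (0 : shX S.X₃ (i + 1)))
    rw [fibD_apply]
    apply Prod.ext
    · exact (comm_apply S.f i m)
    · change ((S.g.f i).hom ((S.f.f i).hom m) - shD S.X₃ i 0 : S.X₃.X i) = 0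
      rw [se_zero, map_zero, sub_zero]

lemma toFiber_apply_succ (n : ℕ) (m : S.X₁.X (n + 1)) :
    ((toFiber S).f (n + 1)).hom m = fmk S.g n ((S.f.f (n + 1)).hom m) 0 := rfl

lemma toFiber_apply_zero (m : S.X₁.X 0) :
    ((toFiber S).f 0).hom m = fmk₀ S.g ((S.f.f 0).hom m) := rfl

variable {S}

lemma homologyMap_toFiber_injective (hS : S.ShortExact) (n : ℕ) :
    Function.Injective (HomologicalComplex.homologyMap (toFiber S) n).hom := by
  rw [injective_iff_map_eq_zero]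
  intro a ha
  obtain ⟨m, rfl⟩ := cls_surjective S.X₁ n a
  rw [homologyMap_cls] at ha
  cases n with
  | zero =>
    rw [cls_eq_zero_iff_zero] at ha
    have h1 : fmk₀ S.g ((S.f.f 0).hom m.1) = 0 := congrArg Subtype.val ha
    have h2 : (((S.f.f 0).hom m.1, PUnit.unit) : S.X₂.X 0 × shX S.X₃ 0) = (0, 0) := h1
    have h3 : m.1 = 0 := se_injective hS 0 (by rw [(Prod.mk.inj h2).1, map_zero])
    rw [cls_eq_zero_iff_zero]
    exact Subtype.ext h3
  | succ n =>
    rw [cls_eq_zero_iff_succ] at ha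
    obtain ⟨p, hp⟩ := ha
    change ((fiber S.g).d n (n + 1)).hom p = fmk S.g n ((S.f.f (n + 1)).hom m.1) 0 at hp
    rw [cls_eq_zero_iff_succ]
    cases n with
    | zero =>
      obtain ⟨x', rfl⟩ := exists_fmk₀ S.g p
      rw [fiber_d_fmk₀] at hp
      obtain ⟨h1, h2⟩ := fmk_injective S.g 0 hp
      obtain ⟨m', rfl⟩ := se_exact hS 0 x' h2
      refine ⟨m', se_injective hS 1 ?_⟩
      rw [← comm_apply, h1]
    | succ n =>
      obtain ⟨x', y', rfl⟩ := exists_fmk S.g n p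
      rw [fiber_d_fmk] at hp
      obtain ⟨h1, h2⟩ := fmk_injective S.g (n + 1) hp
      obtain ⟨x₀, rfl⟩ := se_surjective hS n y'
      have h3 : (S.g.f (n + 1)).hom (x' - (S.X₂.d n (n + 1)).hom x₀) = 0 := by
        rw [map_sub, ← comm_apply, sub_eq_zero]
        exact sub_eq_zero.1 h2
      obtain ⟨m', hm'⟩ := se_exact hS (n + 1) _ h3
      refine ⟨m', se_injective hS (n + 1 + 1) ?_⟩
      rw [← comm_apply, hm', map_sub, d_d_apply, sub_zero, h1]

lemma homologyMap_toFiber_surjective (hS : S.ShortExact) (n : ℕ) :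
    Function.Surjective (HomologicalComplex.homologyMap (toFiber S) n).hom := by
  intro t
  cases n with
  | zero =>
    obtain ⟨x, hx, hgx, rfl⟩ := Tmk₀_surjective S.g t
    obtain ⟨m, rfl⟩ := se_exact hS 0 x hgx
    have hm : m ∈ Z S.X₁ 0 := by
      rw [mem_Z_iff]
      apply se_injective hS 1
      rw [← comm_apply, hx, map_zero]
    refine ⟨cls S.X₁ 0 ⟨m, hm⟩, ?_⟩
    rw [homologyMap_cls]
    rfl
  | succ n =>
    obtain ⟨x, y, hx, hxy, rfl⟩ := Tmk_surjective S.g n t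
    obtain ⟨x₀, rfl⟩ := se_surjective hS n y
    have h3 : (S.g.f (n + 1)).hom (x - (S.X₂.d n (n + 1)).hom x₀) = 0 := by
      rw [map_sub, ← comm_apply, sub_eq_zero, hxy]
    obtain ⟨m, hm'⟩ := se_exact hS (n + 1) _ h3
    have hm : m ∈ Z S.X₁ (n + 1) := by
      rw [mem_Z_iff]
      apply se_injective hS (n + 1 + 1)
      rw [← comm_apply, hm', map_sub, d_d_apply, sub_zero, hx, map_zero]
    refine ⟨cls S.X₁ (n + 1) ⟨m, hm⟩, ?_⟩
    rw [homologyMap_cls]
    have hA : (S.X₂.d (n + 1) (n + 1 + 1)).hom ((S.f.f (n + 1)).hom m) = 0 := by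
      rw [comm_apply, (mem_Z_iff _ m).1 hm, map_zero]
    have hB : (S.g.f (n + 1)).hom ((S.f.f (n + 1)).hom m) = (S.X₃.d n (n + 1)).hom 0 := by
      rw [se_zero, map_zero]
    change Tmk S.g n ((S.f.f (n + 1)).hom m) 0 hA hB = _
    have h0 : Tmk S.g n ((S.X₂.d n (n + 1)).hom x₀) ((S.g.f n).hom x₀)
        (d_d_apply S.X₂ n x₀) (comm_apply S.g n x₀).symm = 0 := by
      cases n with
      | zero =>
        rw [Tmk_eq_zero_iff_zero]
        exact ⟨x₀, rfl, rfl⟩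
      | succ n =>
        rw [Tmk_eq_zero_iff_succ]
        exact ⟨x₀, 0, rfl, by rw [map_zero, sub_zero]⟩
    rw [← add_zero (Tmk S.g n ((S.f.f (n + 1)).hom m) 0 hA hB), ← h0, Tmk_add]
    exact Tmk_congr S.g n (by rw [hm', sub_add_cancel]) (zero_add _) _ _ _ _

/-- For a degreewise short exact `0 → M → K → L → 0`, `Hⁿ(M) ≅ Tⁿ(K ⟶ L)`. -/
lemma isIso_homologyMap_toFiber (hS : S.ShortExact) (n : ℕ) :
    IsIso (HomologicalComplex.homologyMap (toFiber S) n) :=
  (ConcreteCategory.isIso_iff_bijective _).2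
    ⟨homologyMap_toFiber_injective hS n, homologyMap_toFiber_surjective hS n⟩

end Surjective

end Fermat.Agent.CFT.A7.Fiber
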