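/-
A7f (helper10): relative level-constant cohomology `TLC 𝒰 φ n` of a morphism `φ : X ⟶ Y` of
representations = cohomology of the fiber of `C_LC(X) ⟶ C_LC(Y)` (`H_rel` of PROJECT_C_ROUTE §1).
Instances of the generic cone engine `A7/Fiber.lean` for helper8's level-constant complexes.
-/
import Fermat.Agent.CFT.A7.Fiber

set_option autoImplicit false

universe u

namespace Fermat.Agent.CFT.A7.FiberLC

open CategoryTheory CategoryTheory.Limits Fermat.Agent.CFT.LC Fermat.Agent.CFT.A7.Fiber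

variable {k G : Type u} [CommRing k] [Group G] (𝒰 : Levels G)

/-! ### Generic complement: vanishing of `T` -/

section Vanish

variable {R : Type u} [Ring R] {K L : CochainComplex (ModuleCat.{u} R) ℕ} (f : K ⟶ L)

/-- If `Hⁿ(f)` is surjective and `Hⁿ⁺¹(f)` injective then `Tⁿ⁺¹(f) = 0`. -/
lemma T_succ_eq_zero (n : ℕ)
    (hsurj : Function.Surjective (HomologicalComplex.homologyMap f n).hom)
    (hinj : Function.Injective (HomologicalComplex.homologyMap f (n + 1)).hom)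
    (t : T f (n + 1)) : t = 0 := by
  have h1 : (Tπ f (n + 1)).hom t = 0 := hinj (by rw [map_Tπ, map_zero])
  obtain ⟨b, rfl⟩ := exists_of_Tπ_eq_zero f n t h1
  obtain ⟨a, rfl⟩ := hsurj b
  exact Tι_map f n a

/-- If `H⁰(f)` is injective then `T⁰(f) = 0`. -/
lemma T_zero_eq_zero (hinj : Function.Injective (HomologicalComplex.homologyMap f 0).hom)
    (t : T f 0) : t = 0 := by
  apply Tπ_zero_injective f
  rw [map_zero]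
  exact hinj (by rw [map_Tπ, map_zero])

end Vanish

/-! ### The level-constant instance -/

section Basic

variable {X Y : Rep.{u} k G} (φ : X ⟶ Y)

/-- Relative level-constant cohomology of `φ : X ⟶ Y`. -/
noncomputable abbrev TLC (n : ℕ) : ModuleCat.{u} k := T ((lcFunctor 𝒰).map φ) n

/-- The map induced by `φ` on level-constant cochains. -/
noncomputable def mapLC (n : ℕ) : cochains 𝒰 X n →ₗ[k] cochains 𝒰 Y n :=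
  (((lcFunctor 𝒰).map φ).f n).hom

lemma mapLC_apply (n : ℕ) (x : cochains 𝒰 X n) (g : Fin n → G) :
    (mapLC 𝒰 φ n x).1 g = φ.hom (x.1 g) := rfl

lemma complex_d_hom (A : Rep.{u} k G) (n : ℕ) (x : cochains 𝒰 A n) :
    ((complex 𝒰 A).d n (n + 1)).hom x = dLC 𝒰 A n x := by
  rw [complex_d]; rfl

lemma lc_d_hom (A : Rep.{u} k G) (n : ℕ) (x : ((lcFunctor 𝒰).obj A).X n) :
    (((lcFunctor 𝒰).obj A).d n (n + 1)).hom x = dLC 𝒰 A n x :=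
  complex_d_hom 𝒰 A n x

/-- Compatibility of the classes of `A7/Fiber.lean` with helper8's `Hπ`. -/
lemma cls_eq_Hπ (A : Rep.{u} k G) (n : ℕ) (z : cocyclesLC 𝒰 A n) :
    cls (complex 𝒰 A) n ⟨z.1, by rw [mem_Z_iff, complex_d_hom]; exact z.2⟩ = Hπ 𝒰 A n z := by
  rw [cls_apply, Hπ_apply]
  congr 1

/-- The class in `TLCⁿ⁺¹(φ)` of a pair `(x, y)` of level-constant cochains with `d x = 0` and
`φ ∘ x = d y`. -/
noncomputable def TLCmk (n : ℕ) (x : cochains 𝒰 X (n + 1)) (y : cochains 𝒰 Y n)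
    (hx : dLC 𝒰 X (n + 1) x = 0) (hxy : mapLC 𝒰 φ (n + 1) x = dLC 𝒰 Y n y) :
    TLC 𝒰 φ (n + 1) :=
  Tmk ((lcFunctor 𝒰).map φ) n x y ((lc_d_hom 𝒰 X (n + 1) x).trans hx)
    (hxy.trans (lc_d_hom 𝒰 Y n y).symm)

lemma TLCmk_surjective (n : ℕ) (t : TLC 𝒰 φ (n + 1)) :
    ∃ (x : cochains 𝒰 X (n + 1)) (y : cochains 𝒰 Y n) (hx : dLC 𝒰 X (n + 1) x = 0)
      (hxy : mapLC 𝒰 φ (n + 1) x = dLC 𝒰 Y n y), TLCmk 𝒰 φ n x y hx hxy = t := by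
  obtain ⟨x, y, hx, hxy, rfl⟩ := Tmk_surjective ((lcFunctor 𝒰).map φ) n t
  exact ⟨x, y, (lc_d_hom 𝒰 X (n + 1) x).symm.trans hx, hxy.trans (lc_d_hom 𝒰 Y n y), rfl⟩

lemma TLCmk_add (n : ℕ) (x x' : cochains 𝒰 X (n + 1)) (y y' : cochains 𝒰 Y n) hx hxy hx' hxy' :
    TLCmk 𝒰 φ n x y hx hxy + TLCmk 𝒰 φ n x' y' hx' hxy' =
      TLCmk 𝒰 φ n (x + x') (y + y') (by rw [map_add, hx, hx', add_zero])
        (by rw [map_add, map_add, hxy, hxy']) := by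
  exact Tmk_add ((lcFunctor 𝒰).map φ) n x x' y y' _ _ _ _

lemma TLCmk_smul (n : ℕ) (c : k) (x : cochains 𝒰 X (n + 1)) (y : cochains 𝒰 Y n) hx hxy :
    c • TLCmk 𝒰 φ n x y hx hxy =
      TLCmk 𝒰 φ n (c • x) (c • y) (by rw [map_smul, hx, smul_zero])
        (by rw [map_smul, map_smul, hxy]) := by
  exact Tmk_smul ((lcFunctor 𝒰).map φ) n c x y _ _

lemma TLCmk_congr (n : ℕ) {x x' : cochains 𝒰 X (n + 1)} {y y' : cochains 𝒰 Y n}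
    (hxx : x = x') (hyy : y = y') hx hxy hx' hxy' :
    TLCmk 𝒰 φ n x y hx hxy = TLCmk 𝒰 φ n x' y' hx' hxy' := by
  subst hxx hyy; rfl

/-- Vanishing in `TLC¹`. -/
lemma TLCmk_eq_zero_iff_zero (x : cochains 𝒰 X 1) (y : cochains 𝒰 Y 0) hx hxy :
    TLCmk 𝒰 φ 0 x y hx hxy = 0 ↔
      ∃ x' : cochains 𝒰 X 0, dLC 𝒰 X 0 x' = x ∧ mapLC 𝒰 φ 0 x' = y := by
  refine (Tmk_eq_zero_iff_zero ((lcFunctor 𝒰).map φ) x y _ _).trans ?_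
  constructor
  · rintro ⟨x', h1, h2⟩
    exact ⟨x', (lc_d_hom 𝒰 X 0 x').symm.trans h1, h2⟩
  · rintro ⟨x', h1, h2⟩
    exact ⟨x', (lc_d_hom 𝒰 X 0 x').trans h1, h2⟩

/-- Vanishing in `TLCⁿ⁺²`. -/
lemma TLCmk_eq_zero_iff_succ (n : ℕ) (x : cochains 𝒰 X (n + 1 + 1)) (y : cochains 𝒰 Y (n + 1))
    hx hxy :
    TLCmk 𝒰 φ (n + 1) x y hx hxy = 0 ↔
      ∃ (x' : cochains 𝒰 X (n + 1)) (y' : cochains 𝒰 Y n), dLC 𝒰 X (n + 1) x' = x ∧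
        mapLC 𝒰 φ (n + 1) x' - dLC 𝒰 Y n y' = y := by
  refine (Tmk_eq_zero_iff_succ ((lcFunctor 𝒰).map φ) n x y _ _).trans ?_
  constructor
  · rintro ⟨x', y', h1, h2⟩
    refine ⟨x', y', (lc_d_hom 𝒰 X (n + 1) x').symm.trans h1, ?_⟩
    rw [← h2]
    exact congrArg (fun w => mapLC 𝒰 φ (n + 1) x' - w) (lc_d_hom 𝒰 Y n y').symm
  · rintro ⟨x', y', h1, h2⟩
    refine ⟨x', y', (lc_d_hom 𝒰 X (n + 1) x').trans h1, ?_⟩
    rw [← h2]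
    exact congrArg (fun w => mapLC 𝒰 φ (n + 1) x' - w) (lc_d_hom 𝒰 Y n y')

/-- The projection `TLCⁿ(φ) ⟶ Hⁿ_LC(X)`. -/
noncomputable abbrev TLCπ (n : ℕ) : TLC 𝒰 φ n ⟶ H 𝒰 X n := Tπ ((lcFunctor 𝒰).map φ) n

/-- The map `Hⁿ_LC(Y) ⟶ TLCⁿ⁺¹(φ)`. -/
noncomputable abbrev TLCι (n : ℕ) : H 𝒰 Y n ⟶ TLC 𝒰 φ (n + 1) := Tι ((lcFunctor 𝒰).map φ) n

lemma TLCπ_TLCmk (n : ℕ) (x : cochains 𝒰 X (n + 1)) (y : cochains 𝒰 Y n) hx hxy :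
    (TLCπ 𝒰 φ (n + 1)).hom (TLCmk 𝒰 φ n x y hx hxy) = Hπ 𝒰 X (n + 1) ⟨x, hx⟩ := by
  refine (Tπ_Tmk ((lcFunctor 𝒰).map φ) n x y _ _).trans ?_
  exact cls_eq_Hπ 𝒰 X (n + 1) ⟨x, hx⟩

lemma TLCι_Hπ (n : ℕ) (y : cocyclesLC 𝒰 Y n) :
    (TLCι 𝒰 φ n).hom (Hπ 𝒰 Y n y) =
      TLCmk 𝒰 φ n 0 y.1 (map_zero _) (by rw [map_zero]; exact y.2.symm) := by
  rw [← cls_eq_Hπ]
  exact Tι_cls ((lcFunctor 𝒰).map φ) n _

/-- `mapId φ n` is the map induced on the homology of the level-constant complexes. -/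
lemma mapId_eq (n : ℕ) :
    mapId (𝒰 := 𝒰) φ n = HomologicalComplex.homologyMap ((lcFunctor 𝒰).map φ) n := rfl

/-- Exactness of `Hⁿ(X) ⟶ Hⁿ(Y) ⟶ TLCⁿ⁺¹(φ)`. -/
lemma exact_mapId_TLCι (n : ℕ) :
    (ShortComplex.mk (mapId (𝒰 := 𝒰) φ n) (TLCι 𝒰 φ n)
      (map_comp_Tι ((lcFunctor 𝒰).map φ) n)).Exact :=
  exact_map_Tι ((lcFunctor 𝒰).map φ) n

/-- Exactness of `Hⁿ(Y) ⟶ TLCⁿ⁺¹(φ) ⟶ Hⁿ⁺¹(X)`. -/
lemma exact_TLCι_TLCπ (n : ℕ) :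
    (ShortComplex.mk (TLCι 𝒰 φ n) (TLCπ 𝒰 φ (n + 1))
      (Tι_comp_Tπ ((lcFunctor 𝒰).map φ) n)).Exact :=
  exact_Tι_Tπ ((lcFunctor 𝒰).map φ) n

/-- Exactness of `TLCⁿ(φ) ⟶ Hⁿ(X) ⟶ Hⁿ(Y)`. -/
lemma exact_TLCπ_mapId (n : ℕ) :
    (ShortComplex.mk (TLCπ 𝒰 φ n) (mapId (𝒰 := 𝒰) φ n)
      (Tπ_comp_map ((lcFunctor 𝒰).map φ) n)).Exact :=
  exact_Tπ_map ((lcFunctor 𝒰).map φ) n

/-- If `φ` is an isomorphism, the relative cohomology vanishes. -/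
lemma isZero_TLC_of_isIso [IsIso φ] (n : ℕ) : IsZero (TLC 𝒰 φ n) := by
  have hiso : ∀ m, Function.Bijective
      (HomologicalComplex.homologyMap ((lcFunctor 𝒰).map φ) m).hom := fun m =>
    (ConcreteCategory.isIso_iff_bijective _).1 inferInstance
  apply (ModuleCat.isZero_iff_subsingleton).2
  refine ⟨fun a b => ?_⟩
  cases n with
  | zero =>
    rw [T_zero_eq_zero _ (hiso 0).1 a, T_zero_eq_zero _ (hiso 0).1 b]
  | succ n =>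
    rw [T_succ_eq_zero _ n (hiso n).2 (hiso (n + 1)).1 a,
      T_succ_eq_zero _ n (hiso n).2 (hiso (n + 1)).1 b]

end Basic

/-! ### Functoriality in the coefficients, and the long exact sequence (R2) -/

section Coeff

variable {X Y X' Y' : Rep.{u} k G} {φ : X ⟶ Y} {φ' : X' ⟶ Y'}

/-- The map on relative cohomology induced by a commutative square of representations. -/
noncomputable def TLCmapId (a : X ⟶ X') (b : Y ⟶ Y') (comm : φ ≫ b = a ≫ φ') (n : ℕ) :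
    TLC 𝒰 φ n ⟶ TLC 𝒰 φ' n :=
  Tmap ((lcFunctor 𝒰).map a) ((lcFunctor 𝒰).map b)
    (by rw [← Functor.map_comp, comm, Functor.map_comp]) n

lemma TLCπ_TLCmapId (a : X ⟶ X') (b : Y ⟶ Y') (comm : φ ≫ b = a ≫ φ') (n : ℕ) :
    TLCmapId 𝒰 a b comm n ≫ TLCπ 𝒰 φ' n = TLCπ 𝒰 φ n ≫ mapId (𝒰 := 𝒰) a n :=
  Tπ_Tmap _ _ _ n

lemma TLCmapId_TLCι (a : X ⟶ X') (b : Y ⟶ Y') (comm : φ ≫ b = a ≫ φ') (n : ℕ) :
    TLCι 𝒰 φ n ≫ TLCmapId 𝒰 a b comm (n + 1) = mapId (𝒰 := 𝒰) b n ≫ TLCι 𝒰 φ' n :=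
  Tmap_Tι _ _ _ n

variable [𝒰.IsFin] {SX SY : ShortComplex (Rep.{u} k G)} (Φ : SX ⟶ SY)
  (hX : SX.ShortExact) (hY : SY.ShortExact) (hsmX : IsSmooth 𝒰 SX.X₂) (hsmY : IsSmooth 𝒰 SY.X₂)

/-- The morphism of short complexes of level-constant complexes attached to a morphism of short
complexes of representations. -/
noncomputable def lcSC : SX.map (lcFunctor 𝒰) ⟶ SY.map (lcFunctor 𝒰) :=
  (lcFunctor 𝒰).mapShortComplex.map Φ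

/-- The connecting homomorphism `TLCⁱ(φ₃) ⟶ TLCʲ(φ₁)` of a short exact sequence of arrows. -/
noncomputable def TLCδ (i j : ℕ) (hij : i + 1 = j) : TLC 𝒰 Φ.τ₃ i ⟶ TLC 𝒰 Φ.τ₁ j :=
  Tδ (lcSC 𝒰 Φ) (map_lcFunctor_shortExact hX hsmX) (map_lcFunctor_shortExact hY hsmY) i j hij

/-- Exactness of `TLCⁱ(φ₃) ⟶ TLCʲ(φ₁) ⟶ TLCʲ(φ₂)`. -/
lemma TLC_exact₁ (i j : ℕ) (hij : i + 1 = j) :
    (ShortComplex.mk (TLCδ 𝒰 Φ hX hY hsmX hsmY i j hij) (TLCmapId 𝒰 SX.f SY.f Φ.comm₁₂ j)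
      ((fiberSC_shortExact (lcSC 𝒰 Φ) (map_lcFunctor_shortExact hX hsmX)
        (map_lcFunctor_shortExact hY hsmY)).δ_comp i j hij)).Exact :=
  T_exact₁ (lcSC 𝒰 Φ) _ _ i j hij

include hX hY hsmX hsmY in
/-- Exactness of `TLCⁱ(φ₁) ⟶ TLCⁱ(φ₂) ⟶ TLCⁱ(φ₃)`. -/
lemma TLC_exact₂ (i : ℕ) :
    ∀ t : TLC 𝒰 Φ.τ₂ i, (TLCmapId 𝒰 SX.g SY.g Φ.comm₂₃ i).hom t = 0 →
      ∃ s : TLC 𝒰 Φ.τ₁ i, (TLCmapId 𝒰 SX.f SY.f Φ.comm₁₂ i).hom s = t := by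
  have h := T_exact₂ (lcSC 𝒰 Φ) (map_lcFunctor_shortExact hX hsmX)
    (map_lcFunctor_shortExact hY hsmY) i
  rw [ShortComplex.moduleCat_exact_iff] at h
  exact h

/-- Exactness of `TLCⁱ(φ₂) ⟶ TLCⁱ(φ₃) ⟶ TLCʲ(φ₁)`. -/
lemma TLC_exact₃ (i j : ℕ) (hij : i + 1 = j) :
    (ShortComplex.mk (TLCmapId 𝒰 SX.g SY.g Φ.comm₂₃ i) (TLCδ 𝒰 Φ hX hY hsmX hsmY i j hij)
      ((fiberSC_shortExact (lcSC 𝒰 Φ) (map_lcFunctor_shortExact hX hsmX)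
        (map_lcFunctor_shortExact hY hsmY)).comp_δ i j hij)).Exact :=
  T_exact₃ (lcSC 𝒰 Φ) _ _ i j hij

end Coeff

/-! ### The surjective case (R3) -/

section Surj

variable [𝒰.IsFin] {S : ShortComplex (Rep.{u} k G)} (hS : S.ShortExact)
  (hsm : IsSmooth 𝒰 S.X₂)

/-- For `0 → K → X → Y → 0` the comparison `Hⁿ_LC(K) ⟶ TLCⁿ(X ⟶ Y)`. -/
noncomputable def toTLC (S : ShortComplex (Rep.{u} k G)) (n : ℕ) : H 𝒰 S.X₁ n ⟶ TLC 𝒰 S.g n :=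
  HomologicalComplex.homologyMap (toFiber (S.map (lcFunctor 𝒰))) n

include hS hsm in
/-- (R3): for a short exact `0 → K → X → Y → 0` with `X` smooth, `Hⁿ_LC(K) ≅ TLCⁿ(X ⟶ Y)`. -/
lemma isIso_toTLC (n : ℕ) : IsIso (toTLC 𝒰 S n) :=
  isIso_homologyMap_toFiber (map_lcFunctor_shortExact hS hsm) n

end Surj

/-! ### Change of group -/

section GroupChange

variable {𝒰} {G' : Type u} [Group G'] {𝒰' : Levels G'} {ψ : G' →* G}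
  (hψ : Levels.Continuous ψ 𝒰' 𝒰) {X Y : Rep.{u} k G} {X' Y' : Rep.{u} k G'}
  {φ : X ⟶ Y} {φ' : X' ⟶ Y'} (α : Rep.res ψ X ⟶ X') (β : Rep.res ψ Y ⟶ Y')
  (comm : ∀ x : X, β.hom (φ.hom x) = φ'.hom (α.hom x))

include comm in
lemma mapComplex_comm :
    (lcFunctor 𝒰).map φ ≫ mapComplex hψ β = mapComplex hψ α ≫ (lcFunctor 𝒰').map φ' := by
  ext n f : 3
  apply Subtype.ext
  funext g
  exact comm _

/-- The map on relative cohomology induced by a continuous group homomorphism and a commutative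
square of coefficient maps. -/
noncomputable def TLCmap (n : ℕ) : TLC 𝒰 φ n ⟶ TLC 𝒰' φ' n :=
  Tmap (mapComplex hψ α) (mapComplex hψ β) (mapComplex_comm hψ α β comm) n

lemma TLCπ_TLCmap (n : ℕ) :
    TLCmap hψ α β comm n ≫ TLCπ 𝒰' φ' n = TLCπ 𝒰 φ n ≫ LC.map hψ α n :=
  Tπ_Tmap _ _ _ n

lemma TLCmap_TLCι (n : ℕ) :
    TLCι 𝒰 φ n ≫ TLCmap hψ α β comm (n + 1) = LC.map hψ β n ≫ TLCι 𝒰' φ' n :=
  Tmap_Tι _ _ _ n

lemma TLCmap_TLCmk (n : ℕ) (x : cochains 𝒰 X (n + 1)) (y : cochains 𝒰 Y n) hx hxy :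
    ∃ hx' hxy', (TLCmap hψ α β comm (n + 1)).hom (TLCmk 𝒰 φ n x y hx hxy) =
      TLCmk 𝒰' φ' n (cochainsMapLC hψ α (n + 1) x) (cochainsMapLC hψ β n y) hx' hxy' := by
  have h := Tmap_Tmk (mapComplex hψ α) (mapComplex hψ β) (mapComplex_comm hψ α β comm) n x y
    ((lc_d_hom 𝒰 X (n + 1) x).trans hx) (hxy.trans (lc_d_hom 𝒰 Y n y).symm)
  obtain ⟨h1, h2⟩ := Tmap_aux (mapComplex hψ α) (mapComplex hψ β)
    (mapComplex_comm hψ α β comm) n x y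
    ((lc_d_hom 𝒰 X (n + 1) x).trans hx) (hxy.trans (lc_d_hom 𝒰 Y n y).symm)
  exact ⟨(lc_d_hom 𝒰' X' (n + 1) _).symm.trans h1, h2.trans (lc_d_hom 𝒰' Y' n _), h⟩

end GroupChange

end Fermat.Agent.CFT.A7.FiberLC
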