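/-
PROJECT C (S55), Layer A7/D2a support (helper23): exactness on the right of
`0 → Hom(M, X) → Hom(P₀, X) → Hom(P₁, X) → 0` for a DIVISIBLE coefficient module `X`.

If `i : P₁ → P₀` is injective, `P₁` is `k`-projective, `n • P₀ ⊆ i(P₁)` and `n : X → X` is
surjective, then every `k`-linear `φ : P₁ → X` extends to `P₀`
(lift `φ = n • φ'` by projectivity, then `ψ := φ' ∘ (i⁻¹ ∘ n)`).
-/
import Fermat.Agent.CFT.A7.HomRep

noncomputable section

universe u

namespace Fermat.Agent.CFT.A7.HomRep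

open CategoryTheory

section lin

variable {k : Type*} [CommRing k] {P₁ P₀ X : Type*} [AddCommGroup P₁] [Module k P₁]
  [AddCommGroup P₀] [Module k P₀] [AddCommGroup X] [Module k X]

/-- Extension of linear maps into an `n`-divisible module along an injection with cokernel
killed by `n` and projective source. -/
theorem exists_extension_of_divisible (i : P₁ →ₗ[k] P₀) (hi : Function.Injective i)
    [Module.Projective k P₁] (n : k) (hn : ∀ v : P₀, ∃ w : P₁, i w = n • v)
    (hX : ∀ x : X, ∃ y : X, n • y = x) (φ : P₁ →ₗ[k] X) :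
    ∃ ψ : P₀ →ₗ[k] X, ψ ∘ₗ i = φ := by
  -- `m : P₀ → P₁` with `i ∘ m = n`
  have hmem : ∀ v : P₀, (n • LinearMap.id : P₀ →ₗ[k] P₀) v ∈ LinearMap.range i := fun v => by
    obtain ⟨w, hw⟩ := hn v
    exact ⟨w, by simpa using hw⟩
  let m : P₀ →ₗ[k] P₁ :=
    (LinearEquiv.ofInjective i hi).symm.toLinearMap ∘ₗ
      (n • LinearMap.id : P₀ →ₗ[k] P₀).codRestrict _ hmem
  have him : ∀ v, i (m v) = n • v := fun v => by
    have := (LinearEquiv.ofInjective i hi).apply_symm_apply
      ⟨(n • LinearMap.id : P₀ →ₗ[k] P₀) v, hmem v⟩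
    have h2 := congrArg Subtype.val this
    simp only [LinearEquiv.ofInjective_apply, LinearMap.smul_apply, LinearMap.id_apply] at h2
    exact h2
  have hmi : ∀ w, m (i w) = n • w := fun w => hi (by rw [him, map_smul])
  -- lift `φ` through multiplication by `n`
  obtain ⟨φ', hφ'⟩ := Module.projective_lifting_property
    (n • LinearMap.id : X →ₗ[k] X) φ (fun x => by
      obtain ⟨y, hy⟩ := hX x
      exact ⟨y, by simpa using hy⟩)
  refine ⟨φ' ∘ₗ m, ?_⟩
  ext w
  have h1 := LinearMap.congr_fun hφ' w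
  simp only [LinearMap.comp_apply, LinearMap.smul_apply, LinearMap.id_apply] at h1 ⊢
  rw [hmi, map_smul, h1]

end lin

variable {k G : Type u} [CommRing k] [Group G]

/-- Restriction `Hom(P₀, X) → Hom(P₁, X)` is onto when `X` is `n`-divisible, `n • P₀ ⊆ i(P₁)`
and `P₁` is `k`-projective. -/
theorem homRes_surjective_of_divisible {P₁ P₀ : Rep.{u} k G} (i : P₁ ⟶ P₀)
    (hi : Function.Injective i.hom) [Module.Projective k P₁.V] (n : k)
    (hn : ∀ v : P₀.V, ∃ w : P₁.V, i.hom w = n • v) (X : Rep.{u} k G)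
    (hX : ∀ x : X.V, ∃ y : X.V, n • y = x) : Function.Surjective (homRes i X).hom := by
  intro φ
  obtain ⟨ψ, hψ⟩ := exists_extension_of_divisible i.hom.toLinearMap hi n hn hX (toLin φ)
  refine ⟨toLin.symm ψ, ?_⟩
  ext v
  exact LinearMap.congr_fun hψ v

/-- **SES (3) of the D-plan**: for a short exact sequence `S : 0 → P₁ → P₀ → M → 0` with
`P₁` `k`-projective, `n • P₀ ⊆ P₁` and `X` `n`-divisible,
`0 → Hom(M, X) → Hom(P₀, X) → Hom(P₁, X) → 0` is short exact. -/
theorem homSC_shortExact_of_divisible {S : ShortComplex (Rep.{u} k G)} (hS : S.ShortExact)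
    [Module.Projective k S.X₁.V] (n : k) (hn : ∀ v : S.X₂.V, ∃ w : S.X₁.V, S.f.hom w = n • v)
    (X : Rep.{u} k G) (hX : ∀ x : X.V, ∃ y : X.V, n • y = x) : (homSC S X).ShortExact :=
  homSC_shortExact_of_surjective X hS
    (homRes_surjective_of_divisible S.f (Fermat.Agent.CFT.Cup.shortExact_f_injective hS) n hn X hX)

/-- The hypothesis `n • P₀ ⊆ P₁` holds as soon as `n` kills the cokernel `M`. -/
lemma exists_f_eq_smul_of_smul_eq_zero {S : ShortComplex (Rep.{u} k G)} (hS : S.ShortExact)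
    (n : k) (hM : ∀ m : S.X₃.V, n • m = 0) (v : S.X₂.V) : ∃ w : S.X₁.V, S.f.hom w = n • v :=
  Fermat.Agent.CFT.Cup.shortExact_exact hS (n • v) (by rw [map_smul, hM])

end Fermat.Agent.CFT.A7.HomRep
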