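/-
PROJECT C (S55), Layer A7/D2a support (helper23): `Hom(P, X)` in the level-constant model, and
"pushforward = cup product with an `H⁰`-class".

* `isSmooth_homRep`: `P` smooth and finitely generated, `X` smooth ⇒ `Hom(P, X)` smooth;
* `homInv ψ`: the invariant element of `Hom(B, C)` attached to a morphism `ψ : B ⟶ C`
  (Mathlib: `Representation.linHom.invariantsEquivRepHom`), `applyLeft_eval_homInv`;
* `cup_eval_homInv`:   `[ψ] ∪ y = ψ_* y` on abstract group cohomology (evaluation pairing);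
* `cupLC_H0_left`, `cupLC_eval_homInv`: the same on level-constant cohomology;
* `h0Equiv 𝒰 A : H⁰_LC(G, A) ≃ₗ A^G` (`h0Equiv_Hπ`, `h0Equiv_symm_apply`, `h0Equiv_map`,
  `h0Equiv_mapId`);
* `h0HomEquiv 𝒰 P X : H⁰_LC(G, Hom(P, X)) ≃ₗ (P ⟶ X)` with `h0HomEquiv_homMap` (`· ≫ g`),
  `h0HomEquiv_homRes` (`i ≫ ·`) and `cupLC_eval_eq_mapId` (`x ∪ y = (h0HomEquiv x)_* y`).
-/
import Fermat.Agent.CFT.A7.HomRep
import Fermat.Agent.CFT.A3.LowDegree
import Fermat.Agent.CFT.A3.CupLC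
import Fermat.Agent.CFT.LC.Shapiro

noncomputable section

universe u

namespace Fermat.Agent.CFT.A7.HomRep

open CategoryTheory groupCohomology Fermat.Agent.CFT.Cup Fermat.Agent.CFT.LC Fermat.Agent.CFT.A3

variable {k G : Type u} [CommRing k] [Group G]

/-! ### Smoothness of `Hom(P, X)` -/

/-- `Hom(P, X)` is smooth if `P` is smooth and finitely generated over `k` and `X` is smooth. -/
theorem isSmooth_homRep {𝒰 : Levels G} {P X : Rep.{u} k G} [Module.Finite k P.V]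
    (hP : IsSmooth 𝒰 P) (hX : IsSmooth 𝒰 X) : IsSmooth 𝒰 (homRep P X) := by
  classical
  intro φ
  obtain ⟨s, hs⟩ := (Module.Finite.fg_top : (⊤ : Submodule k P.V).FG)
  choose U hU hUfix using hP
  choose W hW hWfix using hX
  obtain ⟨V₁, hV₁, hV₁le⟩ := 𝒰.exists_le_finset s U fun v _ => hU v
  obtain ⟨V₂, hV₂, hV₂le⟩ := 𝒰.exists_le_finset s (fun v => W (toLin φ v)) fun v _ => hW _
  obtain ⟨V, hV, hVle⟩ := 𝒰.directed V₁ hV₁ V₂ hV₂
  refine ⟨V, hV, fun g hg => ?_⟩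
  rw [ρ_eq_self_iff]
  have key : (toLin φ) ∘ₗ (P.ρ g) = (X.ρ g) ∘ₗ (toLin φ) := by
    apply LinearMap.ext_on hs
    intro v hv
    have h1 : P.ρ g v = v := hUfix v g (hV₁le v hv ((hVle.trans inf_le_left) hg))
    have h2 : X.ρ g (toLin φ v) = toLin φ v :=
      hWfix _ g (hV₂le v hv ((hVle.trans inf_le_right) hg))
    simp only [LinearMap.comp_apply, h1, h2]
  exact fun v => LinearMap.congr_fun key v

/-! ### Invariants of `Hom(B, C)` and pushforward -/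

section pushforward

variable {B C : Rep.{u} k G}

/-- The invariant element of `Hom(B, C)` attached to a morphism `ψ : B ⟶ C`. -/
def homInv (ψ : B ⟶ C) : (homRep B C).ρ.invariants :=
  (Representation.linHom.invariantsEquivRepHom B C).symm ψ

@[simp] lemma toLin_homInv (ψ : B ⟶ C) (v : B.V) : toLin (homInv ψ).1 v = ψ.hom v := rfl

lemma homInv_add (ψ ψ' : B ⟶ C) : homInv (ψ + ψ') = homInv ψ + homInv ψ' :=
  map_add _ _ _

/-- every invariant element of `Hom(B, C)` is a morphism -/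
lemma exists_homInv_eq (a : (homRep B C).ρ.invariants) : ∃ ψ : B ⟶ C, homInv ψ = a :=
  ⟨Representation.linHom.invariantsEquivRepHom B C a, LinearEquiv.symm_apply_apply _ a⟩

/-- Evaluating the evaluation pairing at the invariant `ψ` gives back `ψ`. -/
lemma applyLeft_eval_homInv (ψ : B ⟶ C) : applyLeft (Pairing.eval B C) (homInv ψ) = ψ := by
  ext v
  rfl

/-- **Pushforward is the cup product with an `H⁰`-class** (abstract group cohomology):
`[ψ] ∪ y = ψ_* y` for `ψ ∈ Hom_G(B, C) = H⁰(G, Hom(B, C))`, `y ∈ Hⁿ(G, B)`. -/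
theorem cup_eval_homInv {n : ℕ} (h : 0 + n = n) (ψ : B ⟶ C) (y : groupCohomology B n) :
    cup (Pairing.eval B C) h ((H0Iso (homRep B C)).inv (homInv ψ)) y =
      groupCohomology.map (MonoidHom.id G) ψ n y := by
  rw [cup_H0_left]
  exact congrArg (fun t : B ⟶ C => (groupCohomology.map (MonoidHom.id G) t n) y)
    (applyLeft_eval_homInv ψ)

end pushforward

/-! ### The same on level-constant cohomology -/

section LC

variable (𝒰 : Levels G) {A B C : Rep.{u} k G} (φ : Pairing A B C)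

/-- `a ∪ y = (φ a -)_* y` for an invariant `a ∈ A^G`, on level-constant cohomology. -/
theorem cupLC_H0_left {n : ℕ} (h : 0 + n = n) (a : A.ρ.invariants) (y : LC.H 𝒰 B n) :
    cupLC 𝒰 φ h (Hπ 𝒰 A 0 (cocycleOfInvariant 𝒰 a.1 a.2)) y =
      mapId (𝒰 := 𝒰) (applyLeft φ a) n y := by
  induction y using H_induction_on with
  | h b =>
  rw [cupLC_Hπ]
  refine Eq.trans ?_ (map_Hπ (Levels.continuous_id 𝒰) (applyLeft φ a) n b).symm
  congr 1
  apply Subtype.ext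
  apply Subtype.ext
  funext x
  change cupFun φ h (fun _ => a.1) b.1.1 x = φ.toLin a.1 (b.1.1 x)
  rw [cupFun_apply, prodFst_zero, map_one, Module.End.one_apply, tupleSnd_zero]

/-- **Pushforward is the cup product with an `H⁰`-class** (level-constant cohomology). -/
theorem cupLC_eval_homInv {n : ℕ} (h : 0 + n = n) (ψ : B ⟶ C) (y : LC.H 𝒰 B n) :
    cupLC 𝒰 (Pairing.eval B C) h
        (Hπ 𝒰 (homRep B C) 0 (cocycleOfInvariant 𝒰 (homInv ψ).1 (homInv ψ).2)) y =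
      mapId (𝒰 := 𝒰) ψ n y := by
  rw [cupLC_H0_left]
  exact congrArg (fun t : B ⟶ C => (mapId (𝒰 := 𝒰) t n) y) (applyLeft_eval_homInv ψ)

end LC

/-! ### `H⁰` of level-constant cohomology -/

section H0

variable (𝒰 : Levels G) (A : Rep.{u} k G)

/-- The value of a level-constant `0`-cocycle is an invariant vector. -/
lemma cocycle₀_invariant (z : cocyclesLC 𝒰 A 0) (g : G) :
    A.ρ g (z.1.1 default) = z.1.1 default := by
  have hz := (mem_cocyclesLC_iff 𝒰 A z.1).1 z.2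
  have h1 := congrFun hz (fun _ => g)
  rw [inhomogeneousCochains.d_hom_apply] at h1
  have e1 : (fun i : Fin 0 => (fun _ : Fin 1 => g) i.succ) = default := Subsingleton.elim _ _
  have e2 : ∀ j : Fin 1, Fin.contractNth j (· * ·) (fun _ : Fin 1 => g) = default :=
    fun j => Subsingleton.elim _ _
  rw [e1] at h1
  simp only [e2] at h1
  rw [Fin.sum_univ_succ] at h1
  simp at h1
  exact add_neg_eq_zero.1 h1

/-- Level-constant `0`-cocycles are the invariant vectors. -/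
def cocycles₀Equiv : cocyclesLC 𝒰 A 0 ≃ₗ[k] A.ρ.invariants where
  toFun z := ⟨z.1.1 default, fun g => cocycle₀_invariant 𝒰 A z g⟩
  map_add' _ _ := rfl
  map_smul' _ _ := rfl
  invFun a := cocycleOfInvariant 𝒰 a.1 a.2
  left_inv z := by
    apply Subtype.ext
    apply Subtype.ext
    funext x
    rw [Subsingleton.elim x default]
    rfl
  right_inv a := rfl

lemma Hπ_zero_bijective : Function.Bijective (Hπ 𝒰 A 0) := by
  refine ⟨?_, Hπ_surjective 𝒰 A 0⟩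
  rw [injective_iff_map_eq_zero]
  intro z hz
  exact (Hπ_eq_zero_iff_zero 𝒰 A z).1 hz

/-- `H⁰_LC(G, A) = A^G`. -/
def h0Equiv : LC.H 𝒰 A 0 ≃ₗ[k] A.ρ.invariants :=
  (LinearEquiv.ofBijective (Hπ 𝒰 A 0) (Hπ_zero_bijective 𝒰 A)).symm.trans (cocycles₀Equiv 𝒰 A)

lemma h0Equiv_Hπ (z : cocyclesLC 𝒰 A 0) :
    h0Equiv 𝒰 A (Hπ 𝒰 A 0 z) = cocycles₀Equiv 𝒰 A z := by
  unfold h0Equiv
  rw [LinearEquiv.trans_apply]
  congr 1
  exact (LinearEquiv.symm_apply_eq _).2 rfl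

lemma h0Equiv_symm_apply (a : A.ρ.invariants) :
    (h0Equiv 𝒰 A).symm a = Hπ 𝒰 A 0 (cocycleOfInvariant 𝒰 a.1 a.2) := by
  rw [LinearEquiv.symm_apply_eq, h0Equiv_Hπ]
  rfl

variable {A} in
/-- Functoriality of `H⁰ = invariants` along a continuous group homomorphism and a map of
coefficients. -/
lemma h0Equiv_map {G' : Type u} [Group G'] {𝒰' : Levels G'} {φ : G' →* G}
    (hφ : Levels.Continuous φ 𝒰' 𝒰) {B : Rep.{u} k G'} (ψ : Rep.res φ A ⟶ B) (x : LC.H 𝒰 A 0) :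
    (h0Equiv 𝒰' B (LC.map hφ ψ 0 x)).1 = ψ.hom (h0Equiv 𝒰 A x).1 := by
  induction x using H_induction_on with
  | h z =>
  rw [map_Hπ, h0Equiv_Hπ, h0Equiv_Hπ]
  change ψ.hom (z.1.1 (φ ∘ default)) = ψ.hom (z.1.1 default)
  rw [Subsingleton.elim (φ ∘ (default : Fin 0 → G')) default]

variable {A} in
lemma h0Equiv_mapId {B : Rep.{u} k G} (ψ : A ⟶ B) (x : LC.H 𝒰 A 0) :
    (h0Equiv 𝒰 B (mapId (𝒰 := 𝒰) ψ 0 x)).1 = ψ.hom (h0Equiv 𝒰 A x).1 :=
  h0Equiv_map 𝒰 (Levels.continuous_id 𝒰) ψ x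

end H0

/-! ### `H⁰_LC(G, Hom(P, X)) = Hom_G(P, X)` -/

section HomH0

variable (𝒰 : Levels G) (P X : Rep.{u} k G)

/-- The invariants of `Hom(P, X)` are the morphisms `P ⟶ X`
(Mathlib's `Representation.linHom.invariantsEquivRepHom`). -/
def homInvEquiv : (homRep P X).ρ.invariants ≃ₗ[k] (P ⟶ X) := by
  exact Representation.linHom.invariantsEquivRepHom P X

variable {P X} in
lemma homInvEquiv_symm_apply (ψ : P ⟶ X) : (homInvEquiv P X).symm ψ = homInv ψ := rfl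

variable {P X} in
lemma homInvEquiv_hom_apply (a : (homRep P X).ρ.invariants) (v : P.V) :
    (homInvEquiv P X a).hom v = toLin a.1 v := rfl

/-- `H⁰_LC(G, Hom(P, X))` is the module of morphisms of representations `P ⟶ X`. -/
def h0HomEquiv : LC.H 𝒰 (homRep P X) 0 ≃ₗ[k] (P ⟶ X) :=
  (h0Equiv 𝒰 (homRep P X)).trans (homInvEquiv P X)

variable {P X}

lemma h0HomEquiv_hom_apply (x : LC.H 𝒰 (homRep P X) 0) (v : P.V) :
    (h0HomEquiv 𝒰 P X x).hom v = toLin (h0Equiv 𝒰 (homRep P X) x).1 v := rfl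

lemma homInv_h0HomEquiv (x : LC.H 𝒰 (homRep P X) 0) :
    homInv (h0HomEquiv 𝒰 P X x) = h0Equiv 𝒰 (homRep P X) x :=
  (homInvEquiv P X).symm_apply_apply _

lemma h0HomEquiv_symm_apply (ψ : P ⟶ X) :
    (h0HomEquiv 𝒰 P X).symm ψ =
      Hπ 𝒰 (homRep P X) 0 (cocycleOfInvariant 𝒰 (homInv ψ).1 (homInv ψ).2) := by
  unfold h0HomEquiv
  rw [LinearEquiv.trans_symm, LinearEquiv.trans_apply, h0Equiv_symm_apply]
  rfl

/-- Under `h0HomEquiv`, `mapId (homMap P g) 0` is post-composition with `g`. -/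
lemma h0HomEquiv_homMap {Y : Rep.{u} k G} (g : X ⟶ Y) (x : LC.H 𝒰 (homRep P X) 0) :
    h0HomEquiv 𝒰 P Y (mapId (𝒰 := 𝒰) (homMap P g) 0 x) = h0HomEquiv 𝒰 P X x ≫ g := by
  ext v
  change (h0HomEquiv 𝒰 P Y (mapId (𝒰 := 𝒰) (homMap P g) 0 x)).hom v =
    g.hom ((h0HomEquiv 𝒰 P X x).hom v)
  rw [h0HomEquiv_hom_apply, h0HomEquiv_hom_apply, h0Equiv_mapId]
  rfl

/-- Under `h0HomEquiv`, `mapId (homRes i X) 0` is pre-composition with `i`. -/
lemma h0HomEquiv_homRes {P₁ : Rep.{u} k G} (i : P₁ ⟶ P) (x : LC.H 𝒰 (homRep P X) 0) :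
    h0HomEquiv 𝒰 P₁ X (mapId (𝒰 := 𝒰) (homRes i X) 0 x) = i ≫ h0HomEquiv 𝒰 P X x := by
  ext v
  change (h0HomEquiv 𝒰 P₁ X (mapId (𝒰 := 𝒰) (homRes i X) 0 x)).hom v =
    (h0HomEquiv 𝒰 P X x).hom (i.hom v)
  rw [h0HomEquiv_hom_apply, h0HomEquiv_hom_apply, h0Equiv_mapId]
  rfl

/-- **Pushforward is the cup product with an `H⁰`-class**: for `x ∈ H⁰_LC(G, Hom(B, C))`
corresponding to `ψ : B ⟶ C`, `x ∪ y = ψ_* y`. -/
theorem cupLC_eval_eq_mapId {B C : Rep.{u} k G} {n : ℕ} (h : 0 + n = n)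
    (x : LC.H 𝒰 (homRep B C) 0) (y : LC.H 𝒰 B n) :
    cupLC 𝒰 (Pairing.eval B C) h x y = mapId (𝒰 := 𝒰) (h0HomEquiv 𝒰 B C x) n y := by
  have hx : x = (h0HomEquiv 𝒰 B C).symm (h0HomEquiv 𝒰 B C x) :=
    ((h0HomEquiv 𝒰 B C).symm_apply_apply x).symm
  conv_lhs => rw [hx, h0HomEquiv_symm_apply]
  exact cupLC_eval_homInv 𝒰 h _ y

end HomH0

end Fermat.Agent.CFT.A7.HomRep
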