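import Mathlib

/-!
# A7.2a: elementary lattice duality (input of Tate–Nakayama for lattices, (TN-20))

`Γ` a finite group, `V` a `ℤ`-free module of finite rank with a representation `ρ` of `Γ`
(a *lattice*), `n = |Γ|`, `N = ρ.norm = ∑ g, ρ g`, `V^Γ = ρ.invariants`.

* (LD3) `V^Γ` is saturated, hence a `ℤ`-direct summand: `exists_retraction`, `exists_extension`.
* (LD1) a `Γ`-invariant functional `l : V → ℤ` with `l (V^Γ) ⊆ nℤ` is of the form `μ ∘ N`.
* (LD2) every `f : V^Γ → ℤ/n` killing `N V` is the reduction of a `Γ`-invariant functional.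
-/

set_option autoImplicit false

namespace Fermat.Agent.CFT.A7.LatticeDual

open Representation

variable {Γ : Type*} [Group Γ] {V : Type*} [AddCommGroup V] (ρ : Representation ℤ Γ V)

/-! ### (LD3) the invariants are saturated and a direct summand -/

section Saturated

variable [Module.IsTorsionFree ℤ V]

/-- The invariants are saturated: `k • x ∈ V^Γ`, `k ≠ 0` implies `x ∈ V^Γ`. -/
theorem invariants_saturated {k : ℤ} (hk : k ≠ 0) {x : V} (hx : k • x ∈ ρ.invariants) :
    x ∈ ρ.invariants := by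
  rw [mem_invariants] at hx ⊢
  intro g
  have h := hx g
  rw [map_smul] at h
  exact smul_right_injective V hk h

/-- The quotient `V / V^Γ` is torsion-free. -/
instance isTorsionFree_quotient : Module.IsTorsionFree ℤ (V ⧸ ρ.invariants) where
  isSMulRegular r hr := by
    have hr0 : r ≠ 0 := hr.ne_zero
    intro x y hxy
    obtain ⟨a, rfl⟩ := Submodule.Quotient.mk_surjective _ x
    obtain ⟨b, rfl⟩ := Submodule.Quotient.mk_surjective _ y
    have h1 : Submodule.Quotient.mk (p := ρ.invariants) (r • (a - b)) = 0 := by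
      have h2 : r • Submodule.Quotient.mk (p := ρ.invariants) a
          = r • Submodule.Quotient.mk (p := ρ.invariants) b := hxy
      rw [smul_sub, Submodule.Quotient.mk_sub, Submodule.Quotient.mk_smul,
        Submodule.Quotient.mk_smul, h2, sub_self]
    rw [Submodule.Quotient.mk_eq_zero] at h1
    have h3 := invariants_saturated ρ hr0 h1
    rw [← sub_eq_zero, ← Submodule.Quotient.mk_sub, Submodule.Quotient.mk_eq_zero]
    exact h3

end Saturated

section Summand

variable [Module.Free ℤ V] [Module.Finite ℤ V]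

/-- `V^Γ` is a `ℤ`-direct summand of `V`: there is a `ℤ`-linear retraction. -/
theorem exists_retraction :
    ∃ r : V →ₗ[ℤ] ρ.invariants, ∀ x : ρ.invariants, r (x : V) = x := by
  have hfree : Module.Free ℤ (V ⧸ ρ.invariants) := Module.free_of_finite_type_torsion_free'
  obtain ⟨s, hs⟩ := LinearMap.exists_rightInverse_of_surjective (ρ.invariants.mkQ)
    (Submodule.range_mkQ _)
  have hmem : ∀ x : V, x - s (ρ.invariants.mkQ x) ∈ ρ.invariants := by
    intro x
    rw [← Submodule.Quotient.mk_eq_zero, Submodule.Quotient.mk_sub]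
    have := LinearMap.congr_fun hs (ρ.invariants.mkQ x)
    simp only [LinearMap.comp_apply, LinearMap.id_apply] at this
    rw [← Submodule.mkQ_apply, ← Submodule.mkQ_apply, this, sub_self]
  refine ⟨(LinearMap.id - s ∘ₗ ρ.invariants.mkQ).codRestrict ρ.invariants hmem, ?_⟩
  intro x
  apply Subtype.ext
  simp only [LinearMap.codRestrict_apply, LinearMap.sub_apply, LinearMap.id_apply,
    LinearMap.comp_apply]
  have : ρ.invariants.mkQ (x : V) = 0 := by
    rw [Submodule.mkQ_apply, Submodule.Quotient.mk_eq_zero]; exact x.2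
  rw [this, map_zero, sub_zero]

/-- Every functional on `V^Γ` extends to `V`. -/
theorem exists_extension {W : Type*} [AddCommGroup W] (μ₀ : ρ.invariants →ₗ[ℤ] W) :
    ∃ μ : V →ₗ[ℤ] W, ∀ x : ρ.invariants, μ (x : V) = μ₀ x := by
  obtain ⟨r, hr⟩ := exists_retraction ρ
  exact ⟨μ₀ ∘ₗ r, fun x => by rw [LinearMap.comp_apply, hr]⟩

end Summand

/-! ### (LD1), (LD2) -/

section Norm

variable [Fintype Γ]

theorem norm_mem_invariants (x : V) : ρ.norm x ∈ ρ.invariants := by
  rw [mem_invariants]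
  exact fun g => ρ.self_norm_apply g x

/-- On invariants the norm is multiplication by `|Γ|`. -/
theorem norm_apply_of_mem_invariants {x : V} (hx : x ∈ ρ.invariants) :
    ρ.norm x = (Fintype.card Γ : ℤ) • x := by
  rw [mem_invariants] at hx
  rw [Representation.norm, LinearMap.sum_apply]
  simp only [hx, Finset.sum_const, Finset.card_univ]
  rw [natCast_zsmul]

/-- An invariant functional applied to a norm. -/
theorem apply_norm_of_invariant {W : Type*} [AddCommGroup W] (l : V →ₗ[ℤ] W)
    (hl : ∀ g x, l (ρ g x) = l x) (x : V) : l (ρ.norm x) = (Fintype.card Γ : ℤ) • l x := by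
  rw [Representation.norm, LinearMap.sum_apply, map_sum]
  simp only [hl, Finset.sum_const, Finset.card_univ]
  rw [natCast_zsmul]

/-- `μ ∘ N` is `Γ`-invariant, with values in `nℤ` on the invariants. -/
theorem comp_norm_invariant {W : Type*} [AddCommGroup W] (μ : V →ₗ[ℤ] W) (g : Γ) (x : V) :
    μ (ρ.norm (ρ g x)) = μ (ρ.norm x) := by
  rw [ρ.norm_self_apply]

theorem comp_norm_dvd (μ : V →ₗ[ℤ] ℤ) {x : V} (hx : x ∈ ρ.invariants) :
    (Fintype.card Γ : ℤ) ∣ μ (ρ.norm x) := by
  rw [norm_apply_of_mem_invariants ρ hx, map_smul, smul_eq_mul]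
  exact dvd_mul_right _ _

variable [Module.Free ℤ V] [Module.Finite ℤ V]

/-- **(LD1)** A `Γ`-invariant functional `l : V → ℤ` with `l (V^Γ) ⊆ |Γ|ℤ` is `μ ∘ N` for some
functional `μ` (i.e. `l ∈ N · Hom(V, ℤ)`). -/
theorem exists_eq_comp_norm (l : V →ₗ[ℤ] ℤ) (hl : ∀ g x, l (ρ g x) = l x)
    (hdiv : ∀ x ∈ ρ.invariants, (Fintype.card Γ : ℤ) ∣ l x) :
    ∃ μ : V →ₗ[ℤ] ℤ, ∀ x, l x = μ (ρ.norm x) := by
  have hn : (Fintype.card Γ : ℤ) ≠ 0 := by exact_mod_cast Fintype.card_ne_zero
  -- `μ₀ = l / n` on the invariants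
  let μ₀ : ρ.invariants →ₗ[ℤ] ℤ :=
    { toFun := fun x => l (x : V) / (Fintype.card Γ : ℤ)
      map_add' := fun x y => by
        simp only [Submodule.coe_add, map_add]
        exact Int.add_ediv_of_dvd_left (hdiv x x.2)
      map_smul' := fun c x => by
        simp only [Submodule.coe_smul, map_smul, smul_eq_mul, RingHom.id_apply]
        exact Int.mul_ediv_assoc c (hdiv x x.2) }
  obtain ⟨μ, hμ⟩ := exists_extension ρ μ₀
  refine ⟨μ, fun x => ?_⟩
  have h1 := hμ ⟨ρ.norm x, norm_mem_invariants ρ x⟩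
  simp only at h1
  rw [h1]
  change l x = l (ρ.norm x) / (Fintype.card Γ : ℤ)
  rw [apply_norm_of_invariant ρ l hl, smul_eq_mul, Int.mul_ediv_cancel_left _ hn]

/-- **(LD2)** Every additive map `f : V^Γ → ℤ/n` (`n = |Γ|`) vanishing on the norms `N V` is the
reduction mod `n` of a `Γ`-invariant functional `l : V → ℤ`. -/
theorem exists_invariant_functional (f : ρ.invariants →+ ZMod (Fintype.card Γ))
    (hf : ∀ x : V, f ⟨ρ.norm x, norm_mem_invariants ρ x⟩ = 0) :
    ∃ l : V →ₗ[ℤ] ℤ, (∀ g x, l (ρ g x) = l x) ∧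
      ∀ x : ρ.invariants, ((l (x : V) : ℤ) : ZMod (Fintype.card Γ)) = f x := by
  have hn : (Fintype.card Γ : ℤ) ≠ 0 := by exact_mod_cast Fintype.card_ne_zero
  -- lift `f` to `f' : V^Γ → ℤ` (the invariants are free)
  have hsurj : Function.Surjective (Int.castAddHom (ZMod (Fintype.card Γ))).toIntLinearMap :=
    ZMod.intCast_surjective
  obtain ⟨f', hf'⟩ := Module.projective_lifting_property
    (Int.castAddHom (ZMod (Fintype.card Γ))).toIntLinearMap f.toIntLinearMap hsurj
  have hf'app : ∀ x : ρ.invariants, ((f' x : ℤ) : ZMod (Fintype.card Γ)) = f x := fun x =>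
    LinearMap.congr_fun hf' x
  have hdvd : ∀ x : V, (Fintype.card Γ : ℤ) ∣ f' ⟨ρ.norm x, norm_mem_invariants ρ x⟩ := by
    intro x
    rw [← ZMod.intCast_zmod_eq_zero_iff_dvd, hf'app, hf]
  -- `l = (f' ∘ N) / n`
  let l : V →ₗ[ℤ] ℤ :=
    { toFun := fun x => f' ⟨ρ.norm x, norm_mem_invariants ρ x⟩ / (Fintype.card Γ : ℤ)
      map_add' := fun x y => by
        have : (⟨ρ.norm (x + y), norm_mem_invariants ρ (x + y)⟩ : ρ.invariants)
            = ⟨ρ.norm x, norm_mem_invariants ρ x⟩ + ⟨ρ.norm y, norm_mem_invariants ρ y⟩ :=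
          Subtype.ext (map_add _ _ _)
        rw [this, map_add]
        exact Int.add_ediv_of_dvd_left (hdvd x)
      map_smul' := fun c x => by
        have : (⟨ρ.norm (c • x), norm_mem_invariants ρ (c • x)⟩ : ρ.invariants)
            = c • ⟨ρ.norm x, norm_mem_invariants ρ x⟩ :=
          Subtype.ext (map_smul _ _ _)
        rw [this, map_smul, smul_eq_mul, RingHom.id_apply, smul_eq_mul]
        exact Int.mul_ediv_assoc c (hdvd x) }
  refine ⟨l, ?_, ?_⟩
  · intro g x
    change f' ⟨ρ.norm (ρ g x), _⟩ / _ = f' ⟨ρ.norm x, _⟩ / _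
    congr 2
    exact Subtype.ext (ρ.norm_self_apply g x)
  · intro x
    change ((f' ⟨ρ.norm (x : V), _⟩ / (Fintype.card Γ : ℤ) : ℤ) : ZMod _) = f x
    have h1 : (⟨ρ.norm (x : V), norm_mem_invariants ρ x⟩ : ρ.invariants)
        = (Fintype.card Γ : ℤ) • x :=
      Subtype.ext (norm_apply_of_mem_invariants ρ x.2)
    rw [h1, map_smul, smul_eq_mul, Int.mul_ediv_cancel_left _ hn, hf'app]

end Norm

end Fermat.Agent.CFT.A7.LatticeDual
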