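import Fermat.Agent.CFT.A7.LatticeDual

/-!
# A7.2a (continued): consumer shapes of lattice duality

* `exists_norm_eq`, `exists_invariant_lift` : (LD1), (LD2) in the `∑ g, μ (ρ g x)` shape;
* `exists_norm_eq'`, `exists_invariant_lift'` : (LD1'), (LD2') with values in an abstract cyclic
  group `(A, γ)` of order `|Γ|` (the shape of `IsClassModule`: `hgen`, `hord`);
* `exists_addHom_zmod_apply_ne_zero` : characters `A →+ ℤ/n` separate the points of a finite
  abelian group killed by `n`;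
* `mem_range_norm_of_forall_dvd` : **(LD-R)** an invariant `r` with `n ∣ l r` for every invariant
  functional `l` is a norm.
-/

set_option autoImplicit false

namespace Fermat.Agent.CFT.A7.LatticeDual

open Representation

variable {Γ : Type*} [Group Γ] [Fintype Γ] {V : Type*} [AddCommGroup V]
  (ρ : Representation ℤ Γ V)

theorem apply_norm_eq_sum {W : Type*} [AddCommGroup W] (μ : V →ₗ[ℤ] W) (x : V) :
    μ (ρ.norm x) = ∑ g : Γ, μ (ρ g x) := by
  rw [Representation.norm, LinearMap.sum_apply, map_sum]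

section Shapes

variable [Module.Free ℤ V] [Module.Finite ℤ V]

/-- (LD1) in the shape `l x = ∑ g, μ (ρ g x)`. -/
theorem exists_norm_eq (l : V →ₗ[ℤ] ℤ) (hl : ∀ g x, l (ρ g x) = l x)
    (hdiv : ∀ y ∈ ρ.invariants, (Fintype.card Γ : ℤ) ∣ l y) :
    ∃ μ : V →ₗ[ℤ] ℤ, ∀ x, l x = ∑ g : Γ, μ (ρ g x) := by
  obtain ⟨μ, hμ⟩ := exists_eq_comp_norm ρ l hl hdiv
  exact ⟨μ, fun x => by rw [hμ x, apply_norm_eq_sum]⟩

/-- (LD2), alias. -/
theorem exists_invariant_lift (f : ρ.invariants →+ ZMod (Fintype.card Γ))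
    (hf : ∀ x : V, f ⟨ρ.norm x, norm_mem_invariants ρ x⟩ = 0) :
    ∃ l : V →ₗ[ℤ] ℤ, (∀ g x, l (ρ g x) = l x) ∧
      ∀ y : ρ.invariants, ((l (y : V) : ℤ) : ZMod (Fintype.card Γ)) = f y :=
  exists_invariant_functional ρ f hf

variable {A : Type*} [AddCommGroup A] (γ : A)

/-- (LD1') a `Γ`-invariant functional `l` with `l y • γ = 0` on the invariants, `γ` of order
(a multiple of) `|Γ|`, is `μ ∘ N`. -/
theorem exists_norm_eq' (hord : ∀ k : ℤ, k • γ = 0 → (Fintype.card Γ : ℤ) ∣ k)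
    (l : V →ₗ[ℤ] ℤ) (hl : ∀ g x, l (ρ g x) = l x)
    (h0 : ∀ y ∈ ρ.invariants, l y • γ = 0) :
    ∃ μ : V →ₗ[ℤ] ℤ, ∀ x, l x = μ (ρ.norm x) :=
  exists_eq_comp_norm ρ l hl fun y hy => hord _ (h0 y hy)

/-- (LD2') every `f : V^Γ → A` killing the norms, with `A` cyclic of order `|Γ|` generated by `γ`,
is `y ↦ l y • γ` for a `Γ`-invariant functional `l`. -/
theorem exists_invariant_lift' (hgen : ∀ a : A, ∃ k : ℤ, a = k • γ)
    (hord : ∀ k : ℤ, k • γ = 0 → (Fintype.card Γ : ℤ) ∣ k)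
    (hn : (Fintype.card Γ : ℤ) • γ = 0)
    (f : ρ.invariants →+ A) (hf : ∀ x : V, f ⟨ρ.norm x, norm_mem_invariants ρ x⟩ = 0) :
    ∃ l : V →ₗ[ℤ] ℤ, (∀ g x, l (ρ g x) = l x) ∧ ∀ y : ρ.invariants, f y = l (y : V) • γ := by
  choose k hk using hgen
  -- `f' y = k (f y) mod n`
  have hmod : ∀ a b : ℤ, a • γ = b • γ →
      ((a : ℤ) : ZMod (Fintype.card Γ)) = ((b : ℤ) : ZMod (Fintype.card Γ)) := by
    intro a b hab
    rw [ZMod.intCast_eq_intCast_iff_dvd_sub]
    apply hord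
    rw [sub_smul, hab, sub_self]
  let f' : ρ.invariants →+ ZMod (Fintype.card Γ) :=
    { toFun := fun y => ((k (f y) : ℤ) : ZMod (Fintype.card Γ))
      map_zero' := by
        rw [← Int.cast_zero]
        apply hmod
        rw [← hk, map_zero, zero_smul]
      map_add' := fun y z => by
        rw [← Int.cast_add]
        apply hmod
        rw [← hk, add_smul, ← hk, ← hk, map_add] }
  have hf' : ∀ x : V, f' ⟨ρ.norm x, norm_mem_invariants ρ x⟩ = 0 := by
    intro x
    change ((k (f ⟨ρ.norm x, _⟩) : ℤ) : ZMod (Fintype.card Γ)) = 0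
    rw [← Int.cast_zero]
    apply hmod
    rw [← hk, hf, zero_smul]
  obtain ⟨l, hl, hlf⟩ := exists_invariant_functional ρ f' hf'
  refine ⟨l, hl, fun y => ?_⟩
  have h1 : ((l (y : V) : ℤ) : ZMod (Fintype.card Γ)) = ((k (f y) : ℤ) : ZMod (Fintype.card Γ)) :=
    hlf y
  rw [ZMod.intCast_eq_intCast_iff_dvd_sub] at h1
  obtain ⟨c, hc⟩ := h1
  have h2 : l (y : V) = k (f y) - (Fintype.card Γ : ℤ) * c := by linarith
  rw [h2, sub_smul, mul_comm, mul_smul, hn, smul_zero, sub_zero, ← hk]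

end Shapes

/-! ### Characters into `ℤ/n` separate points -/

/-- In a finite abelian group killed by `n`, additive characters with values in `ℤ/n` separate
the points. -/
theorem exists_addHom_zmod_apply_ne_zero {A : Type*} [AddCommGroup A] [Finite A] (n : ℕ)
    [NeZero n] (hA : ∀ a : A, n • a = 0) {a : A} (ha : a ≠ 0) :
    ∃ f : A →+ ZMod n, f a ≠ 0 := by
  have hexp : NeZero (Monoid.exponent (Multiplicative A)) := ⟨Monoid.exponent_ne_zero_of_finite⟩
  have ha' : Multiplicative.ofAdd a ≠ 1 := fun h => ha (Multiplicative.ofAdd.injective h)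
  obtain ⟨φ, hφ⟩ :=
    CommGroup.exists_apply_ne_one_of_hasEnoughRootsOfUnity (Multiplicative A) ℂ ha'
  -- a primitive `n`-th root of unity of `ℂ`, as a unit
  have hζ0 := Complex.isPrimitiveRoot_exp n (NeZero.ne n)
  set ζ : ℂˣ := (hζ0.isUnit (NeZero.ne n)).unit with hζdef
  have hζ : IsPrimitiveRoot ζ n := by
    rw [← IsPrimitiveRoot.coe_units_iff]
    simpa [hζdef] using hζ0
  -- `φ` lands in `zpowers ζ`
  have hmem : ∀ x : Multiplicative A, φ x ∈ Subgroup.zpowers ζ := by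
    intro x
    rw [hζ.zpowers_eq, mem_rootsOfUnity, ← map_pow]
    have : x ^ n = 1 := by
      induction x using Multiplicative.rec with
      | ofAdd b => rw [← ofAdd_nsmul, hA, ofAdd_zero]
    rw [this, map_one]
  let ψ : Multiplicative A →* Subgroup.zpowers ζ := φ.codRestrict _ hmem
  let f : A →+ ZMod n :=
    { toFun := fun b => hζ.zmodEquivZPowers.symm (Additive.ofMul (ψ (Multiplicative.ofAdd b)))
      map_zero' := by
        rw [ofAdd_zero, map_one, ofMul_one, map_zero]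
      map_add' := fun b c => by
        rw [ofAdd_add, map_mul, ofMul_mul, map_add] }
  refine ⟨f, ?_⟩
  intro h0
  apply hφ
  have h1 : hζ.zmodEquivZPowers.symm (Additive.ofMul (ψ (Multiplicative.ofAdd a))) = 0 := h0
  rw [AddEquiv.map_eq_zero_iff] at h1
  have h2 : ψ (Multiplicative.ofAdd a) = 1 := h1
  have h3 := congrArg Subtype.val h2
  simpa [ψ] using h3

/-! ### (LD-R) -/

section LDR

/-- The norms inside the invariants, as a subgroup of `V^Γ`. -/
noncomputable def normSubgroup : AddSubgroup ρ.invariants :=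
  (ρ.norm.codRestrict ρ.invariants (norm_mem_invariants ρ)).toAddMonoidHom.range

theorem mem_normSubgroup {y : ρ.invariants} :
    y ∈ normSubgroup ρ ↔ ∃ x : V, ρ.norm x = (y : V) := by
  constructor
  · rintro ⟨x, hx⟩
    exact ⟨x, congrArg Subtype.val hx⟩
  · rintro ⟨x, hx⟩
    exact ⟨x, Subtype.ext hx⟩

/-- `Ĥ⁰ = V^Γ / N V` is killed by `|Γ|`. -/
theorem card_nsmul_mk_eq_zero (a : ρ.invariants ⧸ normSubgroup ρ) :
    (Fintype.card Γ) • a = 0 := by
  obtain ⟨y, rfl⟩ := QuotientAddGroup.mk_surjective a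
  rw [← QuotientAddGroup.mk_nsmul, QuotientAddGroup.eq_zero_iff, mem_normSubgroup]
  refine ⟨(y : V), ?_⟩
  rw [norm_apply_of_mem_invariants ρ y.2]
  simp

variable [Module.Finite ℤ V]

/-- `Ĥ⁰ = V^Γ / N V` is finite for a finitely generated `V`. -/
theorem finite_quotient_normSubgroup : Finite (ρ.invariants ⧸ normSubgroup ρ) := by
  have h1 : Module.Finite ℤ ρ.invariants := inferInstance
  have h2 : AddGroup.FG ρ.invariants := Module.Finite.iff_addGroup_fg.mp h1
  have h3 : AddGroup.FG (ρ.invariants ⧸ normSubgroup ρ) := QuotientAddGroup.fg _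
  refine AddCommGroup.finite_of_fg_isAddTorsion _ ?_
  intro a
  rw [isOfFinAddOrder_iff_nsmul_eq_zero]
  exact ⟨Fintype.card Γ, Fintype.card_pos, card_nsmul_mk_eq_zero ρ a⟩

variable [Module.Free ℤ V]

/-- **(LD-R)** An invariant element `r` such that `|Γ| ∣ l r` for every `Γ`-invariant functional
`l : V → ℤ` is a norm. -/
theorem mem_range_norm_of_forall_dvd {r : V} (hr : r ∈ ρ.invariants)
    (h : ∀ l : V →ₗ[ℤ] ℤ, (∀ g x, l (ρ g x) = l x) → (Fintype.card Γ : ℤ) ∣ l r) :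
    ∃ x : V, ρ.norm x = r := by
  classical
  by_contra hcon
  have hn0 : NeZero (Fintype.card Γ) := ⟨Fintype.card_ne_zero⟩
  have hfinQ : Finite (ρ.invariants ⧸ normSubgroup ρ) := finite_quotient_normSubgroup ρ
  -- the class of `r` in `Ĥ⁰` is nonzero
  have hne : (QuotientAddGroup.mk (⟨r, hr⟩ : ρ.invariants) : ρ.invariants ⧸ normSubgroup ρ) ≠ 0 := by
    rw [Ne, QuotientAddGroup.eq_zero_iff, mem_normSubgroup]
    exact hcon
  obtain ⟨f, hf⟩ := exists_addHom_zmod_apply_ne_zero (Fintype.card Γ)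
    (card_nsmul_mk_eq_zero ρ) hne
  -- pull back to `V^Γ` and lift by (LD2)
  let f' : ρ.invariants →+ ZMod (Fintype.card Γ) := f.comp (QuotientAddGroup.mk' (normSubgroup ρ))
  have hf' : ∀ x : V, f' ⟨ρ.norm x, norm_mem_invariants ρ x⟩ = 0 := by
    intro x
    have : (QuotientAddGroup.mk' (normSubgroup ρ)) ⟨ρ.norm x, norm_mem_invariants ρ x⟩ = 0 := by
      rw [QuotientAddGroup.mk'_apply, QuotientAddGroup.eq_zero_iff, mem_normSubgroup]
      exact ⟨x, rfl⟩
    change f ((QuotientAddGroup.mk' (normSubgroup ρ)) ⟨ρ.norm x, norm_mem_invariants ρ x⟩) = 0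
    rw [this, map_zero]
  obtain ⟨l, hl, hlf⟩ := exists_invariant_functional ρ f' hf'
  apply hf
  have h1 : ((l r : ℤ) : ZMod (Fintype.card Γ)) = f' ⟨r, hr⟩ := hlf ⟨r, hr⟩
  have h2 : ((l r : ℤ) : ZMod (Fintype.card Γ)) = 0 := by
    rw [ZMod.intCast_zmod_eq_zero_iff_dvd]
    exact h l hl
  rw [h2] at h1
  exact h1.symm

/-- **(LD-R)**, subtype form. -/
theorem mem_normSubgroup_of_forall_dvd (r : ρ.invariants)
    (h : ∀ l : V →ₗ[ℤ] ℤ, (∀ g x, l (ρ g x) = l x) → (Fintype.card Γ : ℤ) ∣ l (r : V)) :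
    r ∈ normSubgroup ρ :=
  (mem_normSubgroup ρ).2 (mem_range_norm_of_forall_dvd ρ r.2 h)

end LDR

end Fermat.Agent.CFT.A7.LatticeDual
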