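import Mathlib

/-!
# A7.2a over a general PID: elementary lattice duality (input of Tate–Nakayama (NT))

`k` a principal ideal domain (e.g. `ℤ`, `ℤ_(p)`), `Γ` a finite group with `n = |Γ| ≠ 0` in `k`,
`V` a free `k`-module of finite rank with a representation `ρ` of `Γ` (a *`k`-lattice*).  The
`k`-module structure of `V` is a generic instance argument, so everything applies verbatim to
`P.ρ` for `P : Rep k Γ` (no instance diamonds).  `Z` is a `k`-module which is cyclic of order `n`
generated by `γ` (e.g. `H²(Γ, C)` of a class module with its fundamental class).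

* (LD3) `invariants_saturated`, `exists_retraction`, `exists_extension` : `V^Γ` is a direct summand;
* (LD1) `exists_eq_sum_comp` : an invariant functional `l` with `n ∣ l (V^Γ)` is `Σ_g μ ∘ ρ g`;
* (LD2') `exists_invariant_functional` : every linear `f : V^Γ → Z` killing the norms is
  `r ↦ l r • γ` for an invariant functional `l`;
* (LD-R) `exists_norm_eq` : an invariant `r` with `n ∣ l r` for all invariant functionals `l` is a
  norm `Σ_g ρ g y`;
* (LD2'-dual) `exists_invariant_vector` : every linear `Λ` on the invariant functionals killing the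
  norms `Σ_g μ ∘ ρ g` is `l ↦ l r • γ` for an invariant `r`.
-/

set_option autoImplicit false

namespace Fermat.Agent.CFT.A7.LatticeDualK

open Representation

variable {k : Type*} [CommRing k] [IsDomain k] [IsPrincipalIdealRing k]
  {Γ : Type*} [Group Γ] {V : Type*} [AddCommGroup V] [Module k V] (ρ : Representation k Γ V)

/-! ### (LD3) the invariants are saturated and a direct summand -/

section Saturated

variable [Module.IsTorsionFree k V]

omit [IsPrincipalIdealRing k] in
/-- The invariants are saturated: `c • x ∈ V^Γ`, `c ≠ 0` implies `x ∈ V^Γ`. -/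
theorem invariants_saturated {c : k} (hc : c ≠ 0) {x : V} (hx : c • x ∈ ρ.invariants) :
    x ∈ ρ.invariants := by
  rw [mem_invariants] at hx ⊢
  intro g
  have h := hx g
  rw [map_smul] at h
  exact smul_right_injective V hc h

omit [IsPrincipalIdealRing k] in
/-- The quotient `V / V^Γ` is torsion-free. -/
theorem isTorsionFree_quotient : Module.IsTorsionFree k (V ⧸ ρ.invariants) where
  isSMulRegular r hr := by
    have hr0 : r ≠ 0 := hr.ne_zero
    intro x y hxy
    obtain ⟨a, rfl⟩ := Submodule.Quotient.mk_surjective _ x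
    obtain ⟨b, rfl⟩ := Submodule.Quotient.mk_surjective _ y
    have h1 : Submodule.Quotient.mk (p := ρ.invariants) (r • (a - b)) = 0 := by
      have h2 : r • Submodule.Quotient.mk (p := ρ.invariants) a
          = r • Submodule.Quotient.mk (p := ρ.invariants) b := hxy
      rw [smul_sub, Submodule.Quotient.mk_sub, Submodule.Quotient.mk_smul,
        Submodule.Quotient.mk_smul, h2, sub_self]
    rw [Submodule.Quotient.mk_eq_zero] at h1
    have h3 := invariants_saturated ρ hr0 h1
    rw [← sub_eq_zero, ← Submodule.Quotient.mk_sub, Submodule.Quotient.mk_eq_zero]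
    exact h3

end Saturated

section Summand

variable [Module.Free k V] [Module.Finite k V]

/-- `V^Γ` is a `k`-direct summand of `V`: there is a `k`-linear retraction. -/
theorem exists_retraction :
    ∃ r : V →ₗ[k] ρ.invariants, ∀ x : ρ.invariants, r (x : V) = x := by
  have := isTorsionFree_quotient ρ
  have hfree : Module.Free k (V ⧸ ρ.invariants) := Module.free_of_finite_type_torsion_free'
  obtain ⟨s, hs⟩ := LinearMap.exists_rightInverse_of_surjective (ρ.invariants.mkQ)
    (Submodule.range_mkQ _)
  have hmem : ∀ x : V, x - s (ρ.invariants.mkQ x) ∈ ρ.invariants := by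
    intro x
    rw [← Submodule.Quotient.mk_eq_zero, Submodule.Quotient.mk_sub]
    have := LinearMap.congr_fun hs (ρ.invariants.mkQ x)
    simp only [LinearMap.comp_apply, LinearMap.id_apply] at this
    rw [← Submodule.mkQ_apply, ← Submodule.mkQ_apply, this, sub_self]
  refine ⟨(LinearMap.id - s ∘ₗ ρ.invariants.mkQ).codRestrict ρ.invariants hmem, ?_⟩
  intro x
  apply Subtype.ext
  simp only [LinearMap.codRestrict_apply, LinearMap.sub_apply, LinearMap.id_apply,
    LinearMap.comp_apply]
  have : ρ.invariants.mkQ (x : V) = 0 := by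
    rw [Submodule.mkQ_apply, Submodule.Quotient.mk_eq_zero]; exact x.2
  rw [this, map_zero, sub_zero]

/-- Every linear map on `V^Γ` extends to `V`. -/
theorem exists_extension {W : Type*} [AddCommGroup W] [Module k W] (μ₀ : ρ.invariants →ₗ[k] W) :
    ∃ μ : V →ₗ[k] W, ∀ x : ρ.invariants, μ (x : V) = μ₀ x := by
  obtain ⟨r, hr⟩ := exists_retraction ρ
  exact ⟨μ₀ ∘ₗ r, fun x => by rw [LinearMap.comp_apply, hr]⟩

end Summand

/-! ### Norms -/

section Norm

variable [Fintype Γ]

omit [IsDomain k] [IsPrincipalIdealRing k] in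
theorem norm_apply (x : V) : ρ.norm x = ∑ g, ρ g x := by
  unfold Representation.norm
  exact LinearMap.sum_apply _ _ _

omit [IsDomain k] [IsPrincipalIdealRing k] in
theorem norm_mem_invariants (x : V) : ρ.norm x ∈ ρ.invariants :=
  fun g => Representation.self_norm_apply ρ g x

omit [IsDomain k] [IsPrincipalIdealRing k] in
theorem norm_of_invariant {x : V} (hx : ∀ g, ρ g x = x) :
    ρ.norm x = (Fintype.card Γ : k) • x := by
  rw [norm_apply, Finset.sum_congr rfl fun g _ => hx g, Finset.sum_const, Finset.card_univ,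
    Nat.cast_smul_eq_nsmul]

omit [IsDomain k] [IsPrincipalIdealRing k] in
theorem apply_norm_of_invariant {W : Type*} [AddCommGroup W] [Module k W] (l : V →ₗ[k] W)
    (hl : ∀ g x, l (ρ g x) = l x) (x : V) : l (ρ.norm x) = (Fintype.card Γ : k) • l x := by
  rw [norm_apply, map_sum, Finset.sum_congr rfl fun g _ => hl g x, Finset.sum_const,
    Finset.card_univ, Nat.cast_smul_eq_nsmul]

omit [IsPrincipalIdealRing k] in
/-- Division by `n` of a linear map with values in `n k`. -/
theorem exists_div_linear {W : Type*} [AddCommGroup W] [Module k W] {n : k} (hn : n ≠ 0)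
    (F : W →ₗ[k] k) (hF : ∀ w, n ∣ F w) : ∃ F' : W →ₗ[k] k, ∀ w, F w = n * F' w := by
  choose c hc using hF
  refine ⟨⟨⟨c, fun x y => ?_⟩, fun a x => ?_⟩, hc⟩
  · apply mul_left_cancel₀ hn
    rw [← hc, map_add, hc x, hc y, mul_add]
  · apply mul_left_cancel₀ hn
    rw [← hc, map_smul, hc x, RingHom.id_apply, smul_eq_mul, smul_eq_mul]
    ring

variable [Module.Free k V] [Module.Finite k V]

/-- **(LD1)** A `Γ`-invariant functional `l : V → k` with `l (V^Γ) ⊆ n k` is `Σ_g μ ∘ ρ g` for some
functional `μ`. -/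
theorem exists_eq_sum_comp (hn : (Fintype.card Γ : k) ≠ 0) (l : V →ₗ[k] k)
    (hl : ∀ g x, l (ρ g x) = l x)
    (hdiv : ∀ y : V, (∀ g, ρ g y = y) → (Fintype.card Γ : k) ∣ l y) :
    ∃ μ : V →ₗ[k] k, ∀ x, l x = ∑ g, μ (ρ g x) := by
  obtain ⟨μ₀, hμ₀⟩ := exists_div_linear hn (l ∘ₗ ρ.invariants.subtype)
    (fun w => hdiv w.1 fun g => w.2 g)
  obtain ⟨μ, hμ⟩ := exists_extension ρ μ₀
  refine ⟨μ, fun x => ?_⟩
  rw [← map_sum, ← norm_apply]
  have h1 := hμ ⟨ρ.norm x, norm_mem_invariants ρ x⟩
  have h2 := hμ₀ ⟨ρ.norm x, norm_mem_invariants ρ x⟩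
  simp only [LinearMap.comp_apply, Submodule.subtype_apply] at h1 h2
  rw [h1]
  apply mul_left_cancel₀ hn
  rw [← h2, apply_norm_of_invariant ρ l hl, smul_eq_mul]

variable {Z : Type*} [AddCommGroup Z] [Module k Z] (γ : Z)

/-- **(LD2')** `Z` cyclic of order `n` generated by `γ`: every linear `f : V^Γ → Z` vanishing on
the norms is `r ↦ l r • γ` for a `Γ`-invariant functional `l : V → k`. -/
theorem exists_invariant_functional (hn : (Fintype.card Γ : k) ≠ 0)
    (hgen : ∀ z : Z, ∃ c : k, z = c • γ)
    (hord : ∀ c : k, c • γ = 0 → (Fintype.card Γ : k) ∣ c)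
    (f : ρ.invariants →ₗ[k] Z)
    (hf : ∀ v : V, f ⟨ρ.norm v, fun g => Representation.self_norm_apply _ g v⟩ = 0) :
    ∃ l : V →ₗ[k] k, (∀ g x, l (ρ g x) = l x) ∧ ∀ y : ρ.invariants, f y = l y.1 • γ := by
  -- lift `f` through `k → Z`, `c ↦ c • γ`
  have hsurj : Function.Surjective (LinearMap.toSpanSingleton k Z γ) := fun z => by
    obtain ⟨c, rfl⟩ := hgen z
    exact ⟨c, rfl⟩
  obtain ⟨f', hf'⟩ := Module.projective_lifting_property (LinearMap.toSpanSingleton k Z γ) f hsurj
  have hf'app : ∀ r : ρ.invariants, f r = f' r • γ := fun r =>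
    (LinearMap.congr_fun hf' r).symm
  -- the norm map `V → V^Γ`
  let N : V →ₗ[k] ρ.invariants := ρ.norm.codRestrict ρ.invariants (norm_mem_invariants ρ)
  have hN : ∀ x, N x = ⟨ρ.norm x, fun g => Representation.self_norm_apply _ g x⟩ := fun x => rfl
  have hNρ : ∀ g x, N (ρ g x) = N x := fun g x =>
    Subtype.ext (Representation.norm_self_apply ρ g x)
  obtain ⟨l, hl⟩ := exists_div_linear hn (f' ∘ₗ N) (fun x => hord _ (by
    rw [LinearMap.comp_apply, hN, ← hf'app]
    exact hf x))
  refine ⟨l, fun g x => ?_, fun r => ?_⟩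
  · apply mul_left_cancel₀ hn
    rw [← hl, ← hl, LinearMap.comp_apply, LinearMap.comp_apply, hNρ]
  · rw [hf'app]
    congr 1
    apply mul_left_cancel₀ hn
    rw [← hl, LinearMap.comp_apply]
    have h1 : N (r : V) = (Fintype.card Γ : k) • r :=
      Subtype.ext (norm_of_invariant ρ fun g => r.2 g)
    rw [h1, map_smul, smul_eq_mul]

/-- **(LD2')**, additive form (the shape of the field `LD2` of `NTHyp`): for an additive `f`
which is compatible with the scalars. -/
theorem exists_invariant_functional_of_addMonoidHom (hn : (Fintype.card Γ : k) ≠ 0)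
    (hgen : ∀ z : Z, ∃ c : k, z = c • γ)
    (hord : ∀ c : k, c • γ = 0 → (Fintype.card Γ : k) ∣ c)
    (f : ρ.invariants →+ Z) (hlin : ∀ (c : k) (r : ρ.invariants), f (c • r) = c • f r)
    (hf : ∀ v : V, f ⟨ρ.norm v, fun g => Representation.self_norm_apply _ g v⟩ = 0) :
    ∃ l : V →ₗ[k] k, (∀ g x, l (ρ g x) = l x) ∧ ∀ y : ρ.invariants, f y = l y.1 • γ :=
  exists_invariant_functional ρ γ hn hgen hord
    { toFun := f, map_add' := f.map_add, map_smul' := hlin } hf

end Norm

/-! ### The dual lattice -/

section Dual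

omit [IsDomain k] [IsPrincipalIdealRing k] in
/-- The invariant elements of the dual representation are the invariant functionals. -/
theorem mem_dual_invariants_iff (l : Module.Dual k V) :
    l ∈ ρ.dual.invariants ↔ ∀ g x, l (ρ g x) = l x := by
  constructor
  · intro h g x
    have h2 := LinearMap.congr_fun (h g⁻¹) x
    rw [Representation.dual_apply, inv_inv] at h2
    exact h2
  · intro h g
    refine LinearMap.ext fun x => ?_
    rw [Representation.dual_apply]
    exact h g⁻¹ x

variable [Fintype Γ]

omit [IsDomain k] [IsPrincipalIdealRing k] in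
theorem dual_norm_apply (μ : Module.Dual k V) (x : V) :
    ρ.dual.norm μ x = ∑ g, μ (ρ g x) := by
  rw [norm_apply, LinearMap.sum_apply]
  refine Fintype.sum_equiv (Equiv.inv Γ) _ _ (fun g => ?_)
  rw [Representation.dual_apply]
  rfl

omit [IsDomain k] [IsPrincipalIdealRing k] in
theorem dual_norm_apply' (μ : Module.Dual k V) (x : V) :
    ρ.dual.norm μ x = μ (ρ.norm x) := by
  rw [dual_norm_apply, norm_apply, map_sum]

variable [Module.Free k V] [Module.Finite k V]

/-- **(LD-R)** An invariant vector `r` with `n ∣ l r` for all invariant functionals `l` is a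
norm. -/
theorem exists_eq_norm (hn : (Fintype.card Γ : k) ≠ 0) (r : V) (hr : ∀ g, ρ g r = r)
    (hdiv : ∀ l : V →ₗ[k] k, (∀ g x, l (ρ g x) = l x) → (Fintype.card Γ : k) ∣ l r) :
    ∃ y : V, r = ρ.norm y := by
  obtain ⟨M, hM⟩ := exists_eq_sum_comp ρ.dual hn (Module.Dual.eval k V r)
    (fun g μ => by
      rw [Module.Dual.eval_apply, Module.Dual.eval_apply, Representation.dual_apply,
        Module.Dual.transpose_apply, LinearMap.comp_apply, hr])
    (fun l hl => by
      rw [Module.Dual.eval_apply]
      exact hdiv l ((mem_dual_invariants_iff ρ l).1 hl))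
  obtain ⟨y, rfl⟩ := (Module.evalEquiv k V).surjective M
  refine ⟨y, ?_⟩
  apply (Module.evalEquiv k V).injective
  refine LinearMap.ext fun μ => ?_
  have h := hM μ
  simp only [Module.evalEquiv_apply, Module.Dual.eval_apply] at h ⊢
  rw [h, ← dual_norm_apply']
  rw [norm_apply, LinearMap.sum_apply]

variable {Z : Type*} [AddCommGroup Z] [Module k Z] (γ : Z)

/-- **(LD2'-dual)** (the shape of the field `LDdual` of `NTHyp`): every additive, scalar-compatible
`Λ` on the invariant functionals with values in `Z` (cyclic of order `n`, generated by `γ`)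
killing the norms is `l ↦ l r • γ` for an invariant vector `r`. -/
theorem exists_invariant_vector (hn : (Fintype.card Γ : k) ≠ 0)
    (hgen : ∀ z : Z, ∃ c : k, z = c • γ)
    (hord : ∀ c : k, c • γ = 0 → (Fintype.card Γ : k) ∣ c)
    (Λ : ρ.dual.invariants →+ Z)
    (hlin : ∀ (c : k) (l : ρ.dual.invariants), Λ (c • l) = c • Λ l)
    (hΛ : ∀ μ : Module.Dual k V,
      Λ ⟨ρ.dual.norm μ, fun g => Representation.self_norm_apply _ g μ⟩ = 0) :
    ∃ r : V, (∀ g, ρ g r = r) ∧ ∀ l : ρ.dual.invariants, Λ l = (l.1 r) • γ := by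
  obtain ⟨L, hL, hΛL⟩ :=
    exists_invariant_functional_of_addMonoidHom ρ.dual γ hn hgen hord Λ hlin hΛ
  obtain ⟨r, rfl⟩ := (Module.evalEquiv k V).surjective L
  refine ⟨r, fun g => ?_, fun l => ?_⟩
  · apply (Module.evalEquiv k V).injective
    refine LinearMap.ext fun μ => ?_
    have h := hL g⁻¹ μ
    simp only [Module.evalEquiv_apply, Module.Dual.eval_apply, Representation.dual_apply,
      Module.Dual.transpose_apply, LinearMap.comp_apply, inv_inv] at h ⊢
    exact h
  · rw [hΛL l]
    rfl

end Dual

end Fermat.Agent.CFT.A7.LatticeDualK
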