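import Mathlib

/-!
# A7.2a over a PID: elementary lattice duality with coefficients in a principal ideal domain

`k` a principal ideal domain (e.g. `ℤ` or `ℤ_(p)`), `Γ` a finite group whose order `n = |Γ|` is
nonzero in `k`, `V` a free `k`-module of finite rank with a representation `ρ` of `Γ` (a
*`k`-lattice*), `N = ρ.norm`, `V^Γ = ρ.invariants`.

* (LD3) `V^Γ` is saturated, hence a direct summand: `exists_retraction`, `exists_extension`.
* (LD1) `exists_norm_eq` : a `Γ`-invariant functional `l : V → k` with `l (V^Γ) ⊆ n k` is of the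
  form `x ↦ ∑ g, μ (ρ g x)`.
* (LD2) `exists_invariant_lift` : every linear `f : V^Γ → A` killing `N V`, where `A` is a cyclic
  `k`-module generated by `γ` with annihilator inside `n k`, is `y ↦ l y • γ` for a `Γ`-invariant
  functional `l`.
* (LD-R) `exists_eq_norm_of_forall_dvd` : an invariant `r` with `n ∣ l r` for all invariant
  functionals `l` is a norm.  [(LD1) for the dual lattice + reflexivity]
* (LD-dual) `exists_invariant_eval` : every linear `Λ : (V^∨)^Γ → A` killing the norms is
  `l ↦ l r • γ` for an invariant `r`.  [(LD2) for the dual lattice + reflexivity]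

These are exactly the fields `LD1`, `LD2`, `LDR`, `LDdual` of `A7.NT.NTHyp`.
-/

set_option autoImplicit false

namespace Fermat.Agent.CFT.A7.LatticeDualNT

open Representation

variable {k : Type*} [CommRing k] {Γ : Type*} [Group Γ] {V : Type*} [AddCommGroup V] [Module k V]
  (ρ : Representation k Γ V)

/-! ### Division of a linear form -/

/-- A linear form all of whose values are divisible by `n ≠ 0` is `n` times a linear form. -/
theorem exists_div_linear [IsDomain k] {W : Type*} [AddCommGroup W] [Module k W] {n : k}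
    (hn : n ≠ 0) (h : W →ₗ[k] k) (hdiv : ∀ x, n ∣ h x) :
    ∃ h' : W →ₗ[k] k, ∀ x, h x = n * h' x := by
  choose q hq using hdiv
  refine ⟨{ toFun := q, map_add' := ?_, map_smul' := ?_ }, hq⟩
  · intro x y
    apply mul_left_cancel₀ hn
    rw [mul_add, ← hq, ← hq, ← hq, map_add]
  · intro c x
    apply mul_left_cancel₀ hn
    simp only [RingHom.id_apply, smul_eq_mul]
    rw [← hq, map_smul, smul_eq_mul, hq x]
    ring

/-! ### (LD3) the invariants are saturated and a direct summand -/

section Saturated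

variable [IsDomain k] [Module.IsTorsionFree k V]

/-- The invariants are saturated. -/
theorem invariants_saturated {c : k} (hc : c ≠ 0) {x : V} (hx : c • x ∈ ρ.invariants) :
    x ∈ ρ.invariants := by
  rw [mem_invariants] at hx ⊢
  intro g
  have h := hx g
  rw [map_smul] at h
  exact smul_right_injective V hc h

/-- The quotient `V / V^Γ` is torsion-free. -/
instance isTorsionFree_quotient : Module.IsTorsionFree k (V ⧸ ρ.invariants) where
  isSMulRegular r hr := by
    have hr0 : r ≠ 0 := hr.ne_zero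
    intro x y hxy
    obtain ⟨a, rfl⟩ := Submodule.Quotient.mk_surjective _ x
    obtain ⟨b, rfl⟩ := Submodule.Quotient.mk_surjective _ y
    have h1 : Submodule.Quotient.mk (p := ρ.invariants) (r • (a - b)) = 0 := by
      have h2 : r • Submodule.Quotient.mk (p := ρ.invariants) a
          = r • Submodule.Quotient.mk (p := ρ.invariants) b := hxy
      rw [smul_sub, Submodule.Quotient.mk_sub, Submodule.Quotient.mk_smul,
        Submodule.Quotient.mk_smul, h2, sub_self]
    rw [Submodule.Quotient.mk_eq_zero] at h1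
    have h3 := invariants_saturated ρ hr0 h1
    rw [← sub_eq_zero, ← Submodule.Quotient.mk_sub, Submodule.Quotient.mk_eq_zero]
    exact h3

end Saturated

section Summand

variable [IsDomain k] [IsPrincipalIdealRing k] [Module.Free k V] [Module.Finite k V]

/-- `V^Γ` is a direct summand of `V`: there is a `k`-linear retraction. -/
theorem exists_retraction :
    ∃ r : V →ₗ[k] ρ.invariants, ∀ x : ρ.invariants, r (x : V) = x := by
  have hfree : Module.Free k (V ⧸ ρ.invariants) := Module.free_of_finite_type_torsion_free'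
  obtain ⟨s, hs⟩ := LinearMap.exists_rightInverse_of_surjective (ρ.invariants.mkQ)
    (Submodule.range_mkQ _)
  have hmem : ∀ x : V, x - s (ρ.invariants.mkQ x) ∈ ρ.invariants := by
    intro x
    rw [← Submodule.Quotient.mk_eq_zero, Submodule.Quotient.mk_sub]
    have := LinearMap.congr_fun hs (ρ.invariants.mkQ x)
    simp only [LinearMap.comp_apply, LinearMap.id_apply] at this
    rw [← Submodule.mkQ_apply, ← Submodule.mkQ_apply, this, sub_self]
  refine ⟨(LinearMap.id - s ∘ₗ ρ.invariants.mkQ).codRestrict ρ.invariants hmem, ?_⟩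
  intro x
  apply Subtype.ext
  simp only [LinearMap.codRestrict_apply, LinearMap.sub_apply, LinearMap.id_apply,
    LinearMap.comp_apply]
  have : ρ.invariants.mkQ (x : V) = 0 := by
    rw [Submodule.mkQ_apply, Submodule.Quotient.mk_eq_zero]; exact x.2
  rw [this, map_zero, sub_zero]

/-- Every linear map on `V^Γ` extends to `V`. -/
theorem exists_extension {W : Type*} [AddCommGroup W] [Module k W] (μ₀ : ρ.invariants →ₗ[k] W) :
    ∃ μ : V →ₗ[k] W, ∀ x : ρ.invariants, μ (x : V) = μ₀ x := by
  obtain ⟨r, hr⟩ := exists_retraction ρ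
  exact ⟨μ₀ ∘ₗ r, fun x => by rw [LinearMap.comp_apply, hr]⟩

end Summand

/-! ### Norms -/

section Norm

variable [Fintype Γ]

theorem norm_mem_invariants (x : V) : ρ.norm x ∈ ρ.invariants := by
  rw [mem_invariants]
  exact fun g => ρ.self_norm_apply g x

/-- On invariants the norm is multiplication by `|Γ|`. -/
theorem norm_apply_of_mem_invariants {x : V} (hx : x ∈ ρ.invariants) :
    ρ.norm x = (Fintype.card Γ : k) • x := by
  rw [mem_invariants] at hx
  rw [Representation.norm, LinearMap.sum_apply]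
  simp only [hx, Finset.sum_const, Finset.card_univ]
  rw [Nat.cast_smul_eq_nsmul]

/-- An invariant linear map applied to a norm. -/
theorem apply_norm_of_invariant {W : Type*} [AddCommGroup W] [Module k W] (l : V →ₗ[k] W)
    (hl : ∀ g x, l (ρ g x) = l x) (x : V) : l (ρ.norm x) = (Fintype.card Γ : k) • l x := by
  rw [Representation.norm, LinearMap.sum_apply, map_sum]
  simp only [hl, Finset.sum_const, Finset.card_univ]
  rw [Nat.cast_smul_eq_nsmul]

theorem apply_norm_eq_sum {W : Type*} [AddCommGroup W] [Module k W] (μ : V →ₗ[k] W) (x : V) :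
    μ (ρ.norm x) = ∑ g : Γ, μ (ρ g x) := by
  rw [Representation.norm, LinearMap.sum_apply, map_sum]

variable [IsDomain k] [IsPrincipalIdealRing k] [Module.Free k V] [Module.Finite k V]

/-- **(LD1)** A `Γ`-invariant functional `l : V → k` with `l (V^Γ) ⊆ |Γ| k` is `μ ∘ N` for some
functional `μ`. -/
theorem exists_eq_comp_norm (hn : (Fintype.card Γ : k) ≠ 0) (l : V →ₗ[k] k)
    (hl : ∀ g x, l (ρ g x) = l x)
    (hdiv : ∀ x ∈ ρ.invariants, (Fintype.card Γ : k) ∣ l x) :
    ∃ μ : V →ₗ[k] k, ∀ x, l x = μ (ρ.norm x) := by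
  obtain ⟨μ₀, hμ₀⟩ := exists_div_linear hn (l ∘ₗ ρ.invariants.subtype)
    (fun x => hdiv x x.2)
  obtain ⟨μ, hμ⟩ := exists_extension ρ μ₀
  refine ⟨μ, fun x => ?_⟩
  have h1 := hμ ⟨ρ.norm x, norm_mem_invariants ρ x⟩
  simp only at h1
  rw [h1]
  apply mul_left_cancel₀ hn
  rw [← hμ₀]
  simp only [LinearMap.comp_apply, Submodule.subtype_apply]
  rw [apply_norm_of_invariant ρ l hl, smul_eq_mul]

/-- **(LD1)** in the shape `l x = ∑ g, μ (ρ g x)`. -/
theorem exists_norm_eq (hn : (Fintype.card Γ : k) ≠ 0) (l : V →ₗ[k] k)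
    (hl : ∀ g x, l (ρ g x) = l x)
    (hdiv : ∀ y : V, (∀ g, ρ g y = y) → (Fintype.card Γ : k) ∣ l y) :
    ∃ μ : V →ₗ[k] k, ∀ x, l x = ∑ g : Γ, μ (ρ g x) := by
  obtain ⟨μ, hμ⟩ := exists_eq_comp_norm ρ hn l hl
    (fun y hy => hdiv y ((mem_invariants ρ y).1 hy))
  exact ⟨μ, fun x => by rw [hμ x, apply_norm_eq_sum]⟩

variable {A : Type*} [AddCommGroup A] [Module k A] (γ : A)

/-- **(LD2)** every linear `f : V^Γ → A` killing the norms, with `A` generated by `γ` and
`c • γ = 0 → |Γ| ∣ c`, is `y ↦ l y • γ` for a `Γ`-invariant functional `l`. -/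
theorem exists_invariant_lift (hn : (Fintype.card Γ : k) ≠ 0)
    (hgen : ∀ a : A, ∃ c : k, a = c • γ)
    (hord : ∀ c : k, c • γ = 0 → (Fintype.card Γ : k) ∣ c)
    (f : ρ.invariants →ₗ[k] A) (hf : ∀ x : V, f ⟨ρ.norm x, norm_mem_invariants ρ x⟩ = 0) :
    ∃ l : V →ₗ[k] k, (∀ g x, l (ρ g x) = l x) ∧ ∀ y : ρ.invariants, f y = l (y : V) • γ := by
  -- lift `f` through `c ↦ c • γ` (the invariants are free)
  have hsurj : Function.Surjective (LinearMap.toSpanSingleton k A γ) := by
    intro a
    obtain ⟨c, hc⟩ := hgen a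
    exact ⟨c, by rw [LinearMap.toSpanSingleton_apply, hc]⟩
  obtain ⟨f', hf'⟩ := Module.projective_lifting_property
    (LinearMap.toSpanSingleton k A γ) f hsurj
  have hf'app : ∀ x : ρ.invariants, f' x • γ = f x := fun x => by
    have := LinearMap.congr_fun hf' x
    rwa [LinearMap.comp_apply, LinearMap.toSpanSingleton_apply] at this
  -- `l = (f' ∘ N) / n`
  let fN : V →ₗ[k] k := f' ∘ₗ (ρ.norm.codRestrict ρ.invariants (norm_mem_invariants ρ))
  have hfN : ∀ x, fN x = f' ⟨ρ.norm x, norm_mem_invariants ρ x⟩ := fun x => rfl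
  have hdvd : ∀ x : V, (Fintype.card Γ : k) ∣ fN x := by
    intro x
    apply hord
    rw [hfN, hf'app, hf]
  obtain ⟨l, hl⟩ := exists_div_linear hn fN hdvd
  refine ⟨l, ?_, ?_⟩
  · intro g x
    apply mul_left_cancel₀ hn
    rw [← hl, ← hl, hfN, hfN]
    congr 1
    exact Subtype.ext (ρ.norm_self_apply g x)
  · intro y
    have h1 : (⟨ρ.norm (y : V), norm_mem_invariants ρ y⟩ : ρ.invariants)
        = (Fintype.card Γ : k) • y :=
      Subtype.ext (norm_apply_of_mem_invariants ρ y.2)
    have h2 : l (y : V) = f' y := by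
      apply mul_left_cancel₀ hn
      rw [← hl, hfN, h1, map_smul, smul_eq_mul]
    rw [h2, hf'app]

end Norm

/-! ### The dual lattice: (LD-R) and (LD-dual) -/

section Dual

variable [Fintype Γ]

omit [Fintype Γ] in
theorem dual_apply_apply (g : Γ) (l : Module.Dual k V) (x : V) :
    ρ.dual g l x = l (ρ g⁻¹ x) := rfl

omit [Fintype Γ] in
/-- an invariant element of the dual representation is an invariant functional -/
theorem dual_invariant_apply {l : Module.Dual k V} (hl : l ∈ ρ.dual.invariants) (g : Γ) (x : V) :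
    l (ρ g x) = l x := by
  have h := (mem_invariants ρ.dual l).1 hl g⁻¹
  have h2 := LinearMap.congr_fun h x
  rw [dual_apply_apply, inv_inv] at h2
  exact h2

omit [Fintype Γ] in
/-- an invariant functional is an invariant element of the dual representation -/
theorem mem_dual_invariants {l : Module.Dual k V} (hl : ∀ g x, l (ρ g x) = l x) :
    l ∈ ρ.dual.invariants := by
  rw [mem_invariants]
  intro g
  refine LinearMap.ext fun x => ?_
  rw [dual_apply_apply]
  exact hl g⁻¹ x

/-- the norm of the dual representation -/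
theorem dual_norm_apply (l : Module.Dual k V) (y : V) : ρ.dual.norm l y = l (ρ.norm y) := by
  rw [Representation.norm, LinearMap.sum_apply, LinearMap.sum_apply, apply_norm_eq_sum]
  simp only [dual_apply_apply]
  exact Fintype.sum_equiv (Equiv.inv Γ) _ _ (fun g => rfl)

variable [IsDomain k] [IsPrincipalIdealRing k] [Module.Free k V] [Module.Finite k V]

/-- **(LD-R)** An invariant element `r` such that `|Γ| ∣ l r` for every `Γ`-invariant functional
`l : V → k` is a norm. -/
theorem exists_eq_norm_of_forall_dvd (hn : (Fintype.card Γ : k) ≠ 0) (r : V)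
    (hr : ∀ g, ρ g r = r)
    (h : ∀ l : V →ₗ[k] k, (∀ g x, l (ρ g x) = l x) → (Fintype.card Γ : k) ∣ l r) :
    ∃ y : V, r = ρ.norm y := by
  -- evaluation at `r` is an invariant functional on the dual lattice
  have hL : ∀ (g : Γ) (l : Module.Dual k V),
      Module.Dual.eval k V r (ρ.dual g l) = Module.Dual.eval k V r l := by
    intro g l
    rw [Module.Dual.eval_apply, Module.Dual.eval_apply, dual_apply_apply, hr]
  obtain ⟨M, hM⟩ := exists_eq_comp_norm ρ.dual hn (Module.Dual.eval k V r) hL
    (fun l hl => by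
      rw [Module.Dual.eval_apply]
      exact h l (dual_invariant_apply ρ hl))
  obtain ⟨y, rfl⟩ := (Module.evalEquiv k V).surjective M
  refine ⟨y, ?_⟩
  rw [← sub_eq_zero, ← Module.forall_dual_apply_eq_zero_iff k]
  intro l
  have h1 := hM l
  rw [Module.Dual.eval_apply, Module.evalEquiv_apply, Module.Dual.eval_apply,
    dual_norm_apply] at h1
  rw [map_sub, h1, sub_self]

variable {A : Type*} [AddCommGroup A] [Module k A] (γ : A)

/-- **(LD-dual)** every linear `Λ : (V^∨)^Γ → A` killing the norms, with `A` generated by `γ` and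
`c • γ = 0 → |Γ| ∣ c`, is `l ↦ l r • γ` for an invariant `r : V`. -/
theorem exists_invariant_eval (hn : (Fintype.card Γ : k) ≠ 0)
    (hgen : ∀ a : A, ∃ c : k, a = c • γ)
    (hord : ∀ c : k, c • γ = 0 → (Fintype.card Γ : k) ∣ c)
    (Λ : ρ.dual.invariants →ₗ[k] A)
    (hΛ : ∀ μ : Module.Dual k V, Λ ⟨ρ.dual.norm μ, norm_mem_invariants ρ.dual μ⟩ = 0) :
    ∃ r : V, (∀ g, ρ g r = r) ∧ ∀ l : ρ.dual.invariants, Λ l = (l : Module.Dual k V) r • γ := by
  obtain ⟨L, hL, hLΛ⟩ := exists_invariant_lift ρ.dual γ hn hgen hord Λ hΛ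
  obtain ⟨r, rfl⟩ := (Module.evalEquiv k V).surjective L
  refine ⟨r, ?_, ?_⟩
  · intro g
    rw [← sub_eq_zero, ← Module.forall_dual_apply_eq_zero_iff k]
    intro l
    have h1 := hL g⁻¹ l
    rw [Module.evalEquiv_apply, Module.Dual.eval_apply, Module.Dual.eval_apply,
      dual_apply_apply, inv_inv] at h1
    rw [map_sub, h1, sub_self]
  · intro l
    rw [hLΛ l, Module.evalEquiv_apply, Module.Dual.eval_apply]

end Dual

end Fermat.Agent.CFT.A7.LatticeDualNT
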