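import Mathlib

/-!
# A7.2a over a PID: elementary lattice duality with coefficients in `k`

`k` a principal ideal domain (e.g. `ℤ` or `ℤ_(p)`), `Γ` a finite group, `V` a free `k`-module of
finite rank with a representation `ρ` of `Γ` (a `k`-lattice), `n = (|Γ| : k) ≠ 0`,
`N = ∑ g, ρ g`, `V^Γ = ρ.invariants`.  `A` is a `k`-module with an element `γ` such that
`c • γ = 0 → n ∣ c` (`hord`), `A = k γ` (`hgen`), `n • γ = 0` (`hnγ`) — the shape of a class module.

* `exists_retraction`, `exists_extension` : `V^Γ` is a `k`-direct summand;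
* (LD1) `exists_norm_eq`, (LD1') `exists_norm_eq'`;
* (LD2') `exists_invariant_lift'` (linear) / `exists_invariant_lift_of_add'` (additive);
* (LD-R) `exists_norm_eq_of_forall_dvd`, `exists_norm_eq_of_forall_smul_eq_zero` (by duality);
* (LD2'-dual) `exists_invariant_of_functional'`.
-/

set_option autoImplicit false

namespace Fermat.Agent.CFT.A7.LatticeDualPID

open Representation

variable {k : Type*} [CommRing k] {Γ : Type*} [Group Γ] {V : Type*} [AddCommGroup V] [Module k V]
  (ρ : Representation k Γ V)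

/-! ### the invariants are saturated and a direct summand -/

section Saturated

variable [IsDomain k] [Module.IsTorsionFree k V]

/-- The invariants are saturated: `c • x ∈ V^Γ`, `c ≠ 0` implies `x ∈ V^Γ`. -/
theorem invariants_saturated {c : k} (hc : c ≠ 0) {x : V} (hx : c • x ∈ ρ.invariants) :
    x ∈ ρ.invariants := by
  rw [mem_invariants] at hx ⊢
  intro g
  have h := hx g
  rw [map_smul] at h
  exact smul_right_injective V hc h

/-- The quotient `V / V^Γ` is torsion-free. -/
instance isTorsionFree_quotient : Module.IsTorsionFree k (V ⧸ ρ.invariants) where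
  isSMulRegular r hr := by
    have hr0 : r ≠ 0 := hr.ne_zero
    intro x y hxy
    obtain ⟨a, rfl⟩ := Submodule.Quotient.mk_surjective _ x
    obtain ⟨b, rfl⟩ := Submodule.Quotient.mk_surjective _ y
    have h1 : Submodule.Quotient.mk (p := ρ.invariants) (r • (a - b)) = 0 := by
      have h2 : r • Submodule.Quotient.mk (p := ρ.invariants) a
          = r • Submodule.Quotient.mk (p := ρ.invariants) b := hxy
      rw [smul_sub, Submodule.Quotient.mk_sub, Submodule.Quotient.mk_smul,
        Submodule.Quotient.mk_smul, h2, sub_self]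
    rw [Submodule.Quotient.mk_eq_zero] at h1
    have h3 := invariants_saturated ρ hr0 h1
    rw [← sub_eq_zero, ← Submodule.Quotient.mk_sub, Submodule.Quotient.mk_eq_zero]
    exact h3

end Saturated

section Summand

variable [IsDomain k] [IsPrincipalIdealRing k] [Module.Free k V] [Module.Finite k V]

/-- `V^Γ` is a `k`-direct summand of `V`: there is a `k`-linear retraction. -/
theorem exists_retraction :
    ∃ r : V →ₗ[k] ρ.invariants, ∀ x : ρ.invariants, r (x : V) = x := by
  have hfree : Module.Free k (V ⧸ ρ.invariants) := Module.free_of_finite_type_torsion_free'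
  obtain ⟨s, hs⟩ := LinearMap.exists_rightInverse_of_surjective (ρ.invariants.mkQ)
    (Submodule.range_mkQ _)
  have hmem : ∀ x : V, x - s (ρ.invariants.mkQ x) ∈ ρ.invariants := by
    intro x
    rw [← Submodule.Quotient.mk_eq_zero, Submodule.Quotient.mk_sub]
    have := LinearMap.congr_fun hs (ρ.invariants.mkQ x)
    simp only [LinearMap.comp_apply, LinearMap.id_apply] at this
    rw [← Submodule.mkQ_apply, ← Submodule.mkQ_apply, this, sub_self]
  refine ⟨(LinearMap.id - s ∘ₗ ρ.invariants.mkQ).codRestrict ρ.invariants hmem, ?_⟩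
  intro x
  apply Subtype.ext
  simp only [LinearMap.codRestrict_apply, LinearMap.sub_apply, LinearMap.id_apply,
    LinearMap.comp_apply]
  have : ρ.invariants.mkQ (x : V) = 0 := by
    rw [Submodule.mkQ_apply, Submodule.Quotient.mk_eq_zero]; exact x.2
  rw [this, map_zero, sub_zero]

/-- Every linear map on `V^Γ` extends to `V`. -/
theorem exists_extension {W : Type*} [AddCommGroup W] [Module k W] (μ₀ : ρ.invariants →ₗ[k] W) :
    ∃ μ : V →ₗ[k] W, ∀ x : ρ.invariants, μ (x : V) = μ₀ x := by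
  obtain ⟨r, hr⟩ := exists_retraction ρ
  exact ⟨μ₀ ∘ₗ r, fun x => by rw [LinearMap.comp_apply, hr]⟩

end Summand

/-! ### the norm -/

section Norm

variable [Fintype Γ]

theorem norm_mem_invariants (x : V) : ρ.norm x ∈ ρ.invariants := by
  rw [mem_invariants]
  exact fun g => ρ.self_norm_apply g x

theorem norm_apply_eq_sum (x : V) : ρ.norm x = ∑ g : Γ, ρ g x := by
  rw [Representation.norm, LinearMap.sum_apply]

theorem sum_mem_invariants (x : V) : ∑ g : Γ, ρ g x ∈ ρ.invariants := by
  rw [← norm_apply_eq_sum]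
  exact norm_mem_invariants ρ x

/-- On invariants the norm is multiplication by `|Γ|`. -/
theorem norm_apply_of_mem_invariants {x : V} (hx : x ∈ ρ.invariants) :
    ρ.norm x = (Fintype.card Γ : k) • x := by
  rw [mem_invariants] at hx
  rw [Representation.norm, LinearMap.sum_apply]
  simp only [hx, Finset.sum_const, Finset.card_univ]
  rw [Nat.cast_smul_eq_nsmul]

/-- An invariant linear map applied to a norm. -/
theorem apply_norm_of_invariant {W : Type*} [AddCommGroup W] [Module k W] (l : V →ₗ[k] W)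
    (hl : ∀ g x, l (ρ g x) = l x) (x : V) : l (ρ.norm x) = (Fintype.card Γ : k) • l x := by
  rw [Representation.norm, LinearMap.sum_apply, map_sum]
  simp only [hl, Finset.sum_const, Finset.card_univ]
  rw [Nat.cast_smul_eq_nsmul]

theorem apply_norm_eq_sum {W : Type*} [AddCommGroup W] [Module k W] (μ : V →ₗ[k] W) (x : V) :
    μ (ρ.norm x) = ∑ g : Γ, μ (ρ g x) := by
  rw [norm_apply_eq_sum, map_sum]

end Norm

/-! ### division by `n` -/

section Div

variable [IsDomain k]

/-- Multiplication by a nonzero `n` on `k`, as an injective linear map. -/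
theorem mul_left_injective_of_ne_zero {n : k} (hn : n ≠ 0) :
    Function.Injective (LinearMap.mulLeft k n) := by
  intro a b hab
  exact mul_left_cancel₀ hn hab

/-- A linear map `l : W → k` with values divisible by `n ≠ 0` is `n` times a linear map. -/
theorem exists_eq_mul_of_forall_dvd {W : Type*} [AddCommGroup W] [Module k W] {n : k}
    (hn : n ≠ 0) (l : W →ₗ[k] k) (h : ∀ w, n ∣ l w) :
    ∃ μ : W →ₗ[k] k, ∀ w, l w = n * μ w := by
  have hinj := mul_left_injective_of_ne_zero hn
  have hmem : ∀ w, l w ∈ LinearMap.range (LinearMap.mulLeft k n) := by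
    intro w
    obtain ⟨c, hc⟩ := h w
    exact ⟨c, hc.symm⟩
  refine ⟨(LinearEquiv.ofInjective (LinearMap.mulLeft k n) hinj).symm.toLinearMap ∘ₗ
    l.codRestrict _ hmem, fun w => ?_⟩
  have h1 := (LinearEquiv.ofInjective (LinearMap.mulLeft k n) hinj).apply_symm_apply
    (l.codRestrict _ hmem w)
  have h2 := congrArg Subtype.val h1
  rw [LinearEquiv.ofInjective_apply] at h2
  exact h2.symm

end Div

/-! ### (LD1), (LD2') -/

section Main

variable [IsDomain k] [IsPrincipalIdealRing k] [Fintype Γ] [Module.Free k V] [Module.Finite k V]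

/-- **(LD1)** A `Γ`-invariant functional `l : V → k` with `l (V^Γ) ⊆ n k` is `μ ∘ N`. -/
theorem exists_eq_comp_norm (hn : (Fintype.card Γ : k) ≠ 0) (l : V →ₗ[k] k)
    (hl : ∀ g x, l (ρ g x) = l x)
    (hdiv : ∀ y ∈ ρ.invariants, (Fintype.card Γ : k) ∣ l y) :
    ∃ μ : V →ₗ[k] k, ∀ x, l x = μ (ρ.norm x) := by
  obtain ⟨μ₀, hμ₀⟩ := exists_eq_mul_of_forall_dvd hn (l ∘ₗ ρ.invariants.subtype)
    (fun y => hdiv y y.2)
  obtain ⟨μ, hμ⟩ := exists_extension ρ μ₀
  refine ⟨μ, fun x => ?_⟩
  have h1 := hμ ⟨ρ.norm x, norm_mem_invariants ρ x⟩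
  have h2 := hμ₀ ⟨ρ.norm x, norm_mem_invariants ρ x⟩
  simp only [LinearMap.comp_apply, Submodule.subtype_apply] at h1 h2
  rw [apply_norm_of_invariant ρ l hl, smul_eq_mul] at h2
  rw [h1]
  exact mul_left_cancel₀ hn h2

/-- **(LD1)** in the shape `l x = ∑ g, μ (ρ g x)`. -/
theorem exists_norm_eq (hn : (Fintype.card Γ : k) ≠ 0) (l : V →ₗ[k] k)
    (hl : ∀ g x, l (ρ g x) = l x)
    (hdiv : ∀ y ∈ ρ.invariants, (Fintype.card Γ : k) ∣ l y) :
    ∃ μ : V →ₗ[k] k, ∀ x, l x = ∑ g : Γ, μ (ρ g x) := by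
  obtain ⟨μ, hμ⟩ := exists_eq_comp_norm ρ hn l hl hdiv
  exact ⟨μ, fun x => by rw [hμ x, apply_norm_eq_sum]⟩

variable {A : Type*} [AddCommGroup A] [Module k A] (γ : A)

/-- **(LD1')** cyclic-target form: `l y • γ = 0` on the invariants, `γ` of order `n`. -/
theorem exists_norm_eq' (hn : (Fintype.card Γ : k) ≠ 0)
    (hord : ∀ c : k, c • γ = 0 → (Fintype.card Γ : k) ∣ c)
    (l : V →ₗ[k] k) (hl : ∀ g x, l (ρ g x) = l x)
    (h0 : ∀ y ∈ ρ.invariants, l y • γ = 0) :
    ∃ μ : V →ₗ[k] k, ∀ x, l x = ∑ g : Γ, μ (ρ g x) :=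
  exists_norm_eq ρ hn l hl fun y hy => hord _ (h0 y hy)

/-- **(LD2')** Every `k`-linear `f : V^Γ → A` killing the norms, `A = k γ` cyclic of order `n`, is
`y ↦ l y • γ` for a `Γ`-invariant functional `l : V → k`. -/
theorem exists_invariant_lift' (hn : (Fintype.card Γ : k) ≠ 0)
    (hgen : ∀ a : A, ∃ c : k, a = c • γ)
    (hord : ∀ c : k, c • γ = 0 → (Fintype.card Γ : k) ∣ c)
    (f : ρ.invariants →ₗ[k] A)
    (hf : ∀ x : V, f ⟨ρ.norm x, norm_mem_invariants ρ x⟩ = 0) :
    ∃ l : V →ₗ[k] k, (∀ g x, l (ρ g x) = l x) ∧ ∀ y : ρ.invariants, f y = l (y : V) • γ := by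
  -- lift `f` through `k → A`, `c ↦ c • γ` (the invariants are free)
  have hsurj : Function.Surjective (LinearMap.toSpanSingleton k A γ) := by
    intro a
    obtain ⟨c, hc⟩ := hgen a
    exact ⟨c, by rw [LinearMap.toSpanSingleton_apply, hc]⟩
  obtain ⟨f', hf'⟩ := Module.projective_lifting_property (LinearMap.toSpanSingleton k A γ) f hsurj
  have hf'app : ∀ y : ρ.invariants, f' y • γ = f y := fun y => by
    have := LinearMap.congr_fun hf' y
    rwa [LinearMap.comp_apply, LinearMap.toSpanSingleton_apply] at this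
  -- `f' ∘ N` is divisible by `n`
  let N' : V →ₗ[k] ρ.invariants := ρ.norm.codRestrict ρ.invariants (norm_mem_invariants ρ)
  have hdvd : ∀ x : V, (Fintype.card Γ : k) ∣ (f' ∘ₗ N') x := by
    intro x
    apply hord
    rw [LinearMap.comp_apply, hf'app]
    exact hf x
  obtain ⟨l, hl⟩ := exists_eq_mul_of_forall_dvd hn (f' ∘ₗ N') hdvd
  refine ⟨l, ?_, ?_⟩
  · intro g x
    apply mul_left_cancel₀ hn
    rw [← hl, ← hl, LinearMap.comp_apply, LinearMap.comp_apply]
    congr 1
    exact Subtype.ext (ρ.norm_self_apply g x)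
  · intro y
    have h1 : N' (y : V) = (Fintype.card Γ : k) • y :=
      Subtype.ext (norm_apply_of_mem_invariants ρ y.2)
    have h2 := hl (y : V)
    rw [LinearMap.comp_apply, h1, map_smul, smul_eq_mul] at h2
    have h3 := mul_left_cancel₀ hn h2
    rw [← h3, hf'app]

/-- **(LD2')** for an additive `f` which is known to commute with scalars. -/
theorem exists_invariant_lift_of_add' (hn : (Fintype.card Γ : k) ≠ 0)
    (hgen : ∀ a : A, ∃ c : k, a = c • γ)
    (hord : ∀ c : k, c • γ = 0 → (Fintype.card Γ : k) ∣ c)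
    (f : ρ.invariants →+ A) (hlin : ∀ (c : k) (y : ρ.invariants), f (c • y) = c • f y)
    (hf : ∀ x : V, f ⟨∑ g : Γ, ρ g x, sum_mem_invariants ρ x⟩ = 0) :
    ∃ l : V →ₗ[k] k, (∀ g x, l (ρ g x) = l x) ∧ ∀ y : ρ.invariants, f y = l (y : V) • γ := by
  refine exists_invariant_lift' ρ γ hn hgen hord
    { toFun := f, map_add' := f.map_add, map_smul' := hlin } fun x => ?_
  have : (⟨ρ.norm x, norm_mem_invariants ρ x⟩ : ρ.invariants)
      = ⟨∑ g : Γ, ρ g x, sum_mem_invariants ρ x⟩ := Subtype.ext (norm_apply_eq_sum ρ x)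
  change f ⟨ρ.norm x, _⟩ = 0
  rw [this]
  exact hf x

end Main

/-! ### the dual lattice: (LD-R) and (LD2'-dual) -/

section Dual

theorem dual_apply_apply (g : Γ) (l : Module.Dual k V) (x : V) :
    (ρ.dual g l) x = l (ρ g⁻¹ x) := by
  rw [Representation.dual_apply, Module.Dual.transpose_apply, LinearMap.comp_apply]

/-- The invariants of the dual lattice are the `Γ`-invariant functionals. -/
theorem mem_dual_invariants_iff (l : Module.Dual k V) :
    l ∈ ρ.dual.invariants ↔ ∀ g x, l (ρ g x) = l x := by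
  rw [mem_invariants]
  constructor
  · intro h g x
    have := LinearMap.congr_fun (h g⁻¹) x
    rwa [dual_apply_apply, inv_inv] at this
  · intro h g
    ext x
    rw [dual_apply_apply, h]

variable [Fintype Γ]

/-- The norm of the dual lattice is composition with the norm. -/
theorem dual_norm_apply (l : Module.Dual k V) (x : V) : (ρ.dual.norm l) x = l (ρ.norm x) := by
  rw [Representation.norm, LinearMap.sum_apply, LinearMap.sum_apply, Representation.norm,
    LinearMap.sum_apply, map_sum]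
  simp only [dual_apply_apply]
  exact Equiv.sum_comp (Equiv.inv Γ) fun g => l (ρ g x)

theorem dual_norm_eq (l : Module.Dual k V) : ρ.dual.norm l = l ∘ₗ ρ.norm :=
  LinearMap.ext fun x => dual_norm_apply ρ l x

theorem dual_norm_eq_sum (l : Module.Dual k V) : ρ.dual.norm l = ∑ g : Γ, l ∘ₗ ρ g := by
  ext x
  rw [dual_norm_apply, apply_norm_eq_sum, LinearMap.sum_apply]
  rfl

variable [IsDomain k] [IsPrincipalIdealRing k] [Module.Free k V] [Module.Finite k V]

/-- **(LD-R)** An invariant `r` with `n ∣ l r` for every invariant functional `l` is a norm. -/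
theorem exists_norm_eq_of_forall_dvd (hn : (Fintype.card Γ : k) ≠ 0) {r : V}
    (hr : r ∈ ρ.invariants)
    (h : ∀ l : V →ₗ[k] k, (∀ g x, l (ρ g x) = l x) → (Fintype.card Γ : k) ∣ l r) :
    ∃ y : V, r = ∑ g : Γ, ρ g y := by
  rw [mem_invariants] at hr
  -- (LD1) for the dual lattice and the functional `eval r`
  obtain ⟨M, hM⟩ := exists_eq_comp_norm ρ.dual hn (Module.Dual.eval k V r)
    (fun g l => by
      rw [Module.Dual.eval_apply, Module.Dual.eval_apply, dual_apply_apply, hr])
    (fun l hl => by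
      rw [Module.Dual.eval_apply]
      exact h l ((mem_dual_invariants_iff ρ l).mp hl))
  refine ⟨(Module.evalEquiv k V).symm M, ?_⟩
  rw [← norm_apply_eq_sum, ← sub_eq_zero, ← Module.forall_dual_apply_eq_zero_iff k]
  intro l
  have h1 := hM l
  rw [Module.Dual.eval_apply] at h1
  have h2 : M (ρ.dual.norm l) = (ρ.dual.norm l) ((Module.evalEquiv k V).symm M) := by
    conv_lhs => rw [← (Module.evalEquiv k V).apply_symm_apply M]
    rw [Module.evalEquiv_apply, Module.Dual.eval_apply]
  rw [map_sub, h1, h2, dual_norm_apply, sub_self]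

variable {A : Type*} [AddCommGroup A] [Module k A] (γ : A)

/-- **(LD-R')** cyclic-target form. -/
theorem exists_norm_eq_of_forall_smul_eq_zero (hn : (Fintype.card Γ : k) ≠ 0)
    (hord : ∀ c : k, c • γ = 0 → (Fintype.card Γ : k) ∣ c) {r : V} (hr : r ∈ ρ.invariants)
    (h : ∀ l : V →ₗ[k] k, (∀ g x, l (ρ g x) = l x) → l r • γ = 0) :
    ∃ y : V, r = ∑ g : Γ, ρ g y :=
  exists_norm_eq_of_forall_dvd ρ hn hr fun l hl => hord _ (h l hl)

/-- **(LD2'-dual)** Every `k`-linear `Λ` on the invariant functionals with values in `A = k γ`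
(cyclic of order `n`) killing the norms `μ ∘ N` is `l ↦ l r • γ` for an invariant `r ∈ V`. -/
theorem exists_invariant_of_functional' (hn : (Fintype.card Γ : k) ≠ 0)
    (hgen : ∀ a : A, ∃ c : k, a = c • γ)
    (hord : ∀ c : k, c • γ = 0 → (Fintype.card Γ : k) ∣ c)
    (Λ : ρ.dual.invariants →ₗ[k] A)
    (hΛ : ∀ μ : Module.Dual k V, Λ ⟨ρ.dual.norm μ, norm_mem_invariants ρ.dual μ⟩ = 0) :
    ∃ r : V, r ∈ ρ.invariants ∧ ∀ l : ρ.dual.invariants, Λ l = (l : Module.Dual k V) r • γ := by
  obtain ⟨L, hL, hLΛ⟩ := exists_invariant_lift' ρ.dual γ hn hgen hord Λ hΛ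
  refine ⟨(Module.evalEquiv k V).symm L, ?_, ?_⟩
  · rw [mem_invariants]
    intro g
    rw [← sub_eq_zero, ← Module.forall_dual_apply_eq_zero_iff k]
    intro l
    have hev : ∀ l' : Module.Dual k V, L l' = l' ((Module.evalEquiv k V).symm L) := by
      intro l'
      conv_lhs => rw [← (Module.evalEquiv k V).apply_symm_apply L]
      rw [Module.evalEquiv_apply, Module.Dual.eval_apply]
    have h1 := hL g⁻¹ l
    rw [hev, hev, dual_apply_apply, inv_inv] at h1
    rw [map_sub, h1, sub_self]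
  · intro l
    rw [hLΛ l]
    congr 1
    conv_lhs => rw [← (Module.evalEquiv k V).apply_symm_apply L]
    rw [Module.evalEquiv_apply, Module.Dual.eval_apply]

/-- **(LD2'-dual)** for an additive `Λ` commuting with scalars, stated with sums. -/
theorem exists_invariant_of_functional_of_add' (hn : (Fintype.card Γ : k) ≠ 0)
    (hgen : ∀ a : A, ∃ c : k, a = c • γ)
    (hord : ∀ c : k, c • γ = 0 → (Fintype.card Γ : k) ∣ c)
    (Λ : ρ.dual.invariants →+ A)
    (hlin : ∀ (c : k) (l : ρ.dual.invariants), Λ (c • l) = c • Λ l)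
    (hΛ : ∀ (μ : Module.Dual k V) (h : ∑ g : Γ, μ ∘ₗ ρ g ∈ ρ.dual.invariants),
      Λ ⟨∑ g : Γ, μ ∘ₗ ρ g, h⟩ = 0) :
    ∃ r : V, r ∈ ρ.invariants ∧ ∀ l : ρ.dual.invariants, Λ l = (l : Module.Dual k V) r • γ := by
  refine exists_invariant_of_functional' ρ γ hn hgen hord
    { toFun := Λ, map_add' := Λ.map_add, map_smul' := hlin } fun μ => ?_
  have hmem : ∑ g : Γ, μ ∘ₗ ρ g ∈ ρ.dual.invariants := by
    rw [← dual_norm_eq_sum]
    exact norm_mem_invariants ρ.dual μ
  have : (⟨ρ.dual.norm μ, norm_mem_invariants ρ.dual μ⟩ : ρ.dual.invariants)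
      = ⟨∑ g : Γ, μ ∘ₗ ρ g, hmem⟩ := Subtype.ext (dual_norm_eq_sum ρ μ)
  change Λ ⟨ρ.dual.norm μ, _⟩ = 0
  rw [this]
  exact hΛ μ hmem

end Dual

end Fermat.Agent.CFT.A7.LatticeDualPID
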