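import Mathlib

/-!
# Elementary lattice duality (slice A7.2a of PROJECT C)

`G` a finite group, `P` a `ℤ`-projective (e.g. `ℤ`-free) abelian group with a representation
`ρ : Representation ℤ G P`, `n = |G|`, `N = ∑ g, ρ g` the norm.  The pairing
`Hom_G(P, ℤ) / N Hom(P, ℤ) × P^G / N P → ℤ / n`, `(l, r) ↦ l r`, is perfect:

* `exists_eq_sum_comp_of_dvd` (LD-L): an invariant functional `l` with `n ∣ l r` for all
  invariant `r` is a norm `∑ g, μ ∘ ρ g`;
* `exists_norm_eq_of_forall_dvd` (LD-R): an invariant `r` with `n ∣ l r` for all invariant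
  functionals `l` is a norm `∑ g, ρ g y`;
* `exists_invariant_functional` (LD-ext): every `f : P^G → ℤ/n` killing the norms is induced
  by an invariant functional.

Cyclic-target forms (`Z` cyclic of order `n` generated by `γ`) are provided at the end.
No finiteness of `P` is needed.  Everything is Mathlib-only.
-/

namespace Fermat.Agent.CFT.A7.LatticeDualQ

open scoped BigOperators

/-- `ℚ → ℚ/ℤ` as a `ℤ`-linear map. -/
noncomputable def qmk : ℚ →ₗ[ℤ] AddCircle (1 : ℚ) :=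
  (QuotientAddGroup.mk' (AddSubgroup.zmultiples (1 : ℚ))).toIntLinearMap

lemma qmk_surjective : Function.Surjective qmk :=
  QuotientAddGroup.mk_surjective

lemma qmk_eq_zero_iff (x : ℚ) : qmk x = 0 ↔ ∃ m : ℤ, (m : ℚ) = x := by
  have h := AddCircle.coe_eq_zero_iff (1 : ℚ) (x := x)
  simp only [zsmul_eq_mul, mul_one] at h
  exact h

lemma qmk_intCast (m : ℤ) : qmk (m : ℚ) = 0 := (qmk_eq_zero_iff _).2 ⟨m, rfl⟩

section lifting

variable {P : Type*} [AddCommGroup P]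

/-- Lifting a `ℚ/ℤ`-valued functional on a projective `ℤ`-module to a `ℚ`-valued one. -/
lemma exists_lift [Module.Projective ℤ P] (ψ : P →ₗ[ℤ] AddCircle (1 : ℚ)) :
    ∃ ψ' : P →ₗ[ℤ] ℚ, ∀ x, qmk (ψ' x) = ψ x := by
  obtain ⟨h, hh⟩ := Module.projective_lifting_property qmk ψ qmk_surjective
  exact ⟨h, fun x => LinearMap.congr_fun hh x⟩

/-- A `ℚ`-valued functional with integral values is `ℤ`-valued. -/
lemma exists_int_of_forall (f : P →ₗ[ℤ] ℚ) (h : ∀ x, qmk (f x) = 0) :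
    ∃ f' : P →ₗ[ℤ] ℤ, ∀ x, ((f' x : ℤ) : ℚ) = f x := by
  have h' : ∀ x, ∃ m : ℤ, (m : ℚ) = f x := fun x => (qmk_eq_zero_iff _).1 (h x)
  choose m hm using h'
  refine ⟨{ toFun := m, map_add' := ?_, map_smul' := ?_ }, hm⟩
  · intro x y
    have : ((m (x + y) : ℤ) : ℚ) = ((m x + m y : ℤ) : ℚ) := by
      rw [hm, map_add, Int.cast_add, hm, hm]
    exact_mod_cast this
  · intro c x
    have : ((m (c • x) : ℤ) : ℚ) = ((c • m x : ℤ) : ℚ) := by
      rw [hm, map_smul, smul_eq_mul, Int.cast_mul, hm, zsmul_eq_mul]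
    simpa using (Int.cast_injective this)

/-- Extending a `ℚ/ℤ`-valued functional along an injection. -/
lemma exists_extend {M N : Type*} [AddCommGroup M] [AddCommGroup N] (f : M →ₗ[ℤ] N)
    (hf : Function.Injective f) (g : M →ₗ[ℤ] AddCircle (1 : ℚ)) :
    ∃ h : N →ₗ[ℤ] AddCircle (1 : ℚ), ∀ x, h (f x) = g x := by
  obtain ⟨h, hh⟩ := (Module.Baer.of_divisible (AddCircle (1 : ℚ))).extension_property f hf g
  exact ⟨h, fun x => LinearMap.congr_fun hh x⟩

end lifting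

section zmod

/-- `ℤ/n → ℚ/ℤ`, `1 ↦ 1/n`. -/
noncomputable def zmodToCircle (n : ℕ) [NeZero n] : ZMod n →+ AddCircle (1 : ℚ) :=
  ZMod.lift n ⟨(qmk.toAddMonoidHom).comp
    ((AddMonoidHom.mulRight ((n : ℚ)⁻¹)).comp (Int.castAddHom ℚ)), by
      have hn : (n : ℚ) ≠ 0 := Nat.cast_ne_zero.2 (NeZero.ne n)
      simp only [AddMonoidHom.coe_comp, Function.comp_apply, Int.coe_castAddHom, Int.cast_natCast,
        AddMonoidHom.mulRight_apply, mul_inv_cancel₀ hn]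
      exact (qmk_eq_zero_iff 1).2 ⟨1, by simp⟩⟩

lemma zmodToCircle_intCast (n : ℕ) [NeZero n] (m : ℤ) :
    zmodToCircle n (m : ZMod n) = qmk ((m : ℚ) / n) := by
  rw [zmodToCircle, ZMod.lift_coe]
  simp [div_eq_mul_inv]

lemma zmodToCircle_injective (n : ℕ) [NeZero n] : Function.Injective (zmodToCircle n) := by
  rw [injective_iff_map_eq_zero]
  intro a ha
  have hn : (n : ℚ) ≠ 0 := Nat.cast_ne_zero.2 (NeZero.ne n)
  rw [← ZMod.intCast_zmod_cast a, zmodToCircle_intCast, qmk_eq_zero_iff] at ha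
  obtain ⟨m, hm⟩ := ha
  rw [← ZMod.intCast_zmod_cast a, ZMod.intCast_zmod_eq_zero_iff_dvd]
  refine ⟨m, ?_⟩
  have : ((a.cast : ℤ) : ℚ) = ((n * m : ℤ) : ℚ) := by
    push_cast
    rw [hm]; field_simp
  exact_mod_cast this

end zmod
section main

variable {G : Type*} [Group G] [Fintype G] {P : Type*} [AddCommGroup P]
  (ρ : Representation ℤ G P)

lemma sum_ρ_ρ (h : G) (x : P) : ∑ g, ρ g (ρ h x) = ∑ g, ρ g x := by
  calc ∑ g, ρ g (ρ h x) = ∑ g, ρ (g * h) x := by simp [map_mul]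
  _ = ∑ g, ρ g x := Fintype.sum_equiv (Equiv.mulRight h) _ _ (fun g => rfl)

lemma ρ_sum_ρ (h : G) (x : P) : ρ h (∑ g, ρ g x) = ∑ g, ρ g x := by
  rw [map_sum]
  calc ∑ g, ρ h (ρ g x) = ∑ g, ρ (h * g) x := by simp [map_mul]
  _ = ∑ g, ρ g x := Fintype.sum_equiv (Equiv.mulLeft h) _ _ (fun g => rfl)

lemma sum_ρ_mem_invariants (x : P) : ∑ g, ρ g x ∈ ρ.invariants :=
  fun h => ρ_sum_ρ ρ h x

lemma card_ne_zero_rat : ((Fintype.card G : ℕ) : ℚ) ≠ 0 :=
  Nat.cast_ne_zero.2 Fintype.card_ne_zero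

/-- **Core construction.** A character `ψ` of `P` killing the norms `N P` gives an invariant
`ℤ`-valued functional `l` with `ψ r = [l r / |G|]` for invariant `r`. -/
theorem exists_invariant_of_character [Module.Projective ℤ P]
    (ψ : P →ₗ[ℤ] AddCircle (1 : ℚ)) (hψ : ∀ y, ψ (∑ g, ρ g y) = 0) :
    ∃ l : P →ₗ[ℤ] ℤ, (∀ g x, l (ρ g x) = l x) ∧
      ∀ r, (∀ g, ρ g r = r) → qmk ((l r : ℚ) / (Fintype.card G : ℚ)) = ψ r := by
  obtain ⟨ψ', hψ'⟩ := exists_lift ψ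
  -- the norm of `ψ'`
  have hL : ∀ x, qmk ((ψ' ∘ₗ (∑ g, ρ g : P →ₗ[ℤ] P)) x) = 0 := by
    intro x
    rw [LinearMap.comp_apply, hψ', LinearMap.sum_apply]
    exact hψ x
  obtain ⟨l, hl⟩ := exists_int_of_forall _ hL
  have hl' : ∀ x, ((l x : ℤ) : ℚ) = ψ' (∑ g, ρ g x) := by
    intro x
    rw [hl, LinearMap.comp_apply, LinearMap.sum_apply]
  refine ⟨l, ?_, ?_⟩
  · intro g x
    apply Int.cast_injective (α := ℚ)
    rw [hl', hl', sum_ρ_ρ]
  · intro r hr
    rw [hl']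
    have : ∑ g, ρ g r = (Fintype.card G : ℤ) • r := by
      simp [hr, Finset.card_univ]
    rw [this, map_smul, zsmul_eq_mul, Int.cast_natCast, mul_div_assoc, mul_comm,
      div_mul_cancel₀ _ card_ne_zero_rat, hψ']
/-- **(LD-R)** An invariant element `r` of a projective `ℤ[G]`-lattice on which every invariant
functional takes a value divisible by `|G|` is a norm. -/
theorem exists_norm_eq_of_forall_dvd [Module.Projective ℤ P] (r : P) (hr : ∀ g, ρ g r = r)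
    (h : ∀ l : P →ₗ[ℤ] ℤ, (∀ g x, l (ρ g x) = l x) → (Fintype.card G : ℤ) ∣ l r) :
    ∃ y, r = ∑ g, ρ g y := by
  by_contra hne
  let N : P →ₗ[ℤ] P := ∑ g, ρ g
  have hr' : (LinearMap.range N).mkQ r ≠ 0 := by
    rw [Ne, Submodule.mkQ_apply, Submodule.Quotient.mk_eq_zero]
    rintro ⟨y, hy⟩
    exact hne ⟨y, by rw [← hy, LinearMap.sum_apply]⟩
  obtain ⟨c, hc⟩ := CharacterModule.exists_character_apply_ne_zero_of_ne_zero hr'
  let ψ : P →ₗ[ℤ] AddCircle (1 : ℚ) := c.toIntLinearMap ∘ₗ (LinearMap.range N).mkQ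
  have hψ : ∀ y, ψ (∑ g, ρ g y) = 0 := by
    intro y
    have h0 : (LinearMap.range N).mkQ (∑ g, ρ g y) = 0 := by
      rw [Submodule.mkQ_apply, Submodule.Quotient.mk_eq_zero]
      exact ⟨y, by rw [LinearMap.sum_apply]⟩
    change c ((LinearMap.range N).mkQ (∑ g, ρ g y)) = 0
    rw [h0, map_zero]
  obtain ⟨l, hinv, hl⟩ := exists_invariant_of_character ρ ψ hψ
  obtain ⟨m, hm⟩ := h l hinv
  apply hc
  have h1 := hl r hr
  change _ = c ((LinearMap.range N).mkQ r) at h1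
  rw [← h1, hm, qmk_eq_zero_iff]
  refine ⟨m, ?_⟩
  push_cast
  rw [mul_comm, mul_div_assoc, div_self card_ne_zero_rat, mul_one]

/-- **(LD-ext)** Every homomorphism `P^G → ℤ/|G|` killing the norms is induced by an invariant
`ℤ`-valued functional on `P`. -/
theorem exists_invariant_functional [Module.Projective ℤ P]
    (f : ρ.invariants →+ ZMod (Fintype.card G))
    (hf : ∀ y, f ⟨∑ g, ρ g y, sum_ρ_mem_invariants ρ y⟩ = 0) :
    ∃ l : P →ₗ[ℤ] ℤ, (∀ g x, l (ρ g x) = l x) ∧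
      ∀ r : ρ.invariants, ((l r : ℤ) : ZMod (Fintype.card G)) = f r := by
  have : NeZero (Fintype.card G) := ⟨Fintype.card_ne_zero⟩
  let ψ₀ : ρ.invariants →ₗ[ℤ] AddCircle (1 : ℚ) :=
    ((zmodToCircle (Fintype.card G)).comp f).toIntLinearMap
  obtain ⟨ψ, hψ⟩ := exists_extend ρ.invariants.subtype (Submodule.injective_subtype _) ψ₀
  have hN : ∀ y, ψ (∑ g, ρ g y) = 0 := by
    intro y
    have := hψ ⟨∑ g, ρ g y, sum_ρ_mem_invariants ρ y⟩
    rw [Submodule.subtype_apply] at this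
    rw [this]
    change zmodToCircle _ (f _) = 0
    rw [hf, map_zero]
  obtain ⟨l, hinv, hl⟩ := exists_invariant_of_character ρ ψ hN
  refine ⟨l, hinv, fun r => ?_⟩
  apply zmodToCircle_injective
  rw [zmodToCircle_intCast, hl r r.2]
  exact hψ r

/-- **(LD-L)** An invariant functional on a projective `ℤ[G]`-lattice whose values on `P^G` are
divisible by `|G|` is a norm `∑ g, μ ∘ ρ g`. -/
theorem exists_eq_sum_comp_of_dvd [Module.Projective ℤ P] (l : P →ₗ[ℤ] ℤ)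
    (hinv : ∀ g x, l (ρ g x) = l x)
    (hdvd : ∀ x, (∀ g, ρ g x = x) → (Fintype.card G : ℤ) ∣ l x) :
    ∃ μ : P →ₗ[ℤ] ℤ, ∀ x, l x = ∑ g, μ (ρ g x) := by
  classical
  -- `θ' = l / n`
  let θ' : P →ₗ[ℤ] ℚ := ((Fintype.card G : ℚ)⁻¹) • ((Int.castAddHom ℚ).toIntLinearMap ∘ₗ l)
  have hθ' : ∀ x, θ' x = (l x : ℚ) / (Fintype.card G : ℚ) := by
    intro x
    change ((Fintype.card G : ℚ)⁻¹) • ((l x : ℤ) : ℚ) = _
    rw [smul_eq_mul, mul_comm, div_eq_mul_inv]
  let D : P →ₗ[ℤ] (G → P) := LinearMap.pi (fun g => ρ g - LinearMap.id)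
  have hD : ∀ x g, D x g = ρ g x - x := fun x g => rfl
  have hker : ∀ x, x ∈ LinearMap.ker D ↔ ∀ g, ρ g x = x := by
    intro x
    rw [LinearMap.mem_ker]
    constructor
    · intro h g
      have := congrFun h g
      rw [hD, Pi.zero_apply, sub_eq_zero] at this
      exact this
    · intro h
      funext g
      rw [hD, h g, sub_self, Pi.zero_apply]
  have hθker : LinearMap.ker D ≤ LinearMap.ker (qmk ∘ₗ θ') := by
    intro x hx
    obtain ⟨m, hm⟩ := hdvd x ((hker x).1 hx)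
    rw [LinearMap.mem_ker, LinearMap.comp_apply, hθ', hm, qmk_eq_zero_iff]
    refine ⟨m, ?_⟩
    push_cast
    rw [mul_comm, mul_div_assoc, div_self card_ne_zero_rat, mul_one]
  have hDinj : Function.Injective ((LinearMap.ker D).liftQ D le_rfl) := by
    rw [← LinearMap.ker_eq_bot]
    exact Submodule.ker_liftQ_eq_bot _ _ _ le_rfl
  obtain ⟨Ψ, hΨ⟩ := exists_extend _ hDinj ((LinearMap.ker D).liftQ (qmk ∘ₗ θ') hθker)
  have hΨD : ∀ x, Ψ (D x) = qmk (θ' x) := by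
    intro x
    have := hΨ ((LinearMap.ker D).mkQ x)
    simpa using this
  -- lift the components of `Ψ`
  have hlift : ∀ g : G, ∃ ψ' : P →ₗ[ℤ] ℚ, ∀ x, qmk (ψ' x) = Ψ (Pi.single g x) := by
    intro g
    obtain ⟨ψ', h⟩ := exists_lift (Ψ ∘ₗ LinearMap.single ℤ (fun _ : G => P) g)
    exact ⟨ψ', fun x => by rw [h]; rfl⟩
  choose ψ' hψ' using hlift
  let Ψ' : (G → P) →ₗ[ℤ] ℚ := ∑ g, ψ' g ∘ₗ LinearMap.proj g
  have hΨ' : ∀ v, qmk (Ψ' v) = Ψ v := by
    intro v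
    have : Ψ' v = ∑ g, ψ' g (v g) := by
      simp [Ψ', LinearMap.sum_apply]
    rw [this, map_sum]
    simp_rw [hψ']
    rw [← map_sum, Finset.univ_sum_single]
  let f' : P →ₗ[ℤ] ℚ := θ' - Ψ' ∘ₗ D
  have hf' : ∀ x, qmk (f' x) = 0 := by
    intro x
    change qmk (θ' x - Ψ' (D x)) = 0
    rw [map_sub, hΨ', hΨD, sub_self]
  obtain ⟨μ, hμ⟩ := exists_int_of_forall f' hf'
  refine ⟨μ, fun x => ?_⟩
  apply Int.cast_injective (α := ℚ)
  push_cast
  simp_rw [hμ]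
  change _ = ∑ g, (θ' (ρ g x) - Ψ' (D (ρ g x)))
  rw [Finset.sum_sub_distrib]
  have h1 : ∑ g, θ' (ρ g x) = (l x : ℚ) := by
    simp_rw [hθ', hinv]
    rw [Finset.sum_const, Finset.card_univ, nsmul_eq_mul, mul_comm,
      div_mul_cancel₀ _ card_ne_zero_rat]
  have h2 : ∑ g, Ψ' (D (ρ g x)) = 0 := by
    rw [← map_sum, ← map_sum]
    have : D (∑ g, ρ g x) = 0 := by
      rw [← LinearMap.mem_ker, hker]
      exact fun h => ρ_sum_ρ ρ h x
    rw [this, map_zero]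
  rw [h1, h2, sub_zero]
/-- Reindexing the norm of a functional by `g ↦ g⁻¹` (the form produced by the action
`g • μ = μ ∘ ρ g⁻¹` on `Hom(P, ℤ)`). -/
lemma sum_comp_inv {Q : Type*} [AddCommMonoid Q] (μ : P → Q) (x : P) :
    ∑ g, μ (ρ g⁻¹ x) = ∑ g, μ (ρ g x) :=
  Fintype.sum_equiv (Equiv.inv G) _ _ (fun _ => rfl)

section cyclic

variable {Z : Type*} [AddCommGroup Z] (γ : Z)

/-- `ℤ/n → Z`, `1 ↦ γ`, for `γ` of additive order `n`. -/
noncomputable def zmodToGen (n : ℕ) (hγ : addOrderOf γ = n) : ZMod n →+ Z :=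
  ZMod.lift n ⟨zmultiplesHom Z γ, by
    rw [zmultiplesHom_apply, natCast_zsmul, ← hγ]
    exact addOrderOf_nsmul_eq_zero γ⟩

lemma zmodToGen_intCast (n : ℕ) (hγ : addOrderOf γ = n) (m : ℤ) :
    zmodToGen γ n hγ (m : ZMod n) = m • γ := by
  rw [zmodToGen, ZMod.lift_coe]
  rfl

lemma zmodToGen_injective (n : ℕ) (hγ : addOrderOf γ = n) :
    Function.Injective (zmodToGen γ n hγ) := by
  rw [injective_iff_map_eq_zero]
  intro a ha
  rw [← ZMod.intCast_zmod_cast a, zmodToGen_intCast, ← addOrderOf_dvd_iff_zsmul_eq_zero, hγ] at ha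
  rw [← ZMod.intCast_zmod_cast a, ZMod.intCast_zmod_eq_zero_iff_dvd]
  exact ha

/-- **(LD-ext)**, cyclic-target form: `Z` cyclic of order `|G|` generated by `γ`
(e.g. `H²(G, C)` of a class module with its fundamental class). -/
theorem exists_invariant_functional_of_generator [Module.Projective ℤ P]
    (hγ : addOrderOf γ = Fintype.card G) (hgen : ∀ z : Z, ∃ m : ℤ, z = m • γ)
    (f : ρ.invariants →+ Z)
    (hf : ∀ y, f ⟨∑ g, ρ g y, sum_ρ_mem_invariants ρ y⟩ = 0) :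
    ∃ l : P →ₗ[ℤ] ℤ, (∀ g x, l (ρ g x) = l x) ∧ ∀ r : ρ.invariants, f r = (l r) • γ := by
  have hsurj : Function.Surjective (zmodToGen γ _ hγ) := by
    intro z
    obtain ⟨m, rfl⟩ := hgen z
    exact ⟨(m : ZMod _), zmodToGen_intCast γ _ hγ m⟩
  let e : ZMod (Fintype.card G) ≃+ Z :=
    AddEquiv.ofBijective (zmodToGen γ _ hγ) ⟨zmodToGen_injective γ _ hγ, hsurj⟩
  obtain ⟨l, hinv, hl⟩ := exists_invariant_functional ρ (e.symm.toAddMonoidHom.comp f) (by
    intro y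
    change e.symm (f _) = 0
    rw [hf, map_zero])
  refine ⟨l, hinv, fun r => ?_⟩
  have h1 := hl r
  change _ = e.symm (f r) at h1
  rw [← zmodToGen_intCast γ _ hγ, h1]
  exact (e.apply_symm_apply (f r)).symm

/-- **(LD-R)**, cyclic-target form. -/
theorem exists_norm_eq_of_forall_smul_eq_zero [Module.Projective ℤ P]
    (hγ : addOrderOf γ = Fintype.card G) (r : P) (hr : ∀ g, ρ g r = r)
    (h : ∀ l : P →ₗ[ℤ] ℤ, (∀ g x, l (ρ g x) = l x) → (l r) • γ = 0) :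
    ∃ y, r = ∑ g, ρ g y := by
  refine exists_norm_eq_of_forall_dvd ρ r hr (fun l hl => ?_)
  have := h l hl
  rwa [← addOrderOf_dvd_iff_zsmul_eq_zero, hγ] at this

/-- **(LD-L)**, cyclic-target form. -/
theorem exists_eq_sum_comp_of_smul_eq_zero [Module.Projective ℤ P]
    (hγ : addOrderOf γ = Fintype.card G) (l : P →ₗ[ℤ] ℤ)
    (hinv : ∀ g x, l (ρ g x) = l x)
    (h : ∀ x, (∀ g, ρ g x = x) → (l x) • γ = 0) :
    ∃ μ : P →ₗ[ℤ] ℤ, ∀ x, l x = ∑ g, μ (ρ g x) := by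
  refine exists_eq_sum_comp_of_dvd ρ l hinv (fun x hx => ?_)
  have := h x hx
  rwa [← addOrderOf_dvd_iff_zsmul_eq_zero, hγ] at this

end cyclic

end main

end Fermat.Agent.CFT.A7.LatticeDualQ
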