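import Mathlib
import Fermat.Agent.CFT.A2.ShiftExtra

/-!
# A7.2a (LD4): the dimension shift `up P = coind₁ P / P` of a lattice is a lattice

For a finite group `G`, a principal ideal domain `R` and `M : Rep R G` with `M.V` free of finite
rank over `R`, the module `(up M).V` is again free of finite rank: evaluation at `1` is an
`R`-linear retraction of `M → coind₁ M`, so `up M ≅ {f : G → M | f 1 = 0}` as `R`-modules.
-/

set_option autoImplicit false

open CategoryTheory Limits

universe u

namespace Fermat.Agent.CFT.A7.LatticeUp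

open Fermat.Agent.CFT.A2

variable {R G : Type u} [CommRing R] [Group G] (M : Rep R G)

/-- Functions vanishing at `1`. -/
def vanishingAtOne : Submodule R (G → M.V) :=
  LinearMap.ker (LinearMap.proj (R := R) (φ := fun _ : G => M.V) 1)

theorem mem_vanishingAtOne {f : G → M.V} : f ∈ vanishingAtOne M ↔ f 1 = 0 := Iff.rfl

/-- The comparison map `{f | f 1 = 0} → up M`. -/
noncomputable def toUp : vanishingAtOne M →ₗ[R] (up M).V :=
  (upπ M).hom.toLinearMap ∘ₗ (vanishingAtOne M).subtype

theorem toUp_apply (f : vanishingAtOne M) : toUp M f = (upπ M).hom (f : G → M.V) := rfl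

theorem toUp_injective : Function.Injective (toUp M) := by
  rw [← LinearMap.ker_eq_bot, LinearMap.ker_eq_bot']
  intro f hf
  rw [toUp_apply, upπ_apply_eq_zero_iff] at hf
  obtain ⟨m, hm⟩ := hf
  have h1 : (f : G → M.V) 1 = 0 := f.2
  rw [hm] at h1
  have hm0 : m = 0 := by
    have h2 : M.ρ 1 m = 0 := h1
    rwa [map_one] at h2
  apply Subtype.ext
  rw [hm, hm0]
  funext x
  simp

theorem toUp_surjective : Function.Surjective (toUp M) := by
  intro y
  obtain ⟨f, rfl⟩ := upπ_surjective M y
  refine ⟨⟨f - (upι M).hom (f 1), ?_⟩, ?_⟩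
  · rw [mem_vanishingAtOne, Pi.sub_apply, upι_apply, map_one]
    simp
  · rw [toUp_apply]
    change (upπ M).hom (f - (upι M).hom (f 1)) = (upπ M).hom f
    rw [map_sub, upπ_upι_apply, sub_zero]

/-- `up M ≅ {f : G → M | f 1 = 0}` as `R`-modules. -/
noncomputable def upEquiv : vanishingAtOne M ≃ₗ[R] (up M).V :=
  LinearEquiv.ofBijective (toUp M) ⟨toUp_injective M, toUp_surjective M⟩

variable [Finite G] [IsDomain R] [IsPrincipalIdealRing R] [Module.Free R M.V] [Module.Finite R M.V]

/-- **(LD4)** `up` of a lattice is free. -/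
theorem free_up : Module.Free R (up M).V :=
  Module.Free.of_equiv (upEquiv M)

omit [Module.Free R M.V] in
/-- **(LD4)** `up` of a lattice is finitely generated. -/
theorem finite_up : Module.Finite R (up M).V :=
  Module.Finite.equiv (upEquiv M)

end Fermat.Agent.CFT.A7.LatticeUp
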