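import Mathlib
import Fermat.Agent.CFT.A7.NT
import Fermat.Agent.CFT.A7.LatticeDualQ
import Fermat.Agent.CFT.A5c.NTGlue
import Fermat.Agent.CFT.A5.ClassTop
import Fermat.Agent.CFT.A1.Torsion
import Fermat.Agent.CFT.A2.UpLattice

/-!
# PROJECT C, slice A7.2c: (NT) over `ℤ`, unconditional for class modules

`G` a finite group, `(C, φ)` a class module over `ℤ` (`A5.Tate.IsClassModule C φ`), `B : Rep ℤ G`
a lattice (free of finite rank over `ℤ`).  Then the hypothesis bundle `NTHyp (up (up B)) C φ` of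
`NT.lean` holds (`nthyp_up_up`; more generally `nthyp_of_isClassModule` for any lattice `Q`), hence

* `nt_b_int`, `nt_a_int`, `nt_c_int`, `nt_d_int` : the pairing
  `Ĥ⁰(G, Hom(B, C)) × H²(G, B) → H²(G, C)`, `(ψ, x) ↦ ψ_* x`, is perfect.

Inputs: (COH-HOM) (`A5c/NTGlue.lean`), the lattice duality of `LatticeDualQ.lean` (the dual-side
statement `ldDual` is (LD-ext) for the dual lattice plus reflexivity), `A2/UpLattice.lean`.
The `ℤ`-module instance diamond of `Rep ℤ G` is removed once and for all by `rep_int_induction`.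
-/

noncomputable section

namespace Fermat.Agent.CFT.A7.NTInt

open CategoryTheory CategoryTheory.Limits groupCohomology
  Fermat.Agent.CFT.A7.NT Fermat.Agent.CFT.A7.LatticeDualQ

/-! ### Lattice duality over `ℤ` in the shapes of `NTHyp` -/

section lattice

variable {G : Type*} [Group G] [Fintype G] {V : Type*} [AddCommGroup V]
  (ρ : Representation ℤ G V) {T : Type*} [AddCommGroup T] (γ : T)

lemma norm_apply (v : V) : ρ.norm v = ∑ g : G, ρ g v := by
  unfold Representation.norm
  rw [LinearMap.sum_apply]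

/-- (LD2') in the shape of `NTHyp.LD2`. -/
theorem ld2 [Module.Projective ℤ V] (hγ : addOrderOf γ = Fintype.card G)
    (hgen : ∀ z : T, ∃ m : ℤ, z = m • γ) (f : ρ.invariants →+ T)
    (hf : ∀ v : V, f ⟨ρ.norm v, fun g => Representation.self_norm_apply _ g v⟩ = 0) :
    ∃ l : V →ₗ[ℤ] ℤ, (∀ (g : G) (x : V), l (ρ g x) = l x) ∧
      ∀ y : ρ.invariants, f y = l y.1 • γ :=
  exists_invariant_functional_of_generator ρ γ hγ hgen f (fun y => by
    have := hf y
    convert this using 2
    exact Subtype.ext (norm_apply ρ y).symm)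

/-- (LD-R) in the shape of `NTHyp.LDR`. -/
theorem ldR [Module.Projective ℤ V] (r : V) (hr : ∀ g : G, ρ g r = r)
    (h : ∀ l : V →ₗ[ℤ] ℤ, (∀ (g : G) (x : V), l (ρ g x) = l x) →
      ((Fintype.card G : ℕ) : ℤ) ∣ l r) : ∃ y : V, r = ρ.norm y := by
  obtain ⟨y, hy⟩ := exists_norm_eq_of_forall_dvd ρ r hr h
  exact ⟨y, by rw [norm_apply]; exact hy⟩

/-- (LD2'-dual) in the shape of `NTHyp.LDdual`: (LD2') for the dual lattice and reflexivity. -/
theorem ldDual [Module.Free ℤ V] [Module.Finite ℤ V] (hγ : addOrderOf γ = Fintype.card G)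
    (hgen : ∀ z : T, ∃ m : ℤ, z = m • γ) (Λ : ρ.dual.invariants →+ T)
    (hΛ : ∀ μ : Module.Dual ℤ V,
      Λ ⟨ρ.dual.norm μ, fun g => Representation.self_norm_apply _ g μ⟩ = 0) :
    ∃ r : V, (∀ g : G, ρ g r = r) ∧ ∀ l : ρ.dual.invariants, Λ l = (l.1 r) • γ := by
  obtain ⟨L, hLinv, hL⟩ := ld2 ρ.dual γ hγ hgen Λ hΛ
  refine ⟨(Module.evalEquiv ℤ V).symm L, fun g => ?_, fun l => ?_⟩
  · apply (Module.evalEquiv ℤ V).injective
    refine LinearMap.ext fun l => ?_
    rw [Module.evalEquiv_apply, Module.evalEquiv_apply, Module.Dual.eval_apply,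
      Module.Dual.eval_apply, Module.apply_evalEquiv_symm_apply]
    have h1 := hLinv g⁻¹ l
    rw [← h1, ← Module.apply_evalEquiv_symm_apply]
    rw [Representation.dual_apply, inv_inv]
    rfl
  · rw [hL l, Module.apply_evalEquiv_symm_apply]

end lattice
/-! ### `NTHyp` for class modules over `ℤ` -/

section classModule

open Fermat.Agent.CFT.A5 Fermat.Agent.CFT.A5.Tate Fermat.Agent.CFT.A5c Fermat.Agent.CFT.A2

variable {G : Type} [Group G] [Fintype G]

omit [Fintype G] in
/-- To prove a statement about all `Q : Rep ℤ G` it suffices to prove it for `Rep.of ρ` with the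
canonical `ℤ`-module structure (this removes the `ℤ`-module instance diamond). -/
theorem rep_int_induction {P : Rep.{0} ℤ G → Prop}
    (h : ∀ (V : Type) [AddCommGroup V] (ρ : Representation ℤ G V), P (Rep.of ρ))
    (Q : Rep.{0} ℤ G) : P Q := by
  obtain ⟨V, ρ⟩ := Q
  rename_i hV1 hV2
  obtain rfl : hV2 = AddCommGroup.toIntModule V := Subsingleton.elim _ _
  exact h V ρ

lemma int_prime_mul_cancel : ∀ p : ℕ, p.Prime → ∀ r : ℤ, (p : ℤ) * r = 0 → r = 0 := by
  intro p hp r hr
  rcases mul_eq_zero.1 hr with h | h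
  · exact absurd (by exact_mod_cast h) hp.ne_zero
  · exact h

variable {C : Rep.{0} ℤ G} {φ : cocycles₂ C}

/-- the fundamental class has additive order `|G|` -/
lemma addOrderOf_H2π (hC : IsClassModule C φ) : addOrderOf (H2π C φ) = Fintype.card G := by
  apply Nat.dvd_antisymm
  · apply addOrderOf_dvd_of_nsmul_eq_zero
    have := Fermat.Agent.CFT.A1.card_nsmul_eq_zero C 1 (H2π C φ)
    rwa [Nat.card_eq_fintype_card] at this
  · have h1 := hC.hord_top (addOrderOf (H2π C φ) : ℤ)
      ((Nat.cast_smul_eq_nsmul ℤ _ _).trans (addOrderOf_nsmul_eq_zero _))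
    exact_mod_cast h1

/-- **`NTHyp` holds for every lattice `Q` and every class module `(C, φ)` over `ℤ`.** -/
theorem nthyp_of_isClassModule (hC : IsClassModule C φ) (Q : Rep.{0} ℤ G)
    (hfree : @Module.Free ℤ Q.V _ _ Q.hV2) (hfin : @Module.Finite ℤ Q.V _ _ Q.hV2) :
    NTHyp Q C φ := by
  revert hfree hfin
  refine rep_int_induction (P := fun Q => @Module.Free ℤ Q.V _ _ Q.hV2 →
    @Module.Finite ℤ Q.V _ _ Q.hV2 → NTHyp Q C φ) (fun V _ ρ hfree hfin => ?_) Q
  have : Module.Free ℤ V := hfree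
  have : Module.Finite ℤ V := hfin
  have : Module.Projective ℤ (Rep.of ρ).V := inferInstanceAs (Module.Projective ℤ V)
  have hγ := addOrderOf_H2π hC
  have hgen : ∀ z : groupCohomology C 2, ∃ m : ℤ, z = m • H2π C φ := fun z =>
    (hC.hgen_top z).imp fun m hm => hm.trans (Int.cast_smul_eq_zsmul ℤ m _)
  exact
    { hR1 := isZero_groupCohomology_ihom_leftRegular addHomsLinear_int
        int_prime_mul_cancel (Rep.of ρ) 1
      hE2 := isZero_groupCohomology_ihom_split addHomsLinear_int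
        int_prime_mul_cancel hC (Rep.of ρ) 2
      hord := hC.hord_top
      LD1 := fun l hl hd => exists_eq_sum_comp_of_dvd ρ l hl hd
      LD2 := fun f hf => by
        obtain ⟨l, hl, h⟩ := ld2 ρ (H2π C φ) hγ hgen f hf
        exact ⟨l, hl, fun y => (h y).trans (Int.cast_smul_eq_zsmul ℤ _ _).symm⟩
      LDR := fun r hr h => ldR ρ r hr h
      LDdual := fun Λ hΛ => by
        obtain ⟨r, hr, h⟩ := ldDual ρ (H2π C φ) hγ hgen Λ hΛ
        exact ⟨r, hr, fun l => (h l).trans (Int.cast_smul_eq_zsmul ℤ _ _).symm⟩ }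
/-! ### (NT) for class modules and lattices over `ℤ`, unconditionally -/

section final

variable (hC : IsClassModule C φ) (B : Rep.{0} ℤ G)
  (hfree : @Module.Free ℤ B.V _ _ B.hV2) (hfin : @Module.Finite ℤ B.V _ _ B.hV2)

include hC hfree hfin

/-- `NTHyp` for the twice shifted lattice. -/
theorem nthyp_up_up : NTHyp (up (up B)) C φ := by
  have := hfree
  have := hfin
  exact nthyp_of_isClassModule hC (up (up B)) (up_free (up B)) (up_finite (up B))

/-- **(NT-b) over `ℤ`**: `x ∈ H²(G, B)` with `ψ_* x = 0` for all `ψ : B ⟶ C` is zero. -/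
theorem nt_b_int (x : groupCohomology B 2)
    (hx : ∀ ψ : B ⟶ C, (map (MonoidHom.id G) ψ 2).hom x = 0) : x = 0 := by
  have := hfree
  have := hfin
  exact nt_b B C φ (nthyp_up_up hC B hfree hfin) x hx

/-- **(NT-a) over `ℤ`**: `ψ : B ⟶ C` with `ψ_* = 0` on `H²(G, B)` is a norm. -/
theorem nt_a_int (ψ : B ⟶ C)
    (hψ : ∀ x : groupCohomology B 2, (map (MonoidHom.id G) ψ 2).hom x = 0) :
    ∃ θ, ψ = NT.normHom B C θ := by
  have := hfree
  have := hfin
  exact nt_a B C φ (nthyp_up_up hC B hfree hfin) ψ hψ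

/-- **(NT-c) over `ℤ`**: every additive map `(B ⟶ C) → H²(G, C)` killing the norms is
`ψ ↦ ψ_* x`. -/
theorem nt_c_int (f : (B ⟶ C) →+ groupCohomology C 2) (hf : ∀ θ, f (NT.normHom B C θ) = 0) :
    ∃ x : groupCohomology B 2, ∀ ψ : B ⟶ C, (map (MonoidHom.id G) ψ 2).hom x = f ψ := by
  have := hfree
  have := hfin
  exact nt_c B C φ (nthyp_up_up hC B hfree hfin) f hf

/-- **(NT-d) over `ℤ`**: every additive map `H²(G, B) → H²(G, C)` is `ψ_*`. -/
theorem nt_d_int (f : groupCohomology B 2 →+ groupCohomology C 2) :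
    ∃ ψ : B ⟶ C, ∀ x : groupCohomology B 2, (map (MonoidHom.id G) ψ 2).hom x = f x := by
  have := hfree
  have := hfin
  exact nt_d B C φ (nthyp_up_up hC B hfree hfin) f

end final

end classModule

end Fermat.Agent.CFT.A7.NTInt
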