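import Mathlib
import Fermat.Agent.CFT.A7.NT
import Fermat.Agent.CFT.A7.LatticeDualNT
import Fermat.Agent.CFT.A5c.NTGlue
import Fermat.Agent.CFT.A5.ClassTop
import Fermat.Agent.CFT.A5.TateLocal
import Fermat.Agent.CFT.A2.UpLattice

/-!
# PROJECT C, slice A7.2c/A7.3: finite-level Nakayama–Tate duality (NT) for class modules over a PID

`k` a principal ideal domain of characteristic zero in which additive maps between `k`-modules
are `k`-linear (`AddHomsLinear k`; e.g. `k = ℤ` or `k = ℤ_(p)`,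
`A5.TateLocal.addHomsLinear_of_isLocalization`), `G` a finite group, `(C, φ)` a class module
(`A5.Tate.IsClassModule C φ`).

* `ntHyp_of_isClassModule` : `NT.NTHyp Q C φ` for every `k`-lattice `Q` (free of finite rank):
  the two vanishing statements from (COH-HOM) (`A5c.NTGlue`), the order of `[φ]` from
  `IsClassModule`, and the four lattice-duality facts from `LatticeDualNT`.
* `nt_a`, `nt_b`, `nt_c`, `nt_d` : the four faces of the perfect push-forward pairing
  `Ĥ⁰(G, Hom(B, C)) × H²(G, B) → H²(G, C)` for a `k`-lattice `B`.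
-/

set_option autoImplicit false

noncomputable section

universe u

namespace Fermat.Agent.CFT.A7.NTK

open CategoryTheory CategoryTheory.Limits groupCohomology
  Fermat.Agent.CFT.A2 Fermat.Agent.CFT.A5 Fermat.Agent.CFT.A5.Tate Fermat.Agent.CFT.A5.ClassTop
  Fermat.Agent.CFT.A5.TateLocal Fermat.Agent.CFT.A5c Fermat.Agent.CFT.A7.NT

variable {k G : Type u} [CommRing k] [IsDomain k] [IsPrincipalIdealRing k] [CharZero k]
  [Group G] [Fintype G]

omit [IsDomain k] [IsPrincipalIdealRing k] in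
theorem card_ne_zero : ((Fintype.card G : ℕ) : k) ≠ 0 := by
  exact_mod_cast (Fintype.card_ne_zero : Fintype.card G ≠ 0)

/-- an additive map between `k`-modules as a `k`-linear map, under `AddHomsLinear k` -/
def linOfAdd (hR : AddHomsLinear k) {A B : Type u} [AddCommGroup A] [AddCommGroup B] [Module k A]
    [Module k B] (f : A →+ B) : A →ₗ[k] B :=
  { f with map_smul' := fun r a => hR A B f r a }

omit [IsDomain k] [IsPrincipalIdealRing k] [CharZero k] in
@[simp] theorem linOfAdd_apply (hR : AddHomsLinear k) {A B : Type u} [AddCommGroup A]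
    [AddCommGroup B] [Module k A] [Module k B] (f : A →+ B) (a : A) : linOfAdd hR f a = f a := rfl

/-- **The hypotheses of (NT) hold for a class module `(C, φ)` and every `k`-lattice `Q`.** -/
theorem ntHyp_of_isClassModule (hR : AddHomsLinear k) {C : Rep.{u} k G} {φ : cocycles₂ C}
    (hC : IsClassModule C φ) (Q : Rep.{u} k G) [Module.Free k Q.V] [Module.Finite k Q.V] :
    NTHyp Q C φ where
  hR1 := isZero_groupCohomology_ihom_leftRegular hR (prime_mul_eq_zero_of_domain k) Q 1
  hE2 := isZero_groupCohomology_ihom_split hR (prime_mul_eq_zero_of_domain k) hC Q 2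
  hord := hC.hord_top
  LD1 := fun l hl hdiv => LatticeDualNT.exists_norm_eq Q.ρ card_ne_zero l hl hdiv
  LD2 := fun f hf => by
    obtain ⟨l, hl, hlf⟩ := LatticeDualNT.exists_invariant_lift Q.ρ (H2π C φ) card_ne_zero
      hC.hgen_top hC.hord_top (linOfAdd hR f) hf
    exact ⟨l, hl, hlf⟩
  LDR := fun r hr h => LatticeDualNT.exists_eq_norm_of_forall_dvd Q.ρ card_ne_zero r hr h
  LDdual := fun Λ hΛ => by
    obtain ⟨r, hr, hrΛ⟩ := LatticeDualNT.exists_invariant_eval Q.ρ (H2π C φ) card_ne_zero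
      hC.hgen_top hC.hord_top (linOfAdd hR Λ) hΛ
    exact ⟨r, hr, hrΛ⟩

section Lattice

variable (hR : AddHomsLinear k) {C : Rep.{u} k G} {φ : cocycles₂ C} (hC : IsClassModule C φ)
  (B : Rep.{u} k G) [Module.Free k B.V] [Module.Finite k B.V]

include hR hC

/-- the hypotheses of (NT) for the twice shifted lattice -/
theorem ntHyp_upup : NTHyp (up (up B)) C φ :=
  ntHyp_of_isClassModule hR hC (up (up B))

/-- **(NT-b)** for a class module and a `k`-lattice `B`: a class `x ∈ H²(G, B)` with `ψ_* x = 0`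
for all `ψ : B ⟶ C` is zero. -/
theorem nt_b (x : groupCohomology B 2)
    (hx : ∀ ψ : B ⟶ C, (map (MonoidHom.id G) ψ 2).hom x = 0) : x = 0 :=
  NT.nt_b B C φ (ntHyp_upup hR hC B) x hx

/-- **(NT-a)**: a morphism `ψ : B ⟶ C` with `ψ_* = 0` on `H²(G, B)` is a norm. -/
theorem nt_a (ψ : B ⟶ C)
    (hψ : ∀ x : groupCohomology B 2, (map (MonoidHom.id G) ψ 2).hom x = 0) :
    ∃ θ : B.V →ₗ[k] C.V, ψ = normHom B C θ :=
  NT.nt_a B C φ (ntHyp_upup hR hC B) ψ hψ

/-- **(NT-c)**: every additive map `(B ⟶ C) → H²(G, C)` killing the norms is `ψ ↦ ψ_* x`. -/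
theorem nt_c (f : (B ⟶ C) →+ groupCohomology C 2) (hf : ∀ θ, f (normHom B C θ) = 0) :
    ∃ x : groupCohomology B 2, ∀ ψ : B ⟶ C, (map (MonoidHom.id G) ψ 2).hom x = f ψ :=
  NT.nt_c B C φ (ntHyp_upup hR hC B) f hf

/-- **(NT-d)**: every additive map `H²(G, B) → H²(G, C)` is `ψ_*` for some `ψ : B ⟶ C`. -/
theorem nt_d (f : groupCohomology B 2 →+ groupCohomology C 2) :
    ∃ ψ : B ⟶ C, ∀ x : groupCohomology B 2, (map (MonoidHom.id G) ψ 2).hom x = f x :=
  NT.nt_d B C φ (ntHyp_upup hR hC B) f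

end Lattice

end Fermat.Agent.CFT.A7.NTK
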