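/-
PROJECT C (S55), slice A7.1b (helper23): the RELATIVE CUP PAIRING (route §1 (R4)) on abstract group
cohomology.

For `f : A₀ ⟶ A₁` in `Rep k G` the relative cohomology is `Hrel f n := Fiber.T (cmap f) n`, the
cohomology of helper10's fiber of `C•(G, A₀) ⟶ C•(G, A₁)`.  Given a short exact sequence
`S : 0 → P₁ → P₀ → M → 0` and pairings `φ₀ : A₀ × P₀ → X`, `φ₁ : A₁ × P₁ → X` with
`φ₁ (f a) w = φ₀ a (i w)` (`Compat f S.f φ₀ φ₁`; the example is `A_j = Hom(P_j, X)` with the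
evaluation pairings, `HomRep.compat_eval`), we construct

`relCup  : Hrel f (r+1) →ₗ Hˢ(G, M) →ₗ Hⁿ(G, X)`   (`(r+1) + s = n`)
`relCup₀ : Hrel f 0     →ₗ Hˢ(G, M) →ₗ Hˢ(G, X)`

with `relCup [(a,b)] [z] = [a ∪ y + (-1)^r • b ∪ w]` for any lift `y` of `z` to `P₀` and `w` with
`i ∘ w = d y`, and prove

* (c1) `relCup (Tι x₁) z = (-1)^r • x₁ ∪ δ z`   (`x₁ ∈ Hʳ(G, A₁)`, `δ : Hˢ(M) → Hˢ⁺¹(P₁)`);
* (c2) `relCup x (π_* y₀) = Tπ x ∪ y₀`          (`y₀ ∈ Hˢ(G, P₀)`).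
-/
import Fermat.Agent.CFT.A7.Fiber
import Fermat.Agent.CFT.A7.RelCupCochain
import Fermat.Agent.CFT.A3.Cocycles

noncomputable section

universe u

namespace Fermat.Agent.CFT.A7.RelCup

open CategoryTheory groupCohomology Fermat.Agent.CFT.Cup Fermat.Agent.CFT.A7.RelCupCochain
open Fermat.Agent.CFT.A7

variable {k G : Type u} [CommRing k] [Group G]

/-! ### Relative cohomology of a morphism of representations -/

/-- The morphism of inhomogeneous cochain complexes induced by a morphism of representations. -/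
abbrev cmap {A B : Rep.{u} k G} (f : A ⟶ B) :
    inhomogeneousCochains A ⟶ inhomogeneousCochains B :=
  cochainsMap (MonoidHom.id G) f

lemma d_hom_eq (A : Rep.{u} k G) (n : ℕ) (a : (Fin n → G) → A.V) :
    ((inhomogeneousCochains A).d n (n + 1)).hom a = dF A n a := by
  rw [inhomogeneousCochains.d_def]

lemma cmap_f_hom_eq {A B : Rep.{u} k G} (f : A ⟶ B) (n : ℕ) (a : (Fin n → G) → A.V) :
    ((cmap f).f n).hom a = comp f a := rfl

/-- Relative cohomology of `f : A₀ ⟶ A₁`: the cohomology of the fiber of the induced map on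
inhomogeneous cochains. -/
abbrev Hrel {A₀ A₁ : Rep.{u} k G} (f : A₀ ⟶ A₁) (n : ℕ) : ModuleCat.{u} k := Fiber.T (cmap f) n

/-- bridge between the two elementwise presentations of `groupCohomology A n` -/
lemma fiberCls_eq_cls (A : Rep.{u} k G) (n : ℕ) (a : (Fin n → G) → A.V) (ha : dF A n a = 0) :
    Fiber.cls (inhomogeneousCochains A) n ⟨a, (d_hom_eq A n a).trans ha⟩ =
      cls A n ⟨a, mem_Z.2 ha⟩ := by
  rw [Fiber.cls_apply, cls_mk A n a ha]
  congr 1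
  apply iCocycles_injective A n
  rw [iCocycles_mk]
  exact Fiber.iCycles_cyc _ _ _

section rel

variable {A₀ A₁ : Rep.{u} k G} (f : A₀ ⟶ A₁)

/-- Relative cocycles of degree `r + 1`: pairs `(a, b)` with `d a = 0`, `f ∘ a = d b`. -/
def relZ (r : ℕ) : Submodule k (((Fin (r + 1) → G) → A₀.V) × ((Fin r → G) → A₁.V)) where
  carrier := {p | dF A₀ (r + 1) p.1 = 0 ∧ comp f p.1 = dF A₁ r p.2}
  add_mem' := by
    rintro p q ⟨hp1, hp2⟩ ⟨hq1, hq2⟩
    exact ⟨by rw [Prod.fst_add, dF_add, hp1, hq1, add_zero],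
      by rw [Prod.fst_add, Prod.snd_add, comp_add, dF_add, hp2, hq2]⟩
  zero_mem' := ⟨by simp, by simp⟩
  smul_mem' := by
    rintro c p ⟨hp1, hp2⟩
    exact ⟨by rw [Prod.smul_fst, dF_smul, hp1, smul_zero],
      by rw [Prod.smul_fst, Prod.smul_snd, comp_smul, dF_smul, hp2]⟩

lemma mem_relZ {r : ℕ} {p : ((Fin (r + 1) → G) → A₀.V) × ((Fin r → G) → A₁.V)} :
    p ∈ relZ f r ↔ dF A₀ (r + 1) p.1 = 0 ∧ comp f p.1 = dF A₁ r p.2 := Iff.rfl

/-- The class in `Hrel f (r+1)` of a relative cocycle `(a, b)`. -/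
def relMk (r : ℕ) (a : (Fin (r + 1) → G) → A₀.V) (b : (Fin r → G) → A₁.V)
    (ha : dF A₀ (r + 1) a = 0) (hab : comp f a = dF A₁ r b) : Hrel f (r + 1) :=
  Fiber.Tmk (cmap f) r a b ((d_hom_eq A₀ (r + 1) a).trans ha)
    ((cmap_f_hom_eq f (r + 1) a).trans (hab.trans (d_hom_eq A₁ r b).symm))

/-- The class map on relative cocycles. -/
def relCls (r : ℕ) : relZ f r →ₗ[k] Hrel f (r + 1) where
  toFun p := relMk f r p.1.1 p.1.2 p.2.1 p.2.2
  map_add' p q := by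
    unfold relMk
    rw [Fiber.Tmk_add]
    rfl
  map_smul' c p := by
    unfold relMk
    rw [RingHom.id_apply, Fiber.Tmk_smul]
    rfl

lemma relCls_apply (r : ℕ) (p : relZ f r) :
    relCls f r p = relMk f r p.1.1 p.1.2 p.2.1 p.2.2 := rfl

lemma relMk_eq_relCls (r : ℕ) (a : (Fin (r + 1) → G) → A₀.V) (b : (Fin r → G) → A₁.V)
    (ha : dF A₀ (r + 1) a = 0) (hab : comp f a = dF A₁ r b) :
    relMk f r a b ha hab = relCls f r ⟨(a, b), ha, hab⟩ := rfl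

lemma relCls_surjective (r : ℕ) : Function.Surjective (relCls f r) := by
  intro t
  obtain ⟨a, b, ha, hab, rfl⟩ := Fiber.Tmk_surjective (cmap f) r t
  exact ⟨⟨(a, b), (d_hom_eq A₀ (r + 1) a).symm.trans ha,
    (cmap_f_hom_eq f (r + 1) a).symm.trans (hab.trans (d_hom_eq A₁ r b))⟩, rfl⟩

lemma relMk_surjective (r : ℕ) (t : Hrel f (r + 1)) :
    ∃ (a : (Fin (r + 1) → G) → A₀.V) (b : (Fin r → G) → A₁.V) (ha : dF A₀ (r + 1) a = 0)
      (hab : comp f a = dF A₁ r b), relMk f r a b ha hab = t := by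
  obtain ⟨p, rfl⟩ := relCls_surjective f r t
  exact ⟨p.1.1, p.1.2, p.2.1, p.2.2, rfl⟩

/-- Vanishing in `Hrel f 1`: `(a, b) = (d a', f ∘ a')`. -/
lemma relMk_eq_zero_iff_zero (a : (Fin 1 → G) → A₀.V) (b : (Fin 0 → G) → A₁.V)
    (ha : dF A₀ 1 a = 0) (hab : comp f a = dF A₁ 0 b) :
    relMk f 0 a b ha hab = 0 ↔ ∃ a' : (Fin 0 → G) → A₀.V, dF A₀ 0 a' = a ∧ comp f a' = b := by
  unfold relMk
  rw [Fiber.Tmk_eq_zero_iff_zero]
  constructor
  · rintro ⟨a', h1, h2⟩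
    exact ⟨a', (d_hom_eq A₀ 0 a').symm.trans h1, h2⟩
  · rintro ⟨a', h1, h2⟩
    exact ⟨a', (d_hom_eq A₀ 0 a').trans h1, h2⟩

/-- Vanishing in `Hrel f (r+2)`: `(a, b) = (d a', f ∘ a' - d b')`. -/
lemma relMk_eq_zero_iff_succ (r : ℕ) (a : (Fin (r + 1 + 1) → G) → A₀.V)
    (b : (Fin (r + 1) → G) → A₁.V) (ha : dF A₀ (r + 1 + 1) a = 0)
    (hab : comp f a = dF A₁ (r + 1) b) :
    relMk f (r + 1) a b ha hab = 0 ↔
      ∃ (a' : (Fin (r + 1) → G) → A₀.V) (b' : (Fin r → G) → A₁.V),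
        dF A₀ (r + 1) a' = a ∧ comp f a' - dF A₁ r b' = b := by
  unfold relMk
  rw [Fiber.Tmk_eq_zero_iff_succ]
  constructor
  · rintro ⟨a', b', h1, h2⟩
    refine ⟨a', b', (d_hom_eq A₀ (r + 1) a').symm.trans h1, ?_⟩
    rw [← h2, d_hom_eq]
    rfl
  · rintro ⟨a', b', h1, h2⟩
    refine ⟨a', b', (d_hom_eq A₀ (r + 1) a').trans h1, ?_⟩
    rw [← h2, d_hom_eq]
    rfl

/-- The class in `Hrel f 0` of `a ∈ C⁰(A₀)` with `d a = 0`, `f ∘ a = 0`. -/
def relMk₀ (a : (Fin 0 → G) → A₀.V) (ha : dF A₀ 0 a = 0) (hfa : comp f a = 0) : Hrel f 0 :=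
  Fiber.Tmk₀ (cmap f) a ((d_hom_eq A₀ 0 a).trans ha) ((cmap_f_hom_eq f 0 a).trans hfa)

lemma relMk₀_surjective (t : Hrel f 0) :
    ∃ (a : (Fin 0 → G) → A₀.V) (ha : dF A₀ 0 a = 0) (hfa : comp f a = 0),
      relMk₀ f a ha hfa = t := by
  obtain ⟨a, ha, hfa, rfl⟩ := Fiber.Tmk₀_surjective (cmap f) t
  exact ⟨a, (d_hom_eq A₀ 0 a).symm.trans ha, (cmap_f_hom_eq f 0 a).symm.trans hfa, rfl⟩

/-- `Tπ [(a, b)] = [a]`. -/
lemma Tπ_relMk (r : ℕ) (a : (Fin (r + 1) → G) → A₀.V) (b : (Fin r → G) → A₁.V)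
    (ha : dF A₀ (r + 1) a = 0) (hab : comp f a = dF A₁ r b) :
    (Fiber.Tπ (cmap f) (r + 1)).hom (relMk f r a b ha hab) = cls A₀ (r + 1) ⟨a, mem_Z.2 ha⟩ := by
  unfold relMk
  rw [Fiber.Tπ_Tmk]
  exact fiberCls_eq_cls A₀ (r + 1) a ha

/-- `Tι [b] = [(0, b)]`. -/
lemma Tι_cls (r : ℕ) (b : Z A₁ r) :
    (Fiber.Tι (cmap f) r).hom (cls A₁ r b) =
      relMk f r 0 b.1 (dF_zero A₀ (r + 1)) ((comp_zero f).trans (mem_Z.1 b.2).symm) := by
  rw [← fiberCls_eq_cls A₁ r b.1 (mem_Z.1 b.2), Fiber.Tι_cls]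
  rfl

end rel

/-! ### The cone side: cocycles of `M = P₀/P₁` with chosen lifts -/

section cone

variable {S : ShortComplex (Rep.{u} k G)} (hS : S.ShortExact)

variable (S) in
/-- Cone cocycles of degree `s`: pairs `(y, w)`, `y ∈ Cˢ(P₀)`, `w ∈ Cˢ⁺¹(P₁)` with `d y = i ∘ w`. -/
def coneZ (s : ℕ) : Submodule k (((Fin s → G) → S.X₂.V) × ((Fin (s + 1) → G) → S.X₁.V)) where
  carrier := {q | dF S.X₂ s q.1 = comp S.f q.2}
  add_mem' := by
    rintro p q hp hq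
    change dF S.X₂ s (p.1 + q.1) = comp S.f (p.2 + q.2)
    rw [dF_add, comp_add, hp, hq]
  zero_mem' := by
    change dF S.X₂ s 0 = comp S.f 0
    simp
  smul_mem' := by
    rintro c p hp
    change dF S.X₂ s (c • p.1) = comp S.f (c • p.2)
    rw [dF_smul, comp_smul, hp]

lemma mem_coneZ {s : ℕ} {q : ((Fin s → G) → S.X₂.V) × ((Fin (s + 1) → G) → S.X₁.V)} :
    q ∈ coneZ S s ↔ dF S.X₂ s q.1 = comp S.f q.2 := Iff.rfl

lemma comp_g_comp_f {n : ℕ} (w : (Fin n → G) → S.X₁.V) : comp S.g (comp S.f w) = 0 := by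
  funext g
  have := S.zero
  exact congr($(this).hom (w g))

include hS in
/-- The second component of a cone cocycle is a cocycle. -/
lemma dF_snd_eq_zero {s : ℕ} {q : ((Fin s → G) → S.X₂.V) × ((Fin (s + 1) → G) → S.X₁.V)}
    (hq : q ∈ coneZ S s) : dF S.X₁ (s + 1) q.2 = 0 := by
  have h1 : comp S.f (dF S.X₁ (s + 1) q.2) = 0 := by
    rw [← dF_comp, ← mem_coneZ.1 hq, dF_dF]
  funext g
  apply shortExact_f_injective hS
  rw [Pi.zero_apply, map_zero]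
  exact congrFun h1 g

/-- The image in `M` of the first component of a cone cocycle is a cocycle. -/
lemma comp_g_mem_Z {s : ℕ} {q : ((Fin s → G) → S.X₂.V) × ((Fin (s + 1) → G) → S.X₁.V)}
    (hq : q ∈ coneZ S s) : comp S.g q.1 ∈ Z S.X₃ s := by
  rw [mem_Z, dF_comp, mem_coneZ.1 hq, comp_g_comp_f]

variable (S) in
/-- The class in `Hˢ(G, M)` of a cone cocycle `(y, w)`: the class of `π ∘ y`. -/
def coneCls (s : ℕ) : coneZ S s →ₗ[k] groupCohomology S.X₃ s where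
  toFun q := cls S.X₃ s ⟨comp S.g q.1.1, comp_g_mem_Z q.2⟩
  map_add' p q := by
    rw [← map_add]
    congr 1
    exact Subtype.ext (comp_add S.g p.1.1 q.1.1)
  map_smul' c p := by
    rw [RingHom.id_apply, ← map_smul]
    congr 1
    exact Subtype.ext (comp_smul S.g c p.1.1)

lemma coneCls_apply (s : ℕ) (q : coneZ S s) :
    coneCls S s q = cls S.X₃ s ⟨comp S.g q.1.1, comp_g_mem_Z q.2⟩ := rfl

include hS in
lemma coneCls_surjective (s : ℕ) : Function.Surjective (coneCls S s) := by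
  intro x
  induction x using cls_induction_on with
  | h z =>
    obtain ⟨y, w, hy, hw⟩ := exists_lifts hS s z
    refine ⟨⟨(y, w), ?_⟩, ?_⟩
    · rw [mem_coneZ]
      funext g
      exact (hw g).symm
    · rw [coneCls_apply]
      congr 1
      exact Subtype.ext (funext hy)

include hS in
/-- every cochain of `M` lifts to `P₀` -/
lemma exists_comp_g_eq {n : ℕ} (z : (Fin n → G) → S.X₃.V) :
    ∃ y : (Fin n → G) → S.X₂.V, comp S.g y = z := by
  choose s hs using shortExact_g_surjective hS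
  exact ⟨fun g => s (z g), funext fun g => hs _⟩

include hS in
/-- a cochain of `P₀` dying in `M` comes from `P₁` -/
lemma exists_comp_f_eq {n : ℕ} (y : (Fin n → G) → S.X₂.V) (hy : comp S.g y = 0) :
    ∃ u : (Fin n → G) → S.X₁.V, comp S.f u = y := by
  choose u hu using fun g => shortExact_exact hS (y g) (congrFun hy g)
  exact ⟨u, funext hu⟩

include hS in
lemma comp_f_injective {n : ℕ} {u u' : (Fin n → G) → S.X₁.V} (h : comp S.f u = comp S.f u') :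
    u = u' := by
  funext g
  exact shortExact_f_injective hS (congrFun h g)

include hS in
/-- Kernel of `coneCls` in degree `0`: `(y, w) = (i ∘ u, d u)`. -/
lemma coneCls_eq_zero_zero (q : coneZ S 0) (hq : coneCls S 0 q = 0) :
    ∃ u : (Fin 0 → G) → S.X₁.V, q.1.1 = comp S.f u ∧ q.1.2 = dF S.X₁ 0 u := by
  rw [coneCls_apply, cls_eq_zero_iff_zero] at hq
  have h0 : comp S.g q.1.1 = 0 := congrArg Subtype.val hq
  obtain ⟨u, hu⟩ := exists_comp_f_eq hS q.1.1 h0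
  refine ⟨u, hu.symm, ?_⟩
  apply comp_f_injective hS
  rw [← mem_coneZ.1 q.2, ← dF_comp, hu]

include hS in
/-- Kernel of `coneCls` in degree `s + 1`: `(y, w) = (d y' + i ∘ u, d u)`. -/
lemma coneCls_eq_zero_succ (s : ℕ) (q : coneZ S (s + 1)) (hq : coneCls S (s + 1) q = 0) :
    ∃ (y' : (Fin s → G) → S.X₂.V) (u : (Fin (s + 1) → G) → S.X₁.V),
      q.1.1 = dF S.X₂ s y' + comp S.f u ∧ q.1.2 = dF S.X₁ (s + 1) u := by
  rw [coneCls_apply, cls_eq_zero_iff_succ] at hq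
  obtain ⟨z', hz'⟩ := hq
  obtain ⟨y', rfl⟩ := exists_comp_g_eq hS z'
  have h0 : comp S.g (q.1.1 - dF S.X₂ s y') = 0 := by
    rw [comp_sub, ← dF_comp, hz', sub_self]
  obtain ⟨u, hu⟩ := exists_comp_f_eq hS _ h0
  refine ⟨y', u, by rw [hu]; abel, ?_⟩
  apply comp_f_injective hS
  rw [← mem_coneZ.1 q.2, ← dF_comp, hu, dF_sub, dF_dF, sub_zero]

end cone

/-! ### The relative cup pairing -/

section pairing

variable {A₀ A₁ X : Rep.{u} k G} {f : A₀ ⟶ A₁} {S : ShortComplex (Rep.{u} k G)}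
  (hS : S.ShortExact) {φ₀ : Pairing A₀ S.X₂ X} {φ₁ : Pairing A₁ S.X₁ X}
  (hφ : Compat f S.f φ₀ φ₁)

/-- The relative cup product of a relative cocycle and a cone cocycle, as a cocycle of `X`. -/
def relCupZfun {r s n : ℕ} (h : (r + 1) + s = n) (p : relZ f r) (q : coneZ S s) : Z X n :=
  ⟨relCupFun φ₀ φ₁ h p.1.1 p.1.2 q.1.1 q.1.2,
    mem_Z.2 (dF_relCupFun_eq_zero hφ h p.2.1 p.2.2 q.2 (dF_snd_eq_zero hS q.2))⟩

/-- The relative cup pairing on the level of cocycles, with values in cohomology. -/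
def relCupZ {r s n : ℕ} (h : (r + 1) + s = n) :
    relZ f r →ₗ[k] coneZ S s →ₗ[k] groupCohomology X n :=
  LinearMap.mk₂ k (fun p q => cls X n (relCupZfun hS hφ h p q))
    (fun p p' q => by
      rw [← map_add]; congr 1
      exact Subtype.ext (relCupFun_add_left φ₀ φ₁ h _ _ _ _ _ _))
    (fun c p q => by
      rw [← map_smul]; congr 1
      exact Subtype.ext (relCupFun_smul_left φ₀ φ₁ h c _ _ _ _))
    (fun p q q' => by
      rw [← map_add]; congr 1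
      exact Subtype.ext (relCupFun_add_right φ₀ φ₁ h _ _ _ _ _ _))
    (fun c p q => by
      rw [← map_smul]; congr 1
      exact Subtype.ext (relCupFun_smul_right φ₀ φ₁ h c _ _ _ _))

lemma relCupZ_apply {r s n : ℕ} (h : (r + 1) + s = n) (p : relZ f r) (q : coneZ S s) :
    relCupZ hS hφ h p q = cls X n (relCupZfun hS hφ h p q) := rfl

/-- relative coboundaries pair to zero -/
lemma relCupZ_eq_zero_left {r s n : ℕ} (h : (r + 1) + s = n) (p : relZ f r)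
    (hp : relCls f r p = 0) (q : coneZ S s) : relCupZ hS hφ h p q = 0 := by
  obtain ⟨m, rfl⟩ : ∃ m, n = m + 1 := ⟨r + s, by omega⟩
  rw [relCupZ_apply, cls_eq_zero_iff_succ]
  obtain ⟨⟨a, b⟩, ha, hab⟩ := p
  obtain ⟨⟨y, w⟩, hq⟩ := q
  have hw := dF_snd_eq_zero hS hq
  rw [mem_coneZ] at hq
  rw [relCls_apply] at hp
  cases r with
  | zero =>
    rw [relMk_eq_zero_iff_zero] at hp
    obtain ⟨a', rfl, rfl⟩ := hp
    exact ⟨cupFun φ₀ (show 0 + s = m by omega) a' y, (relCupFun_D_zero hφ h a' hq).symm⟩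
  | succ r =>
    rw [relMk_eq_zero_iff_succ] at hp
    obtain ⟨a', b', rfl, rfl⟩ := hp
    exact ⟨relCupFun φ₀ φ₁ (show (r + 1) + s = m by omega) a' b' y w,
      (relCupFun_D hφ h a' b' hq hw).symm⟩

/-- cone cocycles with trivial class pair to zero -/
lemma relCupZ_eq_zero_right {r s n : ℕ} (h : (r + 1) + s = n) (p : relZ f r) (q : coneZ S s)
    (hq : coneCls S s q = 0) : relCupZ hS hφ h p q = 0 := by
  obtain ⟨m, rfl⟩ : ∃ m, n = m + 1 := ⟨r + s, by omega⟩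
  rw [relCupZ_apply, cls_eq_zero_iff_succ]
  obtain ⟨⟨a, b⟩, ha, hab⟩ := p
  change dF A₀ (r + 1) a = 0 at ha
  change comp f a = dF A₁ r b at hab
  cases s with
  | zero =>
    obtain ⟨u, hy, hw⟩ := coneCls_eq_zero_zero hS q hq
    refine ⟨cupFun φ₁ (show r + 0 = m by omega) b u, ?_⟩
    change _ = relCupFun φ₀ φ₁ h a b q.1.1 q.1.2
    rw [hy, hw]
    exact (relCupFun_comp_dF hφ h hab u).symm
  | succ s =>
    obtain ⟨y', u, hy, hw⟩ := coneCls_eq_zero_succ hS s q hq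
    refine ⟨(-1 : k) ^ (r + 1) • cupFun φ₀ (show (r + 1) + s = m by omega) a y' +
      cupFun φ₁ (show r + (s + 1) = m by omega) b u, ?_⟩
    change _ = relCupFun φ₀ φ₁ h a b q.1.1 q.1.2
    rw [hy, hw, dF_add, dF_smul, ← relCupFun_dF_zero (φ₁ := φ₁) h b ha y',
      ← relCupFun_comp_dF hφ h hab u, ← relCupFun_add_right, zero_add]

/-- **The relative cup pairing** `Hrel f (r+1) × Hˢ(G, M) → Hⁿ(G, X)`, `(r+1) + s = n`. -/
def relCup {r s n : ℕ} (h : (r + 1) + s = n) :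
    Hrel f (r + 1) →ₗ[k] groupCohomology S.X₃ s →ₗ[k] groupCohomology X n :=
  A3.descBilin (relCls f r) (coneCls S s) (relCls_surjective f r) (coneCls_surjective hS s)
    (relCupZ hS hφ h) (fun p hp q => relCupZ_eq_zero_left hS hφ h p hp q)
    (fun p q hq => relCupZ_eq_zero_right hS hφ h p q hq)

lemma relCup_relCls_coneCls {r s n : ℕ} (h : (r + 1) + s = n) (p : relZ f r) (q : coneZ S s) :
    relCup hS hφ h (relCls f r p) (coneCls S s q) = cls X n (relCupZfun hS hφ h p q) :=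
  A3.descBilin_apply _ _ _ _ _ _ _ p q

/-- **Characterisation of the relative cup pairing**: for a relative cocycle `(a, b)`, a cocycle
`z` of `M`, a lift `y` of `z` to `P₀` and `w` with `i ∘ w = d y`,
`relCup [(a,b)] [z] = [a ∪ y + (-1)^r • b ∪ w]`. -/
theorem relCup_relMk_cls {r s n : ℕ} (h : (r + 1) + s = n)
    (a : (Fin (r + 1) → G) → A₀.V) (b : (Fin r → G) → A₁.V)
    (ha : dF A₀ (r + 1) a = 0) (hab : comp f a = dF A₁ r b)
    (z : Z S.X₃ s) (y : (Fin s → G) → S.X₂.V) (w : (Fin (s + 1) → G) → S.X₁.V)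
    (hy : comp S.g y = z.1) (hw : dF S.X₂ s y = comp S.f w) :
    relCup hS hφ h (relMk f r a b ha hab) (cls S.X₃ s z) =
      cls X n ⟨relCupFun φ₀ φ₁ h a b y w, mem_Z.2 (dF_relCupFun_eq_zero hφ h ha hab hw
        (dF_snd_eq_zero hS (q := (y, w)) hw))⟩ := by
  have e : cls S.X₃ s z = coneCls S s ⟨(y, w), hw⟩ := by
    rw [coneCls_apply]
    congr 1
    exact Subtype.ext hy.symm
  rw [e, relMk_eq_relCls, relCup_relCls_coneCls]
  rfl

/-- **(c1)** `relCup (Tι x₁) z = (-1)^r • x₁ ∪ δ z` for `x₁ ∈ Hʳ(G, A₁)`, `z ∈ Hˢ(G, M)`,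
`δ : Hˢ(G, M) → Hˢ⁺¹(G, P₁)` the connecting homomorphism of `S`. -/
theorem relCup_Tι {r s n : ℕ} (h : (r + 1) + s = n) (x₁ : groupCohomology A₁ r)
    (z : groupCohomology S.X₃ s) :
    relCup hS hφ h ((Fiber.Tι (cmap f) r).hom x₁) z =
      (-1 : k) ^ r • cup φ₁ (show r + (s + 1) = n by omega) x₁ (δ hS s (s + 1) rfl z) := by
  induction x₁ using cls_induction_on with
  | h b =>
  induction z using cls_induction_on with
  | h z =>
  obtain ⟨y, w, hy, hw⟩ := exists_lifts hS s z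
  have hw' : dF S.X₂ s y = comp S.f w := funext fun g => (hw g).symm
  rw [Tι_cls, relCup_relMk_cls hS hφ h 0 b.1 _ _ z y w (funext hy) hw', δ_cls hS s z y hy w hw,
    cup_cls, ← map_smul]
  congr 1
  apply Subtype.ext
  exact relCupFun_zero_fst h b.1 y w

/-- **(c2)** `relCup x (π_* y₀) = Tπ x ∪ y₀` for `x ∈ Hrel f (r+1)`, `y₀ ∈ Hˢ(G, P₀)`. -/
theorem relCup_map_g {r s n : ℕ} (h : (r + 1) + s = n) (x : Hrel f (r + 1))
    (y₀ : groupCohomology S.X₂ s) :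
    relCup hS hφ h x (groupCohomology.map (MonoidHom.id G) S.g s y₀) =
      cup φ₀ h ((Fiber.Tπ (cmap f) (r + 1)).hom x) y₀ := by
  obtain ⟨a, b, ha, hab, rfl⟩ := relMk_surjective f r x
  induction y₀ using cls_induction_on with
  | h y =>
  have hy : dF S.X₂ s y.1 = comp S.f (0 : (Fin (s + 1) → G) → S.X₁.V) := by
    rw [mem_Z.1 y.2, comp_zero]
  rw [map_cls, relCup_relMk_cls hS hφ h a b ha hab _ y.1 0 rfl hy, Tπ_relMk, cup_cls]
  congr 1
  apply Subtype.ext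
  exact relCupFun_zero_snd h a b y.1

end pairing

/-! ### Naturality: change of group and of coefficients -/

section naturality

variable {H : Type u} [Group H] (ψ : G →* H)
  {A₀ A₁ X : Rep.{u} k H} {f : A₀ ⟶ A₁} {S : ShortComplex (Rep.{u} k H)} (hS : S.ShortExact)
  {φ₀ : Pairing A₀ S.X₂ X} {φ₁ : Pairing A₁ S.X₁ X} (hφ : Compat f S.f φ₀ φ₁)
  {A₀' A₁' X' : Rep.{u} k G} {f' : A₀' ⟶ A₁'} {S' : ShortComplex (Rep.{u} k G)}
  (hS' : S'.ShortExact)
  {φ₀' : Pairing A₀' S'.X₂ X'} {φ₁' : Pairing A₁' S'.X₁ X'} (hφ' : Compat f' S'.f φ₀' φ₁')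
  (α₀ : Rep.res ψ A₀ ⟶ A₀') (α₁ : Rep.res ψ A₁ ⟶ A₁')
  (hα : ∀ a, α₁.hom (f.hom a) = f'.hom (α₀.hom a))

include hα in
lemma cmap_comm : cmap f ≫ cochainsMap ψ α₁ = cochainsMap ψ α₀ ≫ cmap f' := by
  ext n a : 3
  funext g
  exact hα _

/-- The map on relative cohomology induced by a group homomorphism `ψ : G →* H` and compatible
maps of coefficients `α₀`, `α₁`. -/
def relMap (n : ℕ) : Hrel f n ⟶ Hrel f' n :=
  Fiber.Tmap (cochainsMap ψ α₀) (cochainsMap ψ α₁) (cmap_comm ψ α₀ α₁ hα) n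

lemma relMap_relMk (r : ℕ) (a : (Fin (r + 1) → H) → A₀.V) (b : (Fin r → H) → A₁.V)
    (ha : dF A₀ (r + 1) a = 0) (hab : comp f a = dF A₁ r b) :
    (relMap ψ α₀ α₁ hα (r + 1)).hom (relMk f r a b ha hab) =
      relMk f' r (((cochainsMap ψ α₀).f (r + 1)).hom a) (((cochainsMap ψ α₁).f r).hom b)
        (by rw [dF_cochainsMap, ha, map_zero])
        (by
          rw [dF_cochainsMap, ← hab]
          funext g
          exact (hα _).symm) := by
  unfold relMap relMk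
  rw [Fiber.Tmap_Tmk]

lemma Tπ_relMap (n : ℕ) (x : Hrel f n) :
    (Fiber.Tπ (cmap f') n).hom ((relMap ψ α₀ α₁ hα n).hom x) =
      groupCohomology.map ψ α₀ n ((Fiber.Tπ (cmap f) n).hom x) :=
  Fiber.Tπ_Tmap_apply _ _ _ n x

lemma relMap_Tι (n : ℕ) (y : groupCohomology A₁ n) :
    (relMap ψ α₀ α₁ hα (n + 1)).hom ((Fiber.Tι (cmap f) n).hom y) =
      (Fiber.Tι (cmap f') n).hom (groupCohomology.map ψ α₁ n y) :=
  Fiber.Tmap_Tι_apply _ _ _ n y

variable (σ₁ : Rep.res ψ S.X₁ ⟶ S'.X₁) (σ₂ : Rep.res ψ S.X₂ ⟶ S'.X₂)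
  (σ₃ : Rep.res ψ S.X₃ ⟶ S'.X₃)
  (hσf : ∀ w, σ₂.hom (S.f.hom w) = S'.f.hom (σ₁.hom w))
  (hσg : ∀ v, σ₃.hom (S.g.hom v) = S'.g.hom (σ₂.hom v))
  (γ : Rep.res ψ X ⟶ X')
  (h₀ : ∀ a v, φ₀'.toLin (α₀.hom a) (σ₂.hom v) = γ.hom (φ₀.toLin a v))
  (h₁ : ∀ a w, φ₁'.toLin (α₁.hom a) (σ₁.hom w) = γ.hom (φ₁.toLin a w))

include h₀ h₁ in
/-- cochain-level naturality of the relative cup product -/
lemma relCupFun_cochainsMap {r s n : ℕ} (h : (r + 1) + s = n)
    (a : (Fin (r + 1) → H) → A₀.V) (b : (Fin r → H) → A₁.V)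
    (y : (Fin s → H) → S.X₂.V) (w : (Fin (s + 1) → H) → S.X₁.V) :
    relCupFun φ₀' φ₁' h (((cochainsMap ψ α₀).f (r + 1)).hom a) (((cochainsMap ψ α₁).f r).hom b)
        (((cochainsMap ψ σ₂).f s).hom y) (((cochainsMap ψ σ₁).f (s + 1)).hom w) =
      ((cochainsMap ψ γ).f n).hom (relCupFun φ₀ φ₁ h a b y w) := by
  rw [relCupFun_def, relCupFun_def, map_add, map_smul,
    cupFun_cochainsMap ψ φ₀ φ₀' α₀ σ₂ γ h₀, cupFun_cochainsMap ψ φ₁ φ₁' α₁ σ₁ γ h₁]

include hσf hσg h₀ h₁ in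
/-- **Naturality of the relative cup pairing** with respect to a group homomorphism
`ψ : G →* H` (restriction, inflation, ...) and compatible maps of all coefficient modules. -/
theorem relCup_map {r s n : ℕ} (h : (r + 1) + s = n) (x : Hrel f (r + 1))
    (z : groupCohomology S.X₃ s) :
    relCup hS' hφ' h ((relMap ψ α₀ α₁ hα (r + 1)).hom x) (groupCohomology.map ψ σ₃ s z) =
      groupCohomology.map ψ γ n (relCup hS hφ h x z) := by
  obtain ⟨a, b, ha, hab, rfl⟩ := relMk_surjective f r x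
  induction z using cls_induction_on with
  | h z =>
  obtain ⟨y, w, hy, hw⟩ := exists_lifts hS s z
  have hw' : dF S.X₂ s y = comp S.f w := funext fun g => (hw g).symm
  have hy' : comp S'.g (((cochainsMap ψ σ₂).f s).hom y) = (mapZ ψ σ₃ s z).1 := by
    funext g
    change S'.g.hom (σ₂.hom (y (ψ ∘ g))) = σ₃.hom (z.1 (ψ ∘ g))
    rw [← hσg]
    exact congrArg _ (hy _)
  have hw'' : dF S'.X₂ s (((cochainsMap ψ σ₂).f s).hom y) =
      comp S'.f (((cochainsMap ψ σ₁).f (s + 1)).hom w) := by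
    rw [dF_cochainsMap, hw']
    funext g
    exact hσf _
  rw [relMap_relMk, map_cls, relCup_relMk_cls hS' hφ' h _ _ _ _ _ _ _ hy' hw'',
    relCup_relMk_cls hS hφ h a b ha hab z y w (funext hy) hw', map_cls]
  congr 1
  apply Subtype.ext
  exact relCupFun_cochainsMap ψ α₀ α₁ σ₁ σ₂ γ h₀ h₁ h a b y w

/-- Naturality of the relative cup pairing in the coefficients (same group, same sequence `S`). -/
theorem relCup_map_id {A₀ A₁ X A₀' A₁' X' : Rep.{u} k G} {f : A₀ ⟶ A₁} {f' : A₀' ⟶ A₁'}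
    {S : ShortComplex (Rep.{u} k G)} (hS : S.ShortExact)
    {φ₀ : Pairing A₀ S.X₂ X} {φ₁ : Pairing A₁ S.X₁ X} (hφ : Compat f S.f φ₀ φ₁)
    {φ₀' : Pairing A₀' S.X₂ X'} {φ₁' : Pairing A₁' S.X₁ X'} (hφ' : Compat f' S.f φ₀' φ₁')
    (α₀ : A₀ ⟶ A₀') (α₁ : A₁ ⟶ A₁') (hα : ∀ a, α₁.hom (f.hom a) = f'.hom (α₀.hom a))
    (γ : X ⟶ X')
    (h₀ : ∀ a v, φ₀'.toLin (α₀.hom a) v = γ.hom (φ₀.toLin a v))
    (h₁ : ∀ a w, φ₁'.toLin (α₁.hom a) w = γ.hom (φ₁.toLin a w))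
    {r s n : ℕ} (h : (r + 1) + s = n) (x : Hrel f (r + 1)) (z : groupCohomology S.X₃ s) :
    relCup hS hφ' h ((relMap (MonoidHom.id G) α₀ α₁ hα (r + 1)).hom x) z =
      groupCohomology.map (MonoidHom.id G) γ n (relCup hS hφ h x z) := by
  have key := relCup_map (MonoidHom.id G) hS hφ hS hφ' α₀ α₁ hα (𝟙 S.X₁) (𝟙 S.X₂) (𝟙 S.X₃)
    (fun _ => rfl) (fun _ => rfl) γ h₀ h₁ h x z
  rw [groupCohomology.map_id] at key
  exact key

end naturality

end Fermat.Agent.CFT.A7.RelCup
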