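import Mathlib
import Fermat.Agent.CFT.A3.LowDegree
import Fermat.Agent.CFT.A7.TN20

/-!
# PROJECT C, slice A7.2b: (TN-20) in cup-product form

The pairing of (TN-20), `H²(G, Hom(P, C)) × H⁰(G, P) → H²(G, C)`, `(x, r) ↦ (ev_r)_* x`, is the
cup product for the evaluation pairing `Pairing.eval P C` in degree `(2, 0)`.  We restate
(TN-20) in this language, which is the base case of the dimension shifting of `A7/ShiftDual`:

* `cup_eval_H0` : `x ∪ r = (ev_r)_* x`;
* `cup_eval_tnClass` : `tnClass l ∪ r = l r • [φ]`;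
* `tn20_left_kernel` : the left kernel of the pairing is trivial;
* `tn20_right_kernel` : the right kernel consists of the norms `N_G P`;
* `tn20_realise` : every `r ↦ l r • [φ]` with `l` an invariant functional is `x ∪ -`.
-/

set_option autoImplicit false

universe u

noncomputable section

open CategoryTheory CategoryTheory.Limits groupCohomology

namespace Fermat.Agent.CFT.A7.TN20Cup

open Fermat.Agent.CFT.Cup Fermat.Agent.CFT.A3 Fermat.Agent.CFT.A5.Split
  Fermat.Agent.CFT.A7.HomSplit Fermat.Agent.CFT.A7.TN20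

variable {k G : Type u} [CommRing k] [Group G] (P C : Rep.{u} k G) (φ : cocycles₂ C)

omit C in
/-- The defining property of an invariant element. -/
theorem invProp (r : P.ρ.invariants) : ∀ g : G, P.ρ g r.1 = r.1 := fun g => r.2 g

/-- Evaluation at an invariant element is `applyRight` of the evaluation pairing. -/
theorem applyRight_eval (r : P.ρ.invariants) :
    applyRight (Pairing.eval P C) r = evHom P C r.1 (invProp P r) := rfl

/-- `x ∪ r = (ev_r)_* x` for the evaluation pairing, in every degree. -/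
theorem cup_eval_H0 {n : ℕ} (h : n + 0 = n) (x : groupCohomology ((Rep.ihom P).obj C) n)
    (r : P.ρ.invariants) :
    cup (Pairing.eval P C) h x ((H0Iso P).inv r)
      = (groupCohomology.map (MonoidHom.id G) (evHom P C r.1 (invProp P r)) n).hom x := by
  rw [cup_H0_right, applyRight_eval]

/-- `tnClass l ∪ r = l r • [φ]`. -/
theorem cup_eval_tnClass (l : P.V →ₗ[k] k) (hl : ∀ (g : G) (x : P.V), l (P.ρ g x) = l x)
    (r : P.ρ.invariants) :
    cup (Pairing.eval P C) (show 2 + 0 = 2 from rfl) (tnClass P C φ l hl) ((H0Iso P).inv r)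
      = l r.1 • H2π C φ := by
  rw [cup_eval_H0, map_evHom_tnClass]

/-- Every class of `H⁰(G, P)` is `(H0Iso P).inv r`. -/
theorem exists_H0Iso_inv_eq (y : groupCohomology P 0) :
    ∃ r : P.ρ.invariants, y = (H0Iso P).inv r := by
  refine ⟨(H0Iso P).hom y, ?_⟩
  have h : (H0Iso P).inv.hom ((H0Iso P).hom.hom y) = y := by
    rw [← LinearMap.comp_apply, ← ModuleCat.hom_comp, Iso.hom_inv_id]
    rfl
  exact h.symm

variable [Fintype G]

/-- **(TN-20), left kernel**: `x ∈ H²(G, Hom(P, C))` with `x ∪ y = 0` for all `y ∈ H⁰(G, P)` is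
zero. -/
theorem tn20_left_kernel
    (hR1 : IsZero (groupCohomology ((Rep.ihom P).obj (Rep.leftRegular k G)) 1))
    (hE2 : IsZero (groupCohomology ((Rep.ihom P).obj (split C φ)) 2))
    (hord : ∀ c : k, c • H2π C φ = 0 → ((Fintype.card G : ℕ) : k) ∣ c)
    (LD1 : ∀ l : P.V →ₗ[k] k, (∀ (g : G) (x : P.V), l (P.ρ g x) = l x) →
      (∀ y : P.V, (∀ g : G, P.ρ g y = y) → ((Fintype.card G : ℕ) : k) ∣ l y) →
      ∃ μ : P.V →ₗ[k] k, ∀ x : P.V, l x = ∑ g : G, μ (P.ρ g x))
    (x : groupCohomology ((Rep.ihom P).obj C) 2)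
    (hx : ∀ y : groupCohomology P 0,
      cup (Pairing.eval P C) (show 2 + 0 = 2 from rfl) x y = 0) : x = 0 := by
  refine tn20_injective P C φ hR1 hE2 hord LD1 x fun r hr => ?_
  have := hx ((H0Iso P).inv ⟨r, hr⟩)
  rwa [cup_eval_H0] at this

omit [Fintype G] in
/-- **(TN-20), right kernel**: an invariant `r ∈ P^G` with `x ∪ r = 0` for all
`x ∈ H²(G, Hom(P, C))` is a norm.  `LDR`: the lattice duality statement "an invariant element all
of whose values under invariant functionals are divisible by `n` is a norm". -/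
theorem tn20_right_kernel {n : k}
    (hord : ∀ c : k, c • H2π C φ = 0 → n ∣ c)
    {Q : P.V → Prop}
    (LDR : ∀ r : P.V, (∀ g : G, P.ρ g r = r) →
      (∀ l : P.V →ₗ[k] k, (∀ (g : G) (x : P.V), l (P.ρ g x) = l x) → n ∣ l r) → Q r)
    (r : P.ρ.invariants)
    (hr : ∀ x : groupCohomology ((Rep.ihom P).obj C) 2,
      cup (Pairing.eval P C) (show 2 + 0 = 2 from rfl) x ((H0Iso P).inv r) = 0) : Q r.1 := by
  refine LDR r.1 r.2 fun l hl => hord _ ?_
  rw [← cup_eval_tnClass P C φ l hl r]
  exact hr _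

omit [Fintype G] in
/-- **(TN-20), realisability**: for every invariant functional `l` the map `r ↦ l r • [φ]` on
`H⁰(G, P)` is `x ∪ -` for some `x ∈ H²(G, Hom(P, C))`. -/
theorem tn20_realise (l : P.V →ₗ[k] k) (hl : ∀ (g : G) (x : P.V), l (P.ρ g x) = l x) :
    ∃ x : groupCohomology ((Rep.ihom P).obj C) 2, ∀ r : P.ρ.invariants,
      cup (Pairing.eval P C) (show 2 + 0 = 2 from rfl) x ((H0Iso P).inv r) = l r.1 • H2π C φ :=
  ⟨tnClass P C φ l hl, fun r => cup_eval_tnClass P C φ l hl r⟩

end Fermat.Agent.CFT.A7.TN20Cup
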