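import Mathlib
import Fermat.Agent.CFT.A5c.HomTrivial
import Fermat.Agent.CFT.A5.Regular
import Fermat.Agent.CFT.A5.ClassK
import Fermat.Agent.CFT.A5.ClassTop
import Fermat.Agent.CFT.A7.TN20Cup

/-!
# PROJECT C, slice A7.2b: (TN-20) for class modules

The two vanishing hypotheses of (TN-20) are discharged for a class module `(C, φ)`
(`A5.Tate.IsClassModule`) and a lattice `P` (`P.V` projective over `k`), over a coefficient ring
`k` with `AddHomsLinear k` in which primes are non-zero-divisors (`k = ℤ`, `ℤ_(p)`):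

* `isZero_H1_ihom_leftRegular` : `H¹(G, Hom(P, k[G])) = 0` (any `P`);
* `isZero_H2_ihom_split` : `H²(G, Hom(P, C(φ))) = 0` (COH-HOM);
* `tn20_left_kernel_of_isClassModule`, `exists_eq_tnClass_of_isClassModule`.
-/

set_option autoImplicit false

universe u

noncomputable section

open CategoryTheory CategoryTheory.Limits groupCohomology

namespace Fermat.Agent.CFT.A7.TN20Class

open Fermat.Agent.CFT.A2 Fermat.Agent.CFT.A5 Fermat.Agent.CFT.A5.Tate Fermat.Agent.CFT.A5.Split
  Fermat.Agent.CFT.A5.Regular Fermat.Agent.CFT.A5.ClassK Fermat.Agent.CFT.A5c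
  Fermat.Agent.CFT.Cup Fermat.Agent.CFT.A3
  Fermat.Agent.CFT.A7.HomSplit Fermat.Agent.CFT.A7.TN20 Fermat.Agent.CFT.A7.TN20Cup

variable {k G : Type u} [CommRing k] [Group G] [Fintype G] (P : Rep.{u} k G)

/-- `Hom(P, k[G])` is cohomologically trivial, for any `P`. -/
theorem isCohTrivial_ihom_leftRegular :
    IsCohTrivial ((Rep.ihom P).obj (Rep.leftRegular k G)) :=
  (isCohTrivial_ihom_coind₁ P k).of_iso ((Rep.ihom P).mapIso (regIso k G)).symm

/-- `H¹(G, Hom(P, k[G])) = 0`. -/
theorem isZero_H1_ihom_leftRegular :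
    IsZero (groupCohomology ((Rep.ihom P).obj (Rep.leftRegular k G)) 1) :=
  isZero_groupCohomology_of_isCohTrivial_top (isCohTrivial_ihom_leftRegular P) 1

variable {C : Rep.{u} k G} {φ : cocycles₂ C}

/-- `Hom(P, C(φ))` is cohomologically trivial for a class module and a lattice `P`. -/
theorem isCohTrivial_ihom_split (hR : AddHomsLinear k)
    (hpR : ∀ p : ℕ, p.Prime → ∀ r : k, (p : k) * r = 0 → r = 0) (hC : IsClassModule C φ)
    [Module.Projective k P.V] : IsCohTrivial ((Rep.ihom P).obj (split C φ)) :=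
  isCohTrivial_ihom hR hpR P (split C φ) (isCohTrivial_split_of_isClassModule hR hpR hC)

/-- `H²(G, Hom(P, C(φ))) = 0` for a class module and a lattice `P`. -/
theorem isZero_H2_ihom_split (hR : AddHomsLinear k)
    (hpR : ∀ p : ℕ, p.Prime → ∀ r : k, (p : k) * r = 0 → r = 0) (hC : IsClassModule C φ)
    [Module.Projective k P.V] :
    IsZero (groupCohomology ((Rep.ihom P).obj (split C φ)) 2) :=
  isZero_groupCohomology_of_isCohTrivial_top (isCohTrivial_ihom_split P hR hpR hC) 2

/-- For a class module and a lattice `P`, every class of `H²(G, Hom(P, C))` is a `tnClass`. -/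
theorem exists_eq_tnClass_of_isClassModule (hR : AddHomsLinear k)
    (hpR : ∀ p : ℕ, p.Prime → ∀ r : k, (p : k) * r = 0 → r = 0) (hC : IsClassModule C φ)
    [Module.Projective k P.V] (x : groupCohomology ((Rep.ihom P).obj C) 2) :
    ∃ (l : P.V →ₗ[k] k) (hl : ∀ (g : G) (x : P.V), l (P.ρ g x) = l x),
      x = tnClass P C φ l hl :=
  exists_eq_tnClass P C φ (isZero_H1_ihom_leftRegular P) (isZero_H2_ihom_split P hR hpR hC) x

/-- **(TN-20), left kernel, for class modules**: given the lattice duality statement (LD1) for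
`P`. -/
theorem tn20_left_kernel_of_isClassModule (hR : AddHomsLinear k)
    (hpR : ∀ p : ℕ, p.Prime → ∀ r : k, (p : k) * r = 0 → r = 0) (hC : IsClassModule C φ)
    [Module.Projective k P.V]
    (LD1 : ∀ l : P.V →ₗ[k] k, (∀ (g : G) (x : P.V), l (P.ρ g x) = l x) →
      (∀ y : P.V, (∀ g : G, P.ρ g y = y) → ((Fintype.card G : ℕ) : k) ∣ l y) →
      ∃ μ : P.V →ₗ[k] k, ∀ x : P.V, l x = ∑ g : G, μ (P.ρ g x))
    (x : groupCohomology ((Rep.ihom P).obj C) 2)
    (hx : ∀ y : groupCohomology P 0,
      cup (Pairing.eval P C) (show 2 + 0 = 2 from rfl) x y = 0) : x = 0 :=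
  tn20_left_kernel P C φ (isZero_H1_ihom_leftRegular P) (isZero_H2_ihom_split P hR hpR hC)
    hC.hord_top LD1 x hx

/-- **(TN-20), right kernel, for class modules**: an invariant `r ∈ P^G` with `x ∪ r = 0` for all
`x ∈ H²(G, Hom(P, C))` satisfies `Q r`, where (LD-R) `LDR` says that invariant elements all of
whose values under invariant functionals are divisible by `|G|` satisfy `Q` (e.g. `Q r` = "`r` is
a norm"). -/
theorem tn20_right_kernel_of_isClassModule (hC : IsClassModule C φ) {Q : P.V → Prop}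
    (LDR : ∀ r : P.V, (∀ g : G, P.ρ g r = r) →
      (∀ l : P.V →ₗ[k] k, (∀ (g : G) (x : P.V), l (P.ρ g x) = l x) →
        ((Fintype.card G : ℕ) : k) ∣ l r) → Q r)
    (r : P.ρ.invariants)
    (hr : ∀ x : groupCohomology ((Rep.ihom P).obj C) 2,
      cup (Pairing.eval P C) (show 2 + 0 = 2 from rfl) x ((H0Iso P).inv r) = 0) : Q r.1 :=
  tn20_right_kernel P C φ hC.hord_top LDR r hr

omit [Fintype G] in
/-- **(TN-20), realisability, for class modules**: every additive `f : P^G → H²(G, C)` of the form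
`r ↦ l r • [φ]` is `x ∪ -`; by `hC.hgen_top` and (LD-ext) these are all the additive maps killing
the norms. -/
theorem tn20_realise_of_isClassModule (l : P.V →ₗ[k] k)
    (hl : ∀ (g : G) (x : P.V), l (P.ρ g x) = l x) :
    ∃ x : groupCohomology ((Rep.ihom P).obj C) 2, ∀ r : P.ρ.invariants,
      cup (Pairing.eval P C) (show 2 + 0 = 2 from rfl) x ((H0Iso P).inv r) = l r.1 • H2π C φ :=
  tn20_realise P C φ l hl

end Fermat.Agent.CFT.A7.TN20Class
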