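/-
PROJECT C, slice A7 (helper13): the `p`-TORSION of `H²_LC(G, C)` for a class formation.

For `cf : ClassFormation 𝒰 C` over a domain `k` of characteristic zero and a prime `p` such that
some level `U₀` has index divisible by `p`:

* `pClass cf p U hU` : the class `infl_U ((|G ⧸ U| / p) • [φ U]) ∈ H²_LC(G, C)`;
* `pClass_eq`        : it does not depend on the level `U` (with `p ∣ |G ⧸ U|`);
* `exists_smul_pClass`: every class `y` with `p • y = 0` is a `k`-multiple of it;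
* `smul_pClass_eq_zero_iff` : `s • pClass = 0 ↔ p ∣ s`;
* `card_torsionP`    : if `k ⧸ (p)` has `p` elements, the `p`-torsion of `H²_LC(G, C)` has exactly
  `p` elements (hypothesis of the counting step `D/Count.card_addMonoidHom_eq`);
* `exists_zsmul_of_torsionP` : any nonzero `p`-torsion class generates the `p`-torsion.

Independently of class formations (`exists_card_smul_eq_zero`, `exists_pow_smul_eq_zero`): every
class of `Hⁿ⁺¹_LC(G, A)` is killed by the index of a level, hence by a power of `p` when the integers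
prime to `p` are units of `k`.
-/
import Fermat.Agent.CFT.A7.Limit
import Fermat.Agent.CFT.D.Count

set_option autoImplicit false

noncomputable section

namespace Fermat.Agent.CFT.A7

open CategoryTheory groupCohomology Fermat.Agent.CFT.LC Fermat.Agent.CFT.A5.Tate
open Fermat.Agent.CFT.D (torsionP mem_torsionP)

variable {k G : Type} [CommRing k] [Group G]

/-! ### Classes of `LC` cohomology are torsion -/

section Torsion

variable (𝒰 : Levels G) [𝒰.IsFin] (A : Rep.{0} k G)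

/-- Every class of `Hⁿ⁺¹_LC(G, A)` is killed by the index of some level. -/
theorem exists_card_smul_eq_zero (n : ℕ) (x : H 𝒰 A (n + 1)) :
    ∃ (U : Subgroup G) (_ : U.Normal) (_ : U ∈ 𝒰.sets), ((Nat.card (G ⧸ U) : ℕ) : k) • x = 0 := by
  obtain ⟨U, hUn, hU, y, rfl⟩ := exists_infl_eq 𝒰 A x
  refine ⟨U, hUn, hU, ?_⟩
  have : Finite (G ⧸ U) := by
    have := Levels.IsFin.finiteIndex U hU
    exact Subgroup.finite_quotient_of_finiteIndex
  rw [← map_smul, Fermat.Agent.CFT.A1.card_smul_eq_zero (A.quotientToInvariants U) n y, map_zero]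

/-- If every natural number prime to `p` is a unit of `k`, every class of `Hⁿ⁺¹_LC(G, A)` is killed
by a power of `p`. -/
theorem exists_pow_smul_eq_zero (p : ℕ) [Fact p.Prime]
    (hunit : ∀ m : ℕ, m.Coprime p → IsUnit (m : k)) (n : ℕ) (x : H 𝒰 A (n + 1)) :
    ∃ a : ℕ, ((p : k) ^ a) • x = 0 := by
  obtain ⟨U, hUn, hU, hx⟩ := exists_card_smul_eq_zero 𝒰 A n x
  have hp : p.Prime := Fact.out
  have hpos : Nat.card (G ⧸ U) ≠ 0 := by
    have := Levels.IsFin.finiteIndex U hU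
    have h : U.index ≠ 0 := Subgroup.FiniteIndex.index_ne_zero
    rwa [Subgroup.index] at h
  obtain ⟨a, m, hm, hcard⟩ := Nat.exists_eq_pow_mul_and_not_dvd hpos p hp.ne_one
  refine ⟨a, ?_⟩
  have hcop : m.Coprime p := ((Nat.Prime.coprime_iff_not_dvd hp).2 hm).symm
  obtain ⟨u, hu⟩ := hunit m hcop
  rw [hcard] at hx
  push_cast at hx
  rw [mul_comm, mul_smul] at hx
  have := congrArg (fun z => (↑u⁻¹ : k) • z) hx
  simp only [smul_zero] at this
  rwa [← hu, smul_smul, Units.inv_mul, one_smul] at this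

end Torsion

namespace ClassFormation

variable {𝒰 : Levels G} {C : Rep.{0} k G} (cf : ClassFormation 𝒰 C)

section Layer

variable [IsDomain k] [CharZero k] (p : ℕ) (hp0 : p ≠ 0)
  (U : Subgroup G) [U.Normal] (hU : U ∈ 𝒰.sets) (hpU : p ∣ Nat.card (G ⧸ U))

omit [IsDomain k] [CharZero k] in
include cf in
lemma card_smul_layerClass :
    ((Nat.card (G ⧸ U) : ℕ) : k) • layerClass C U (cf.φ U hU) = 0 := by
  have : Finite (G ⧸ U) := by
    have := cf.finiteIndex U hU
    exact Subgroup.finite_quotient_of_finiteIndex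
  exact Fermat.Agent.CFT.A1.card_smul_eq_zero (C.quotientToInvariants U) 1 _

include cf hp0 hpU in
/-- The `p`-torsion of a layer `H²(G ⧸ U, C^U)` consists of the multiples of
`(|G ⧸ U| / p) • [φ U]`. -/
lemma exists_smul_of_layer_torsion (y : groupCohomology (C.quotientToInvariants U) 2)
    (hy : (p : k) • y = 0) :
    ∃ s : k, y = (s * ((Nat.card (G ⧸ U) / p : ℕ) : k)) • layerClass C U (cf.φ U hU) := by
  obtain ⟨r, rfl⟩ := cf.hgen U hU y
  rw [smul_smul] at hy
  obtain ⟨t, ht⟩ := cf.hord U hU _ hy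
  obtain ⟨n', hn'⟩ := hpU
  have hpk : (p : k) ≠ 0 := by exact_mod_cast hp0
  have hdiv : Nat.card (G ⧸ U) / p = n' := by
    rw [hn', Nat.mul_div_cancel_left _ (Nat.pos_of_ne_zero hp0)]
  rw [hdiv]
  rw [hn'] at ht
  push_cast at ht
  rw [mul_assoc] at ht
  have hr : r = (n' : k) * t := mul_left_cancel₀ hpk ht
  exact ⟨t, by rw [hr, mul_comm]⟩

include cf hp0 hpU in
lemma layer_smul_eq_zero_iff (s : k) :
    (s * ((Nat.card (G ⧸ U) / p : ℕ) : k)) • layerClass C U (cf.φ U hU) = 0 ↔ (p : k) ∣ s := by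
  obtain ⟨n', hn'⟩ := hpU
  have hpk : (p : k) ≠ 0 := by exact_mod_cast hp0
  have hdiv : Nat.card (G ⧸ U) / p = n' := by
    rw [hn', Nat.mul_div_cancel_left _ (Nat.pos_of_ne_zero hp0)]
  have hn'0 : (n' : k) ≠ 0 := by
    have h1 := cf.card_quot_pos U hU
    rw [hn'] at h1
    have : 0 < n' := Nat.pos_of_mul_pos_left h1
    exact_mod_cast this.ne'
  rw [hdiv]
  constructor
  · intro h
    obtain ⟨t, ht⟩ := cf.hord U hU _ h
    rw [hn'] at ht
    push_cast at ht
    have : s = (p : k) * t := by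
      apply mul_right_cancel₀ hn'0
      rw [ht]; ring
    exact ⟨t, this⟩
  · rintro ⟨t, rfl⟩
    have h := cf.card_smul_layerClass U hU
    rw [hn'] at h
    push_cast at h
    rw [show (p : k) * t * (n' : k) = t * ((p : k) * (n' : k)) by ring, mul_smul, h, smul_zero]

end Layer

section Limit

variable [IsDomain k] [CharZero k] (p : ℕ)

/-- The canonical class of order `p` in `H²_LC(G, C)`, read off at the level `U`. -/
def pClass (U : Subgroup G) [U.Normal] (hU : U ∈ 𝒰.sets) : H 𝒰 C 2 :=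
  (infl 𝒰 C U hU 2).hom
    (((Nat.card (G ⧸ U) / p : ℕ) : k) • layerClass C U (cf.φ U hU))

omit [IsDomain k] [CharZero k] in
include cf in
/-- `pClass` does not change when the level shrinks. -/
lemma pClass_eq_of_le (hp0 : p ≠ 0) (U W : Subgroup G) [U.Normal] [W.Normal] (hU : U ∈ 𝒰.sets)
    (hW : W ∈ 𝒰.sets) (h : W ≤ U) (hpU : p ∣ Nat.card (G ⧸ U)) :
    cf.pClass p W hW = cf.pClass p U hU := by
  obtain ⟨n', hn'⟩ := hpU
  have h1 : Nat.card (G ⧸ U) / p = n' := by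
    rw [hn', Nat.mul_div_cancel_left _ (Nat.pos_of_ne_zero hp0)]
  have h2 : Nat.card (G ⧸ W) / p = W.relIndex U * n' := by
    rw [card_quot_mul U W h, hn', ← mul_assoc, mul_comm (W.relIndex U) p, mul_assoc,
      Nat.mul_div_cancel_left _ (Nat.pos_of_ne_zero hp0)]
  have h3 : (inflFin C U W h 2).hom
      (((Nat.card (G ⧸ U) / p : ℕ) : k) • layerClass C U (cf.φ U hU)) =
      ((Nat.card (G ⧸ W) / p : ℕ) : k) • layerClass C W (cf.φ W hW) := by
    rw [map_smul, cf.infl_φ U W hU hW h, smul_smul, h1, h2]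
    push_cast
    rw [mul_comm]
  unfold pClass
  rw [← h3]
  exact inflFin_infl_apply C 𝒰 U W h hU hW 2 _

lemma dvd_card_quot_of_le (U W : Subgroup G) [U.Normal] [W.Normal] (h : W ≤ U)
    (hpU : p ∣ Nat.card (G ⧸ U)) : p ∣ Nat.card (G ⧸ W) := by
  rw [card_quot_mul U W h]
  exact Dvd.dvd.mul_left hpU _

omit [IsDomain k] [CharZero k] in
include cf in
/-- `pClass` does not depend on the level. -/
lemma pClass_eq (hp0 : p ≠ 0) (U U' : Subgroup G) [U.Normal] [U'.Normal] (hU : U ∈ 𝒰.sets)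
    (hU' : U' ∈ 𝒰.sets) (hpU : p ∣ Nat.card (G ⧸ U)) (hpU' : p ∣ Nat.card (G ⧸ U')) :
    cf.pClass p U hU = cf.pClass p U' hU' := by
  obtain ⟨W, hW, hWle⟩ := 𝒰.directed U hU U' hU'
  have hWn := 𝒰.normal W hW
  rw [← cf.pClass_eq_of_le p hp0 U W hU hW (hWle.trans inf_le_left) hpU,
    ← cf.pClass_eq_of_le p hp0 U' W hU' hW (hWle.trans inf_le_right) hpU']

variable (U₀ : Subgroup G) [U₀.Normal] (hU₀ : U₀ ∈ 𝒰.sets) (hpU₀ : p ∣ Nat.card (G ⧸ U₀))

include cf hpU₀ in
/-- Every `p`-torsion class of `H²_LC(G, C)` is a multiple of `pClass`. -/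
theorem exists_smul_pClass (hp0 : p ≠ 0) (y : H 𝒰 C 2) (hy : (p : k) • y = 0) :
    ∃ s : k, y = s • cf.pClass p U₀ hU₀ := by
  obtain ⟨U₁, hU₁n, hU₁, y₁, rfl⟩ := exists_infl_eq 𝒰 C y
  obtain ⟨W, hW, hWle⟩ := 𝒰.directed U₁ hU₁ U₀ hU₀
  have hWn := 𝒰.normal W hW
  have hW1 : W ≤ U₁ := hWle.trans inf_le_left
  have hW0 : W ≤ U₀ := hWle.trans inf_le_right
  have hpW : p ∣ Nat.card (G ⧸ W) := dvd_card_quot_of_le p U₀ W hW0 hpU₀
  rw [← inflFin_infl_apply C 𝒰 U₁ W hW1 hU₁ hW 2 y₁] at hy ⊢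
  set yW := (inflFin C U₁ W hW1 2).hom y₁
  have hyW : (p : k) • yW = 0 := by
    apply cf.infl_two_injective W hW
    rw [map_smul, map_zero]
    exact hy
  obtain ⟨s, hs⟩ := cf.exists_smul_of_layer_torsion p hp0 W hW hpW yW hyW
  refine ⟨s, ?_⟩
  rw [← cf.pClass_eq_of_le p hp0 U₀ W hU₀ hW hW0 hpU₀, hs, mul_smul, map_smul]
  rfl

include cf hpU₀ in
theorem smul_pClass_eq_zero_iff (hp0 : p ≠ 0) (s : k) :
    s • cf.pClass p U₀ hU₀ = 0 ↔ (p : k) ∣ s := by
  rw [← cf.layer_smul_eq_zero_iff p hp0 U₀ hU₀ hpU₀ s]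
  unfold pClass
  rw [← map_smul, smul_smul]
  constructor
  · intro h
    exact (injective_iff_map_eq_zero _).1 (cf.infl_two_injective U₀ hU₀) _ h
  · intro h
    rw [h, map_zero]

include cf hpU₀ in
lemma smul_pClass_mem_torsion (hp0 : p ≠ 0) (s : k) :
    (p : k) • (s • cf.pClass p U₀ hU₀) = 0 := by
  rw [smul_smul]
  exact (cf.smul_pClass_eq_zero_iff p U₀ hU₀ hpU₀ hp0 _).2 ⟨s, rfl⟩

include cf hU₀ hpU₀ in
/-- **The `p`-torsion of `H²_LC(G, C)` has exactly `p` elements** (when `k ⧸ (p)` has `p`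
elements, e.g. `k = ℤ` or `k = ℤ_(p)`). -/
theorem card_torsionP (hp0 : p ≠ 0) (hk : Nat.card (k ⧸ Ideal.span {(p : k)}) = p) :
    Nat.card (torsionP p (H 𝒰 C 2)) = p := by
  let f : k →ₗ[k] H 𝒰 C 2 := LinearMap.toSpanSingleton k _ (cf.pClass p U₀ hU₀)
  have hker : LinearMap.ker f = Ideal.span {(p : k)} := by
    ext s
    rw [LinearMap.mem_ker, LinearMap.toSpanSingleton_apply,
      cf.smul_pClass_eq_zero_iff p U₀ hU₀ hpU₀ hp0, Ideal.mem_span_singleton]
  have hrange : ∀ y : H 𝒰 C 2, y ∈ LinearMap.range f ↔ y ∈ torsionP p (H 𝒰 C 2) := by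
    intro y
    rw [mem_torsionP, ← Nat.cast_smul_eq_nsmul k]
    constructor
    · rintro ⟨s, rfl⟩
      exact cf.smul_pClass_mem_torsion p U₀ hU₀ hpU₀ hp0 s
    · intro hy
      obtain ⟨s, rfl⟩ := cf.exists_smul_pClass p U₀ hU₀ hpU₀ hp0 y hy
      exact ⟨s, rfl⟩
  have e1 : (k ⧸ LinearMap.ker f) ≃ LinearMap.range f := (LinearMap.quotKerEquivRange f).toEquiv
  have e2 : LinearMap.range f ≃ torsionP p (H 𝒰 C 2) := Equiv.subtypeEquivRight hrange
  rw [← Nat.card_congr (e1.trans e2), hker, hk]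

include cf hU₀ hpU₀ in
/-- Any nonzero `p`-torsion class generates the `p`-torsion of `H²_LC(G, C)`. -/
theorem exists_zsmul_of_torsionP [Fact p.Prime]
    (hk : Nat.card (k ⧸ Ideal.span {(p : k)}) = p) (y y' : H 𝒰 C 2) (hy : p • y = 0)
    (hy' : p • y' = 0) (hne : y ≠ 0) : ∃ m : ℤ, y' = m • y := by
  have hp : p.Prime := Fact.out
  have hcard := cf.card_torsionP p U₀ hU₀ hpU₀ hp.ne_zero hk
  have : Finite (torsionP p (H 𝒰 C 2)) :=
    Nat.finite_of_card_ne_zero (by rw [hcard]; exact hp.ne_zero)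
  let z : torsionP p (H 𝒰 C 2) := ⟨y, hy⟩
  let z' : torsionP p (H 𝒰 C 2) := ⟨y', hy'⟩
  have hz : z ≠ 0 := fun h => hne (congrArg Subtype.val h)
  have hmem : z' ∈ AddSubgroup.zmultiples z := mem_zmultiples_of_prime_card hcard hz
  obtain ⟨m, hm⟩ := AddSubgroup.mem_zmultiples_iff.1 hmem
  exact ⟨m, (congrArg Subtype.val hm).symm⟩

end Limit

end ClassFormation

end Fermat.Agent.CFT.A7
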